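/-
GATE-C / C4 GLOBAL-COH, leaf (LY-G) (helper14): good sets of primes.

* `primesAbove F T : Finset (HeightOneSpectrum (𝓞 F))` : the primes of a number field `F` above the
  rational primes in `T` (this is the `S` of the Kummer engine `second_inequality_of_model`);
* `GeneratesCl F T` : these primes generate `ClassGroup (𝓞 F)` (the engine's `hScl`, verbatim);
* `GoodT L T p` : `L` unramified outside `T` (prelude predicate), `p ∈ T`, and for every subgroup
  `U ≤ Gal(L/ℚ)` the primes of `L^U` above `T` generate the class group of `L^U`.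
-/
import Mathlib
import Fermat.Agent.GC.Global.ClassModule
import Fermat.Agent.S14.SI.Bridge
import Fermat.Prelude.Def_GroupCohomology_ContinuousUnramified

set_option autoImplicit false
set_option linter.unusedSectionVars false

open NumberField IsDedekindDomain nonZeroDivisors

noncomputable section

namespace Fermat.Agent.GC.Global.Adapter

/-! ### number field instances for layers -/

instance numberField_layer (L : IntermediateField ℚ Qb) [FiniteDimensional ℚ L] : NumberField L :=
  ⟨⟩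

instance numberField_sublayer (L : IntermediateField ℚ Qb) [FiniteDimensional ℚ L]
    (F : IntermediateField ℚ L) : NumberField F := ⟨⟩

/-! ### primes above `T` -/

section primes

variable (F : Type*) [Field F] [NumberField F] (T : Finset Nat.Primes)

/-- the product of the primes in `T`. -/
def tprod : ℕ := ∏ q ∈ T, (q : ℕ)

theorem tprod_ne_zero : tprod T ≠ 0 :=
  Finset.prod_ne_zero_iff.2 fun q _ => q.2.ne_zero

theorem dvd_tprod {q : Nat.Primes} (hq : q ∈ T) : (q : ℕ) ∣ tprod T :=
  Finset.dvd_prod_of_mem _ hq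

theorem finite_primesAbove :
    {v : HeightOneSpectrum (𝓞 F) | ∃ q ∈ T, (((q : ℕ) : ℕ) : 𝓞 F) ∈ v.asIdeal}.Finite := by
  have h0 : Ideal.span {((tprod T : ℕ) : 𝓞 F)} ≠ 0 := by
    rw [Ne, Ideal.zero_eq_bot, Ideal.span_singleton_eq_bot]
    exact_mod_cast tprod_ne_zero T
  refine (Ideal.finite_factors h0).subset ?_
  rintro v ⟨q, hq, hqv⟩
  change v.asIdeal ∣ _
  rw [Ideal.dvd_iff_le, Ideal.span_singleton_le_iff_mem]
  obtain ⟨m, hm⟩ := dvd_tprod T hq
  rw [hm]
  push_cast
  exact v.asIdeal.mul_mem_right _ hqv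

/-- The primes of `F` above the rational primes in `T`. -/
def primesAbove : Finset (HeightOneSpectrum (𝓞 F)) := (finite_primesAbove F T).toFinset

variable {F T}

theorem mem_primesAbove {v : HeightOneSpectrum (𝓞 F)} :
    v ∈ primesAbove F T ↔ ∃ q ∈ T, (((q : ℕ) : ℕ) : 𝓞 F) ∈ v.asIdeal := by
  simp [primesAbove]

theorem primesAbove_mono {T' : Finset Nat.Primes} (h : T ⊆ T') :
    primesAbove F T ⊆ primesAbove F T' := by
  intro v hv
  obtain ⟨q, hq, hqv⟩ := mem_primesAbove.1 hv
  exact mem_primesAbove.2 ⟨q, h hq, hqv⟩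

/-- the engine's `hSp`. -/
theorem mem_primesAbove_of_natCast_mem {p : ℕ} (hp : p.Prime) (hpT : (⟨p, hp⟩ : Nat.Primes) ∈ T)
    (v : HeightOneSpectrum (𝓞 F)) (h : ((p : ℕ) : 𝓞 F) ∈ v.asIdeal) : v ∈ primesAbove F T :=
  mem_primesAbove.2 ⟨⟨p, hp⟩, hpT, h⟩

/-- the engine's `hSN`. -/
theorem below_mem_primesAbove {N : Type*} [Field N] [NumberField N] [Algebra F N]
    {Q : HeightOneSpectrum (𝓞 N)} (hQ : Q ∈ primesAbove N T) :
    Fermat.Agent.S14.SI.Bridge.below F Q ∈ primesAbove F T := by
  obtain ⟨q, hq, hqQ⟩ := mem_primesAbove.1 hQ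
  refine mem_primesAbove.2 ⟨q, hq, ?_⟩
  rw [Fermat.Agent.S14.SI.Bridge.below_asIdeal, Ideal.mem_comap, map_natCast]
  exact hqQ

variable (F T)

/-- The primes above `T` generate the class group (the engine's `hScl`, verbatim). -/
def GeneratesCl : Prop :=
  Subgroup.closure (Set.range fun v : primesAbove F T =>
    ClassGroup.mk0 ⟨v.1.asIdeal, mem_nonZeroDivisors_of_ne_zero v.1.ne_bot⟩) = ⊤

variable {F T}

theorem GeneratesCl.mono {T' : Finset Nat.Primes} (h : T ⊆ T') (hg : GeneratesCl F T) :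
    GeneratesCl F T' := by
  rw [GeneratesCl, eq_top_iff, ← hg]
  apply Subgroup.closure_mono
  rintro _ ⟨v, rfl⟩
  exact ⟨⟨v.1, primesAbove_mono h v.2⟩, rfl⟩

end primes

/-! ### good sets -/

/-- `T` is good for the layer `L` (and the prime `p`). -/
structure GoodT (L : IntermediateField ℚ Qb) [FiniteDimensional ℚ L] (T : Finset Nat.Primes)
    (p : ℕ) : Prop where
  unram : L.IsUnramifiedOutside T
  mem : ∃ hp : p.Prime, (⟨p, hp⟩ : Nat.Primes) ∈ T
  gen : ∀ U : Subgroup (L ≃ₐ[ℚ] L), GeneratesCl (IntermediateField.fixedField U) T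

theorem GoodT.mono {L : IntermediateField ℚ Qb} [FiniteDimensional ℚ L] {T T' : Finset Nat.Primes}
    {p : ℕ} (h : T ⊆ T') (hg : GoodT L T p) : GoodT L T' p :=
  ⟨hg.unram.mono h, ⟨hg.mem.choose, h hg.mem.choose_spec⟩, fun U => (hg.gen U).mono h⟩

theorem GoodT.nonempty {L : IntermediateField ℚ Qb} [FiniteDimensional ℚ L]
    {T : Finset Nat.Primes} {p : ℕ} (hg : GoodT L T p) : T.Nonempty :=
  ⟨_, hg.mem.choose_spec⟩

end Fermat.Agent.GC.Global.Adapter
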