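/-
GATE-C / AD6-E (helper68), part (T1): "integral outside `m`" in terms of adic valuations.

For a number field `F`, `m ≥ 1` and `x ∈ F`:
  `(∃ n, IsIntegral ℤ (m ^ n * x)) ↔ ∀ w ∤ m, w.valuation x ≤ 1`,
hence the units which are `m`-integral together with their inverse are the `S`-units for
`S = {w | m ∈ w}`.
-/
import Mathlib

set_option autoImplicit false
set_option linter.unusedSectionVars false

open NumberField IsDedekindDomain WithZero

namespace Fermat.Agent.GC.Global.Adapter.EH

variable (F : Type*) [Field F] [NumberField F]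

/-- the primes of `F` dividing the natural number `m` -/
def primesDvd (m : ℕ) : Set (HeightOneSpectrum (𝓞 F)) := {w | ((m : ℕ) : 𝓞 F) ∈ w.asIdeal}

variable {F}

theorem mem_primesDvd {m : ℕ} {w : HeightOneSpectrum (𝓞 F)} :
    w ∈ primesDvd F m ↔ ((m : ℕ) : 𝓞 F) ∈ w.asIdeal := Iff.rfl

theorem valuation_natCast_eq_one {m : ℕ} {w : HeightOneSpectrum (𝓞 F)} (hw : w ∉ primesDvd F m) :
    w.valuation F ((m : ℕ) : F) = 1 := by
  have h : ((m : ℕ) : F) = algebraMap (𝓞 F) F ((m : ℕ) : 𝓞 F) := by simp
  rw [h, HeightOneSpectrum.valuation_of_algebraMap]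
  exact (HeightOneSpectrum.intValuation_eq_one_iff).mpr hw

theorem valuation_natCast_le {m : ℕ} {w : HeightOneSpectrum (𝓞 F)} (hw : w ∈ primesDvd F m) :
    w.valuation F ((m : ℕ) : F) ≤ exp (-1 : ℤ) := by
  have h : ((m : ℕ) : F) = algebraMap (𝓞 F) F ((m : ℕ) : 𝓞 F) := by simp
  rw [h, HeightOneSpectrum.valuation_of_algebraMap]
  have := (HeightOneSpectrum.intValuation_le_pow_iff_mem w ((m : ℕ) : 𝓞 F) 1).mpr (by
    rw [pow_one]; exact hw)
  simpa using this

theorem valuation_natCast_le_one (m : ℕ) (w : HeightOneSpectrum (𝓞 F)) :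
    w.valuation F ((m : ℕ) : F) ≤ 1 := by
  have h : ((m : ℕ) : F) = algebraMap (𝓞 F) F ((m : ℕ) : 𝓞 F) := by simp
  rw [h]
  exact w.valuation_le_one _

theorem isIntegral_of_forall_valuation_le_one (y : F)
    (h : ∀ w : HeightOneSpectrum (𝓞 F), w.valuation F y ≤ 1) : IsIntegral ℤ y := by
  obtain ⟨a, ha⟩ := HeightOneSpectrum.mem_integers_of_valuation_le_one F y h
  rw [← ha]
  exact a.2

/-- **(T1)** -/
theorem exists_isIntegral_pow_mul_iff (m : ℕ) (x : F) :
    (∃ n : ℕ, IsIntegral ℤ (((m : ℕ) : F) ^ n * x)) ↔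
      ∀ w : HeightOneSpectrum (𝓞 F), w ∉ primesDvd F m → w.valuation F x ≤ 1 := by
  constructor
  · rintro ⟨n, hn⟩ w hw
    have h1 : w.valuation F (((m : ℕ) : F) ^ n * x) ≤ 1 := by
      have : ((m : ℕ) : F) ^ n * x = algebraMap (𝓞 F) F ⟨_, hn⟩ := rfl
      rw [this]
      exact w.valuation_le_one _
    rwa [map_mul, map_pow, valuation_natCast_eq_one hw, one_pow, one_mul] at h1
  · intro h
    classical
    have hfin := HeightOneSpectrum.Support.finite (𝓞 F) x
    set S0 := hfin.toFinset with hS0
    set n : ℕ := ∑ w ∈ S0, (log (w.valuation F x)).toNat with hn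
    refine ⟨n, isIntegral_of_forall_valuation_le_one _ fun w => ?_⟩
    rw [map_mul, map_pow]
    by_cases hw : w ∈ S0
    · have hw1 : 1 < w.valuation F x := (hfin.mem_toFinset).mp hw
      have hwm : w ∈ primesDvd F m := by
        by_contra hcon
        exact absurd (h w hcon) (not_le.mpr hw1)
      have hx0 : w.valuation F x ≠ 0 := ne_of_gt (lt_trans zero_lt_one hw1)
      have hk : (log (w.valuation F x)).toNat ≤ n :=
        Finset.single_le_sum (f := fun w => (log (w.valuation F x)).toNat)
          (fun _ _ => Nat.zero_le _) hw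
      have hklog : log (w.valuation F x) ≤ (n : ℤ) := by
        have h0 : 0 ≤ log (w.valuation F x) := by
          rw [le_log_iff_exp_le hx0, exp_zero]; exact hw1.le
        have : ((log (w.valuation F x)).toNat : ℤ) = log (w.valuation F x) :=
          Int.toNat_of_nonneg h0
        rw [← this]
        exact_mod_cast hk
      calc w.valuation F ((m : ℕ) : F) ^ n * w.valuation F x
          ≤ exp (-1 : ℤ) ^ n * w.valuation F x := by
            gcongr
            exact valuation_natCast_le hwm
        _ = exp (-(n : ℤ)) * exp (log (w.valuation F x)) := by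
            rw [exp_log hx0, ← exp_nsmul]
            simp
        _ = exp (-(n : ℤ) + log (w.valuation F x)) := by rw [exp_add]
        _ ≤ 1 := by
            rw [← exp_zero, exp_le_exp]
            omega
    · have hw1 : w.valuation F x ≤ 1 := by
        by_contra hcon
        exact hw ((hfin.mem_toFinset).mpr (not_le.mp hcon))
      calc w.valuation F ((m : ℕ) : F) ^ n * w.valuation F x ≤ 1 ^ n * 1 := by
            gcongr
            exact valuation_natCast_le_one m w
        _ = 1 := by simp

/-- units which are integral outside `m` together with their inverse = `S`-units,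
`S = {w ∣ m}` -/
theorem mem_unit_primesDvd_iff (m : ℕ) (x : Fˣ) :
    x ∈ (primesDvd F m).unit F ↔
      (∃ n : ℕ, IsIntegral ℤ (((m : ℕ) : F) ^ n * (x : F))) ∧
        (∃ n : ℕ, IsIntegral ℤ (((m : ℕ) : F) ^ n * ((x⁻¹ : Fˣ) : F))) := by
  rw [exists_isIntegral_pow_mul_iff, exists_isIntegral_pow_mul_iff]
  constructor
  · intro hx
    refine ⟨fun w hw => (hx w hw).le, fun w hw => ?_⟩
    rw [Units.val_inv_eq_inv_val, map_inv₀, hx w hw, inv_one]
  · rintro ⟨h1, h2⟩ w hw
    have a1 := h1 w hw
    have a2 := h2 w hw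
    have a3 : w.valuation F (x : F) * w.valuation F ((x⁻¹ : Fˣ) : F) = 1 := by
      rw [← map_mul, Units.mul_inv, map_one]
    exact eq_one_of_one_le_mul_left a1 a2 a3.ge

end Fermat.Agent.GC.Global.Adapter.EH
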