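/-
GATE-C / C4 adapter AD1 part 4 (helper11): INJ for the valuation dictionary.

* `norm_eq_of_placeIdeal_eq` : embeddings `σ, σ' : K → ℚ̄_q` with the same place have the same norm;
* `aeval_minpoly_eq_zero_of_placeIdeal_eq` : then `σ' θ` is a `ℚ_q`-conjugate of `σ θ`
  (approximation of the `ℚ_q`-minimal polynomial by rational polynomials);
* `exists_algEquiv_of_placeOf_eq` : **INJ** `placeOf q σ = placeOf q σ' → ∃ τ ∈ Gal(ℚ̄_q/ℚ_q), σ' = τ ∘ σ`.
-/
import Fermat.Agent.GC.Global.Adapter.ValDict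

open scoped Padic NumberField NNReal Polynomial
open IsDedekindDomain NumberField Polynomial

set_option linter.unusedSectionVars false

noncomputable section

namespace Fermat.Agent.GC.Global.Adapter

variable (q : ℕ) [Fact q.Prime]

section NormEq

variable {K : Type*} [Field K] [NumberField K] (σ σ' : K →+* PadicAlgCl q)

theorem placeConst_eq_of_placeIdeal_eq (h : placeIdeal q σ = placeIdeal q σ') :
    placeConst q σ = placeConst q σ' := by
  have hq0 : (q : 𝓞 K) ≠ 0 := by exact_mod_cast (Fact.out : q.Prime).ne_zero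
  have hcoe : ((q : 𝓞 K) : K) = (q : K) := by simp
  have h1 := norm_eq_placeConst_pow_multiplicity q σ hq0
  have h2 := norm_eq_placeConst_pow_multiplicity q σ' hq0
  rw [hcoe, norm_natCast_q] at h1 h2
  rw [← h] at h2
  set m := multiplicity (placeIdeal q σ) (Ideal.span {(q : 𝓞 K)}) with hm
  have hm0 : m ≠ 0 := by
    intro h0
    rw [h0, pow_zero] at h1
    have hq : (1 : ℝ) < q := by exact_mod_cast (Fact.out : q.Prime).one_lt
    have : (q : ℝ)⁻¹ < 1 := inv_lt_one_of_one_lt₀ hq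
    linarith
  exact (pow_left_inj₀ (placeConst_pos q σ).le (placeConst_pos q σ').le hm0).1
    (h1.symm.trans h2)

/-- Two embeddings with the same place have the same norm on `𝓞 K`. -/
theorem norm_int_eq_of_placeIdeal_eq (h : placeIdeal q σ = placeIdeal q σ') (x : 𝓞 K) :
    ‖σ (x : K)‖ = ‖σ' (x : K)‖ := by
  by_cases hx : x = 0
  · subst hx; simp
  rw [norm_eq_placeConst_pow_multiplicity q σ hx, norm_eq_placeConst_pow_multiplicity q σ' hx,
    placeConst_eq_of_placeIdeal_eq q σ σ' h, h]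

/-- Two embeddings with the same place have the same norm on `K`. -/
theorem norm_eq_of_placeIdeal_eq (h : placeIdeal q σ = placeIdeal q σ') (x : K) :
    ‖σ x‖ = ‖σ' x‖ := by
  obtain ⟨a, b, hb, rfl⟩ := IsFractionRing.div_surjective (A := 𝓞 K) x
  rw [map_div₀, map_div₀, norm_div, norm_div]
  exact congrArg₂ (· / ·) (norm_int_eq_of_placeIdeal_eq q σ σ' h a)
    (norm_int_eq_of_placeIdeal_eq q σ σ' h b)

end NormEq


section Approx

/-- Rational approximation of a polynomial over `ℚ_q`. -/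
theorem exists_rat_poly_approx (f : ℚ_[q][X]) {ε : ℝ} (hε : 0 < ε) :
    ∃ g : ℚ[X], g.natDegree ≤ f.natDegree ∧
      ∀ i, ‖f.coeff i - ((g.coeff i : ℚ) : ℚ_[q])‖ < ε := by
  choose r hr using fun i => Padic.rat_dense q (f.coeff i) hε
  refine ⟨∑ i ∈ Finset.range (f.natDegree + 1), Polynomial.monomial i (r i), ?_, ?_⟩
  · apply Polynomial.natDegree_sum_le_of_forall_le
    intro i hi
    exact (Polynomial.natDegree_monomial_le _).trans (Nat.lt_succ_iff.1 (Finset.mem_range.1 hi))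
  · intro i
    rw [Polynomial.finsetSum_coeff]
    simp only [Polynomial.coeff_monomial]
    by_cases hi : i ∈ Finset.range (f.natDegree + 1)
    · rw [Finset.sum_ite_eq' _ _ _, if_pos hi]
      exact hr i
    · rw [Finset.sum_ite_eq' _ _ _, if_neg hi]
      have : f.natDegree < i := by
        rw [Finset.mem_range] at hi
        omega
      rw [Polynomial.coeff_eq_zero_of_natDegree_lt this]
      simpa using hε

/-- Ultrametric bound for the value of a polynomial with small coefficients. -/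
theorem norm_aeval_le {P : ℚ_[q][X]} {ε M : ℝ} {d : ℕ} (hε : 0 ≤ ε) (hM : 1 ≤ M)
    (hd : P.natDegree ≤ d) (hP : ∀ i, ‖P.coeff i‖ ≤ ε) (b : PadicAlgCl q) (hb : ‖b‖ ≤ M) :
    ‖aeval b P‖ ≤ ε * M ^ d := by
  rw [Polynomial.aeval_eq_sum_range]
  have hM0 : 0 ≤ M := le_trans zero_le_one hM
  apply IsUltrametricDist.norm_sum_le_of_forall_le_of_nonneg (mul_nonneg hε (pow_nonneg hM0 _))
  intro i hi
  rw [norm_smul, norm_pow]
  have hi' : i ≤ d := (Nat.lt_succ_iff.1 (Finset.mem_range.1 hi)).trans hd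
  have h1 : ‖b‖ ^ i ≤ M ^ i := pow_le_pow_left₀ (norm_nonneg _) hb i
  have h2 : M ^ i ≤ M ^ d := pow_le_pow_right₀ hM hi'
  exact mul_le_mul (hP i) (h1.trans h2) (pow_nonneg (norm_nonneg _) _) hε

end Approx


section Inj

variable {K : Type*} [Field K] [NumberField K] (σ σ' : K →+* PadicAlgCl q)

theorem sigma_aeval (g : ℚ[X]) (θ : K) : σ (aeval θ g) = aeval (σ θ) g := by
  have := Polynomial.aeval_algHom_apply σ.toRatAlgHom θ g
  exact this.symm

/-- If `σ, σ'` cut out the same place, then `σ' θ` is a root of the minimal polynomial of `σ θ`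
over `ℚ_q`. -/
theorem aeval_minpoly_eq_zero_of_placeIdeal_eq (h : placeIdeal q σ = placeIdeal q σ') (θ : K) :
    aeval (σ' θ) (minpoly ℚ_[q] (σ θ)) = 0 := by
  by_contra hne
  set f := minpoly ℚ_[q] (σ θ) with hf
  set δ := ‖aeval (σ' θ) f‖ with hδ
  have hδ0 : 0 < δ := norm_pos_iff.2 hne
  set M := max 1 (max ‖σ θ‖ ‖σ' θ‖) with hM
  have hM1 : 1 ≤ M := le_max_left _ _
  have hMa : ‖σ θ‖ ≤ M := (le_max_left _ _).trans (le_max_right _ _)
  have hMa' : ‖σ' θ‖ ≤ M := (le_max_right _ _).trans (le_max_right _ _)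
  set d := f.natDegree with hd
  have hMd : 0 < M ^ d := pow_pos (lt_of_lt_of_le zero_lt_one hM1) _
  set ε := δ / (2 * M ^ d) with hε
  have hε0 : 0 < ε := div_pos hδ0 (by positivity)
  have hεM : ε * M ^ d = δ / 2 := by
    rw [hε]; field_simp
  obtain ⟨g, hgd, hg⟩ := exists_rat_poly_approx q f hε0
  set P := f - g.map (algebraMap ℚ ℚ_[q]) with hP
  have hPd : P.natDegree ≤ d := by
    have := Polynomial.natDegree_sub_le_of_le (p := f) (q := g.map (algebraMap ℚ ℚ_[q]))
      (m := d) (n := d) le_rfl ((Polynomial.natDegree_map_le).trans hgd)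
    simpa using this
  have hPc : ∀ i, ‖P.coeff i‖ ≤ ε := by
    intro i
    rw [hP, Polynomial.coeff_sub, Polynomial.coeff_map]
    exact (hg i).le
  have hmap : ∀ b : PadicAlgCl q, aeval b (g.map (algebraMap ℚ ℚ_[q])) = aeval b g :=
    fun b => Polynomial.aeval_map_algebraMap ℚ_[q] b g
  set x := aeval θ g with hx
  -- `‖σ x‖ ≤ δ/2`
  have h1 : ‖σ x‖ ≤ δ / 2 := by
    have hP1 : aeval (σ θ) P = - σ x := by
      rw [hP, map_sub, hmap, ← sigma_aeval, hf, minpoly.aeval, zero_sub]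
    have := norm_aeval_le q hε0.le hM1 hPd hPc (σ θ) hMa
    rw [hP1, norm_neg, hεM] at this
    exact this
  -- `δ ≤ max (δ/2) ‖σ' x‖`
  have h2 : aeval (σ' θ) f = aeval (σ' θ) P + σ' x := by
    rw [hP, map_sub, hmap, ← sigma_aeval]
    ring
  have h3 : ‖aeval (σ' θ) P‖ ≤ δ / 2 := by
    have := norm_aeval_le q hε0.le hM1 hPd hPc (σ' θ) hMa'
    rwa [hεM] at this
  have h4 : ‖σ' x‖ ≤ δ / 2 := by
    rw [← norm_eq_of_placeIdeal_eq q σ σ' h x]; exact h1
  have h5 : δ ≤ δ / 2 := by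
    have h6 : δ = ‖aeval (σ' θ) P + σ' x‖ := by rw [← h2]
    calc δ = ‖aeval (σ' θ) P + σ' x‖ := h6
      _ ≤ max ‖aeval (σ' θ) P‖ ‖σ' x‖ := PadicAlgCl.isNonarchimedean q _ _
      _ ≤ δ / 2 := max_le h3 h4
  linarith

/-- **INJ**: two embeddings `σ, σ' : K → ℚ̄_q` with the same place differ by an element of
`Gal(ℚ̄_q/ℚ_q)`. -/
theorem exists_algEquiv_of_placeOf_eq (h : placeOf q σ = placeOf q σ') :
    ∃ τ : PadicAlgCl q ≃ₐ[ℚ_[q]] PadicAlgCl q,
      σ' = (τ : PadicAlgCl q →+* PadicAlgCl q).comp σ := by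
  have hI : placeIdeal q σ = placeIdeal q σ' := by
    have := congrArg HeightOneSpectrum.asIdeal h
    simpa using this
  obtain ⟨θ, hθ⟩ := Field.exists_primitive_element ℚ K
  have hint : IsIntegral ℚ_[q] (σ θ) := Algebra.IsIntegral.isIntegral _
  have hroot := aeval_minpoly_eq_zero_of_placeIdeal_eq q σ σ' hI θ
  have hmin : minpoly ℚ_[q] (σ θ) = minpoly ℚ_[q] (σ' θ) :=
    minpoly.eq_of_irreducible_of_monic (minpoly.irreducible hint) hroot (minpoly.monic hint)
  have hconj : IsConjRoot ℚ_[q] (σ' θ) (σ θ) := hmin.symm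
  obtain ⟨τ, hτ⟩ := hconj.exists_algEquiv
  refine ⟨τ, ?_⟩
  -- the two `ℚ`-algebra maps agree on the generator `θ`
  have hext : σ'.toRatAlgHom = ((τ : PadicAlgCl q →+* PadicAlgCl q).comp σ).toRatAlgHom := by
    apply AlgHom.ext_of_adjoin_eq_top (s := {θ})
    · rw [← IntermediateField.adjoin_simple_toSubalgebra_of_isAlgebraic
        (Algebra.IsAlgebraic.isAlgebraic θ), hθ, IntermediateField.top_toSubalgebra]
    · intro y hy
      rw [Set.mem_singleton_iff] at hy
      subst hy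
      exact hτ.symm
  ext y
  exact congrArg (fun f : K →ₐ[ℚ] PadicAlgCl q => f y) hext

end Inj

end Fermat.Agent.GC.Global.Adapter
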