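/-
GATE-C / C4 adapter AD1 (helper11): the valuation dictionary.

`K` a number field, `σ : K →+* PadicAlgCl q` any embedding.  Then `{x : 𝓞 K | ‖σ x‖ < 1}` is a
height-one prime `placeOf q σ` of `𝓞 K` above `q`, invariant under `Gal(ℚ̄_q/ℚ_q)`, and the norm is
an exact power of a constant `placeConst q σ ∈ (0,1)`:
`‖σ x‖ = c ^ multiplicity v (x)`,  `‖σ x‖ ≤ c ^ n ↔ x ∈ v ^ n`.
-/
import Mathlib
import Fermat.Prelude.Def_GaloisRep_CompletionBridge

open scoped Padic NumberField NNReal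
open IsDedekindDomain NumberField

set_option linter.unusedSectionVars false

noncomputable section

namespace Fermat.Agent.GC.Global.Adapter

variable (q : ℕ) [Fact q.Prime]

/-- Elements of `PadicAlgCl q` integral over `ℤ` have norm `≤ 1`. -/
theorem norm_le_one_of_isIntegral {y : PadicAlgCl q} (hy : IsIntegral ℤ y) : ‖y‖ ≤ 1 := by
  have h1 : IsIntegral (padicIntegers q) y := hy.tower_top
  obtain ⟨z, hz⟩ := (IsIntegrallyClosed.isIntegral_iff (R := padicIntegers q)).1 h1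
  have : y ∈ padicIntegers q := by rw [← hz]; exact z.2
  have h2 := (mem_padicIntegers_iff q).1 this
  exact_mod_cast h2

variable {K : Type*} [Field K] [NumberField K] (σ : K →+* PadicAlgCl q)

theorem norm_le_one (x : 𝓞 K) : ‖σ (x : K)‖ ≤ 1 :=
  norm_le_one_of_isIntegral q (map_isIntegral_int σ (RingOfIntegers.isIntegral_coe x))

theorem norm_natCast_q : ‖σ (q : K)‖ = (q : ℝ)⁻¹ := by
  rw [map_natCast]
  have h := PadicAlgCl.norm_extends q (q : ℚ_[q])
  rw [Padic.norm_p] at h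
  rw [← h]
  congr 1

/-- The prime of `𝓞 K` cut out by `σ : K → ℚ̄_q`: `{x | ‖σ x‖ < 1}`. -/
def placeIdeal : Ideal (𝓞 K) where
  carrier := {x | ‖σ (x : K)‖ < 1}
  add_mem' := by
    intro a b ha hb
    simp only [Set.mem_ofPred_eq, map_add] at *
    exact lt_of_le_of_lt (PadicAlgCl.isNonarchimedean q _ _) (max_lt ha hb)
  zero_mem' := by simp
  smul_mem' := by
    intro c x hx
    simp only [Set.mem_ofPred_eq, smul_eq_mul, map_mul, norm_mul] at *
    calc ‖σ (c : K)‖ * ‖σ (x : K)‖ ≤ 1 * ‖σ (x : K)‖ :=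
          mul_le_mul_of_nonneg_right (norm_le_one q σ c) (norm_nonneg _)
      _ < 1 := by rwa [one_mul]

theorem mem_placeIdeal_iff {x : 𝓞 K} : x ∈ placeIdeal q σ ↔ ‖σ (x : K)‖ < 1 := Iff.rfl

theorem norm_eq_one_of_notMem {x : 𝓞 K} (hx : x ∉ placeIdeal q σ) : ‖σ (x : K)‖ = 1 :=
  le_antisymm (norm_le_one q σ x) (not_lt.1 hx)

instance placeIdeal_isPrime : (placeIdeal q σ).IsPrime where
  ne_top' := by
    intro h
    have : (1 : 𝓞 K) ∈ placeIdeal q σ := h ▸ Submodule.mem_top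
    rw [mem_placeIdeal_iff] at this
    simp at this
  mem_or_mem' := by
    intro x y hxy
    by_contra hcon
    push Not at hcon
    have h1 := norm_eq_one_of_notMem q σ hcon.1
    have h2 := norm_eq_one_of_notMem q σ hcon.2
    rw [mem_placeIdeal_iff] at hxy
    simp only [map_mul, norm_mul, h1, h2, mul_one, lt_self_iff_false] at hxy

theorem natCast_q_mem_placeIdeal : (q : 𝓞 K) ∈ placeIdeal q σ := by
  rw [mem_placeIdeal_iff]
  have : ((q : 𝓞 K) : K) = (q : K) := by simp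
  rw [this, norm_natCast_q]
  have hq : (1 : ℝ) < q := by exact_mod_cast (Fact.out : q.Prime).one_lt
  exact inv_lt_one_of_one_lt₀ hq

theorem placeIdeal_ne_bot : placeIdeal q σ ≠ ⊥ := by
  intro h
  have h1 := natCast_q_mem_placeIdeal q σ
  rw [h, Ideal.mem_bot] at h1
  have : (q : 𝓞 K) ≠ 0 := by
    exact_mod_cast (Fact.out : q.Prime).ne_zero
  exact this h1

/-- The place of `K` cut out by `σ : K → ℚ̄_q`. -/
def placeOf : HeightOneSpectrum (𝓞 K) where
  asIdeal := placeIdeal q σ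
  isPrime := inferInstance
  ne_bot := placeIdeal_ne_bot q σ

@[simp] theorem placeOf_asIdeal : (placeOf q σ).asIdeal = placeIdeal q σ := rfl

theorem mem_placeOf_iff {x : 𝓞 K} : x ∈ (placeOf q σ).asIdeal ↔ ‖σ (x : K)‖ < 1 := Iff.rfl

/-- Galois invariance: composing `σ` with an automorphism of `ℚ̄_q` over `ℚ_q` does not change the
place. -/
theorem placeOf_comp (τ : PadicAlgCl q ≃ₐ[ℚ_[q]] PadicAlgCl q) :
    placeOf q ((τ : PadicAlgCl q →+* PadicAlgCl q).comp σ) = placeOf q σ := by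
  ext x
  simp only [mem_placeOf_iff, RingHom.comp_apply]
  have h := nnnorm_padicAlgCl_algEquiv q τ (σ (x : K))
  have h' : ‖τ (σ (x : K))‖ = ‖σ (x : K)‖ := congrArg NNReal.toReal h
  change ‖τ (σ (x : K))‖ < 1 ↔ _
  rw [h']


/-! ### Exact norm -/

theorem exists_uniformizer :
    ∃ π : 𝓞 K, π ∈ placeIdeal q σ ∧ π ∉ (placeIdeal q σ) ^ 2 := by
  have h := Ideal.exists_mem_pow_notMem_pow_succ (placeIdeal q σ) (placeIdeal_ne_bot q σ)
    (placeIdeal_isPrime q σ).ne_top 1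
  simpa using h

theorem sigma_ne_zero {x : 𝓞 K} (hx : x ≠ 0) : σ (x : K) ≠ 0 := by
  rw [Ne, map_eq_zero]
  exact RingOfIntegers.coe_ne_zero_iff.2 hx

/-- Key computation: if `π ∈ v ∖ v²` and `x ∈ vⁿ ∖ vⁿ⁺¹` then `‖σ x‖ = ‖σ π‖ⁿ`. -/
theorem norm_eq_pow_of_mem_pow {π : 𝓞 K} (hπ : π ∈ placeIdeal q σ)
    (hπ2 : π ∉ (placeIdeal q σ) ^ 2) {x : 𝓞 K} {n : ℕ} (hx : x ∈ (placeIdeal q σ) ^ n)
    (hx' : x ∉ (placeIdeal q σ) ^ (n + 1)) : ‖σ (x : K)‖ = ‖σ (π : K)‖ ^ n := by
  set v := placeIdeal q σ with hv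
  -- `(x) = vⁿ I`, `(π) = v J`, with `I, J ⊄ v`
  obtain ⟨I, hI⟩ : v ^ n ∣ Ideal.span {x} := Ideal.dvd_span_singleton.2 hx
  obtain ⟨J, hJ⟩ : v ∣ Ideal.span {π} := Ideal.dvd_span_singleton.2 hπ
  have hIv : ¬ I ≤ v := by
    intro hle
    obtain ⟨I', rfl⟩ := Ideal.dvd_iff_le.2 hle
    apply hx'
    rw [← Ideal.dvd_span_singleton, hI, pow_succ, ← mul_assoc]
    exact dvd_mul_right _ _
  have hJv : ¬ J ≤ v := by
    intro hle
    obtain ⟨J', rfl⟩ := Ideal.dvd_iff_le.2 hle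
    apply hπ2
    rw [← Ideal.dvd_span_singleton, hJ, pow_two, ← mul_assoc]
    exact dvd_mul_right _ _
  apply le_antisymm
  · -- `‖σ x‖ ≤ cⁿ`
    have hJn : ¬ J ^ n ≤ v := by
      rcases Nat.eq_zero_or_pos n with rfl | hn
      · rw [pow_zero, Ideal.one_eq_top, top_le_iff]
        exact (placeIdeal_isPrime q σ).ne_top
      · rw [Ideal.IsPrime.pow_le_iff hn.ne']
        exact hJv
    obtain ⟨b, hbJ, hbv⟩ := SetLike.not_le_iff_exists.1 hJn
    have hmem : x * b ∈ Ideal.span {π ^ n} := by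
      have h1 : x * b ∈ Ideal.span {x} * J ^ n :=
        Ideal.mul_mem_mul (Ideal.mem_span_singleton_self x) hbJ
      have h2 : Ideal.span {x} * J ^ n = Ideal.span {π ^ n} * I := by
        rw [hI, ← Ideal.span_singleton_pow, hJ, mul_pow]
        exact mul_right_comm _ _ _
      rw [h2] at h1
      exact Ideal.mul_le_left h1
    obtain ⟨a, ha⟩ := Ideal.mem_span_singleton'.1 hmem
    have hK : (x : K) * (b : K) = (a : K) * (π : K) ^ n := by
      have := congrArg (fun z : 𝓞 K => (z : K)) ha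
      simpa using this.symm
    have hnorm : ‖σ (x : K)‖ * ‖σ (b : K)‖ = ‖σ (a : K)‖ * ‖σ (π : K)‖ ^ n := by
      have := congrArg (fun z : K => ‖σ z‖) hK
      simpa only [map_mul, map_pow, norm_mul, norm_pow] using this
    rw [norm_eq_one_of_notMem q σ hbv, mul_one] at hnorm
    rw [hnorm]
    calc ‖σ (a : K)‖ * ‖σ (π : K)‖ ^ n ≤ 1 * ‖σ (π : K)‖ ^ n :=
          mul_le_mul_of_nonneg_right (norm_le_one q σ a) (pow_nonneg (norm_nonneg _) _)
      _ = ‖σ (π : K)‖ ^ n := one_mul _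
  · -- `cⁿ ≤ ‖σ x‖`
    obtain ⟨a, haI, hav⟩ := SetLike.not_le_iff_exists.1 hIv
    have hmem : π ^ n * a ∈ Ideal.span {x} := by
      have h1 : π ^ n * a ∈ Ideal.span {π ^ n} * I :=
        Ideal.mul_mem_mul (Ideal.mem_span_singleton_self _) haI
      have h2 : Ideal.span {π ^ n} * I = Ideal.span {x} * J ^ n := by
        rw [hI, ← Ideal.span_singleton_pow, hJ, mul_pow]
        exact (mul_right_comm _ _ _).symm
      rw [h2] at h1
      exact Ideal.mul_le_left h1
    obtain ⟨b, hb⟩ := Ideal.mem_span_singleton'.1 hmem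
    have hK : (π : K) ^ n * (a : K) = (b : K) * (x : K) := by
      have := congrArg (fun z : 𝓞 K => (z : K)) hb
      simpa using this.symm
    have hnorm : ‖σ (π : K)‖ ^ n * ‖σ (a : K)‖ = ‖σ (b : K)‖ * ‖σ (x : K)‖ := by
      have := congrArg (fun z : K => ‖σ z‖) hK
      simpa only [map_mul, map_pow, norm_mul, norm_pow] using this
    rw [norm_eq_one_of_notMem q σ hav, mul_one] at hnorm
    rw [hnorm]
    calc ‖σ (b : K)‖ * ‖σ (x : K)‖ ≤ 1 * ‖σ (x : K)‖ :=
          mul_le_mul_of_nonneg_right (norm_le_one q σ b) (norm_nonneg _)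
      _ = ‖σ (x : K)‖ := one_mul _


/-- The constant `c ∈ (0,1)` with `‖σ x‖ = c ^ ord_v x`: the norm of a uniformizer. -/
def placeConst : ℝ := ‖σ ((exists_uniformizer q σ).choose : K)‖

theorem placeConst_pos : 0 < placeConst q σ := by
  unfold placeConst
  have h := (exists_uniformizer q σ).choose_spec
  rw [norm_pos_iff]
  refine sigma_ne_zero q σ ?_
  rintro h0
  exact h.2 (by rw [h0]; exact Ideal.zero_mem _)

theorem placeConst_lt_one : placeConst q σ < 1 :=
  (exists_uniformizer q σ).choose_spec.1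

theorem norm_eq_placeConst_pow {x : 𝓞 K} {n : ℕ} (hx : x ∈ (placeIdeal q σ) ^ n)
    (hx' : x ∉ (placeIdeal q σ) ^ (n + 1)) : ‖σ (x : K)‖ = placeConst q σ ^ n :=
  norm_eq_pow_of_mem_pow q σ (exists_uniformizer q σ).choose_spec.1
    (exists_uniformizer q σ).choose_spec.2 hx hx'

/-- `‖σ x‖ ≤ cⁿ ↔ x ∈ vⁿ`. -/
theorem norm_le_placeConst_pow_iff {x : 𝓞 K} {n : ℕ} :
    ‖σ (x : K)‖ ≤ placeConst q σ ^ n ↔ x ∈ (placeIdeal q σ) ^ n := by
  have hc0 := placeConst_pos q σ
  have hc1 := placeConst_lt_one q σ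
  by_cases hx0 : x = 0
  · subst hx0
    simp [pow_nonneg hc0.le]
  -- the set of `m` with `x ∈ v^m` is bounded
  have hfin : ∃ m, x ∉ (placeIdeal q σ) ^ m := by
    by_contra hcon
    push Not at hcon
    have hle : ∀ m, Ideal.span {x} ≤ (placeIdeal q σ) ^ m := fun m =>
      (Ideal.span_singleton_le_iff_mem _).2 (hcon m)
    have hbot : Ideal.span {x} ≤ ⨅ m, (placeIdeal q σ) ^ m := le_iInf hle
    have hkrull : ⨅ m, (placeIdeal q σ) ^ m = ⊥ :=
      Ideal.iInf_pow_eq_bot_of_isDomain _ (placeIdeal_isPrime q σ).ne_top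
    rw [hkrull, le_bot_iff, Ideal.span_singleton_eq_bot] at hbot
    exact hx0 hbot
  classical
  obtain ⟨m, hm, hm'⟩ : ∃ m, x ∈ (placeIdeal q σ) ^ m ∧ x ∉ (placeIdeal q σ) ^ (m + 1) := by
    have h0 : Nat.find hfin ≠ 0 := by
      intro h
      have := Nat.find_spec hfin
      rw [h, pow_zero, Ideal.one_eq_top] at this
      exact this Submodule.mem_top
    obtain ⟨m, hm⟩ := Nat.exists_eq_succ_of_ne_zero h0
    refine ⟨m, ?_, ?_⟩
    · by_contra hcon
      exact Nat.find_min hfin (by omega : m < Nat.find hfin) hcon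
    · rw [← Nat.succ_eq_add_one, ← hm]
      exact Nat.find_spec hfin
  rw [norm_eq_placeConst_pow q σ hm hm']
  constructor
  · intro hle
    have hnm : n ≤ m := by
      by_contra hlt
      push Not at hlt
      have : placeConst q σ ^ n < placeConst q σ ^ m := pow_lt_pow_right_of_lt_one₀ hc0 hc1 hlt
      linarith
    exact Ideal.pow_le_pow_right hnm hm
  · intro hmem
    have hnm : n ≤ m := by
      by_contra hlt
      push Not at hlt
      exact hm' (Ideal.pow_le_pow_right (by omega : m + 1 ≤ n) hmem)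
    exact pow_le_pow_of_le_one hc0.le hc1.le hnm

/-- `‖σ x‖ = c ^ (multiplicity of v in (x))` for `x ≠ 0`. -/
theorem norm_eq_placeConst_pow_multiplicity {x : 𝓞 K} (hx : x ≠ 0) :
    ‖σ (x : K)‖ = placeConst q σ ^ multiplicity (placeIdeal q σ) (Ideal.span {x}) := by
  have hfin : FiniteMultiplicity (placeIdeal q σ) (Ideal.span {x}) := by
    apply FiniteMultiplicity.of_not_isUnit
    · rw [Ideal.isUnit_iff]
      exact (placeIdeal_isPrime q σ).ne_top
    · rwa [Ne, Ideal.zero_eq_bot, Ideal.span_singleton_eq_bot]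
  apply norm_eq_placeConst_pow
  · rw [← Ideal.dvd_span_singleton]
    exact pow_multiplicity_dvd _ _
  · rw [← Ideal.dvd_span_singleton]
    exact hfin.not_pow_dvd_of_multiplicity_lt (Nat.lt_succ_self _)

end Fermat.Agent.GC.Global.Adapter
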