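/-
GATE-C / C4 adapter AD1 part 3 (helper11): SURJ for the valuation dictionary.

* `exists_placeOf_eq` : every prime `v ∋ q` of a number field `K` is `placeOf q σ` for some
  embedding `σ : K →+* PadicAlgCl q`;
* `exists_placeOf_eq_of_isGalois` : relative form, `σ = (σ₀ ∘ g)|_K` with `g ∈ Gal(L/ℚ)` for a
  fixed embedding `σ₀` of a Galois `L ⊇ K`;
* `exists_algEquiv_placeIdeal_eq` : transitivity of `Gal(L/ℚ)` on the places above `q`;
* `exists_algEquiv_comp_eq` : every embedding of `K` is `(σ₀ ∘ g)|_K`.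
-/
import Fermat.Agent.GC.Global.Adapter.ValDict

open scoped Padic NumberField NNReal Pointwise
open IsDedekindDomain NumberField

set_option linter.unusedSectionVars false

noncomputable section

namespace Fermat.Agent.GC.Global.Adapter

variable (q : ℕ) [Fact q.Prime]

section Under

variable {L : Type*} [Field L] [NumberField L]

/-- A prime of `𝓞 L` containing `q` lies over `(q) ⊂ ℤ`. -/
theorem under_eq_span_q (P : Ideal (𝓞 L)) [P.IsPrime] (h : (q : 𝓞 L) ∈ P) :
    P.under ℤ = Ideal.span {(q : ℤ)} := by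
  have hmax : (Ideal.span {(q : ℤ)}).IsMaximal :=
    PrincipalIdealRing.isMaximal_of_irreducible
      (Nat.prime_iff_prime_int.1 (Fact.out : q.Prime)).irreducible
  have hle : Ideal.span {(q : ℤ)} ≤ P.under ℤ := by
    rw [Ideal.span_singleton_le_iff_mem, Ideal.under_def, Ideal.mem_comap]
    simpa using h
  have hne : P.under ℤ ≠ ⊤ := (Ideal.IsPrime.under ℤ P).ne_top
  exact (hmax.eq_of_le hne hle).symm

end Under

section Galois

variable {L : Type*} [Field L] [NumberField L] [IsGalois ℚ L]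

theorem isInvariant_int : Algebra.IsInvariant ℤ (𝓞 L) (L ≃ₐ[ℚ] L) := by
  refine ⟨fun b hb => ?_⟩
  have hfix : algebraMap (𝓞 L) L b ∈
      IntermediateField.fixedField (⊤ : Subgroup (L ≃ₐ[ℚ] L)) := by
    rintro ⟨g, -⟩
    exact congrArg (fun z : 𝓞 L => algebraMap (𝓞 L) L z) (hb g)
  have h := ((IsGalois.tfae (F := ℚ) (E := L)).out 0 1).mp ‹IsGalois ℚ L›
  rw [h, IntermediateField.mem_bot] at hfix
  obtain ⟨r, hr⟩ := hfix
  have hint : IsIntegral ℤ r := by
    have := RingOfIntegers.isIntegral_coe b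
    rw [← hr] at this
    exact (isIntegral_algebraMap_iff (FaithfulSMul.algebraMap_injective ℚ L)).1 this
  obtain ⟨a, ha⟩ := IsIntegrallyClosed.algebraMap_eq_of_integral hint
  refine ⟨a, ?_⟩
  apply RingOfIntegers.coe_injective
  rw [← hr, ← ha]
  simp

/-- Transitivity: for a Galois number field `L`, every prime of `𝓞 L` above `q` is the place of
`σ₀ ∘ g` for some `g ∈ Gal(L/ℚ)`. -/
theorem exists_algEquiv_placeIdeal_eq (σ₀ : L →+* PadicAlgCl q) (w : Ideal (𝓞 L)) [w.IsPrime]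
    (hw : (q : 𝓞 L) ∈ w) :
    ∃ g : L ≃ₐ[ℚ] L, placeIdeal q (σ₀.comp (g : L →+* L)) = w := by
  have : Algebra.IsInvariant ℤ (𝓞 L) (L ≃ₐ[ℚ] L) := isInvariant_int
  have hP : (placeIdeal q σ₀).under ℤ = w.under ℤ := by
    rw [under_eq_span_q q _ (natCast_q_mem_placeIdeal q σ₀), under_eq_span_q q w hw]
  obtain ⟨g, hg⟩ := Algebra.IsInvariant.exists_smul_of_under_eq ℤ (𝓞 L) (L ≃ₐ[ℚ] L)
    (placeIdeal q σ₀) w hP
  refine ⟨g⁻¹, ?_⟩
  rw [hg]
  ext x
  rw [Ideal.mem_pointwise_smul_iff_inv_smul_mem, mem_placeIdeal_iff, mem_placeIdeal_iff]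
  rfl

end Galois


section Descent

variable {K L : Type*} [Field K] [NumberField K] [Field L] [NumberField L] [Algebra K L]

theorem placeIdeal_comp_algebraMap (σ' : L →+* PadicAlgCl q) :
    placeIdeal q (σ'.comp (algebraMap K L)) =
      (placeIdeal q σ').comap (algebraMap (𝓞 K) (𝓞 L)) := by
  ext x
  rw [Ideal.mem_comap, mem_placeIdeal_iff, mem_placeIdeal_iff]
  rfl

/-- SURJ, relative form: if `L ⊇ K` is Galois over `ℚ` and `σ₀` is any embedding of `L`, every
prime `v ∋ q` of `K` is the place of `(σ₀ ∘ g)|_K` for some `g ∈ Gal(L/ℚ)`. -/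
theorem exists_placeOf_eq_of_isGalois [IsGalois ℚ L] (σ₀ : L →+* PadicAlgCl q)
    (v : HeightOneSpectrum (𝓞 K)) (hv : (q : 𝓞 K) ∈ v.asIdeal) :
    ∃ g : L ≃ₐ[ℚ] L, placeOf q ((σ₀.comp (g : L →+* L)).comp (algebraMap K L)) = v := by
  have hker : RingHom.ker (algebraMap (𝓞 K) (𝓞 L)) ≤ v.asIdeal := by
    rw [(RingHom.injective_iff_ker_eq_bot _).1
      (RingOfIntegers.algebraMap.injective K L)]
    exact bot_le
  obtain ⟨w, hwp, hwv⟩ :=
    Ideal.exists_ideal_over_prime_of_isIntegral_of_isDomain (S := 𝓞 L) v.asIdeal hker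
  have hqw : (q : 𝓞 L) ∈ w := by
    have : (q : 𝓞 K) ∈ w.comap (algebraMap (𝓞 K) (𝓞 L)) := hwv ▸ hv
    simpa using this
  obtain ⟨g, hg⟩ := exists_algEquiv_placeIdeal_eq q σ₀ w hqw
  refine ⟨g, ?_⟩
  ext x
  rw [placeOf_asIdeal, placeIdeal_comp_algebraMap, hg, hwv]

end Descent


section Surj

variable {K : Type*} [Field K] [NumberField K]

/-- **SURJ**: every prime `v ∋ q` of a number field `K` is `placeOf q σ` for some embedding
`σ : K → ℚ̄_q`. -/
theorem exists_placeOf_eq (v : HeightOneSpectrum (𝓞 K)) (hv : (q : 𝓞 K) ∈ v.asIdeal) :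
    ∃ σ : K →+* PadicAlgCl q, placeOf q σ = v := by
  have : Algebra.IsAlgebraic ℚ (AlgebraicClosure K) :=
    Algebra.IsAlgebraic.trans ℚ K (AlgebraicClosure K)
  have : IsAlgClosure ℚ (AlgebraicClosure K) := ⟨inferInstance, inferInstance⟩
  have : Normal ℚ (AlgebraicClosure K) := IsAlgClosure.normal ℚ (AlgebraicClosure K)
  have : FiniteDimensional ℚ (IntermediateField.normalClosure ℚ K (AlgebraicClosure K)) :=
    normalClosure.is_finiteDimensional ℚ K (AlgebraicClosure K)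
  have : NumberField (IntermediateField.normalClosure ℚ K (AlgebraicClosure K)) := NumberField.mk
  have : Normal ℚ (IntermediateField.normalClosure ℚ K (AlgebraicClosure K)) :=
    normalClosure.normal ℚ K (AlgebraicClosure K)
  have : IsGalois ℚ (IntermediateField.normalClosure ℚ K (AlgebraicClosure K)) := ⟨⟩
  have : Algebra.IsAlgebraic ℚ (IntermediateField.normalClosure ℚ K (AlgebraicClosure K)) :=
    Algebra.IsAlgebraic.of_finite ℚ _
  obtain ⟨g, hg⟩ := exists_placeOf_eq_of_isGalois (K := K)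
    (L := IntermediateField.normalClosure ℚ K (AlgebraicClosure K)) q
    (IsAlgClosed.lift : IntermediateField.normalClosure ℚ K (AlgebraicClosure K) →ₐ[ℚ]
      PadicAlgCl q).toRingHom v hv
  exact ⟨_, hg⟩

end Surj


section Conj

variable {K L : Type*} [Field K] [NumberField K] [Field L] [NumberField L] [Algebra K L]

/-- Two embeddings of a normal extension `L/ℚ` into `ℚ̄_q` differ by an element of `Gal(L/ℚ)`. -/
theorem exists_algEquiv_comp_eq_of_normal [Normal ℚ L] (φ₀ φ : L →ₐ[ℚ] PadicAlgCl q) :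
    ∃ g : L ≃ₐ[ℚ] L, φ = φ₀.comp (g : L →ₐ[ℚ] L) := by
  let : Algebra L (PadicAlgCl q) := φ₀.toRingHom.toAlgebra
  have : IsScalarTower ℚ L (PadicAlgCl q) :=
    IsScalarTower.of_algebraMap_eq' (Subsingleton.elim _ _)
  refine ⟨φ.restrictNormal' L, ?_⟩
  ext x
  have h := AlgHom.restrictNormal_commutes φ L x
  simp only [AlgHom.coe_comp, Function.comp_apply]
  exact h.symm

/-- Every embedding `σ : K → ℚ̄_q` is `(σ₀ ∘ g)|_K` for any fixed embedding `σ₀` of a Galois
`L ⊇ K` and some `g ∈ Gal(L/ℚ)`. -/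
theorem exists_algEquiv_comp_eq [IsGalois ℚ L] (σ₀ : L →+* PadicAlgCl q)
    (σ : K →+* PadicAlgCl q) :
    ∃ g : L ≃ₐ[ℚ] L, σ = (σ₀.comp (g : L →+* L)).comp (algebraMap K L) := by
  let : Algebra K (PadicAlgCl q) := σ.toAlgebra
  have : Algebra.IsAlgebraic K L := Algebra.IsAlgebraic.of_finite K L
  let ψ : L →ₐ[K] PadicAlgCl q := IsAlgClosed.lift
  obtain ⟨g, hg⟩ := exists_algEquiv_comp_eq_of_normal q σ₀.toRatAlgHom ψ.toRingHom.toRatAlgHom
  refine ⟨g, ?_⟩
  ext x
  have h1 : ψ (algebraMap K L x) = σ x := ψ.commutes x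
  have h2 := congrArg (fun f : L →ₐ[ℚ] PadicAlgCl q => f (algebraMap K L x)) hg
  simp only [RingHom.comp_apply]
  rw [← h1]
  exact h2

end Conj

end Fermat.Agent.GC.Global.Adapter
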