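/-
GATE-C / C4 adapter leaf AD3, brick (B) (helper4): assembling an `H`-invariant element of a
coinduced module from local data on double cosets.

`φ : D →* G`, `ρ` a representation of `D` on `A`, `H ≤ G`.  An element `f` of the coinduced module
(`f (φ d * g) = ρ d (f g)`) which is `H`-invariant (`f (g * h) = f g`) and which is *pointwise*
`p`-divisible by elements fixed by the stabilisers `{d | φ d * g ∈ g H}` is `p`-divisible
inside the `H`-invariants of the coinduced module.  (Choice of double coset representatives.)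
-/
import Mathlib

set_option autoImplicit false

namespace Fermat.Agent.GC.Global.Adapter

open Representation

variable {k D G A : Type*} [CommRing k] [Group D] [Group G] [AddCommGroup A] [Module k A]

/-- The double coset relation `g' ∈ φ(D) g H`. -/
def dcRel (φ : D →* G) (H : Subgroup G) (g g' : G) : Prop :=
  ∃ d : D, ∃ h ∈ H, g' = φ d * g * h

theorem dcRel_refl (φ : D →* G) (H : Subgroup G) (g : G) : dcRel φ H g g :=
  ⟨1, 1, H.one_mem, by simp⟩

theorem dcRel_symm (φ : D →* G) (H : Subgroup G) {g g' : G} (h : dcRel φ H g g') :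
    dcRel φ H g' g := by
  obtain ⟨d, h, hh, rfl⟩ := h
  refine ⟨d⁻¹, h⁻¹, H.inv_mem hh, ?_⟩
  rw [map_inv]
  group

theorem dcRel_trans (φ : D →* G) (H : Subgroup G) {g g' g'' : G} (h1 : dcRel φ H g g')
    (h2 : dcRel φ H g' g'') : dcRel φ H g g'' := by
  obtain ⟨d, h, hh, rfl⟩ := h1
  obtain ⟨d', h', hh', rfl⟩ := h2
  refine ⟨d' * d, h * h', H.mul_mem hh hh', ?_⟩
  rw [map_mul]
  group

/-- The double coset setoid on `G`. -/
def dcSetoid (φ : D →* G) (H : Subgroup G) : Setoid G where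
  r := dcRel φ H
  iseqv := ⟨dcRel_refl φ H, dcRel_symm φ H, dcRel_trans φ H⟩

/-- The chosen representative of the double coset of `g`. -/
noncomputable def dcRep (φ : D →* G) (H : Subgroup G) (g : G) : G :=
  (Quotient.mk (dcSetoid φ H) g).out

theorem dcRel_dcRep (φ : D →* G) (H : Subgroup G) (g : G) : dcRel φ H (dcRep φ H g) g :=
  Quotient.exact (s := dcSetoid φ H) (Quotient.out_eq _)

theorem dcRep_eq_of_dcRel (φ : D →* G) (H : Subgroup G) {g g' : G} (h : dcRel φ H g g') :
    dcRep φ H g = dcRep φ H g' := by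
  unfold dcRep
  rw [Quotient.sound (s := dcSetoid φ H) h]

theorem dcRep_dcRep (φ : D →* G) (H : Subgroup G) (g : G) :
    dcRep φ H (dcRep φ H g) = dcRep φ H g :=
  dcRep_eq_of_dcRel φ H (dcRel_dcRep φ H g)

/-- **Assembly over double cosets.**  If `f` lies in the coinduced module, is `H`-invariant, and for
every double coset representative `g` one has `f g = p • w` with `w` fixed by the stabiliser
`{d | φ d * g ∈ g H}`, then `f = p • z` with `z` in the coinduced module and `H`-invariant. -/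
theorem exists_coind_smul_eq (φ : D →* G) (ρ : Representation k D A) (H : Subgroup G) (p : ℕ)
    (f : G → A) (hf : f ∈ coindV φ ρ) (hfH : ∀ g, ∀ h ∈ H, f (g * h) = f g)
    (hloc : ∀ g, dcRep φ H g = g →
      ∃ w : A, p • w = f g ∧ ∀ d : D, (∃ h ∈ H, φ d * g = g * h) → ρ d w = w) :
    ∃ z : G → A, z ∈ coindV φ ρ ∧ (∀ g, ∀ h ∈ H, z (g * h) = z g) ∧ ∀ g, f g = p • z g := by
  classical
  have hloc' : ∀ r : G, ∃ w : A, dcRep φ H r = r →
      (p • w = f r ∧ ∀ d : D, (∃ h ∈ H, φ d * r = r * h) → ρ d w = w) := by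
    intro r
    by_cases hr : dcRep φ H r = r
    · obtain ⟨w, hw⟩ := hloc r hr
      exact ⟨w, fun _ => hw⟩
    · exact ⟨0, fun h => absurd h hr⟩
  choose w hw using hloc'
  have hdec : ∀ g, ∃ d : D, ∃ h ∈ H, g = φ d * dcRep φ H g * h := fun g => dcRel_dcRep φ H g
  choose dd hh hhH hg using hdec
  -- key: two decompositions of the same element with the same representative
  have key : ∀ (r : G), dcRep φ H r = r → ∀ (d₁ d₂ : D) (h₁ h₂ : G), h₁ ∈ H → h₂ ∈ H →
      φ d₁ * r * h₁ = φ d₂ * r * h₂ → ρ d₁ (w r) = ρ d₂ (w r) := by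
    intro r hr d₁ d₂ h₁ h₂ hh₁ hh₂ heq
    have hfix : ρ (d₂⁻¹ * d₁) (w r) = w r := by
      apply (hw r hr).2
      refine ⟨h₂ * h₁⁻¹, H.mul_mem hh₂ (H.inv_mem hh₁), ?_⟩
      rw [map_mul, map_inv]
      have : φ d₁ * r = φ d₂ * r * h₂ * h₁⁻¹ := by
        rw [← heq]; group
      rw [mul_assoc, this]
      group
    have : ρ d₁ (w r) = ρ d₂ (ρ (d₂⁻¹ * d₁) (w r)) := by
      rw [← Module.End.mul_apply, ← map_mul]
      congr 2
      group
    rw [this, hfix]
  refine ⟨fun g => ρ (dd g) (w (dcRep φ H g)), ?_, ?_, ?_⟩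
  · -- coinduced
    intro d g
    have hrep : dcRep φ H (φ d * g) = dcRep φ H g :=
      (dcRep_eq_of_dcRel φ H ⟨d, 1, H.one_mem, by simp⟩).symm
    change ρ (dd (φ d * g)) (w (dcRep φ H (φ d * g))) = ρ d (ρ (dd g) (w (dcRep φ H g)))
    rw [hrep, ← Module.End.mul_apply, ← map_mul]
    apply key (dcRep φ H g) (dcRep_dcRep φ H g) _ _ (hh (φ d * g)) (hh g) (hhH _) (hhH _)
    have h1 := hg (φ d * g)
    rw [hrep] at h1
    rw [← h1, map_mul, mul_assoc, mul_assoc, ← mul_assoc (φ (dd g)), ← hg g]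
  · -- `H`-invariant
    intro g h hhmem
    have hrep : dcRep φ H (g * h) = dcRep φ H g :=
      (dcRep_eq_of_dcRel φ H ⟨1, h, hhmem, by simp⟩).symm
    change ρ (dd (g * h)) (w (dcRep φ H (g * h))) = ρ (dd g) (w (dcRep φ H g))
    rw [hrep]
    apply key (dcRep φ H g) (dcRep_dcRep φ H g) _ _ (hh (g * h)) (hh g * h) (hhH _)
      (H.mul_mem (hhH _) hhmem)
    have h1 := hg (g * h)
    rw [hrep] at h1
    rw [← h1, ← mul_assoc, ← hg g]
  · intro g
    change f g = p • ρ (dd g) (w (dcRep φ H g))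
    rw [← map_nsmul, (hw _ (dcRep_dcRep φ H g)).1]
    conv_lhs => rw [hg g]
    rw [hfH _ _ (hhH g)]
    exact hf (dd g) (dcRep φ H g)

end Fermat.Agent.GC.Global.Adapter
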