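/-
GATE-C / C4 adapter leaf AD3, brick (A) (helper4): density of a number field in its completions,
in the `PadicAlgCl` model.

For a field `K` (in use: a number field) and a ring homomorphism `σ : K →+* PadicAlgCl q`, the local
field `K_σ := ℚ_q(σ K) ⊂ PadicAlgCl q` is the `ℚ_q`-span of `σ K`, and `σ K` is dense in it:
every `z ∈ K_σ` is approximated by `σ x`, `x ∈ K`, additively and (for `z ≠ 0`) multiplicatively.
-/
import Mathlib

set_option autoImplicit false

open scoped Padic

noncomputable section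

namespace Fermat.Agent.GC.Global.Adapter

variable (q : ℕ) [Fact q.Prime] {K : Type*} [Field K] (σ : K →+* PadicAlgCl q)

/-- The completion of `K` along `σ`, as a subfield of `PadicAlgCl q`: `K_σ = ℚ_q(σ K)`. -/
def sigField : IntermediateField ℚ_[q] (PadicAlgCl q) :=
  IntermediateField.adjoin ℚ_[q] (Set.range σ)

theorem map_mem_sigField (x : K) : σ x ∈ sigField q σ :=
  IntermediateField.subset_adjoin _ _ ⟨x, rfl⟩

/-- `K_σ` is the `ℚ_q`-span of `σ K`. -/
theorem coe_span_range_eq_sigField :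
    ((Submodule.span ℚ_[q] (Set.range σ) : Submodule ℚ_[q] (PadicAlgCl q)) : Set (PadicAlgCl q))
      = (sigField q σ : Set (PadicAlgCl q)) := by
  have halg : ∀ x ∈ Set.range σ, IsAlgebraic ℚ_[q] x := fun x _ =>
    Algebra.IsAlgebraic.isAlgebraic x
  have h1 : (sigField q σ).toSubalgebra = Algebra.adjoin ℚ_[q] (Set.range σ) :=
    IntermediateField.adjoin_toSubalgebra_of_isAlgebraic halg
  have h2 : Subalgebra.toSubmodule (Algebra.adjoin ℚ_[q] (Set.range σ))
      = Submodule.span ℚ_[q] (Set.range σ) := by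
    rw [Algebra.adjoin_eq_span]
    congr 1
    have : (Submonoid.closure (Set.range σ) : Set (PadicAlgCl q)) = Set.range σ := by
      have hr : Set.range σ = ((σ.rangeS.toSubmonoid : Submonoid (PadicAlgCl q)) : Set _) := by
        ext x
        exact Iff.rfl
      rw [hr, Submonoid.closure_eq]
    exact this
  ext z
  rw [SetLike.mem_coe, SetLike.mem_coe, ← h2, Subalgebra.mem_toSubmodule, ← h1]
  rfl

theorem mem_span_range_iff (z : PadicAlgCl q) :
    z ∈ Submodule.span ℚ_[q] (Set.range σ) ↔ z ∈ sigField q σ := by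
  have := coe_span_range_eq_sigField q σ
  exact Set.ext_iff.1 this z

/-- `σ` is `ℚ`-linear for the `ℚ_q`-scalar action. -/
theorem map_ratCast_smul_eq (r : ℚ) (x : K) [CharZero K] :
    σ ((r : K) * x) = (r : ℚ_[q]) • σ x := by
  rw [map_mul, map_ratCast, Algebra.smul_def, map_ratCast]

/-- **Density** (additive form): `σ K` is dense in `K_σ`. -/
theorem exists_norm_sub_map_lt [CharZero K] {z : PadicAlgCl q} (hz : z ∈ sigField q σ)
    {ε : ℝ} (hε : 0 < ε) : ∃ x : K, ‖z - σ x‖ < ε := by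
  rw [← mem_span_range_iff] at hz
  revert ε
  induction hz using Submodule.span_induction with
  | mem z hz =>
    intro ε hε
    obtain ⟨x, rfl⟩ := hz
    exact ⟨x, by simpa using hε⟩
  | zero =>
    intro ε hε
    exact ⟨0, by simpa using hε⟩
  | add z w _ _ ihz ihw =>
    intro ε hε
    obtain ⟨x, hx⟩ := ihz (half_pos hε)
    obtain ⟨y, hy⟩ := ihw (half_pos hε)
    refine ⟨x + y, ?_⟩
    have : z + w - σ (x + y) = (z - σ x) + (w - σ y) := by rw [map_add]; ring
    rw [this]
    calc ‖(z - σ x) + (w - σ y)‖ ≤ ‖z - σ x‖ + ‖w - σ y‖ := norm_add_le _ _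
      _ < ε / 2 + ε / 2 := add_lt_add hx hy
      _ = ε := add_halves ε
  | smul a z _ ihz =>
    intro ε hε
    have h1 : 0 < ε / (2 * (‖a‖ + 1)) := by positivity
    obtain ⟨x, hx⟩ := ihz h1
    have h2 : 0 < ε / (2 * (‖σ x‖ + 1)) := by positivity
    obtain ⟨r, hr⟩ := Padic.rat_dense q a h2
    refine ⟨(r : K) * x, ?_⟩
    rw [map_ratCast_smul_eq]
    have : a • z - (r : ℚ_[q]) • σ x = a • (z - σ x) + (a - (r : ℚ_[q])) • σ x := by
      rw [smul_sub, sub_smul]; abel
    rw [this]
    have e1 : ‖a • (z - σ x)‖ ≤ ε / 2 := by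
      rw [norm_smul]
      calc ‖a‖ * ‖z - σ x‖ ≤ ‖a‖ * (ε / (2 * (‖a‖ + 1))) :=
            mul_le_mul_of_nonneg_left hx.le (norm_nonneg _)
        _ = (‖a‖ / (‖a‖ + 1)) * (ε / 2) := by
            have : ‖a‖ + 1 ≠ 0 := by positivity
            field_simp
        _ ≤ 1 * (ε / 2) := by
            apply mul_le_mul_of_nonneg_right _ (by positivity)
            rw [div_le_one (by positivity)]
            linarith
        _ = ε / 2 := one_mul _
    have e2 : ‖(a - (r : ℚ_[q])) • σ x‖ < ε / 2 := by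
      rw [norm_smul]
      calc ‖a - (r : ℚ_[q])‖ * ‖σ x‖ ≤ (ε / (2 * (‖σ x‖ + 1))) * ‖σ x‖ :=
            mul_le_mul_of_nonneg_right hr.le (norm_nonneg _)
        _ = (‖σ x‖ / (‖σ x‖ + 1)) * (ε / 2) := by
            have : ‖σ x‖ + 1 ≠ 0 := by positivity
            field_simp
        _ < 1 * (ε / 2) := by
            apply mul_lt_mul_of_pos_right _ (by positivity)
            rw [div_lt_one (by positivity)]
            linarith
        _ = ε / 2 := one_mul _
    calc ‖a • (z - σ x) + (a - (r : ℚ_[q])) • σ x‖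
        ≤ ‖a • (z - σ x)‖ + ‖(a - (r : ℚ_[q])) • σ x‖ := norm_add_le _ _
      _ < ε / 2 + ε / 2 := add_lt_add_of_le_of_lt e1 e2
      _ = ε := add_halves ε

/-- **Density** (multiplicative form): every nonzero `z ∈ K_σ` is `σ x` times an element
arbitrarily close to `1`. -/
theorem exists_norm_div_map_sub_one_lt [CharZero K] {z : PadicAlgCl q} (hz : z ∈ sigField q σ)
    (hz0 : z ≠ 0) {ε : ℝ} (hε : 0 < ε) :
    ∃ x : K, x ≠ 0 ∧ ‖z‖ = ‖σ x‖ ∧ ‖z / σ x - 1‖ < ε := by
  have hzpos : 0 < ‖z‖ := norm_pos_iff.2 hz0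
  have hδ : 0 < min ε 1 * ‖z‖ := by positivity
  obtain ⟨x, hx⟩ := exists_norm_sub_map_lt q σ hz hδ
  have hlt : ‖z - σ x‖ < ‖z‖ := by
    calc ‖z - σ x‖ < min ε 1 * ‖z‖ := hx
      _ ≤ 1 * ‖z‖ := mul_le_mul_of_nonneg_right (min_le_right _ _) hzpos.le
      _ = ‖z‖ := one_mul _
  have hnorm : ‖σ x‖ = ‖z‖ := by
    have h1 : σ x = z + -(z - σ x) := by ring
    have h2 : ‖z‖ ≠ ‖-(z - σ x)‖ := by rw [norm_neg]; exact hlt.ne'
    rw [h1, IsUltrametricDist.norm_add_eq_max_of_norm_ne_norm h2, norm_neg, max_eq_left hlt.le]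
  have hσx0 : σ x ≠ 0 := by
    rw [← norm_pos_iff, hnorm]; exact hzpos
  have hx0 : x ≠ 0 := by
    rintro rfl
    exact hσx0 (map_zero σ)
  refine ⟨x, hx0, hnorm.symm, ?_⟩
  have h3 : z / σ x - 1 = (z - σ x) / σ x := by
    field_simp
  rw [h3, norm_div, hnorm, div_lt_iff₀ hzpos]
  calc ‖z - σ x‖ < min ε 1 * ‖z‖ := hx
    _ ≤ ε * ‖z‖ := mul_le_mul_of_nonneg_right (min_le_left _ _) hzpos.le

/-- `K_σ` is a finite extension of `ℚ_q` when `K` is a number field. -/
theorem finiteDimensional_sigField [Algebra ℚ K] [FiniteDimensional ℚ K] :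
    FiniteDimensional ℚ_[q] (sigField q σ) := by
  classical
  let b := Module.finBasis ℚ K
  have hfin : (Set.range fun i => σ (b i)).Finite := Set.finite_range _
  have hS : ∀ x ∈ (Set.range fun i => σ (b i)), IsIntegral ℚ_[q] x := fun x _ =>
    Algebra.IsIntegral.isIntegral x
  have : Finite (Set.range fun i => σ (b i)) := hfin.to_subtype
  have hfd := IntermediateField.finiteDimensional_adjoin (K := ℚ_[q]) hS
  have heq : sigField q σ = IntermediateField.adjoin ℚ_[q] (Set.range fun i => σ (b i)) := by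
    apply le_antisymm
    · rw [sigField, IntermediateField.adjoin_le_iff]
      rintro _ ⟨x, rfl⟩
      have hx : x = ∑ i, (b.repr x i) • b i := (b.sum_repr x).symm
      rw [hx, map_sum]
      refine sum_mem fun i _ => ?_
      rw [Algebra.smul_def, map_mul]
      refine mul_mem ?_ (IntermediateField.subset_adjoin _ _ ⟨i, rfl⟩)
      rw [eq_ratCast, map_ratCast]
      have : ((b.repr x i : ℚ) : PadicAlgCl q) = algebraMap ℚ_[q] (PadicAlgCl q) ((b.repr x i : ℚ) : ℚ_[q]) := by
        rw [map_ratCast]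
      rw [this]
      exact IntermediateField.algebraMap_mem _ _
    · apply IntermediateField.adjoin.mono
      rintro _ ⟨i, rfl⟩
      exact ⟨b i, rfl⟩
  rw [heq]
  exact hfd

end Fermat.Agent.GC.Global.Adapter
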