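/-
GATE-C / C4 adapter leaf AD3, brick (C) (helper4): weak approximation in the completions.

`K` a number field, `(σ i : K →+* PadicAlgCl (q i))` finitely many embeddings with pairwise distinct
places `placeOf (q i) (σ i)` (helper11's AD1 dictionary).  Then every family of nonzero targets
`t i ∈ K_{σ i} = ℚ_{q i}(σ i K)` is simultaneously approximated multiplicatively by one `x ∈ Kˣ`:
`‖t i / σ i x - 1‖ < ε`.  (Density of `σ K` in `K_σ` + T14's `exists_approx` + the dictionary.)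
-/
import Fermat.Agent.GC.Global.Adapter.Dense
import Fermat.Agent.GC.Global.Adapter.ValDict
import Fermat.Agent.S14.SI.Approx

set_option autoImplicit false

open scoped Padic NumberField
open IsDedekindDomain NumberField

noncomputable section

namespace Fermat.Agent.GC.Global.Adapter

open Fermat.Agent.S14.SI

section Dict

variable (q : ℕ) [Fact q.Prime] {K : Type*} [Field K] [NumberField K] (σ : K →+* PadicAlgCl q)

/-- The dictionary for multiplicative congruences: `x ≡ 1 mod v^n` at `v = placeOf q σ` implies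
`‖σ x - 1‖ ≤ c ^ n`. -/
theorem norm_map_sub_one_le_of_oneModPow {n : ℕ} {x : Kˣ}
    (h : OneModPow (placeOf q σ).asIdeal n x) : ‖σ (x : K) - 1‖ ≤ placeConst q σ ^ n := by
  obtain ⟨a, b, _, hb, hab, hx⟩ := h
  have hb1 : ‖σ (b : K)‖ = 1 := norm_eq_one_of_notMem q σ hb
  have hb0 : σ (b : K) ≠ 0 := by
    rw [← norm_pos_iff, hb1]; exact one_pos
  have h1 : σ (x : K) - 1 = σ ((a - b : 𝓞 K) : K) / σ (b : K) := by
    rw [eq_div_iff hb0, sub_mul, one_mul, ← map_mul, hx]
    simp
  rw [h1, norm_div, hb1, div_one]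
  exact (norm_le_placeConst_pow_iff q σ).2 hab

end Dict

/-- **Weak approximation in the completions** (multiplicative form, one precision per place). -/
theorem exists_global_approx {K : Type*} [Field K] [NumberField K] {I : Type*} [Finite I]
    (q : I → ℕ) [∀ i, Fact (q i).Prime] (σ : ∀ i, K →+* PadicAlgCl (q i))
    (hinj : Function.Injective fun i => placeOf (q i) (σ i))
    (t : ∀ i, PadicAlgCl (q i)) (ht : ∀ i, t i ∈ sigField (q i) (σ i)) (ht0 : ∀ i, t i ≠ 0)
    (ε : I → ℝ) (hε : ∀ i, 0 < ε i) : ∃ x : Kˣ, ∀ i, ‖t i / σ i (x : K) - 1‖ < ε i := by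
  classical
  have : Fintype I := Fintype.ofFinite I
  set ε' : I → ℝ := fun i => min (ε i) 1 with hε'
  have hε'pos : ∀ i, 0 < ε' i := fun i => lt_min (hε i) one_pos
  have hε'1 : ∀ i, ε' i ≤ 1 := fun i => min_le_right _ _
  have hε'ε : ∀ i, ε' i ≤ ε i := fun i => min_le_left _ _
  -- local approximations
  have hloc : ∀ i, ∃ a : K, a ≠ 0 ∧ ‖t i / σ i a - 1‖ < ε' i := fun i => by
    obtain ⟨a, ha0, _, ha⟩ := exists_norm_div_map_sub_one_lt (q i) (σ i) (ht i) (ht0 i) (hε'pos i)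
    exact ⟨a, ha0, ha⟩
  choose a ha0 ha using hloc
  have hn : ∀ i, ∃ n : ℕ, placeConst (q i) (σ i) ^ n < ε' i := fun i =>
    exists_pow_lt_of_lt_one (hε'pos i) (placeConst_lt_one (q i) (σ i))
  choose n hn using hn
  -- the global data indexed by places
  let pl : I → HeightOneSpectrum (𝓞 K) := fun i => placeOf (q i) (σ i)
  let S : Finset (HeightOneSpectrum (𝓞 K)) := Finset.univ.image pl
  let X : HeightOneSpectrum (𝓞 K) → Kˣ := fun v =>
    if h : ∃ i, pl i = v then Units.mk0 (a h.choose) (ha0 _) else 1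
  let Nn : HeightOneSpectrum (𝓞 K) → ℕ := fun v =>
    if h : ∃ i, pl i = v then n h.choose else 0
  have hchoose : ∀ i, ∀ h : ∃ j, pl j = pl i, h.choose = i := fun i h => hinj h.choose_spec
  have hX : ∀ i, X (pl i) = Units.mk0 (a i) (ha0 i) := by
    intro i
    have h : ∃ j, pl j = pl i := ⟨i, rfl⟩
    simp only [X, dif_pos h]
    congr 1
    · rw [hchoose i h]
  have hN : ∀ i, Nn (pl i) = n i := by
    intro i
    have h : ∃ j, pl j = pl i := ⟨i, rfl⟩
    simp only [Nn, dif_pos h]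
    rw [hchoose i h]
  obtain ⟨y, hy⟩ := exists_approx S X Nn
  refine ⟨y, fun i => ?_⟩
  have h1 := hy (pl i) (Finset.mem_image_of_mem _ (Finset.mem_univ i))
  rw [hX, hN] at h1
  have h2 := norm_map_sub_one_le_of_oneModPow (q i) (σ i) h1
  -- `α = t/σ a - 1`, `β = σ y/σ a - 1`
  have hσa0 : σ i (a i) ≠ 0 := by
    rw [Ne, map_eq_zero]; exact ha0 i
  have hσy0 : σ i (y : K) ≠ 0 := by
    rw [Ne, map_eq_zero]; exact y.ne_zero
  set α := t i / σ i (a i) - 1 with hα
  set β := σ i ((y / Units.mk0 (a i) (ha0 i) : Kˣ) : K) - 1 with hβ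
  have hβval : β = σ i (y : K) / σ i (a i) - 1 := by
    rw [hβ]
    congr 1
    rw [Units.val_div_eq_div_val, map_div₀]
    rfl
  have hαlt : ‖α‖ < ε' i := ha i
  have hβlt : ‖β‖ < ε' i := lt_of_le_of_lt h2 (hn i)
  have h1β : ‖1 + β‖ = 1 := by
    have hne : ‖(1 : PadicAlgCl (q i))‖ ≠ ‖β‖ := by
      rw [norm_one]; exact (lt_of_lt_of_le hβlt (hε'1 i)).ne'
    rw [IsUltrametricDist.norm_add_eq_max_of_norm_ne_norm hne, norm_one,
      max_eq_left (lt_of_lt_of_le hβlt (hε'1 i)).le]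
  have h1β0 : 1 + β ≠ 0 := by
    rw [← norm_pos_iff, h1β]; exact one_pos
  have hkey : t i / σ i (y : K) - 1 = (α - β) / (1 + β) := by
    rw [eq_div_iff h1β0, hα, hβval]
    field_simp
    ring
  rw [hkey, norm_div, h1β, div_one]
  calc ‖α - β‖ = ‖α + -β‖ := by rw [sub_eq_add_neg]
    _ ≤ max ‖α‖ ‖-β‖ := IsUltrametricDist.norm_add_le_max _ _
    _ = max ‖α‖ ‖β‖ := by rw [norm_neg]
    _ < ε' i := max_lt hαlt hβlt
    _ ≤ ε i := hε'ε i

end Fermat.Agent.GC.Global.Adapter
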