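/-
GATE-C / C4 adapter leaf AD3 (helper4): weak approximation modulo `p`-th powers, (h3) of
helper51's engine `index_dvd_of_model`:

  every `H`-invariant `T`-idele `y ∈ J(L,T)^H` is `diag x + p • z` with `x ∈ Kˣ`, `K = L^H`,
  and `z ∈ J(L,T)^H`.

Inputs kept as hypotheses (owners): the local `p`-th power criterion (helper60, AD4-loc), the
description of the invariants `y(g) ∈ K_{ι∘g}` (helper14, AD2), and "same place ⇒ same double
coset" (helper11, AD1 INJ).
-/
import Fermat.Agent.GC.Global.ClassModule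
import Fermat.Agent.GC.Global.Adapter.CoindAssembly
import Fermat.Agent.GC.Global.Adapter.GlobalApprox

set_option autoImplicit false
set_option linter.unusedSectionVars false

open scoped Padic NumberField
open IsDedekindDomain NumberField

noncomputable section

namespace Fermat.Agent.GC.Global.Adapter

open Fermat.Agent.GC.Global

/-- Two embeddings into `ℚ̄_q`, `ℚ̄_q'` defining the same place have the same residue
characteristic. -/
theorem prime_eq_of_placeOf_eq {K : Type*} [Field K] [NumberField K] (q q' : ℕ) [Fact q.Prime]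
    [Fact q'.Prime] (σ : K →+* PadicAlgCl q) (σ' : K →+* PadicAlgCl q')
    (h : placeOf q σ = placeOf q' σ') : q = q' := by
  by_contra hne
  have hq : q.Prime := Fact.out
  have hq' : q'.Prime := Fact.out
  have hcop : Nat.Coprime q q' := (Nat.coprime_primes hq hq').2 hne
  have h1 : (q : 𝓞 K) ∈ (placeOf q σ).asIdeal := natCast_q_mem_placeIdeal q σ
  have h2 : (q' : 𝓞 K) ∈ (placeOf q σ).asIdeal := by
    rw [h]; exact natCast_q_mem_placeIdeal q' σ'
  have h3 : ((Nat.gcd q q' : ℕ) : 𝓞 K) ∈ (placeOf q σ).asIdeal := by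
    have hb := Nat.gcd_eq_gcd_ab q q'
    have : ((Nat.gcd q q' : ℕ) : 𝓞 K) = (q : 𝓞 K) * ((Nat.gcdA q q' : ℤ) : 𝓞 K)
        + (q' : 𝓞 K) * ((Nat.gcdB q q' : ℤ) : 𝓞 K) := by
      have := congrArg (fun z : ℤ => (z : 𝓞 K)) hb
      push_cast at this
      exact this
    rw [this]
    exact Ideal.add_mem _ (Ideal.mul_mem_right _ _ h1) (Ideal.mul_mem_right _ _ h2)
  rw [hcop, Nat.cast_one] at h3
  exact (placeOf q σ).isPrime.ne_top ((Ideal.eq_top_iff_one _).2 h3)

variable (L : IntermediateField ℚ Qb) [Normal ℚ L] [FiniteDimensional ℚ L]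
  (H : Subgroup (L ≃ₐ[ℚ] L))

/-- The layer `L` is a number field. -/
instance numberFieldLayer : NumberField L := ⟨⟩

/-- `K = L^H`. -/
abbrev fixK : IntermediateField ℚ L := IntermediateField.fixedField H

instance numberFieldFixK : NumberField (fixK L H) := ⟨⟩

variable (q : ℕ) [Fact q.Prime]

/-- `σ_g : K → ℚ̄_q`, `x ↦ ι (g x)`. -/
def embK (g : L ≃ₐ[ℚ] L) : fixK L H →+* PadicAlgCl q :=
  (padicEmbedding q : Qb →+* PadicAlgCl q).comp
    ((L.val : L →+* Qb).comp ((g : L →+* L).comp ((fixK L H).val : fixK L H →+* L)))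

theorem embK_apply (g : L ≃ₐ[ℚ] L) (x : fixK L H) :
    embK L H q g x = padicEmbedding q ((g (x : L) : L) : Qb) := rfl

theorem sigField_embK_le (g : L ≃ₐ[ℚ] L) : sigField q (embK L H q g) ≤ locField q L := by
  rw [sigField, IntermediateField.adjoin_le_iff]
  rintro _ ⟨x, rfl⟩
  exact padicEmbedding_mem_locField q L (g (x : L))

/-- An element of the stabiliser `{d | dec d * g ∈ g H}` fixes `K_{ι∘g}` pointwise. -/
theorem apply_eq_of_mem_sigField (g : L ≃ₐ[ℚ] L) (d : locField q L ≃ₐ[ℚ_[q]] locField q L)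
    (hd : ∃ h ∈ H, decHom q L d * g = g * h) {w : PadicAlgCl q}
    (hw : w ∈ sigField q (embK L H q g)) (hwL : w ∈ locField q L) :
    d ⟨w, hwL⟩ = ⟨w, hwL⟩ := by
  obtain ⟨h, hh, hdg⟩ := hd
  -- the fixed field of `d`, lifted to `ℚ̄_q`
  let F : IntermediateField ℚ_[q] (PadicAlgCl q) :=
    IntermediateField.lift (IntermediateField.fixedField (Subgroup.zpowers d))
  have hF : ∀ z (hz : z ∈ locField q L), d ⟨z, hz⟩ = ⟨z, hz⟩ → z ∈ F := by
    intro z hz hfix
    rw [IntermediateField.mem_lift ⟨z, hz⟩, IntermediateField.mem_fixedField_iff]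
    intro τ hτ
    obtain ⟨n, rfl⟩ := Subgroup.mem_zpowers_iff.1 hτ
    have : ∀ m : ℕ, (d ^ m) ⟨z, hz⟩ = ⟨z, hz⟩ := by
      intro m
      induction m with
      | zero => simp
      | succ m ih => rw [pow_succ, AlgEquiv.mul_apply, hfix, ih]
    have hinv : d⁻¹ ⟨z, hz⟩ = ⟨z, hz⟩ := by
      rw [AlgEquiv.aut_inv, AlgEquiv.symm_apply_eq, hfix]
    have hinv' : ∀ m : ℕ, (d⁻¹ ^ m) ⟨z, hz⟩ = ⟨z, hz⟩ := by
      intro m
      induction m with
      | zero => simp
      | succ m ih => rw [pow_succ, AlgEquiv.mul_apply, hinv, ih]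
    cases n with
    | ofNat m => simpa using this m
    | negSucc m =>
      rw [zpow_negSucc, ← inv_pow]
      exact hinv' (m + 1)
  have hle : sigField q (embK L H q g) ≤ F := by
    rw [sigField, IntermediateField.adjoin_le_iff]
    rintro _ ⟨x, rfl⟩
    apply hF _ (padicEmbedding_mem_locField q L (g (x : L)))
    -- `d (ι (g x)) = ι (dec d (g x)) = ι (g (h x)) = ι (g x)`
    have h1 := locEmb_decHom q L d (g (x : L))
    have h2 : decHom q L d (g (x : L)) = g (h (x : L)) := by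
      have := congrArg (fun τ : L ≃ₐ[ℚ] L => τ (x : L)) hdg
      simpa [AlgEquiv.mul_apply] using this
    have h3 : h (x : L) = x := by
      have := (IntermediateField.mem_fixedField_iff H (x : L)).1 x.2 h hh
      exact this
    rw [h2, h3] at h1
    exact h1.symm
  have hwF := hle hw
  rw [IntermediateField.mem_lift ⟨w, hwL⟩, IntermediateField.mem_fixedField_iff] at hwF
  exact hwF d (Subgroup.mem_zpowers d)

/-- The value of a `q`-idele at `g`, as an element of `ℚ̄_q`. -/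
def jfun (Q : Nat.Primes) (f : JqCarrier L Q) : (L ≃ₐ[ℚ] L) → Additive (locField (Q : ℕ) L)ˣ :=
  f.1

theorem jfun_mem (Q : Nat.Primes) (f : JqCarrier L Q) :
    jfun L Q f ∈ Representation.coindV (decHom (Q : ℕ) L) (locUnits (Q : ℕ) L).ρ := f.2

/-- The value of a `q`-idele at `g`, as a unit of `L_q`. -/
def junit (Q : Nat.Primes) (f : JqCarrier L Q) (g : L ≃ₐ[ℚ] L) : (locField (Q : ℕ) L)ˣ :=
  Additive.toMul (jfun L Q f g)

/-- The value of a `q`-idele at `g`, as an element of `ℚ̄_q`. -/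
def jval (Q : Nat.Primes) (f : JqCarrier L Q) (g : L ≃ₐ[ℚ] L) : PadicAlgCl (Q : ℕ) :=
  ((junit L Q f g : (locField (Q : ℕ) L)ˣ) : locField (Q : ℕ) L)

theorem jval_ne_zero (Q : Nat.Primes) (f : JqCarrier L Q) (g : L ≃ₐ[ℚ] L) : jval L Q f g ≠ 0 := by
  unfold jval
  intro h
  have h' : ((junit L Q f g : (locField (Q : ℕ) L)ˣ) : locField (Q : ℕ) L) = 0 := by
    exact_mod_cast h
  exact (Units.ne_zero _) h'

theorem jval_mem_locField (Q : Nat.Primes) (f : JqCarrier L Q) (g : L ≃ₐ[ℚ] L) :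
    jval L Q f g ∈ locField (Q : ℕ) L :=
  ((junit L Q f g : (locField (Q : ℕ) L)ˣ) : locField (Q : ℕ) L).2

variable (T : Finset Nat.Primes)

/-- **(h3), weak approximation modulo `p`-th powers**: every `H`-invariant `T`-idele of `L` is the
diagonal image of some `x ∈ Kˣ`, `K = L^H`, times the `p`-th power of an `H`-invariant `T`-idele. -/
theorem approx_h3 (p : ℕ) (hp : p ≠ 0)
    (hpow : ∀ (Q : T) (g : L ≃ₐ[ℚ] L), ∃ δ : ℝ, 0 < δ ∧
      ∀ u ∈ sigField (Q.1 : ℕ) (embK L H (Q.1 : ℕ) g), ‖u - 1‖ < δ →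
        ∃ w ∈ sigField (Q.1 : ℕ) (embK L H (Q.1 : ℕ) g), w ^ p = u)
    (hmem : ∀ (Q : T) (f : JqCarrier L Q.1), (∀ h ∈ H, JqRep L Q.1 h f = f) → ∀ g,
      jval L Q.1 f g ∈ sigField (Q.1 : ℕ) (embK L H (Q.1 : ℕ) g))
    (hinj : ∀ (Q : T) (g g' : L ≃ₐ[ℚ] L),
      placeOf (Q.1 : ℕ) (embK L H (Q.1 : ℕ) g) = placeOf (Q.1 : ℕ) (embK L H (Q.1 : ℕ) g') →
        dcRel (decHom (Q.1 : ℕ) L) H g g')
    (y : ∀ Q : T, JqCarrier L Q.1) (hy : ∀ (Q : T), ∀ h ∈ H, JqRep L Q.1 h (y Q) = y Q) :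
    ∃ x₀ : (fixK L H)ˣ, ∃ z : ∀ Q : T, JqCarrier L Q.1,
      (∀ (Q : T), ∀ h ∈ H, JqRep L Q.1 h (z Q) = z Q) ∧
      ∀ Q : T, y Q = diagqLin L Q.1
        (Additive.ofMul (Units.map ((fixK L H).val : fixK L H →* L) x₀)) + p • z Q := by
  classical
  -- the index set: pairs (prime, double coset representative)
  let I := Σ Q : T, {r : L ≃ₐ[ℚ] L // dcRep (decHom (Q.1 : ℕ) L) H r = r}
  let qI : I → ℕ := fun i => (i.1.1 : ℕ)
  have hfact : ∀ i : I, Fact (qI i).Prime := fun i => factNatPrimes i.1.1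
  let σI : ∀ i : I, fixK L H →+* PadicAlgCl (qI i) := fun i => embK L H (qI i) i.2.1
  have hinjI : Function.Injective fun i : I => placeOf (qI i) (σI i) := by
    rintro ⟨Q, r, hr⟩ ⟨Q', r', hr'⟩ hpl
    have hqq : (Q.1 : ℕ) = (Q'.1 : ℕ) := prime_eq_of_placeOf_eq _ _ _ _ hpl
    have hQQ : Q = Q' := Subtype.ext (Subtype.ext hqq)
    subst hQQ
    have hrel := hinj Q r r' hpl
    have : r = r' := by
      rw [← hr, ← hr']
      exact dcRep_eq_of_dcRel _ H hrel
    subst this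
    rfl
  let tI : ∀ i : I, PadicAlgCl (qI i) := fun i => jval L i.1.1 (y i.1) i.2.1
  have htI : ∀ i, tI i ∈ sigField (qI i) (σI i) := fun i => hmem i.1 (y i.1) (hy i.1) i.2.1
  have htI0 : ∀ i, tI i ≠ 0 := fun i => jval_ne_zero L i.1.1 (y i.1) i.2.1
  choose δ hδpos hδ using hpow
  obtain ⟨x₀, hx₀⟩ := exists_global_approx qI σI hinjI tI htI htI0 (fun i => δ i.1 i.2.1)
    (fun i => hδpos i.1 i.2.1)
  -- the global element
  let x : Lˣ := Units.map ((fixK L H).val : fixK L H →* L) x₀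
  have hxval : (x : L) = ((x₀ : fixK L H) : L) := rfl
  have hxH : ∀ h ∈ H, h (x : L) = x := fun h hh =>
    (IntermediateField.mem_fixedField_iff H (x : L)).1 (x₀ : fixK L H).2 h hh
  refine ⟨x₀, ?_⟩
  -- componentwise assembly
  have hcomp : ∀ Q : T, ∃ z : (L ≃ₐ[ℚ] L) → Additive (locField (Q.1 : ℕ) L)ˣ,
      z ∈ Representation.coindV (decHom (Q.1 : ℕ) L) (locUnits (Q.1 : ℕ) L).ρ ∧
      (∀ g, ∀ h ∈ H, z (g * h) = z g) ∧
      ∀ g, jfun L Q.1 (y Q) g - diagqFun (Q.1 : ℕ) L x g = p • z g := by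
    intro Q
    apply exists_coind_smul_eq (decHom (Q.1 : ℕ) L) (locUnits (Q.1 : ℕ) L).ρ H p
      (fun g => jfun L Q.1 (y Q) g - diagqFun (Q.1 : ℕ) L x g)
    · exact Submodule.sub_mem _ (jfun_mem L Q.1 (y Q)) (diagqFun_mem (Q.1 : ℕ) L x)
    · intro g h hh
      have h1 : jfun L Q.1 (y Q) (g * h) = jfun L Q.1 (y Q) g := by
        have := congrArg (fun f : JqCarrier L Q.1 => jfun L Q.1 f g) (hy Q h hh)
        exact this
      have h2 : diagqFun (Q.1 : ℕ) L x (g * h) = diagqFun (Q.1 : ℕ) L x g := by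
        apply Additive.toMul.injective
        ext
        rw [coe_diagqFun, coe_diagqFun, AlgEquiv.mul_apply, hxH h hh]
      change jfun L Q.1 (y Q) (g * h) - diagqFun (Q.1 : ℕ) L x (g * h) =
        jfun L Q.1 (y Q) g - diagqFun (Q.1 : ℕ) L x g
      rw [h1, h2]
    · intro r hr
      let i : I := ⟨Q, r, hr⟩
      have hi : ‖jval L Q.1 (y Q) r / embK L H (Q.1 : ℕ) r (x₀ : fixK L H) - 1‖ < δ Q r := hx₀ i
      have hu : jval L Q.1 (y Q) r / embK L H (Q.1 : ℕ) r (x₀ : fixK L H) ∈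
          sigField (Q.1 : ℕ) (embK L H (Q.1 : ℕ) r) :=
        div_mem (htI i) (map_mem_sigField _ _ _)
      obtain ⟨w, hw, hwp⟩ := hδ Q r _ hu hi
      have hemb0 : embK L H (Q.1 : ℕ) r (x₀ : fixK L H) ≠ 0 := by
        rw [Ne, map_eq_zero]; exact x₀.ne_zero
      have hw0 : w ≠ 0 := by
        intro h0
        rw [h0, zero_pow hp] at hwp
        exact div_ne_zero (jval_ne_zero L Q.1 (y Q) r) hemb0 hwp.symm
      have hwL : w ∈ locField (Q.1 : ℕ) L := sigField_embK_le L H (Q.1 : ℕ) r hw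
      let wL : locField (Q.1 : ℕ) L := ⟨w, hwL⟩
      have hwL0 : wL ≠ 0 := fun h => hw0 (congrArg Subtype.val h)
      refine ⟨Additive.ofMul (Units.mk0 wL hwL0), ?_, ?_⟩
      · -- `p • w = y(r) - diag x (r)`
        apply Additive.toMul.injective
        apply Units.ext
        apply Subtype.ext
        show ((((Units.mk0 wL hwL0) ^ p : (locField (Q.1 : ℕ) L)ˣ) : locField (Q.1 : ℕ) L) :
            PadicAlgCl (Q.1 : ℕ)) =
          (((junit L Q.1 (y Q) r / Additive.toMul (diagqFun (Q.1 : ℕ) L x r) :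
            (locField (Q.1 : ℕ) L)ˣ) : locField (Q.1 : ℕ) L) : PadicAlgCl (Q.1 : ℕ))
        rw [Units.val_pow_eq_pow_val, Units.val_div_eq_div_val, Units.val_mk0,
          IntermediateField.coe_pow, IntermediateField.coe_div, coe_diagqFun, coe_locEmb]
        exact hwp
      · intro d hd
        apply Additive.toMul.injective
        apply Units.ext
        change d wL = wL
        exact apply_eq_of_mem_sigField L H (Q.1 : ℕ) r d hd hw hwL
  choose zq hzmem hzH hzeq using hcomp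
  refine ⟨fun Q => ⟨zq Q, hzmem Q⟩, ?_, ?_⟩
  · intro Q h hh
    apply Subtype.ext
    funext g
    exact hzH Q g h hh
  · intro Q
    apply Subtype.ext
    funext g
    have h1 := hzeq Q g
    have h2 : jfun L Q.1 (y Q) g = diagqFun (Q.1 : ℕ) L x g + p • zq Q g :=
      eq_add_of_sub_eq' h1
    exact h2

/-- **(h3)** in terms of the `G_L`-module `J L T` of helper14's `ClassModule.lean`. -/
theorem approx_h3_J (p : ℕ) (hp : p ≠ 0)
    (hpow : ∀ (Q : T) (g : L ≃ₐ[ℚ] L), ∃ δ : ℝ, 0 < δ ∧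
      ∀ u ∈ sigField (Q.1 : ℕ) (embK L H (Q.1 : ℕ) g), ‖u - 1‖ < δ →
        ∃ w ∈ sigField (Q.1 : ℕ) (embK L H (Q.1 : ℕ) g), w ^ p = u)
    (hmem : ∀ (Q : T) (f : JqCarrier L Q.1), (∀ h ∈ H, JqRep L Q.1 h f = f) → ∀ g,
      jval L Q.1 f g ∈ sigField (Q.1 : ℕ) (embK L H (Q.1 : ℕ) g))
    (hinj : ∀ (Q : T) (g g' : L ≃ₐ[ℚ] L),
      placeOf (Q.1 : ℕ) (embK L H (Q.1 : ℕ) g) = placeOf (Q.1 : ℕ) (embK L H (Q.1 : ℕ) g') →
        dcRel (decHom (Q.1 : ℕ) L) H g g')
    (y : J L T) (hy : ∀ h ∈ H, (J L T).ρ h y = y) :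
    ∃ x₀ : (fixK L H)ˣ, ∃ z : J L T, (∀ h ∈ H, (J L T).ρ h z = z) ∧
      y = (diag L T).hom (Additive.ofMul (Units.map ((fixK L H).val : fixK L H →* L) x₀))
        + p • z := by
  have hy' : ∀ (Q : T), ∀ h ∈ H, JqRep L Q.1 h ((show ∀ Q : T, JqCarrier L Q.1 from y) Q) =
      (show ∀ Q : T, JqCarrier L Q.1 from y) Q := fun Q h hh => congrFun (hy h hh) Q
  obtain ⟨x₀, z, hzH, hz⟩ := approx_h3 L H T p hp hpow hmem hinj
    (show ∀ Q : T, JqCarrier L Q.1 from y) hy'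
  refine ⟨x₀, (show J L T from z), ?_, ?_⟩
  · intro h hh
    funext Q
    exact hzH Q h hh
  · funext Q
    exact hz Q

end Fermat.Agent.GC.Global.Adapter
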