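import Mathlib
import Fermat.Agent.GC.Local.UnitBall
import Fermat.Agent.GC.Local.IndexAbstract

/-!
# GATE-C / C4 adapter AD4 (local part): `p`-th roots near `1` in a finite extension of `ℚ_q`

For a finite normed extension `E` of `ℚ_[q]` and a prime `p`: every `z` with
`‖z - 1‖ ^ (p - 1) < ‖p‖ ^ p` has a unique `p`-th root `x` in the ball `‖x - 1‖ ^ (p - 1) < ‖p‖`.
(For `q ≠ p` this reads: `‖z - 1‖ < 1 ⇒` unique root with `‖x - 1‖ < 1`.)
-/

open scoped Padic NNReal Topology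
open IsLocalRing

namespace Fermat.Agent.GC.Global.Adapter

open Fermat.Agent.GC.Local

section DVRNorm

variable (q : ℕ) [Fact q.Prime] (E : Type*) [NormedField E] [NormedAlgebra ℚ_[q] E]
  [IsUltrametricDist E] [FiniteDimensional ℚ_[q] E]

/-- divisibility by a power of a uniformiser in the unit ball, in terms of norms -/
lemma pow_dvd_iff_norm_le {ϖ : unitBallVS E} (hϖ0 : ϖ ≠ 0) (k : ℕ) (y : unitBallVS E) :
    ϖ ^ k ∣ y ↔ ‖(y : E)‖ ≤ ‖(ϖ : E)‖ ^ k := by
  have hϖE : (ϖ : E) ≠ 0 := fun h => hϖ0 (Subtype.ext h)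
  constructor
  · rintro ⟨c, rfl⟩
    have hc : ‖(c : E)‖ ≤ 1 := mem_unitBallVS_iff.mp c.2
    calc ‖((ϖ ^ k * c : unitBallVS E) : E)‖ = ‖(ϖ : E)‖ ^ k * ‖(c : E)‖ := by
          push_cast; rw [norm_mul, norm_pow]
      _ ≤ ‖(ϖ : E)‖ ^ k * 1 := by gcongr
      _ = ‖(ϖ : E)‖ ^ k := mul_one _
  · intro h
    have hmem : (y : E) / (ϖ : E) ^ k ∈ unitBallVS E := by
      rw [mem_unitBallVS_iff, norm_div, norm_pow]
      exact div_le_one_of_le₀ h (by positivity)
    refine ⟨⟨_, hmem⟩, Subtype.ext ?_⟩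
    push_cast
    field_simp


include q in
omit [IsUltrametricDist E] [FiniteDimensional ℚ_[q] E] in
lemma norm_natCast_le_one' (n : ℕ) : ‖(n : E)‖ ≤ 1 := by
  have : (n : E) = algebraMap ℚ_[q] E (n : ℚ_[q]) := by simp
  rw [this, norm_algebraMap']
  have := Padic.norm_int_le_one (p := q) (n : ℤ)
  simpa using this

include q in
omit [IsUltrametricDist E] [FiniteDimensional ℚ_[q] E] in
lemma charZero_of_padic : CharZero E :=
  charZero_of_injective_algebraMap (algebraMap ℚ_[q] E).injective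

omit [NormedAlgebra ℚ_[q] E] [FiniteDimensional ℚ_[q] E] in
/-- units of the unit ball have norm one -/
lemma norm_unit_unitBallVS (u : (unitBallVS E)ˣ) : ‖((u : unitBallVS E) : E)‖ = 1 := by
  apply le_antisymm (mem_unitBallVS_iff.mp (u : unitBallVS E).2)
  have h1 : ‖(((u⁻¹ : (unitBallVS E)ˣ) : unitBallVS E) : E)‖ ≤ 1 :=
    mem_unitBallVS_iff.mp ((u⁻¹ : (unitBallVS E)ˣ) : unitBallVS E).2
  have h2 : ((u : unitBallVS E) : E) * (((u⁻¹ : (unitBallVS E)ˣ) : unitBallVS E) : E) = 1 := by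
    have := congrArg (fun a : unitBallVS E => (a : E)) (u.mul_inv)
    exact this
  have h3 := congrArg norm h2
  rw [norm_mul, norm_one] at h3
  by_contra hlt
  rw [not_le] at hlt
  have : ‖((u : unitBallVS E) : E)‖ * ‖(((u⁻¹ : (unitBallVS E)ˣ) : unitBallVS E) : E)‖ < 1 := by
    calc _ ≤ ‖((u : unitBallVS E) : E)‖ * 1 := by gcongr
      _ < 1 := by rw [mul_one]; exact hlt
  linarith

include q in
/-- **Existence of `p`-th roots near `1`.** -/
theorem exists_pow_eq_of_norm_lt {p : ℕ} (hp : p.Prime) (z : E)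
    (hz : ‖z - 1‖ ^ (p - 1) < ‖(p : E)‖ ^ p) :
    ∃ x : E, ‖x - 1‖ * ‖(p : E)‖ ≤ ‖z - 1‖ ∧ x ^ p = z := by
  have hDVR := unitBallVS_isDiscreteValuationRing q E
  have hcomp := unitBallVS_isAdicComplete q E
  have hchar : CharZero E := charZero_of_padic q E
  have hp1 : 1 ≤ p - 1 := by have := hp.two_le; omega
  have hpE : ‖(p : E)‖ ≤ 1 := norm_natCast_le_one' q E p
  have hpE0 : (p : E) ≠ 0 := by exact_mod_cast hp.ne_zero
  -- `‖z - 1‖ < 1`
  have hz1 : ‖z - 1‖ < 1 := by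
    by_contra h
    rw [not_lt] at h
    have h1 : (1 : ℝ) ≤ ‖z - 1‖ ^ (p - 1) := one_le_pow₀ h
    have h2 : ‖(p : E)‖ ^ p ≤ 1 := pow_le_one₀ (norm_nonneg _) hpE
    linarith
  rcases eq_or_ne z 1 with rfl | hz0
  · exact ⟨1, by simp, one_pow p⟩
  -- elements of the unit ball
  have hzmem : z ∈ unitBallVS E := by
    rw [mem_unitBallVS_iff]
    have : z = (z - 1) + 1 := by ring
    rw [this]
    exact (IsUltrametricDist.norm_add_le_max _ _).trans (max_le hz1.le (by simp))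
  set zO : unitBallVS E := ⟨z, hzmem⟩ with hzO
  have hy0 : zO - 1 ≠ 0 := by
    intro h
    apply hz0
    have := congrArg (Subtype.val) h
    simpa [hzO, sub_eq_zero] using this
  obtain ⟨ϖ, hϖ⟩ := IsDiscreteValuationRing.exists_irreducible (unitBallVS E)
  have hϖ0 : ϖ ≠ 0 := hϖ.ne_zero
  have hϖE0 : (ϖ : E) ≠ 0 := fun h => hϖ0 (Subtype.ext h)
  have hc0 : 0 < ‖(ϖ : E)‖ := norm_pos_iff.mpr hϖE0
  have hc1 : ‖(ϖ : E)‖ < 1 := by
    have : (ϖ : E) ∈ (unitBallVS E).nonunits := by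
      rw [ValuationSubring.coe_mem_nonunits_iff, IsLocalRing.mem_maximalIdeal]
      exact hϖ.not_isUnit
    exact mem_nonunits_unitBallVS_iff.mp this
  have hpO0 : ((p : ℕ) : unitBallVS E) ≠ 0 := by
    intro h
    apply hpE0
    have := congrArg (Subtype.val) h
    simpa using this
  obtain ⟨e, u, hpe⟩ := IsDiscreteValuationRing.eq_unit_mul_pow_irreducible hpO0 hϖ
  obtain ⟨M, w, hyM⟩ := IsDiscreteValuationRing.eq_unit_mul_pow_irreducible hy0 hϖ
  -- norms
  have hnp : ‖(p : E)‖ = ‖(ϖ : E)‖ ^ e := by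
    have := congrArg (fun a : unitBallVS E => ‖(a : E)‖) hpe
    push_cast at this
    rw [norm_mul, norm_unit_unitBallVS, one_mul, norm_pow] at this
    exact this
  have hny : ‖z - 1‖ = ‖(ϖ : E)‖ ^ M := by
    have := congrArg (fun a : unitBallVS E => ‖(a : E)‖) hyM
    push_cast at this
    rw [norm_mul, norm_unit_unitBallVS, one_mul, norm_pow] at this
    exact this
  -- the numerical condition
  have hnum : p * e < (p - 1) * M := by
    rw [hnp, hny, ← pow_mul, ← pow_mul] at hz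
    have := (pow_lt_pow_iff_right_of_lt_one₀ hc0 hc1).mp hz
    rw [mul_comm e p, mul_comm M (p - 1)] at this
    exact this
  have hMe : e < M := by
    by_contra h
    rw [not_lt] at h
    have : (p - 1) * M ≤ p * e := (Nat.mul_le_mul_left _ h).trans (Nat.mul_le_mul_right _ (Nat.sub_le _ _))
    omega
  set n := M - e with hn
  have hn1 : 1 ≤ n := by omega
  have hne : e < (p - 1) * n := by
    have h1 : (p - 1) * n = (p - 1) * M - (p - 1) * e := by rw [hn, Nat.mul_sub]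
    have h2 : p * e = (p - 1) * e + e := by
      have : p = (p - 1) + 1 := by omega
      conv_lhs => rw [this]
      ring
    omega
  have hdvd : ϖ ^ (n + e) ∣ zO - 1 := by
    have : n + e = M := by omega
    rw [this, hyM]
    exact Dvd.intro_left _ rfl
  obtain ⟨x, hx1, hxp⟩ := Index.exists_pow_eq hp hϖ (Index.isPiComplete_of_isAdicComplete hϖ)
    hpe hn1 hne zO hdvd
  refine ⟨(x : E), ?_, ?_⟩
  · have h1 : ‖((x - 1 : unitBallVS E) : E)‖ ≤ ‖(ϖ : E)‖ ^ n :=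
      (pow_dvd_iff_norm_le E hϖ0 n (x - 1)).mp hx1
    push_cast at h1
    rw [hnp, hny]
    have : ‖(ϖ : E)‖ ^ M = ‖(ϖ : E)‖ ^ n * ‖(ϖ : E)‖ ^ e := by
      rw [← pow_add]; congr 1; omega
    rw [this]
    gcongr
  · have := congrArg (Subtype.val) hxp
    simpa [hzO] using this

include q in
/-- `p`-th roots of unity close to `1` are trivial. -/
theorem eq_one_of_pow_eq_one_of_norm_lt {p : ℕ} (hp : p.Prime) (t : E)
    (ht : ‖t - 1‖ ^ (p - 1) < ‖(p : E)‖) (htp : t ^ p = 1) : t = 1 := by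
  have hDVR := unitBallVS_isDiscreteValuationRing q E
  have hchar : CharZero E := charZero_of_padic q E
  have hp1 : 1 ≤ p - 1 := by have := hp.two_le; omega
  have hpE : ‖(p : E)‖ ≤ 1 := norm_natCast_le_one' q E p
  have hpE0 : (p : E) ≠ 0 := by exact_mod_cast hp.ne_zero
  have ht1 : ‖t - 1‖ < 1 := by
    by_contra h
    rw [not_lt] at h
    have h1 : (1 : ℝ) ≤ ‖t - 1‖ ^ (p - 1) := one_le_pow₀ h
    linarith
  by_contra hne1
  have ht0 : t ≠ 0 := by
    rintro rfl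
    rw [zero_pow hp.ne_zero] at htp
    exact zero_ne_one htp
  have htn : ‖t‖ = 1 := by
    have h := congrArg norm htp
    rw [norm_pow, norm_one] at h
    exact (pow_eq_one_iff_of_nonneg (norm_nonneg t) hp.ne_zero).mp h
  have htmem : t ∈ unitBallVS E := mem_unitBallVS_iff.mpr htn.le
  have htimem : t⁻¹ ∈ unitBallVS E := by
    rw [mem_unitBallVS_iff, norm_inv, htn, inv_one]
  let tU : (unitBallVS E)ˣ := ⟨⟨t, htmem⟩, ⟨t⁻¹, htimem⟩,
    Subtype.ext (mul_inv_cancel₀ ht0), Subtype.ext (inv_mul_cancel₀ ht0)⟩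
  have htU : ((tU : unitBallVS E) : E) = t := rfl
  have hy0 : (tU : unitBallVS E) - 1 ≠ 0 := by
    intro h
    apply hne1
    have := congrArg (Subtype.val) h
    simpa [htU, sub_eq_zero] using this
  obtain ⟨ϖ, hϖ⟩ := IsDiscreteValuationRing.exists_irreducible (unitBallVS E)
  have hϖ0 : ϖ ≠ 0 := hϖ.ne_zero
  have hϖE0 : (ϖ : E) ≠ 0 := fun h => hϖ0 (Subtype.ext h)
  have hc0 : 0 < ‖(ϖ : E)‖ := norm_pos_iff.mpr hϖE0
  have hc1 : ‖(ϖ : E)‖ < 1 := by
    have : (ϖ : E) ∈ (unitBallVS E).nonunits := by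
      rw [ValuationSubring.coe_mem_nonunits_iff, IsLocalRing.mem_maximalIdeal]
      exact hϖ.not_isUnit
    exact mem_nonunits_unitBallVS_iff.mp this
  have hpO0 : ((p : ℕ) : unitBallVS E) ≠ 0 := by
    intro h
    apply hpE0
    have := congrArg (Subtype.val) h
    simpa using this
  obtain ⟨e, u, hpe⟩ := IsDiscreteValuationRing.eq_unit_mul_pow_irreducible hpO0 hϖ
  obtain ⟨n, w, hyn⟩ := IsDiscreteValuationRing.eq_unit_mul_pow_irreducible hy0 hϖ
  have hnp : ‖(p : E)‖ = ‖(ϖ : E)‖ ^ e := by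
    have := congrArg (fun a : unitBallVS E => ‖(a : E)‖) hpe
    push_cast at this
    rw [norm_mul, norm_unit_unitBallVS, one_mul, norm_pow] at this
    exact this
  have hny : ‖t - 1‖ = ‖(ϖ : E)‖ ^ n := by
    have := congrArg (fun a : unitBallVS E => ‖(a : E)‖) hyn
    push_cast at this
    rw [norm_mul, norm_unit_unitBallVS, one_mul, norm_pow, htU] at this
    exact this
  have hnum : e < (p - 1) * n := by
    rw [hnp, hny, ← pow_mul] at ht
    have := (pow_lt_pow_iff_right_of_lt_one₀ hc0 hc1).mp ht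
    rw [mul_comm n (p - 1)] at this
    exact this
  have hn1 : 1 ≤ n := by
    by_contra h
    have h0 : n = 0 := by omega
    rw [h0, pow_zero] at hny
    linarith
  have hmem : tU ∈ Index.U ϖ n := by
    rw [Index.mem_U, hyn]
    exact Dvd.intro_left _ rfl
  have hpow : tU ^ p = 1 := by
    apply Units.ext
    apply Subtype.ext
    push_cast
    rw [htU]
    simpa using htp
  have := Index.eq_one_of_pow_eq_one hp hϖ hpe hn1 hnum hmem hpow
  apply hne1
  have h2 := congrArg (fun a : (unitBallVS E)ˣ => ((a : unitBallVS E) : E)) this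
  simpa [htU] using h2

include q in
/-- Uniqueness of `p`-th roots in the ball `‖x - 1‖ ^ (p - 1) < ‖p‖`. -/
theorem eq_of_pow_eq_of_norm_lt {p : ℕ} (hp : p.Prime) (x x' : E)
    (hx : ‖x - 1‖ ^ (p - 1) < ‖(p : E)‖) (hx' : ‖x' - 1‖ ^ (p - 1) < ‖(p : E)‖)
    (h : x ^ p = x' ^ p) : x = x' := by
  have hp1 : 1 ≤ p - 1 := by have := hp.two_le; omega
  have hpE : ‖(p : E)‖ ≤ 1 := norm_natCast_le_one' q E p
  have hlt1 : ∀ y : E, ‖y - 1‖ ^ (p - 1) < ‖(p : E)‖ → ‖y - 1‖ < 1 := by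
    intro y hy
    by_contra h
    rw [not_lt] at h
    have h1 : (1 : ℝ) ≤ ‖y - 1‖ ^ (p - 1) := one_le_pow₀ h
    linarith
  have hn1 : ∀ y : E, ‖y - 1‖ < 1 → ‖y‖ = 1 := by
    intro y hy
    have : y = (y - 1) + 1 := by ring
    rw [this]
    have := IsUltrametricDist.norm_add_eq_max_of_norm_ne_norm (x := y - 1) (y := (1 : E))
      (by rw [norm_one]; exact hy.ne)
    rw [this, norm_one]
    exact max_eq_right hy.le
  have hx'n : ‖x'‖ = 1 := hn1 x' (hlt1 x' hx')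
  have hx'0 : x' ≠ 0 := by
    intro h0
    rw [h0, norm_zero] at hx'n
    exact zero_ne_one hx'n
  have htp : (x / x') ^ p = 1 := by
    rw [div_pow, h, div_self (pow_ne_zero p hx'0)]
  have hnorm : ‖x / x' - 1‖ ≤ max ‖x - 1‖ ‖x' - 1‖ := by
    have : x / x' - 1 = ((x - 1) - (x' - 1)) / x' := by field_simp; ring
    rw [this, norm_div, hx'n, div_one]
    have h2 := IsUltrametricDist.norm_add_le_max (x - 1) (-(x' - 1))
    rw [norm_neg, ← sub_eq_add_neg] at h2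
    exact h2
  have ht : ‖x / x' - 1‖ ^ (p - 1) < ‖(p : E)‖ := by
    rcases le_total ‖x - 1‖ ‖x' - 1‖ with hle | hle
    · rw [max_eq_right hle] at hnorm
      exact lt_of_le_of_lt (pow_le_pow_left₀ (norm_nonneg _) hnorm _) hx'
    · rw [max_eq_left hle] at hnorm
      exact lt_of_le_of_lt (pow_le_pow_left₀ (norm_nonneg _) hnorm _) hx
  have h1 := eq_one_of_pow_eq_one_of_norm_lt q E hp (x / x') ht htp
  exact (div_eq_one_iff_eq hx'0).mp h1

include q in
/-- **Existence and uniqueness of `p`-th roots near `1`**: if `‖z - 1‖ ^ (p - 1) < ‖p‖ ^ p`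
there is exactly one `x` with `‖x - 1‖ ^ (p - 1) < ‖p‖` and `x ^ p = z`. -/
theorem existsUnique_pow_eq_of_norm_lt {p : ℕ} (hp : p.Prime) (z : E)
    (hz : ‖z - 1‖ ^ (p - 1) < ‖(p : E)‖ ^ p) :
    ∃! x : E, ‖x - 1‖ ^ (p - 1) < ‖(p : E)‖ ∧ x ^ p = z := by
  have hchar : CharZero E := charZero_of_padic q E
  have hpE0 : (p : E) ≠ 0 := by exact_mod_cast hp.ne_zero
  have hpn : 0 < ‖(p : E)‖ := norm_pos_iff.mpr hpE0
  obtain ⟨x, hx1, hxp⟩ := exists_pow_eq_of_norm_lt q E hp z hz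
  have hxb : ‖x - 1‖ ^ (p - 1) < ‖(p : E)‖ := by
    have h1 : (‖x - 1‖ * ‖(p : E)‖) ^ (p - 1) < ‖(p : E)‖ ^ p :=
      lt_of_le_of_lt (pow_le_pow_left₀ (by positivity) hx1 _) hz
    rw [mul_pow] at h1
    have h2 : ‖(p : E)‖ ^ p = ‖(p : E)‖ * ‖(p : E)‖ ^ (p - 1) := by
      rw [← pow_succ']; congr 1; have := hp.two_le; omega
    rw [h2] at h1
    exact lt_of_mul_lt_mul_right h1 (by positivity)
  refine ⟨x, ⟨hxb, hxp⟩, ?_⟩
  rintro y ⟨hyb, hyp⟩
  exact eq_of_pow_eq_of_norm_lt q E hp y x hyb hxb (hyp.trans hxp.symm)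

end DVRNorm

section NearRoot

/-- the `p`-th root of `z` in the ball `‖x - 1‖ ^ (p - 1) < ‖p‖` (junk value `1` if there is
none). -/
noncomputable def nearRoot {E : Type*} [NormedField E] (p : ℕ) (z : E) : E :=
  open Classical in
  if h : ∃ x : E, ‖x - 1‖ ^ (p - 1) < ‖(p : E)‖ ∧ x ^ p = z then h.choose else 1

variable (q : ℕ) [Fact q.Prime] (E : Type*) [NormedField E] [NormedAlgebra ℚ_[q] E]
  [IsUltrametricDist E] [FiniteDimensional ℚ_[q] E]

include q in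
theorem nearRoot_spec {p : ℕ} (hp : p.Prime) (z : E)
    (hz : ‖z - 1‖ ^ (p - 1) < ‖(p : E)‖ ^ p) :
    ‖nearRoot p z - 1‖ ^ (p - 1) < ‖(p : E)‖ ∧ nearRoot p z ^ p = z := by
  have hex : ∃ x : E, ‖x - 1‖ ^ (p - 1) < ‖(p : E)‖ ∧ x ^ p = z :=
    (existsUnique_pow_eq_of_norm_lt q E hp z hz).exists
  unfold nearRoot
  rw [dif_pos hex]
  exact hex.choose_spec

include q in
theorem nearRoot_pow {p : ℕ} (hp : p.Prime) (z : E)
    (hz : ‖z - 1‖ ^ (p - 1) < ‖(p : E)‖ ^ p) : nearRoot p z ^ p = z :=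
  (nearRoot_spec q E hp z hz).2

include q in
/-- uniqueness: any `p`-th root of `z` in the ball is `nearRoot p z` -/
theorem eq_nearRoot {p : ℕ} (hp : p.Prime) (z : E)
    (hz : ‖z - 1‖ ^ (p - 1) < ‖(p : E)‖ ^ p) (x : E)
    (hxb : ‖x - 1‖ ^ (p - 1) < ‖(p : E)‖) (hxp : x ^ p = z) : x = nearRoot p z := by
  obtain ⟨h1, h2⟩ := nearRoot_spec q E hp z hz
  exact eq_of_pow_eq_of_norm_lt q E hp x (nearRoot p z) hxb h1 (hxp.trans h2.symm)

include q in
theorem norm_nearRoot_sub_one_mul_le {p : ℕ} (hp : p.Prime) (z : E)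
    (hz : ‖z - 1‖ ^ (p - 1) < ‖(p : E)‖ ^ p) :
    ‖nearRoot p z - 1‖ * ‖(p : E)‖ ≤ ‖z - 1‖ := by
  have hchar : CharZero E := charZero_of_padic q E
  have hpE0 : (p : E) ≠ 0 := by exact_mod_cast hp.ne_zero
  have hpn : 0 < ‖(p : E)‖ := norm_pos_iff.mpr hpE0
  obtain ⟨x, hx1, hxp⟩ := exists_pow_eq_of_norm_lt q E hp z hz
  have hxb : ‖x - 1‖ ^ (p - 1) < ‖(p : E)‖ := by
    have h1 : (‖x - 1‖ * ‖(p : E)‖) ^ (p - 1) < ‖(p : E)‖ ^ p :=
      lt_of_le_of_lt (pow_le_pow_left₀ (by positivity) hx1 _) hz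
    rw [mul_pow] at h1
    have h2 : ‖(p : E)‖ ^ p = ‖(p : E)‖ * ‖(p : E)‖ ^ (p - 1) := by
      rw [← pow_succ']; congr 1; have := hp.two_le; omega
    rw [h2] at h1
    exact lt_of_mul_lt_mul_right h1 (by positivity)
  rw [← eq_nearRoot q E hp z hz x hxb hxp]
  exact hx1

include q in
theorem nearRoot_ne_zero {p : ℕ} (hp : p.Prime) (z : E)
    (hz : ‖z - 1‖ ^ (p - 1) < ‖(p : E)‖ ^ p) (hz0 : z ≠ 0) : nearRoot p z ≠ 0 := by
  intro h
  have h2 := nearRoot_pow q E hp z hz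
  rw [h, zero_pow hp.ne_zero] at h2
  exact hz0 h2.symm

include q in
/-- **Equivariance**: an isometric ring endomorphism commutes with `nearRoot`. -/
theorem map_nearRoot {p : ℕ} (hp : p.Prime) (τ : E →+* E) (hτ : ∀ x : E, ‖τ x‖ = ‖x‖) (z : E)
    (hz : ‖z - 1‖ ^ (p - 1) < ‖(p : E)‖ ^ p) :
    τ (nearRoot p z) = nearRoot p (τ z) := by
  have hsub : ∀ x : E, ‖τ x - 1‖ = ‖x - 1‖ := fun x => by
    rw [← hτ (x - 1), map_sub, map_one]
  have hz' : ‖τ z - 1‖ ^ (p - 1) < ‖(p : E)‖ ^ p := by rw [hsub]; exact hz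
  obtain ⟨h1, h2⟩ := nearRoot_spec q E hp z hz
  refine eq_nearRoot q E hp (τ z) hz' (τ (nearRoot p z)) ?_ ?_
  · rw [hsub]; exact h1
  · rw [← map_pow, h2]

end NearRoot

end Fermat.Agent.GC.Global.Adapter
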