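/-
GATE-C / C4 GLOBAL-COH, adapter leaf AD2 (helper14): `H`-invariants of the idele module.

For `H ≤ G_L` (so `K = L^H`):
* `JqInv L q H` : the `H`-invariant elements of `Jq` — functions `f : G_L → L_qˣ` with
  `f (dec d * g) = d • f g` and `f (g * h) = f g` (`h ∈ H`);
* `locFieldAt L q H g = ℚ_q(ι (g K))` : the completion of `K` at the place cut out by `ι ∘ g`;
  `JqInv_apply_mem` : the value `f g` of an invariant element lies in `locFieldAt L q H g`;
* `JInv L T H`, `diag_mem_JInv`, norm formulas (h1), (h2) of the Kummer engine interface.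
-/
import Mathlib
import Fermat.Agent.GC.Global.ClassModule
import Fermat.Agent.GC.Local.KrasnerDec

set_option autoImplicit false
set_option linter.unusedSectionVars false

open scoped Padic
open IntermediateField

noncomputable section

namespace Fermat.Agent.GC.Global

/-! ### Bridge to helper69's `localLevel` -/

theorem locField_eq_localLevel (q : ℕ) [Fact q.Prime] (L : IntermediateField ℚ Qb) :
    locField q L = Fermat.Agent.GC.Local.KR.localLevel q L := rfl

instance finiteDimensional_locField (q : ℕ) [Fact q.Prime] (L : IntermediateField ℚ Qb)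
    [FiniteDimensional ℚ L] : FiniteDimensional ℚ_[q] (locField q L) :=
  Fermat.Agent.GC.Local.KR.finiteDimensional_localLevel q L

instance isGalois_locField (q : ℕ) [Fact q.Prime] (L : IntermediateField ℚ Qb) [Normal ℚ L] :
    IsGalois ℚ_[q] (locField q L) :=
  Fermat.Agent.GC.Local.KR.isGalois_localLevel q L

namespace Adapter

variable (L : IntermediateField ℚ Qb) [FiniteDimensional ℚ L] [IsGalois ℚ L] (q : Nat.Primes)
  (H : Subgroup (L ≃ₐ[ℚ] L))

/-- The `H`-invariant elements of `Jq`: `f (g * h) = f g` for `h ∈ H`. -/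
def JqInv : Submodule ℤ (JqCarrier L q) where
  carrier := {f | ∀ h : L ≃ₐ[ℚ] L, h ∈ H → ∀ g, f.1 (g * h) = f.1 g}
  add_mem' := fun {a b} ha hb h hh g => by
    change a.1 (g * h) + b.1 (g * h) = a.1 g + b.1 g
    rw [ha h hh g, hb h hh g]
  zero_mem' := fun _ _ _ => rfl
  smul_mem' := fun n a ha h hh g => by
    change n • a.1 (g * h) = n • a.1 g
    rw [ha h hh g]

theorem mem_JqInv {f : JqCarrier L q} :
    f ∈ JqInv L q H ↔ ∀ h : L ≃ₐ[ℚ] L, h ∈ H → ∀ g, f.1 (g * h) = f.1 g := Iff.rfl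

theorem mem_JqInv_iff_rho {f : JqCarrier L q} :
    f ∈ JqInv L q H ↔ ∀ h : L ≃ₐ[ℚ] L, h ∈ H → JqRep L q h f = f := by
  constructor
  · intro hf h hh
    apply Subtype.ext
    funext g
    exact hf h hh g
  · intro hf h hh g
    have := congrArg (fun f' : JqCarrier L q => f'.1 g) (hf h hh)
    exact this

/-- the equivariance of an element of `Jq` under the decomposition group. -/
theorem JqCarrier_apply_decHom (f : JqCarrier L q)
    (d : locField (q : ℕ) L ≃ₐ[ℚ_[(q : ℕ)]] locField (q : ℕ) L) (g : L ≃ₐ[ℚ] L) :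
    f.1 (decHom (q : ℕ) L d * g) = (locUnits (q : ℕ) L).ρ d (f.1 g) :=
  f.2 d g

/-- The value of `f ∈ Jq` at `g`, as a unit of the local layer. -/
def JqCarrier.val (f : JqCarrier L q) (g : L ≃ₐ[ℚ] L) : (locField (q : ℕ) L)ˣ :=
  Additive.toMul (α := (locField (q : ℕ) L)ˣ) (f.1 g)

theorem JqCarrier.val_decHom (f : JqCarrier L q)
    (d : locField (q : ℕ) L ≃ₐ[ℚ_[(q : ℕ)]] locField (q : ℕ) L) (g : L ≃ₐ[ℚ] L) :
    ((JqCarrier.val L q f (decHom (q : ℕ) L d * g) : (locField (q : ℕ) L)ˣ) : locField (q : ℕ) L)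
      = d ((JqCarrier.val L q f g : (locField (q : ℕ) L)ˣ) : locField (q : ℕ) L) := by
  have h := JqCarrier_apply_decHom L q f d g
  have h4 := congrArg (fun u : Additive (locField (q : ℕ) L)ˣ =>
      ((Additive.toMul (α := (locField (q : ℕ) L)ˣ) u : (locField (q : ℕ) L)ˣ) :
        locField (q : ℕ) L)) h
  exact h4

theorem JqCarrier.val_mul_of_mem {f : JqCarrier L q} (hf : f ∈ JqInv L q H) (g h : L ≃ₐ[ℚ] L)
    (hh : h ∈ H) : JqCarrier.val L q f (g * h) = JqCarrier.val L q f g := by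
  unfold JqCarrier.val
  rw [hf h hh g]

/-- The completion of `K = L^H` at the place cut out by the embedding `ι ∘ g`. -/
def locFieldAt (g : L ≃ₐ[ℚ] L) : IntermediateField ℚ_[(q : ℕ)] (PadicAlgCl (q : ℕ)) :=
  adjoin ℚ_[(q : ℕ)] ((fun x : L => padicEmbedding (q : ℕ) ((g x : L) : Qb)) ''
    (IntermediateField.fixedField H : Set L))

theorem locFieldAt_le (g : L ≃ₐ[ℚ] L) : locFieldAt L q H g ≤ locField (q : ℕ) L := by
  rw [locFieldAt, adjoin_le_iff]
  rintro _ ⟨x, _, rfl⟩
  exact padicEmbedding_mem_locField (q : ℕ) L (g x)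

/-- an element of the local Galois group fixing `ι (g K)` pointwise is conjugate into `H`. -/
theorem conj_mem_of_fixes (g : L ≃ₐ[ℚ] L)
    (τ : locField (q : ℕ) L ≃ₐ[ℚ_[(q : ℕ)]] locField (q : ℕ) L)
    (hτ : ∀ k : L, k ∈ IntermediateField.fixedField H →
      τ (locEmb (q : ℕ) L (g k)) = locEmb (q : ℕ) L (g k)) :
    g⁻¹ * decHom (q : ℕ) L τ * g ∈ H := by
  have hfix : g⁻¹ * decHom (q : ℕ) L τ * g ∈ (IntermediateField.fixedField H).fixingSubgroup := by
    rw [IntermediateField.mem_fixingSubgroup_iff]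
    intro k hk
    have h1 : decHom (q : ℕ) L τ (g k) = g k := by
      apply locEmb_injective (q : ℕ) L
      rw [locEmb_decHom, hτ k hk]
    change g⁻¹ (decHom (q : ℕ) L τ (g k)) = k
    rw [h1]
    exact g.symm_apply_apply k
  rwa [IntermediateField.fixingSubgroup_fixedField] at hfix

/-- **AD2 (I3)**: the value at `g` of an `H`-invariant element of `Jq` lies in the completion
`ℚ_q(ι (g K))` of `K = L^H` at the place cut out by `ι ∘ g`. -/
theorem JqInv_apply_mem {f : JqCarrier L q} (hf : f ∈ JqInv L q H) (g : L ≃ₐ[ℚ] L) :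
    (((JqCarrier.val L q f g : (locField (q : ℕ) L)ˣ) : locField (q : ℕ) L) : PadicAlgCl (q : ℕ))
      ∈ locFieldAt L q H g := by
  set E := locField (q : ℕ) L with hE
  set x : E := ((JqCarrier.val L q f g : (locField (q : ℕ) L)ˣ) : locField (q : ℕ) L) with hx
  -- the intermediate field `F' = locFieldAt g` inside `E`
  set F' : IntermediateField ℚ_[(q : ℕ)] E :=
    IntermediateField.restrict (locFieldAt_le L q H g) with hF'
  have hgal : IntermediateField.fixedField (F'.fixingSubgroup) = F' :=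
    IsGalois.fixedField_fixingSubgroup F'
  have hxF' : x ∈ F' := by
    rw [← hgal, IntermediateField.mem_fixedField_iff]
    intro τ hτ
    have hτ' : ∀ k : L, k ∈ IntermediateField.fixedField H →
        τ (locEmb (q : ℕ) L (g k)) = locEmb (q : ℕ) L (g k) := by
      intro k hk
      have hmem : locEmb (q : ℕ) L (g k) ∈ F' := by
        rw [hF', IntermediateField.mem_restrict]
        exact IntermediateField.subset_adjoin _ _ ⟨k, hk, rfl⟩
      exact (IntermediateField.mem_fixingSubgroup_iff F' τ).1 hτ _ hmem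
    have hh := conj_mem_of_fixes L q H g τ hτ'
    have h1 : decHom (q : ℕ) L τ * g = g * (g⁻¹ * decHom (q : ℕ) L τ * g) := by group
    have h3 := JqCarrier.val_decHom L q f τ g
    rw [h1, JqCarrier.val_mul_of_mem L q H hf g _ hh] at h3
    exact h3.symm
  rw [hF', IntermediateField.mem_restrict] at hxF'
  exact hxF'

/-! ### Constructing invariant elements -/

/-- An equivariant family `r : G_L → L_qˣ` as an element of `Jq`. -/
def JqCarrier.ofFamily (r : (L ≃ₐ[ℚ] L) → (locField (q : ℕ) L)ˣ)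
    (hD : ∀ (d : locField (q : ℕ) L ≃ₐ[ℚ_[(q : ℕ)]] locField (q : ℕ) L) (g : L ≃ₐ[ℚ] L),
      r (decHom (q : ℕ) L d * g) = Units.map (d : locField (q : ℕ) L →* locField (q : ℕ) L) (r g)) :
    JqCarrier L q :=
  ⟨fun g => Additive.ofMul (r g), fun d g => by
    change Additive.ofMul (r (decHom (q : ℕ) L d * g)) = _
    rw [hD d g]
    rfl⟩

@[simp] theorem JqCarrier.val_ofFamily (r : (L ≃ₐ[ℚ] L) → (locField (q : ℕ) L)ˣ) (hD) (g : L ≃ₐ[ℚ] L) :
    JqCarrier.val L q (JqCarrier.ofFamily L q r hD) g = r g := rfl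

theorem JqCarrier.ofFamily_mem (r : (L ≃ₐ[ℚ] L) → (locField (q : ℕ) L)ˣ) (hD)
    (hH : ∀ g h : L ≃ₐ[ℚ] L, h ∈ H → r (g * h) = r g) :
    JqCarrier.ofFamily L q r hD ∈ JqInv L q H := by
  intro h hh g
  change Additive.ofMul (r (g * h)) = Additive.ofMul (r g)
  rw [hH g h hh]

theorem JqCarrier.ext_val {f f' : JqCarrier L q}
    (h : ∀ g, JqCarrier.val L q f g = JqCarrier.val L q f' g) : f = f' := by
  apply Subtype.ext
  funext g
  exact Additive.toMul.injective (h g)

theorem JqCarrier.val_add (f f' : JqCarrier L q) (g : L ≃ₐ[ℚ] L) :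
    JqCarrier.val L q (f + f') g = JqCarrier.val L q f g * JqCarrier.val L q f' g := rfl

theorem JqCarrier.val_nsmul (n : ℕ) (f : JqCarrier L q) (g : L ≃ₐ[ℚ] L) :
    JqCarrier.val L q (n • f) g = JqCarrier.val L q f g ^ n := rfl

theorem JqCarrier.val_neg (f : JqCarrier L q) (g : L ≃ₐ[ℚ] L) :
    JqCarrier.val L q (-f) g = (JqCarrier.val L q f g)⁻¹ := rfl

theorem JqCarrier.val_diagqLin (x : Additive Lˣ) (g : L ≃ₐ[ℚ] L) :
    ((JqCarrier.val L q (diagqLin L q x) g : (locField (q : ℕ) L)ˣ) : locField (q : ℕ) L)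
      = locEmb (q : ℕ) L (g ((Additive.toMul x : Lˣ) : L)) := rfl

/-! ### The `T`-ideles -/

variable (T : Finset Nat.Primes)

/-- The `H`-invariant `T`-ideles. -/
def JInv : Submodule ℤ (J L T) where
  carrier := {y | ∀ q : T, (y q : JqCarrier L q) ∈ JqInv L q H}
  add_mem' := fun ha hb q => (JqInv L q H).add_mem (ha q) (hb q)
  zero_mem' := fun q => (JqInv L q H).zero_mem
  smul_mem' := fun n _ ha q => (JqInv L q H).smul_mem n (ha q)

theorem mem_JInv {y : J L T} : y ∈ JInv L H T ↔ ∀ q : T, (y q : JqCarrier L q) ∈ JqInv L q H :=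
  Iff.rfl

theorem mem_JInv_iff_rho {y : J L T} :
    y ∈ JInv L H T ↔ ∀ h : L ≃ₐ[ℚ] L, h ∈ H → (J L T).ρ h y = y := by
  constructor
  · intro hy h hh
    funext q
    exact (mem_JqInv_iff_rho L q H).1 (hy q) h hh
  · intro hy q
    refine (mem_JqInv_iff_rho L q H).2 fun h hh => ?_
    exact congrFun (hy h hh) q

/-- `diag x` is `H`-invariant when `x ∈ K = L^H`. -/
theorem diag_mem_JInv (x : Additive Lˣ)
    (hx : ∀ h : L ≃ₐ[ℚ] L, h ∈ H → h ((Additive.toMul x : Lˣ) : L) = ((Additive.toMul x : Lˣ) : L)) :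
    (diag L T).hom x ∈ JInv L H T := by
  intro q h hh g
  change (diagqLin L q x).1 (g * h) = (diagqLin L q x).1 g
  rw [diagqLin_apply, diagqLin_apply]
  apply Additive.toMul.injective
  apply Units.ext
  change locEmb (q : ℕ) L ((g * h) ((Additive.toMul x : Lˣ) : L))
    = locEmb (q : ℕ) L (g ((Additive.toMul x : Lˣ) : L))
  rw [AlgEquiv.mul_apply, hx h hh]

/-- The norm `N_H = ∑_{h ∈ H} h` on the `T`-ideles (as an additive map on the carrier;
we avoid `→ₗ[ℤ]` sums because of the `ℤ`-module diamond on `Rep ℤ _`). -/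
def normH [Fintype H] (y : J L T) : J L T := ∑ h : H, (J L T).ρ (h : L ≃ₐ[ℚ] L) y

theorem normH_add [Fintype H] (y y' : J L T) :
    normH L H T (y + y') = normH L H T y + normH L H T y' := by
  simp only [normH, map_add, Finset.sum_add_distrib]

theorem normH_zero [Fintype H] : normH L H T 0 = 0 := by
  simp only [normH, map_zero, Finset.sum_const_zero]

theorem rho_normH [Fintype H] (y : J L T) (h : L ≃ₐ[ℚ] L) (hh : h ∈ H) :
    (J L T).ρ h (normH L H T y) = normH L H T y := by
  simp only [normH, map_sum]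
  have : ∀ h' : H, (J L T).ρ h ((J L T).ρ (h' : L ≃ₐ[ℚ] L) y)
      = (J L T).ρ ((⟨h, hh⟩ * h' : H) : L ≃ₐ[ℚ] L) y := by
    intro h'
    rw [Subgroup.coe_mul, map_mul]
    rfl
  simp_rw [this]
  exact Fintype.sum_equiv (Equiv.mulLeft (⟨h, hh⟩ : H)) _ _ (fun _ => rfl)

theorem normH_mem_JInv [Fintype H] (y : J L T) : normH L H T y ∈ JInv L H T := by
  rw [mem_JInv_iff_rho]
  exact fun h hh => rho_normH L H T y h hh

/-- (h1) of the Kummer engine: on invariants the norm is multiplication by `|H|`. -/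
theorem normH_of_mem [Fintype H] {y : J L T} (hy : y ∈ JInv L H T) :
    normH L H T y = Fintype.card H • y := by
  rw [mem_JInv_iff_rho] at hy
  simp only [normH]
  rw [Finset.sum_congr rfl (fun (h : H) _ => hy (h : L ≃ₐ[ℚ] L) h.2)]
  simp

/-- (h2) of the Kummer engine: `diag` commutes with the norm. -/
theorem diag_norm [Fintype H] (z : Additive Lˣ) :
    (diag L T).hom (∑ h : H, (globUnits L).ρ (h : L ≃ₐ[ℚ] L) z) = normH L H T ((diag L T).hom z) := by
  simp only [normH, map_sum]
  refine Finset.sum_congr rfl fun h _ => ?_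
  exact congrArg (fun f => f z) ((diag L T).hom.isIntertwining' (h : L ≃ₐ[ℚ] L))

end Adapter

end Fermat.Agent.GC.Global
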