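/-
GATE-C / C4 adapter (helper11): places of `K = L^H` above `q` ↔ double cosets `D_q \ G_L / H`.

* `dcRel_of_placeOf_eq` : `placeOf q (embK L H q g) = placeOf q (embK L H q g') → g' ∈ D_q g H`
  (this is the hypothesis `hinj` of helper4's `approx_h3_J`);
* `placeOf_embK_eq_of_dcRel` : the converse;
* `exists_placeOf_embK_eq` : every prime `v ∋ q` of `L^H` is `placeOf q (embK L H q g)`.
-/
import Fermat.Agent.GC.Global.Adapter.Approx
import Fermat.Agent.GC.Global.Adapter.InvJ
import Fermat.Agent.GC.Global.Adapter.ValDictInj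
import Fermat.Agent.GC.Global.Adapter.ValDictSurj
import Fermat.Agent.GC.Local.UnitBall

set_option autoImplicit false
set_option linter.unusedSectionVars false

open scoped Padic NumberField
open IsDedekindDomain NumberField

noncomputable section

namespace Fermat.Agent.GC.Global.Adapter

open Fermat.Agent.GC.Global Fermat.Agent.GC.Local

variable (L : IntermediateField ℚ Qb) [Normal ℚ L] [FiniteDimensional ℚ L]
  (H : Subgroup (L ≃ₐ[ℚ] L)) (q : ℕ) [Fact q.Prime]

/-- `embK` of a product with a decomposition element: `σ_{dec d * g} = d ∘ σ_g`. -/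
theorem embK_decHom_mul (d : locField q L ≃ₐ[ℚ_[q]] locField q L) (g : L ≃ₐ[ℚ] L)
    (x : fixK L H) :
    embK L H q (decHom q L d * g) x = ((d (locEmb q L (g (x : L))) : locField q L) : PadicAlgCl q) := by
  rw [embK_apply, AlgEquiv.mul_apply, ← locEmb_decHom]
  rfl

theorem embK_mul_of_mem (g h : L ≃ₐ[ℚ] L) (hh : h ∈ H) (x : fixK L H) :
    embK L H q (g * h) x = embK L H q g x := by
  rw [embK_apply, embK_apply, AlgEquiv.mul_apply]
  have : h (x : L) = x := (IntermediateField.mem_fixedField_iff H (x : L)).1 x.2 h hh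
  rw [this]

/-- Same double coset ⇒ same place. -/
theorem placeOf_embK_eq_of_dcRel {g g' : L ≃ₐ[ℚ] L} (h : dcRel (decHom q L) H g g') :
    placeOf q (embK L H q g) = placeOf q (embK L H q g') := by
  obtain ⟨d, h, hh, rfl⟩ := h
  ext x
  simp only [mem_placeOf_iff]
  rw [embK_mul_of_mem L H q _ h hh, embK_decHom_mul]
  have hn := norm_algEquiv_apply q (locField q L) d
    (locEmb q L (g ((x : fixK L H) : L)))
  have h1 : ‖((d (locEmb q L (g ((x : fixK L H) : L))) : locField q L) : PadicAlgCl q)‖
      = ‖((locEmb q L (g ((x : fixK L H) : L)) : locField q L) : PadicAlgCl q)‖ := hn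
  rw [h1]
  rfl

/-- Same place ⇒ same double coset: the hypothesis `hinj` of `approx_h3_J`. -/
theorem dcRel_of_placeOf_eq (g g' : L ≃ₐ[ℚ] L)
    (h : placeOf q (embK L H q g) = placeOf q (embK L H q g')) :
    dcRel (decHom q L) H g g' := by
  obtain ⟨τ, hτ⟩ := exists_algEquiv_of_placeOf_eq q (embK L H q g) (embK L H q g') h
  -- restrict `τ` to the normal subfield `L_q`
  let d : locField q L ≃ₐ[ℚ_[q]] locField q L := τ.restrictNormal (locField q L)
  have hd : ∀ z : locField q L, ((d z : locField q L) : PadicAlgCl q) = τ (z : PadicAlgCl q) :=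
    fun z => AlgEquiv.restrictNormal_commutes τ (locField q L) z
  -- `g' = dec d * g` on `K`
  have hK : ∀ x : fixK L H, g' (x : L) = (decHom q L d * g) (x : L) := by
    intro x
    have h1 : embK L H q g' x = τ (embK L H q g x) := by
      rw [hτ]; rfl
    have h2 : embK L H q (decHom q L d * g) x = τ (embK L H q g x) := by
      rw [embK_decHom_mul, hd]
      rfl
    have h3 : embK L H q g' x = embK L H q (decHom q L d * g) x := h1.trans h2.symm
    rw [embK_apply, embK_apply] at h3
    have h4 := (padicEmbedding q).toRingHom.injective h3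
    exact Subtype.ext h4
  refine ⟨d, (decHom q L d * g)⁻¹ * g', ?_, by group⟩
  -- `(dec d * g)⁻¹ * g'` fixes `K = L^H`, hence lies in `H`
  have hfix : (decHom q L d * g)⁻¹ * g' ∈ (IntermediateField.fixedField H).fixingSubgroup := by
    rw [IntermediateField.mem_fixingSubgroup_iff]
    intro x hx
    have := hK ⟨x, hx⟩
    change (decHom q L d * g)⁻¹ (g' x) = x
    rw [show g' x = (decHom q L d * g) x from this]
    exact (decHom q L d * g).symm_apply_apply x
  rwa [IntermediateField.fixingSubgroup_fixedField] at hfix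

/-- `L` as a `K = L^H`-algebra is the inclusion (instance check) and **SURJ** in model language:
every prime `v ∋ q` of `K = L^H` is the place of `σ_g = ι ∘ g|_K` for some `g ∈ G_L`. -/
theorem exists_placeOf_embK_eq [IsGalois ℚ L] (v : HeightOneSpectrum (𝓞 (fixK L H)))
    (hv : (q : 𝓞 (fixK L H)) ∈ v.asIdeal) :
    ∃ g : L ≃ₐ[ℚ] L, placeOf q (embK L H q g) = v := by
  obtain ⟨g, hg⟩ := exists_placeOf_eq_of_isGalois (K := fixK L H) (L := L) q
    ((padicEmbedding q : Qb →+* PadicAlgCl q).comp (L.val : L →+* Qb)) v hv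
  exact ⟨g, hg⟩

end Fermat.Agent.GC.Global.Adapter
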