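/-
GATE-C / C4 adapter leaf AD3 (helper4): **(h3)**, unconditional.

  every `H`-invariant `T`-idele `y ∈ J(L,T)^H` is `diag x + p • z` with `x ∈ Kˣ`, `K = L^H`,
  and `z ∈ J(L,T)^H`.

Discharges the three hypotheses of `approx_h3_J` (Approx.lean) with helper60's local `p`-th power
criterion (HenselLocal.lean), helper14's AD2 (InvJ.lean) and helper11's AD1 INJ (ValDictInj.lean,
PlaceCoset.lean: `dcRel_of_placeOf_eq`).
-/
import Fermat.Agent.GC.Global.Adapter.Approx
import Fermat.Agent.GC.Global.Adapter.InvJ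
import Fermat.Agent.GC.Global.Adapter.ValDictInj
import Fermat.Agent.GC.Global.Adapter.HenselLocal
import Fermat.Agent.GC.Global.Adapter.PlaceCoset

set_option autoImplicit false
set_option linter.unusedSectionVars false

open scoped Padic NumberField
open IsDedekindDomain NumberField

noncomputable section

namespace Fermat.Agent.GC.Global.Adapter

open Fermat.Agent.GC.Global

variable (L : IntermediateField ℚ Qb) [FiniteDimensional ℚ L] [IsGalois ℚ L]
  (H : Subgroup (L ≃ₐ[ℚ] L))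

/-- **hpow**: elements of `K_σ` close to `1` are `p`-th powers in `K_σ`. -/
theorem exists_delta_pow (q : ℕ) [Fact q.Prime] {K : Type*} [Field K] [NumberField K]
    (σ : K →+* PadicAlgCl q) {p : ℕ} (hp : p.Prime) :
    ∃ δ : ℝ, 0 < δ ∧ ∀ u ∈ sigField q σ, ‖u - 1‖ < δ → ∃ w ∈ sigField q σ, w ^ p = u := by
  have : FiniteDimensional ℚ_[q] (sigField q σ) := finiteDimensional_sigField q σ
  set E := sigField q σ with hE
  have hchar : CharZero E := charZero_of_padic q E
  have hpE0 : (p : E) ≠ 0 := by exact_mod_cast hp.ne_zero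
  have hb0 : 0 < ‖(p : E)‖ := norm_pos_iff.mpr hpE0
  have hb1 : ‖(p : E)‖ ≤ 1 := norm_natCast_le_one' q E p
  refine ⟨‖(p : E)‖ ^ 2, by positivity, ?_⟩
  intro u hu hlt
  have hp2 := hp.two_le
  have hkey : ‖(⟨u, hu⟩ : E) - 1‖ ^ (p - 1) < ‖(p : E)‖ ^ p := by
    have h1 : ‖(⟨u, hu⟩ : E) - 1‖ = ‖u - 1‖ := rfl
    rw [h1]
    calc ‖u - 1‖ ^ (p - 1) < (‖(p : E)‖ ^ 2) ^ (p - 1) :=
          pow_lt_pow_left₀ hlt (norm_nonneg _) (by omega)
      _ = ‖(p : E)‖ ^ (2 * (p - 1)) := (pow_mul _ _ _).symm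
      _ ≤ ‖(p : E)‖ ^ p := pow_le_pow_of_le_one hb0.le hb1 (by omega)
  obtain ⟨x, -, hx⟩ := exists_pow_eq_of_norm_lt q E hp ⟨u, hu⟩ hkey
  refine ⟨(x : PadicAlgCl q), x.2, ?_⟩
  have := congrArg (fun z : E => (z : PadicAlgCl q)) hx
  simpa using this

/-- helper14's `locFieldAt` is the completion `K_σ` for `σ = embK g`. -/
theorem locFieldAt_eq_sigField (Q : Nat.Primes) (g : L ≃ₐ[ℚ] L) :
    locFieldAt L Q H g = sigField (Q : ℕ) (embK L H (Q : ℕ) g) := by
  unfold locFieldAt sigField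
  congr 1
  ext z
  constructor
  · rintro ⟨x, hx, rfl⟩
    exact ⟨⟨x, hx⟩, rfl⟩
  · rintro ⟨x, rfl⟩
    exact ⟨(x : L), x.2, rfl⟩

/-- **hmem** (helper14's AD2). -/
theorem jval_mem_sigField (Q : Nat.Primes) (f : JqCarrier L Q)
    (hf : ∀ h ∈ H, JqRep L Q h f = f) (g : L ≃ₐ[ℚ] L) :
    jval L Q f g ∈ sigField (Q : ℕ) (embK L H (Q : ℕ) g) := by
  rw [← locFieldAt_eq_sigField]
  exact JqInv_apply_mem L Q H ((mem_JqInv_iff_rho L Q H).2 hf) g

variable (T : Finset Nat.Primes)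

/-- **(h3), weak approximation modulo `p`-th powers** (unconditional): every `H`-invariant
`T`-idele of `L` is the diagonal image of some `x ∈ Kˣ`, `K = L^H`, plus `p` times an `H`-invariant
`T`-idele. -/
theorem exists_diag_add_smul {p : ℕ} (hp : p.Prime) (y : J L T)
    (hy : ∀ h ∈ H, (J L T).ρ h y = y) :
    ∃ x₀ : (fixK L H)ˣ, ∃ z : J L T, (∀ h ∈ H, (J L T).ρ h z = z) ∧
      y = (diag L T).hom (Additive.ofMul (Units.map ((fixK L H).val : fixK L H →* L) x₀))
        + p • z :=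
  approx_h3_J L H T p hp.ne_zero
    (fun Q g => exists_delta_pow (Q.1 : ℕ) (embK L H (Q.1 : ℕ) g) hp)
    (fun Q f hf g => jval_mem_sigField L H Q.1 f hf g)
    (fun Q g g' h => dcRel_of_placeOf_eq L H (Q.1 : ℕ) g g' h) y hy

/-- (h3) in terms of helper14's invariants submodule `JInv`. -/
theorem exists_diag_add_smul_JInv {p : ℕ} (hp : p.Prime) (y : J L T) (hy : y ∈ JInv L H T) :
    ∃ x₀ : (fixK L H)ˣ, ∃ z : J L T, z ∈ JInv L H T ∧
      y = (diag L T).hom (Additive.ofMul (Units.map ((fixK L H).val : fixK L H →* L) x₀))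
        + p • z := by
  obtain ⟨x₀, z, hz, hyz⟩ := exists_diag_add_smul L H T hp y ((mem_JInv_iff_rho L H T).1 hy)
  exact ⟨x₀, z, (mem_JInv_iff_rho L H T).2 hz, hyz⟩

/-- (h3) with everything in the invariants submodule of `Res_H (J L T)` (the shape of helper60's
`exists_pth_root_invariants`). -/
theorem exists_diag_add_smul_invariants {p : ℕ} (hp : p.Prime)
    (y : (Rep.res H.subtype (J L T)).ρ.invariants) :
    ∃ x₀ : (fixK L H)ˣ, ∃ z : (Rep.res H.subtype (J L T)).ρ.invariants,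
      (y : J L T) =
        (diag L T).hom (Additive.ofMul (Units.map ((fixK L H).val : fixK L H →* L) x₀))
          + p • (z : J L T) := by
  obtain ⟨x₀, z, hz, hyz⟩ := exists_diag_add_smul L H T hp (y : J L T)
    (fun h hh => y.2 ⟨h, hh⟩)
  exact ⟨x₀, ⟨z, fun h => hz h.1 h.2⟩, hyz⟩

end Fermat.Agent.GC.Global.Adapter
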