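/-
GATE-C / C4-COH (LY-H1) H1UNITS, arithmetic core (helper79).

`N/K` Galois extension of number fields, `S` a finite set of primes of `K` generating `Cl(K)`,
`S' ⊇ S` any set of primes of `K` such that `N/K` is unramified outside `S'` (T14 inertia form), `SN'` the
primes of `N` above `S'`.  Then every 1-cocycle `Gal(N/K) → Nˣ` with values in the `SN'`-units is the
coboundary of an `SN'`-unit:  `H¹(Gal(N/K), U_{SN'}(N)) = 0`.

Proof: Hilbert 90 gives `x₀ ∈ Nˣ` with `c τ = τ x₀ / x₀`; the function `w ↦ ord_w x₀` on the primes outside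
`SN'` is Galois-invariant, hence (no ramification) comes from a finitely supported function on the primes
of `K` outside `S'`, which is `v ↦ ord_v y` for some `y ∈ Kˣ` since `S` generates the class group; `x₀ / y`
is an `SN'`-unit with the same coboundary.
-/
import Mathlib
import Fermat.Agent.GC.Kummer.Engine

set_option autoImplicit false
set_option linter.unusedSectionVars false

open NumberField IsDedekindDomain WithZero nonZeroDivisors
open scoped Pointwise

namespace Fermat.Agent.GC.Global.Adapter.H1U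

open Fermat.Agent.S14 Fermat.Agent.S14.SI

variable {K N : Type*} [Field K] [NumberField K] [Field N] [NumberField N] [Algebra K N]

/-! ### Galois action and adic valuations -/

theorem mem_smul_pow_iff (σ : N ≃ₐ[K] N) (P : Ideal (𝓞 N)) (n : ℕ) (a : 𝓞 N) :
    σ • a ∈ (σ • P) ^ n ↔ a ∈ P ^ n := by
  rw [← smul_pow', Ideal.smul_mem_pointwise_smul_iff]

theorem intValuation_smul_eq (w w' : HeightOneSpectrum (𝓞 N)) (σ : N ≃ₐ[K] N)
    (h : w'.asIdeal = σ • w.asIdeal) (a : 𝓞 N) :
    w'.intValuation (σ • a) = w.intValuation a := by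
  rcases eq_or_ne a 0 with rfl | ha
  · simp
  have ha' : σ • a ≠ 0 := by
    intro h0
    apply ha
    have := congrArg (fun z => σ⁻¹ • z) h0
    simpa using this
  have key : ∀ n : ℕ, w'.intValuation (σ • a) ≤ exp (-(n : ℤ)) ↔
      w.intValuation a ≤ exp (-(n : ℤ)) := by
    intro n
    rw [HeightOneSpectrum.intValuation_le_pow_iff_mem, HeightOneSpectrum.intValuation_le_pow_iff_mem,
      h, mem_smul_pow_iff]
  apply le_antisymm
  · rw [HeightOneSpectrum.intValuation_eq_exp_neg_multiplicity w ha]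
    rw [key]
    rw [HeightOneSpectrum.intValuation_eq_exp_neg_multiplicity w ha]
  · rw [HeightOneSpectrum.intValuation_eq_exp_neg_multiplicity w' ha']
    rw [← key]
    rw [HeightOneSpectrum.intValuation_eq_exp_neg_multiplicity w' ha']

/-- `v_{σw}(σx) = v_w(x)`. -/
theorem valuation_smul_eq (w w' : HeightOneSpectrum (𝓞 N)) (σ : N ≃ₐ[K] N)
    (h : w'.asIdeal = σ • w.asIdeal) (x : N) :
    w'.valuation N (σ x) = w.valuation N x := by
  obtain ⟨a, b, hb, rfl⟩ := IsFractionRing.div_surjective (A := 𝓞 N) x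
  have h1 : ∀ c : 𝓞 N, σ (algebraMap (𝓞 N) N c) = algebraMap (𝓞 N) N (σ • c) := fun c => rfl
  rw [map_div₀, map_div₀, map_div₀, h1, h1, HeightOneSpectrum.valuation_of_algebraMap,
    HeightOneSpectrum.valuation_of_algebraMap, HeightOneSpectrum.valuation_of_algebraMap,
    HeightOneSpectrum.valuation_of_algebraMap, intValuation_smul_eq w w' σ h,
    intValuation_smul_eq w w' σ h]

/-! ### Unramified primes: valuations of elements of `K` -/

/-- at a prime `w` of `N` with trivial inertia group, `v_w(y) = v_{w ∩ K}(y)` for `y ∈ K`. -/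
theorem valuation_algebraMap_eq_of_inertia_trivial [IsGalois K N] (w : HeightOneSpectrum (𝓞 N))
    (hw : ∀ τ : N ≃ₐ[K] N, (∀ z : 𝓞 N, τ • z - z ∈ w.asIdeal) → τ = 1) (y : K) :
    w.valuation N (algebraMap K N y) = (Bridge.below K w).valuation K y := by
  have he : w.asIdeal.ramificationIdx (𝓞 K) = 1 := by
    have h : w.asIdeal.inertia (N ≃ₐ[K] N) = ⊥ := by
      rw [Subgroup.eq_bot_iff_forall]
      intro τ hτ
      exact hw τ hτ
    rw [← Ideal.ramificationIdxIn_eq_ramificationIdx (w.asIdeal.under (𝓞 K)) w.asIdeal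
        (N ≃ₐ[K] N),
      ← Ideal.card_inertia_eq_ramificationIdxIn (G := (N ≃ₐ[K] N)) (w.asIdeal.under (𝓞 K))
        w.asIdeal, h]
    simp
  have h := HeightOneSpectrum.valuation_liesOver (K := K) N (Bridge.below K w) w y
  rw [Ideal.ramificationIdx'_eq_ramificationIdx _ _ (Bridge.below K w).ne_bot] at h
  rw [← h, he, pow_one]

/-! ### The core -/

/-- the set of primes where `x` has nonzero order is finite -/
theorem finite_valuation_ne_one (x : Nˣ) :
    {w : HeightOneSpectrum (𝓞 N) | w.valuation N (x : N) ≠ 1}.Finite := by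
  have h1 := HeightOneSpectrum.Support.finite (𝓞 N) (x : N)
  have h2 := HeightOneSpectrum.Support.finite (𝓞 N) ((x⁻¹ : Nˣ) : N)
  refine (h1.union h2).subset fun w hw => ?_
  rcases lt_or_gt_of_ne hw with h | h
  · right
    show 1 < w.valuation N ((x⁻¹ : Nˣ) : N)
    rw [Units.val_inv_eq_inv_val, map_inv₀]
    have hx0 : w.valuation N (x : N) ≠ 0 := by
      rw [Ne, map_eq_zero]
      exact x.ne_zero
    exact (one_lt_inv₀ (zero_lt_iff.2 hx0)).2 h
  · left
    exact h

/-- If the coboundary `τ ↦ τ x₀ / x₀` has values in the `SN'`-units, the valuations of `x₀` outside `SN'`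
are Galois-invariant. -/
theorem valuation_apply_eq_of_div_mem_unit (SN' : Set (HeightOneSpectrum (𝓞 N))) (x₀ : Nˣ)
    (τ : N ≃ₐ[K] N) (h : τ • x₀ / x₀ ∈ SN'.unit N) (w : HeightOneSpectrum (𝓞 N)) (hw : w ∉ SN') :
    w.valuation N (τ (x₀ : N)) = w.valuation N (x₀ : N) := by
  have h1 : w.valuation N ((τ • x₀ / x₀ : Nˣ) : N) = 1 := h w hw
  have h2 : ((τ • x₀ / x₀ : Nˣ) : N) = τ (x₀ : N) / (x₀ : N) := by
    rw [Units.val_div_eq_div_val]
    rfl
  rw [h2, map_div₀] at h1
  have hx0 : w.valuation N (x₀ : N) ≠ 0 := by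
    rw [Ne, map_eq_zero]
    exact x₀.ne_zero
  exact (div_eq_one_iff_eq hx0).1 h1

/-- **Descent of an invariant divisor.**  If the valuations of `x₀ ∈ Nˣ` at the primes outside `SN'` are
Galois-invariant, they are given by a finitely supported function `m` on the primes of `K`:
`ord_w x₀ = m (w ∩ K)` for all `w ∉ SN'`.  (No hypothesis on ramification is needed here; it enters when
`m` is compared with the orders of elements of `K`, see `valuation_algebraMap_eq_of_inertia_trivial`.) -/
theorem exists_divisor_of_invariant [IsGalois K N] (SN' : Set (HeightOneSpectrum (𝓞 N))) (x₀ : Nˣ)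
    (hinv : ∀ w : HeightOneSpectrum (𝓞 N), w ∉ SN' → ∀ τ : N ≃ₐ[K] N,
      w.valuation N (τ (x₀ : N)) = w.valuation N (x₀ : N)) :
    ∃ (F : Finset (HeightOneSpectrum (𝓞 K))) (m : HeightOneSpectrum (𝓞 K) → ℤ),
      (∀ v, v ∉ F → m v = 0) ∧
      ∀ w : HeightOneSpectrum (𝓞 N), w ∉ SN' →
        m (Bridge.below K w) = Multiplicative.toAdd (Bridge.ord w x₀) := by
  classical
  -- primes over the same prime of `K`
  have hsame : ∀ w w' : HeightOneSpectrum (𝓞 N), w ∉ SN' →
      Bridge.below K w' = Bridge.below K w →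
      w'.valuation N (x₀ : N) = w.valuation N (x₀ : N) := by
    intro w w' hw hww'
    have : w'.asIdeal.LiesOver (Bridge.below K w).asIdeal := by
      rw [← hww']
      infer_instance
    obtain ⟨σ, hσ⟩ := Ideal.exists_smul_eq_of_isGaloisGroup (Bridge.below K w).asIdeal
      w.asIdeal w'.asIdeal (N ≃ₐ[K] N)
    have h1 := valuation_smul_eq w w' σ hσ.symm (σ⁻¹ (x₀ : N))
    have h2 : σ (σ⁻¹ (x₀ : N)) = (x₀ : N) := by
      show (σ * σ⁻¹) (x₀ : N) = _
      rw [mul_inv_cancel]
      rfl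
    rw [h2] at h1
    rw [h1]
    exact hinv w hw σ⁻¹
  -- the function on the primes of `K`
  let m : HeightOneSpectrum (𝓞 K) → ℤ := fun v =>
    if h : ∃ w : HeightOneSpectrum (𝓞 N), Bridge.below K w = v then
      Multiplicative.toAdd (Bridge.ord h.choose x₀) else 0
  refine ⟨(finite_valuation_ne_one x₀).toFinset.image (Bridge.below K), m, ?_, ?_⟩
  · intro v hv
    by_cases h : ∃ w : HeightOneSpectrum (𝓞 N), Bridge.below K w = v
    · have h1 : m v = Multiplicative.toAdd (Bridge.ord h.choose x₀) := dif_pos h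
      rw [h1]
      have h2 : h.choose ∉ (finite_valuation_ne_one x₀).toFinset := by
        intro hmem
        exact hv (Finset.mem_image.2 ⟨h.choose, hmem, h.choose_spec⟩)
      rw [Set.Finite.mem_toFinset] at h2
      have h3 : h.choose.valuation N (x₀ : N) = 1 := not_not.1 h2
      have h4 := (Bridge.isUnitAt_iff_ord h.choose x₀).1 ((Bridge.isUnitAt_iff h.choose x₀).2 h3)
      rw [h4]
      rfl
    · exact dif_neg h
  · intro w hw
    have hex : ∃ w' : HeightOneSpectrum (𝓞 N), Bridge.below K w' = Bridge.below K w := ⟨w, rfl⟩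
    have h1 : m (Bridge.below K w) = Multiplicative.toAdd (Bridge.ord hex.choose x₀) := dif_pos hex
    rw [h1]
    have h2 := hsame w hex.choose hw hex.choose_spec
    rw [Bridge.valuation_eq, Bridge.valuation_eq] at h2
    have h3 := WithZero.coe_injective h2
    rw [inv_inj] at h3
    rw [h3]

/-- at an unramified prime `w`, `ord_w y = ord_{w ∩ K} y` for `y ∈ Kˣ`. -/
theorem ord_map_eq_of_inertia_trivial [IsGalois K N] (w : HeightOneSpectrum (𝓞 N))
    (hw : ∀ τ : N ≃ₐ[K] N, (∀ z : 𝓞 N, τ • z - z ∈ w.asIdeal) → τ = 1) (y : Kˣ) :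
    Bridge.ord w (Units.map (algebraMap K N : K →* N) y) = Bridge.ord (Bridge.below K w) y := by
  have h1 : w.valuation N ((Units.map (algebraMap K N : K →* N) y : Nˣ) : N)
      = (Bridge.below K w).valuation K (y : K) :=
    valuation_algebraMap_eq_of_inertia_trivial w hw (y : K)
  rw [Bridge.valuation_eq, Bridge.valuation_eq] at h1
  have h3 := WithZero.coe_injective h1
  rwa [inv_inj] at h3

/-- **(LY-H1) core.**  `H¹(Gal(N/K), U_{SN'}(N)) = 0` when a finite set `S ⊆ S'` of primes generates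
`Cl(K)` and `N/K` is unramified outside `S'`. -/
theorem exists_sUnit_coboundary [IsGalois K N]
    (S : Finset (HeightOneSpectrum (𝓞 K)))
    (hScl : Subgroup.closure (Set.range fun v : S =>
        ClassGroup.mk0 ⟨v.1.asIdeal, mem_nonZeroDivisors_of_ne_zero v.1.ne_bot⟩) = ⊤)
    (S' : Set (HeightOneSpectrum (𝓞 K))) (hSS' : ∀ v ∈ S, v ∈ S')
    (SN' : Set (HeightOneSpectrum (𝓞 N)))
    (hSN' : ∀ w : HeightOneSpectrum (𝓞 N), w ∈ SN' ↔ Bridge.below K w ∈ S')
    (hunr : ∀ w : HeightOneSpectrum (𝓞 N), w ∉ SN' →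
      ∀ τ : N ≃ₐ[K] N, (∀ z : 𝓞 N, τ • z - z ∈ w.asIdeal) → τ = 1)
    (c : (N ≃ₐ[K] N) → Nˣ) (hc : groupCohomology.IsMulCocycle₁ c)
    (hcS : ∀ τ, c τ ∈ SN'.unit N) :
    ∃ x ∈ SN'.unit N, ∀ τ : N ≃ₐ[K] N, τ • x / x = c τ := by
  classical
  obtain ⟨x₀, hx₀⟩ := groupCohomology.isMulCoboundary₁_of_isMulCocycle₁_of_aut_to_units c hc
  obtain ⟨F, m, hmF, hm⟩ := exists_divisor_of_invariant (K := K) SN' x₀ (fun w hw τ =>
    valuation_apply_eq_of_div_mem_unit SN' x₀ τ (by rw [hx₀ τ]; exact hcS τ) w hw)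
  obtain ⟨y, hy⟩ := Fermat.Agent.GC.Kummer.exists_ord_eq_of_finsupp S hScl F m hmF
  set yN : Nˣ := Units.map (algebraMap K N : K →* N) y with hyN
  have hyfix : ∀ τ : N ≃ₐ[K] N, τ • yN = yN := by
    intro τ
    apply Units.ext
    show τ (algebraMap K N (y : K)) = algebraMap K N (y : K)
    exact τ.commutes _
  refine ⟨x₀ / yN, ?_, fun τ => ?_⟩
  · intro w hw
    have hv : Bridge.below K w ∉ S := fun h => hw ((hSN' w).2 (hSS' _ h))
    have h2 : Multiplicative.toAdd (Bridge.ord (Bridge.below K w) y)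
        = Multiplicative.toAdd (Bridge.ord w x₀) := by
      rw [hy _ hv, hm w hw]
    have h3 : Bridge.ord (Bridge.below K w) y = Bridge.ord w x₀ := Multiplicative.toAdd.injective h2
    have h4 : Bridge.ord w (x₀ / yN) = 1 := by
      rw [map_div, hyN, ord_map_eq_of_inertia_trivial w (hunr w hw) y, h3, div_self']
    exact (Bridge.isUnitAt_iff w _).1 ((Bridge.isUnitAt_iff_ord w _).2 h4)
  · rw [← hx₀ τ, smul_div', hyfix τ]
    rw [div_div_div_cancel_right]

end Fermat.Agent.GC.Global.Adapter.H1U
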