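/-
GATE-C / C4-COH (LY-H1) H1UNITS (helper79): `H¹(U, E(L,T)) = 0` for every subgroup `U ≤ G_L`, when `L` is
unramified outside `T` and primes above `T` generate the class group of `L^U`.

* `inertia_trivial_of_isUnramifiedOutside` : the prelude predicate `L.IsUnramifiedOutside T` gives trivial
  inertia groups in `Gal(L/ℚ)` at the primes of `𝓞 L` not above `T` (T14 inertia form, "unram_top");
* `exists_tUnit_coboundary` : cocycles `U → tUnits L T` are coboundaries of `T`-units (unit language);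
* `h1Vanishes_E` : `InfRes2.H1Vanishes (E L T) U`;
* `isZero_H1_res_E` : `IsZero (groupCohomology (Rep.res U.subtype (E L T)) 1)`.
-/
import Mathlib
import Fermat.Agent.GC.Global.ClassModule
import Fermat.Agent.GC.Global.Adapter.TUnitsDict
import Fermat.Agent.GC.Global.Adapter.H1UnitsCore
import Fermat.Agent.S14.Reduction
import Fermat.Agent.GC.Tate.InfRes2
import Fermat.Prelude.Def_GroupCohomology_ContinuousUnramified

set_option autoImplicit false
set_option linter.unusedSectionVars false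

open NumberField IsDedekindDomain nonZeroDivisors

namespace Fermat.Agent.GC.Global.Adapter.H1U

open Fermat.Agent.GC.Global Fermat.Agent.S14 Fermat.Agent.S14.SI

variable (L : IntermediateField ℚ Qb) [FiniteDimensional ℚ L] [IsGalois ℚ L]
  (T : Finset Nat.Primes)

/-- **unram_top.**  If `L` is unramified outside `T` (prelude predicate) then the inertia group in
`Gal(L/ℚ)` of every prime of `𝓞 L` not above `T` is trivial. -/
theorem inertia_trivial_of_isUnramifiedOutside [NumberField L] (hT : L.IsUnramifiedOutside T)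
    (P : Ideal (𝓞 L)) [P.IsPrime] (hP0 : P ≠ ⊥) (hPT : ∀ q ∈ T, (((q : ℕ) : ℕ) : 𝓞 L) ∉ P)
    (τ : L ≃ₐ[ℚ] L) (hτ : ∀ z : 𝓞 L, τ • z - z ∈ P) : τ = 1 := by
  have hloc := Fermat.Agent.S14.Reduction.localInput L
  obtain ⟨A, hA⟩ := hloc.exists_val P inferInstance hP0
  obtain ⟨σ, hσ, hres⟩ := hloc.lift_inertia A P inferInstance hP0 hA τ hτ
  obtain ⟨ℓ, hℓ, hℓP⟩ := Fermat.Agent.S14.Reduction.exists_prime_mem P hP0
  have hAℓ : A.LiesOverPrime ℓ := Fermat.Agent.S14.Reduction.liesOverPrime_of_mem hA hℓP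
  have hℓT : (⟨ℓ, hℓ⟩ : Nat.Primes) ∉ T := fun h => hPT _ h hℓP
  have hfix := hT.2 ⟨ℓ, hℓ⟩ hℓT A hAℓ hσ
  rw [IntermediateField.mem_fixingSubgroup_iff] at hfix
  ext x
  have h1 := hres x
  rw [hfix (x : Qb) x.2] at h1
  exact h1.symm

/-- a prime of `𝓞 L` not containing `∏ T` contains no `q ∈ T` -/
theorem natCast_notMem_of_notMem_primesDvd [NumberField L]
    {w : HeightOneSpectrum (𝓞 L)} (hw : w ∉ EH.primesDvd L (Tprod T)) :
    ∀ q ∈ T, (((q : ℕ) : ℕ) : 𝓞 L) ∉ w.asIdeal := by
  intro q hq hmem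
  apply hw
  show ((Tprod T : ℕ) : 𝓞 L) ∈ w.asIdeal
  obtain ⟨r, hr⟩ : (q : ℕ) ∣ Tprod T := Finset.dvd_prod_of_mem (fun q : Nat.Primes => (q : ℕ)) hq
  rw [hr, Nat.cast_mul]
  exact Ideal.mul_mem_right _ _ hmem

variable (U : Subgroup (L ≃ₐ[ℚ] L))

/-- the primes of `L` dividing `m` are those above the primes of `L^U` dividing `m` -/
theorem mem_primesDvd_iff_below [NumberField L] [NumberField (IntermediateField.fixedField U)]
    (m : ℕ) (w : HeightOneSpectrum (𝓞 L)) :
    w ∈ EH.primesDvd L m ↔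
      Bridge.below (IntermediateField.fixedField U) w ∈
        EH.primesDvd (IntermediateField.fixedField U) m := by
  rw [EH.mem_primesDvd, EH.mem_primesDvd, Bridge.below_asIdeal, Ideal.under_def, Ideal.mem_comap,
    map_natCast]

/-- `L/L^U` is unramified outside `T`. -/
theorem inertia_trivial_fixedField [NumberField L] (hT : L.IsUnramifiedOutside T)
    (w : HeightOneSpectrum (𝓞 L)) (hw : w ∉ EH.primesDvd L (Tprod T))
    (τ : L ≃ₐ[IntermediateField.fixedField U] L) (hτ : ∀ z : 𝓞 L, τ • z - z ∈ w.asIdeal) :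
    τ = 1 := by
  have h1 : τ.restrictScalars ℚ = 1 :=
    inertia_trivial_of_isUnramifiedOutside L T hT w.asIdeal w.ne_bot
      (natCast_notMem_of_notMem_primesDvd L T hw) (τ.restrictScalars ℚ) hτ
  refine AlgEquiv.ext fun x => ?_
  exact congrArg (fun f : L ≃ₐ[ℚ] L => f x) h1

/-- `T`-units of `L` = `S`-units for `S = {w ∣ ∏ T}` (helper68's dictionary). -/
theorem mem_tUnits_iff_mem_unit [NumberField L] (x : Lˣ) :
    x ∈ tUnits L T ↔ x ∈ (EH.primesDvd L (Tprod T)).unit L :=
  (mem_tUnits L T).trans (EH.mem_unit_primesDvd_iff (Tprod T) x).symm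

/-- **(LY-H1), unit language.**  `L` unramified outside `T`, `S` a finite set of primes of `L^U` above `T`
generating `Cl(L^U)`: every 1-cocycle `U → tUnits L T` is the coboundary of a `T`-unit. -/
theorem exists_tUnit_coboundary [NumberField L] [NumberField (IntermediateField.fixedField U)]
    (hT : L.IsUnramifiedOutside T)
    (S : Finset (HeightOneSpectrum (𝓞 (IntermediateField.fixedField U))))
    (hST : ∀ v ∈ S, v ∈ EH.primesDvd (IntermediateField.fixedField U) (Tprod T))
    (hScl : Subgroup.closure (Set.range fun v : S =>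
        ClassGroup.mk0 ⟨v.1.asIdeal, mem_nonZeroDivisors_of_ne_zero v.1.ne_bot⟩) = ⊤)
    (c : (L ≃ₐ[ℚ] L) → Lˣ)
    (hc : ∀ s ∈ U, ∀ t ∈ U, c (s * t) = Units.map (s : L →* L) (c t) * c s)
    (hcT : ∀ s ∈ U, c s ∈ tUnits L T) :
    ∃ x ∈ tUnits L T, ∀ s ∈ U, c s = Units.map (s : L →* L) x / x := by
  have hτU : ∀ τ : L ≃ₐ[IntermediateField.fixedField U] L, τ.restrictScalars ℚ ∈ U := by
    intro τ
    have h1 : τ.restrictScalars ℚ ∈ (IntermediateField.fixedField U).fixingSubgroup := by
      rw [IntermediateField.mem_fixingSubgroup_iff]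
      intro x hx
      exact τ.commutes ⟨x, hx⟩
    rwa [IntermediateField.fixingSubgroup_fixedField] at h1
  obtain ⟨x, hx, hxc⟩ := exists_sUnit_coboundary (K := IntermediateField.fixedField U) (N := L)
    S hScl (EH.primesDvd (IntermediateField.fixedField U) (Tprod T)) hST
    (EH.primesDvd L (Tprod T)) (mem_primesDvd_iff_below L U (Tprod T))
    (fun w hw => inertia_trivial_fixedField L T U hT w hw)
    (fun τ => c (τ.restrictScalars ℚ))
    (fun g h => by
      show c ((g * h).restrictScalars ℚ) = g • c (h.restrictScalars ℚ) * c (g.restrictScalars ℚ)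
      have := hc _ (hτU g) _ (hτU h)
      exact this)
    (fun τ => (mem_tUnits_iff_mem_unit L T _).1 (hcT _ (hτU τ)))
  refine ⟨x, (mem_tUnits_iff_mem_unit L T x).2 hx, fun s hs => ?_⟩
  have hs' : s ∈ (IntermediateField.fixedField U).fixingSubgroup := by
    rw [IntermediateField.fixingSubgroup_fixedField]
    exact hs
  have h1 := hxc (IntermediateField.fixingSubgroupEquiv (IntermediateField.fixedField U) ⟨s, hs'⟩)
  have h2 : (IntermediateField.fixingSubgroupEquiv (IntermediateField.fixedField U)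
      ⟨s, hs'⟩).restrictScalars ℚ = s := by
    refine AlgEquiv.ext fun x => ?_
    rfl
  rw [h2] at h1
  rw [← h1]
  rfl

/-- **(LY-H1)**, cocycle-level form of helper1's `InfRes2`: `H¹(U, E(L,T)) = 0`. -/
theorem h1Vanishes_E [NumberField L] [NumberField (IntermediateField.fixedField U)]
    (hT : L.IsUnramifiedOutside T)
    (S : Finset (HeightOneSpectrum (𝓞 (IntermediateField.fixedField U))))
    (hST : ∀ v ∈ S, v ∈ EH.primesDvd (IntermediateField.fixedField U) (Tprod T))
    (hScl : Subgroup.closure (Set.range fun v : S =>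
        ClassGroup.mk0 ⟨v.1.asIdeal, mem_nonZeroDivisors_of_ne_zero v.1.ne_bot⟩) = ⊤) :
    Fermat.Agent.GC.Tate.InfRes2.H1Vanishes (E L T) U := by
  intro c hc
  obtain ⟨x, hx, hxc⟩ := exists_tUnit_coboundary L T U hT S hST hScl
    (fun g => Additive.toMul ((c g).1 : Additive Lˣ))
    (fun s hs t ht => congrArg (fun y : (E L T) => Additive.toMul (y.1 : Additive Lˣ)) (hc s hs t ht))
    (fun s _ => (c s).2)
  refine ⟨⟨Additive.ofMul x, hx⟩, fun s hs => ?_⟩
  apply Subtype.ext
  apply Additive.toMul.injective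
  exact hxc s hs

/-- **(LY-H1)**, Mathlib form: `H¹(U, E(L,T)) = 0`. -/
theorem isZero_H1_res_E [NumberField L] [NumberField (IntermediateField.fixedField U)]
    (hT : L.IsUnramifiedOutside T)
    (S : Finset (HeightOneSpectrum (𝓞 (IntermediateField.fixedField U))))
    (hST : ∀ v ∈ S, v ∈ EH.primesDvd (IntermediateField.fixedField U) (Tprod T))
    (hScl : Subgroup.closure (Set.range fun v : S =>
        ClassGroup.mk0 ⟨v.1.asIdeal, mem_nonZeroDivisors_of_ne_zero v.1.ne_bot⟩) = ⊤) :
    CategoryTheory.Limits.IsZero (groupCohomology (Rep.res U.subtype (E L T)) 1) := by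
  classical
  have hv := h1Vanishes_E L T U hT S hST hScl
  refine @ModuleCat.isZero_of_subsingleton _ _ _ ⟨fun a b => ?_⟩
  suffices h : ∀ a : groupCohomology.H1 (Rep.res U.subtype (E L T)), a = 0 by
    rw [h a, h b]
  intro a
  refine groupCohomology.H1_induction_on a fun x => ?_
  rw [groupCohomology.H1π_eq_zero_iff]
  have hx := (groupCohomology.mem_cocycles₁_iff (A := Rep.res U.subtype (E L T)) x.1).1 x.2
  obtain ⟨y, hy⟩ := hv (fun g => if h : g ∈ U then x.1 ⟨g, h⟩ else 0) (fun s hs t ht => by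
    simp only [dif_pos hs, dif_pos ht, dif_pos (U.mul_mem hs ht)]
    exact hx ⟨s, hs⟩ ⟨t, ht⟩)
  refine ⟨y, ?_⟩
  funext s
  have := hy s.1 s.2
  simp only [dif_pos s.2] at this
  exact this.symm

end Fermat.Agent.GC.Global.Adapter.H1U
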