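/-
GATE-C / C4 leaf (LM-U) (helper52): unramified local units in helper14's coind-idele model.

For a finite Galois layer `L ⊂ Qbar`, finite sets of primes `S`, `T`:
* `locO L q`      : the valuation ring of `L_q = locField q L` (helper3 `padicVS`);
* `IsUnramAt L q` : `L_q/ℚ_q` is unramified (a uniformiser of `O_{L_q}` comes from `ℚ_q`);
* `vSub L S q`    : `⊥` if `q ∈ S`, `O_{L_q}^×` if `q ∉ S` (a Galois-stable submodule of `L_qˣ`);
* `vRep L S q`    : the corresponding subrepresentation of `locUnits q L`;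
* `cohTriv_vRep`  : it is cohomologically trivial if `L` is unramified at `q` or `q ∈ S`;
* `U L T S := ∏_{q ∈ T} coind_{D_q} (vRep L S q)`  (`= U_{T∖S}`, the unramified units outside `S`),
  `UtoJ : U L T S ⟶ J L T`, `UtoC : U L T S ⟶ C L T`;
* `isZero_res_U` : `H^{n+1}(H, U_{T∖S}) = 0` for every `H ≤ G_L`;
* `CS L T S := C(L,T) / U_{T∖S}`, `CtoCS`, `unramShortComplex_shortExact`
  (`0 → U_{T∖S} → C(L,T) → C_S(L,T) → 0`, needs `S ∩ T ≠ ∅`);
* `res_CtoCS_bijective` : `H^{n+1}(H, C(L,T)) → H^{n+1}(H, C_S(L,T))` is bijective for all `H ≤ G_L`.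
-/
import Mathlib
import Fermat.Agent.GC.Global.Adapter.InvJ
import Fermat.Agent.GC.Global.MackeyJ
import Fermat.Agent.GC.Global.CohTriv
import Fermat.Agent.GC.Local.UnitBall
import Fermat.Agent.GC.Local.Ramification
import Fermat.Agent.GC.Local.Unram.UnitsCoh

set_option autoImplicit false
set_option linter.unusedSectionVars false

open scoped Padic
open CategoryTheory Limits

noncomputable section

namespace Fermat.Agent.GC.Global.LMU

open Fermat.Agent.GC.Global Fermat.Agent.GC.Local Fermat.Agent.GC.Local.Unram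
open Fermat.Agent.GC.Global.CohTriv

variable (L : IntermediateField ℚ Qb) [FiniteDimensional ℚ L] [IsGalois ℚ L]

/-- The valuation ring of the local layer `L_q`. -/
abbrev locO (q : Nat.Primes) : ValuationSubring (locField (q : ℕ) L) :=
  padicVS (q : ℕ) (locField (q : ℕ) L)

instance (q : Nat.Primes) : IsDiscreteValuationRing (locO L q) :=
  padicVS_isDiscreteValuationRing (q : ℕ) (locField (q : ℕ) L)

instance (q : Nat.Primes) : Finite (IsLocalRing.ResidueField (locO L q)) :=
  padicVS_finite_residueField (q : ℕ) (locField (q : ℕ) L)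

instance (q : Nat.Primes) : IsAdicComplete (IsLocalRing.maximalIdeal (locO L q)) (locO L q) :=
  padicVS_isAdicComplete (q : ℕ) (locField (q : ℕ) L)

theorem locO_galStable (q : Nat.Primes)
    (σ : locField (q : ℕ) L ≃ₐ[ℚ_[(q : ℕ)]] locField (q : ℕ) L) (x : locField (q : ℕ) L)
    (hx : x ∈ locO L q) : σ x ∈ locO L q :=
  padicVS_galStable (q : ℕ) (locField (q : ℕ) L) ℚ_[(q : ℕ)] σ x hx

/-- `L` is unramified at `q`, local form: a uniformiser of `O_{L_q}` comes from `ℚ_q`. -/
def IsUnramAt (q : Nat.Primes) : Prop :=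
  ∃ c : ℚ_[(q : ℕ)], ∃ h : algebraMap ℚ_[(q : ℕ)] (locField (q : ℕ) L) c ∈ locO L q,
    Irreducible (⟨algebraMap ℚ_[(q : ℕ)] (locField (q : ℕ) L) c, h⟩ : locO L q)

/-- `L` is unramified at `q` as soon as the ramification index of `L_q/ℚ_q` (helper3) is `1`. -/
theorem isUnramAt_of_ramIdx_eq_one (q : Nat.Primes)
    (h : ramIdx (q : ℕ) (locField (q : ℕ) L) = 1) : IsUnramAt L q := by
  have hmem : algebraMap ℚ_[(q : ℕ)] (locField (q : ℕ) L) ((q : ℕ) : ℚ_[(q : ℕ)]) ∈ locO L q := by
    rw [← primeElt_coe]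
    exact (primeElt (q : ℕ) (locField (q : ℕ) L)).2
  refine ⟨((q : ℕ) : ℚ_[(q : ℕ)]), hmem, ?_⟩
  have heq : (⟨algebraMap ℚ_[(q : ℕ)] (locField (q : ℕ) L) ((q : ℕ) : ℚ_[(q : ℕ)]), hmem⟩ :
      locO L q) = primeElt (q : ℕ) (locField (q : ℕ) L) :=
    Subtype.ext (primeElt_coe (q : ℕ) (locField (q : ℕ) L)).symm
  rw [heq, IsDiscreteValuationRing.irreducible_iff_uniformizer]
  have := span_primeElt_eq (q : ℕ) (locField (q : ℕ) L)
  rw [h, pow_one] at this
  exact this.symm

variable (S T : Finset Nat.Primes)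

/-- `⊥` for `q ∈ S`, the integral local units `O_{L_q}^×` for `q ∉ S`. -/
def vSub (q : Nat.Primes) : Submodule ℤ (Additive (locField (q : ℕ) L)ˣ) :=
  if q ∈ S then ⊥ else intUnitsSub (locO L q)

theorem vSub_of_mem {q : Nat.Primes} (hq : q ∈ S) : vSub L S q = ⊥ := if_pos hq

theorem vSub_of_not_mem {q : Nat.Primes} (hq : q ∉ S) : vSub L S q = intUnitsSub (locO L q) :=
  if_neg hq

theorem vSub_le_comap (q : Nat.Primes)
    (σ : locField (q : ℕ) L ≃ₐ[ℚ_[(q : ℕ)]] locField (q : ℕ) L) :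
    vSub L S q ≤ (vSub L S q).comap ((locUnits (q : ℕ) L).ρ σ) := by
  by_cases hq : q ∈ S
  · rw [vSub_of_mem L S hq]
    intro x hx
    have hx0 : x = 0 := hx
    subst hx0
    exact (Submodule.mem_bot ℤ).2 (map_zero ((locUnits (q : ℕ) L).ρ σ))
  · rw [vSub_of_not_mem L S hq]
    exact intUnitsSub_le_comap (locO L q) (locO_galStable L q) σ

/-- The local factor of `U_{T∖S}` at `q`, as a `Gal(L_q/ℚ_q)`-module. -/
def vRep (q : Nat.Primes) : Rep ℤ (locField (q : ℕ) L ≃ₐ[ℚ_[(q : ℕ)]] locField (q : ℕ) L) :=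
  Rep.subrepresentation (locUnits (q : ℕ) L) (vSub L S q) (vSub_le_comap L S q)

/-- The underlying element of `L_qˣ` (additively written) of an element of `vRep`. -/
def vVal (q : Nat.Primes) : (vRep L S q).V →ₗ[ℤ] Additive (locField (q : ℕ) L)ˣ :=
  (vSub L S q).subtype

theorem vVal_mem (q : Nat.Primes) (y : (vRep L S q).V) : vVal L S q y ∈ vSub L S q :=
  Subtype.property (p := fun z => z ∈ vSub L S q) y

theorem vVal_injective (q : Nat.Primes) : Function.Injective (vVal L S q) :=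
  (vSub L S q).injective_subtype

theorem vVal_ρ (q : Nat.Primes)
    (σ : locField (q : ℕ) L ≃ₐ[ℚ_[(q : ℕ)]] locField (q : ℕ) L) (y : (vRep L S q).V) :
    vVal L S q ((vRep L S q).ρ σ y) = (locUnits (q : ℕ) L).ρ σ (vVal L S q y) := rfl

/-- Transport of cohomological triviality along an equality of submodules. -/
theorem cohTriv_subrepresentation_congr {k G : Type} [CommRing k] [Group G] (A : Rep.{0} k G)
    {W W' : Submodule k A.V} (h : W = W') (hW : ∀ g, W ≤ W.comap (A.ρ g))
    (hW' : ∀ g, W' ≤ W'.comap (A.ρ g))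
    (hc : CohTriv (Rep.subrepresentation A W' hW')) :
    CohTriv (Rep.subrepresentation A W hW) := by
  subst h
  exact hc

/-- The local factor is cohomologically trivial, if `q ∈ S` or `L` is unramified at `q`. -/
theorem cohTriv_vRep (q : Nat.Primes) (hq : q ∈ S ∨ IsUnramAt L q) : CohTriv (vRep L S q) := by
  by_cases hqS : q ∈ S
  · have : Subsingleton (vRep L S q).V := by
      show Subsingleton (vSub L S q)
      rw [vSub_of_mem L S hqS]
      infer_instance
    exact cohTriv_of_subsingleton _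
  · have hun : IsUnramAt L q := hq.resolve_left hqS
    refine cohTriv_subrepresentation_congr (locUnits (q : ℕ) L) (vSub_of_not_mem L S hqS) _
      (intUnitsSub_le_comap (locO L q) (locO_galStable L q)) ?_
    intro D' n
    exact isZero_groupCohomology_res_intUnitsRep (locO L q) (locO_galStable L q) hun D' n

/-! ### The module `U_{T∖S}` of unramified units outside `S` -/

/-- The carrier of `coind_{D_q} (vRep L S q)`, as an opaque type with its own instances (same
device as `JqCarrier`). -/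
def UqCarrier (q : Nat.Primes) : Type :=
  ↥(Representation.coindV (decHom (q : ℕ) L) (vRep L S q).ρ)

instance (q : Nat.Primes) : AddCommGroup (UqCarrier L S q) :=
  inferInstanceAs (AddCommGroup ↥(Representation.coindV (decHom (q : ℕ) L) (vRep L S q).ρ))

instance (q : Nat.Primes) : Module ℤ (UqCarrier L S q) :=
  inferInstanceAs (Module ℤ ↥(Representation.coindV (decHom (q : ℕ) L) (vRep L S q).ρ))

/-- The representation on `UqCarrier`. -/
def UqRep (q : Nat.Primes) : Representation ℤ (L ≃ₐ[ℚ] L) (UqCarrier L S q) :=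
  Representation.coind (decHom (q : ℕ) L) (vRep L S q).ρ

/-- `U_{T∖S} = ∏_{q ∈ T} coind_{D_q} (vRep L S q)`: trivial components at `q ∈ S`, integral local
units at `q ∈ T ∖ S`. -/
def U : Rep ℤ (L ≃ₐ[ℚ] L) := Rep.of (piRep fun q : T => UqRep L S q)

/-- `H^{n+1}(H, U_{T∖S}) = 0` for every subgroup `H ≤ G_L`, if `L` is unramified at the primes of
`T ∖ S`. -/
theorem isZero_res_U (hun : ∀ q ∈ T, q ∈ S ∨ IsUnramAt L q) (H : Subgroup (L ≃ₐ[ℚ] L)) (n : ℕ) :
    IsZero (groupCohomology (Rep.res H.subtype (U L S T)) (n + 1)) :=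
  isZero_res_piCoind H (fun q : T => decHom ((q : Nat.Primes) : ℕ) L)
    (fun _ => decHom_injective _ L) (fun q : T => vRep L S q)
    (fun q => cohTriv_vRep L S q (hun q q.2)) n

theorem cohTriv_U (hun : ∀ q ∈ T, q ∈ S ∨ IsUnramAt L q) : CohTriv (U L S T) :=
  fun H n => isZero_res_U L S T hun H n

/-- The inclusion of the `q`-component of `U_{T∖S}` into `Jq`. -/
def vIncl (q : Nat.Primes) : UqCarrier L S q →ₗ[ℤ] JqCarrier L q where
  toFun f := ⟨fun g => vVal L S q (f.1 g), fun d g => by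
    have := congrArg (vVal L S q) (f.2 d g)
    exact this⟩
  map_add' f f' := rfl
  map_smul' n f := rfl

theorem vIncl_apply (q : Nat.Primes) (f : UqCarrier L S q) (g : L ≃ₐ[ℚ] L) :
    (vIncl L S q f).1 g = vVal L S q (f.1 g) := rfl

theorem vIncl_injective (q : Nat.Primes) : Function.Injective (vIncl L S q) := by
  intro f f' h
  apply Subtype.ext
  funext g
  apply vVal_injective L S q
  exact congrArg (fun y : JqCarrier L q => y.1 g) h

/-- The inclusion `U_{T∖S} ⟶ J(L,T)`. -/
def UtoJ : U L S T ⟶ J L T :=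
  Rep.ofHom
    { toLinearMap := LinearMap.pi fun q : T =>
        (vIncl L S (q : Nat.Primes)).comp (LinearMap.proj q)
      isIntertwining' := fun g => by
        ext x q
        rfl }

theorem UtoJ_apply (u : U L S T) (q : T) :
    (UtoJ L S T).hom u q = vIncl L S (q : Nat.Primes) (u q) := rfl

theorem UtoJ_injective : Function.Injective (UtoJ L S T).hom := by
  intro u u' h
  funext q
  exact vIncl_injective L S q (congrFun h q)

/-- The components of `U_{T∖S}` at the primes of `S` are trivial. -/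
theorem UtoJ_apply_of_mem (u : U L S T) (q : T) (hq : (q : Nat.Primes) ∈ S) :
    (UtoJ L S T).hom u q = 0 := by
  rw [UtoJ_apply]
  apply Subtype.ext
  funext g
  have h := vVal_mem L S q ((u q).1 g)
  rw [vSub_of_mem L S hq] at h
  exact h

/-- The map `U_{T∖S} ⟶ C(L,T)`. -/
def UtoC : U L S T ⟶ C L T := UtoJ L S T ≫ JtoC L T

theorem UtoC_apply (u : U L S T) :
    (UtoC L S T).hom u = (JtoC L T).hom ((UtoJ L S T).hom u) := rfl

/-- `U_{T∖S} ∩ E(L,T) = 0` as soon as `S ∩ T ≠ ∅`. -/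
theorem UtoC_injective (hST : ∃ q ∈ T, q ∈ S) : Function.Injective (UtoC L S T).hom := by
  intro u u' huu
  have hsub : (UtoC L S T).hom (u - u') = 0 := by
    rw [map_sub, huu, sub_self]
  suffices h : u - u' = 0 from sub_eq_zero.1 h
  generalize u - u' = w at hsub
  obtain ⟨x, hx, hxu⟩ := (Submodule.Quotient.mk_eq_zero _).1 hsub
  have hxu' : (diag L T).hom x = (UtoJ L S T).hom w := hxu
  obtain ⟨q0, hq0T, hq0S⟩ := hST
  have h0 : (UtoJ L S T).hom w ⟨q0, hq0T⟩ = 0 := UtoJ_apply_of_mem L S T w ⟨q0, hq0T⟩ hq0S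
  have hx0 : diagqLin L q0 x = 0 := by
    have := congrFun hxu' ⟨q0, hq0T⟩
    rw [h0] at this
    exact this
  have hx1 : x = 0 := diagqLin_injective L q0 (hx0.trans (map_zero _).symm)
  subst hx1
  apply UtoJ_injective L S T
  rw [map_zero, ← hxu']
  exact map_zero _

/-- The image of `U_{T∖S}` in `C(L,T)`. -/
def USubC : Submodule ℤ (C L T) := LinearMap.range (UtoC L S T).hom.toLinearMap

theorem USubC_le_comap (g : L ≃ₐ[ℚ] L) :
    USubC L S T ≤ (USubC L S T).comap ((C L T).ρ g) := by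
  rintro _ ⟨u, rfl⟩
  refine ⟨(U L S T).ρ g u, ?_⟩
  exact congrArg (fun f => f u) ((UtoC L S T).hom.isIntertwining' g)

/-- `C_S(L,T) := C(L,T) / U_{T∖S}`: the `S`-idele class module of the layer `L` computed in the
`T`-model. -/
def CS : Rep ℤ (L ≃ₐ[ℚ] L) :=
  Rep.quotient (C L T) (USubC L S T) (USubC_le_comap L S T)

/-- The projection `C(L,T) ⟶ C_S(L,T)`. -/
def CtoCS : C L T ⟶ CS L S T := Rep.mkQ (C L T) (USubC L S T) (USubC_le_comap L S T)

theorem CtoCS_surjective : Function.Surjective (CtoCS L S T).hom :=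
  Submodule.mkQ_surjective _

theorem UtoC_comp_CtoCS : UtoC L S T ≫ CtoCS L S T = 0 := by
  ext u
  exact (Submodule.Quotient.mk_eq_zero _).2 ⟨u, rfl⟩

/-- The short complex `U_{T∖S} ⟶ C(L,T) ⟶ C_S(L,T)`. -/
def unramShortComplex : ShortComplex (Rep ℤ (L ≃ₐ[ℚ] L)) where
  X₁ := U L S T
  X₂ := C L T
  X₃ := CS L S T
  f := UtoC L S T
  g := CtoCS L S T
  zero := UtoC_comp_CtoCS L S T

/-- `0 → U_{T∖S} → C(L,T) → C_S(L,T) → 0` is exact when `S ∩ T ≠ ∅`. -/
theorem unramShortComplex_shortExact (hST : ∃ q ∈ T, q ∈ S) :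
    (unramShortComplex L S T).ShortExact :=
  shortExact_of_forget _ (UtoC_injective L S T hST) (CtoCS_surjective L S T) fun x hx => by
    obtain ⟨u, hu⟩ := (Submodule.Quotient.mk_eq_zero _).1 hx
    exact ⟨u, hu⟩

/-- **(LM-U)**: if `L` is unramified at the primes of `T ∖ S` (and `S ∩ T ≠ ∅`), then for every
subgroup `H ≤ G_L` and every `n`, `H^{n+1}(H, C(L,T)) → H^{n+1}(H, C_S(L,T))` is bijective. -/
theorem res_CtoCS_bijective (hST : ∃ q ∈ T, q ∈ S) (hun : ∀ q ∈ T, q ∈ S ∨ IsUnramAt L q)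
    (H : Subgroup (L ≃ₐ[ℚ] L)) (n : ℕ) :
    Function.Bijective (groupCohomology.map (A := Rep.res H.subtype (C L T))
      (B := Rep.res H.subtype (CS L S T)) (MonoidHom.id H)
      ((Rep.resFunctor (k := ℤ) H.subtype).map (CtoCS L S T)) (n + 1)).hom :=
  res_map_g_bijective (unramShortComplex_shortExact L S T hST) (cohTriv_U L S T hun) H n

/-- **(LM-U)**, degree `0`: `C(L,T)^H → C_S(L,T)^H` is surjective. -/
theorem res_CtoCS_surjective (hST : ∃ q ∈ T, q ∈ S) (hun : ∀ q ∈ T, q ∈ S ∨ IsUnramAt L q)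
    (H : Subgroup (L ≃ₐ[ℚ] L)) :
    Function.Surjective (groupCohomology.map (A := Rep.res H.subtype (C L T))
      (B := Rep.res H.subtype (CS L S T)) (MonoidHom.id H)
      ((Rep.resFunctor (k := ℤ) H.subtype).map (CtoCS L S T)) 0).hom :=
  res_map_g_surjective (unramShortComplex_shortExact L S T hST) (cohTriv_U L S T hun) H

end Fermat.Agent.GC.Global.LMU
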