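/-
GATE-C / C4 leaf (LM-U) bridge, global part (helper52): the PRELUDE predicate
`L.IsUnramifiedOutside S` gives the local hypothesis `IsUnramAt L q` of `UnramUnits.lean` for every
prime `q ∉ S`.

Route: a local inertia element `σ ∈ Gal(L_q/ℚ_q)` restricts (via `decHom`) to an element of the
inertia group of the prime `{z ∈ 𝓞 L | ‖ι z‖ < 1}` (helper11's `placeIdeal`) of `𝓞 L`, which is
trivial by helper79's `inertia_trivial_of_isUnramifiedOutside`; `decHom` is injective; trivial local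
inertia gives `ramIdx = 1` (`InertiaRamIdx.lean`).
-/
import Mathlib
import Fermat.Agent.GC.Global.Adapter.UnramUnits
import Fermat.Agent.GC.Global.Adapter.H1Units
import Fermat.Agent.GC.Global.Adapter.ValDict
import Fermat.Agent.GC.Local.Unram.InertiaRamIdx

set_option autoImplicit false
set_option linter.unusedSectionVars false

open scoped Padic NumberField
open CategoryTheory

noncomputable section

namespace Fermat.Agent.GC.Global.LMU

open Fermat.Agent.GC.Global Fermat.Agent.GC.Local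

variable (L : IntermediateField ℚ Qb) [FiniteDimensional ℚ L] [IsGalois ℚ L] (q : Nat.Primes)

/-- The embedding `ι : L → ℚ̄_q`. -/
def iotaL : L →+* PadicAlgCl (q : ℕ) :=
  ((padicEmbedding (q : ℕ) : Qb →ₐ[ℚ] PadicAlgCl (q : ℕ)) : Qb →+* PadicAlgCl (q : ℕ)).comp
    (algebraMap L Qb)

theorem iotaL_apply (x : L) :
    iotaL L q x = ((locEmb (q : ℕ) L x : locField (q : ℕ) L) : PadicAlgCl (q : ℕ)) := rfl

theorem mem_locO_iff (x : locField (q : ℕ) L) :
    x ∈ locO L q ↔ ‖(x : PadicAlgCl (q : ℕ))‖ ≤ 1 := by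
  show x ∈ padicVS (q : ℕ) (locField (q : ℕ) L) ↔ _
  rw [padicVS_eq_unitBallVS, mem_unitBallVS_iff]
  rfl

theorem mem_nonunits_locO_iff (x : locField (q : ℕ) L) :
    x ∈ (locO L q).nonunits ↔ ‖(x : PadicAlgCl (q : ℕ))‖ < 1 := by
  show x ∈ (padicVS (q : ℕ) (locField (q : ℕ) L)).nonunits ↔ _
  rw [padicVS_eq_unitBallVS, mem_nonunits_unitBallVS_iff]
  rfl

instance numberField_of_finiteDimensional : NumberField L where
  to_charZero := inferInstance
  to_finiteDimensional := inferInstance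

variable {S : Finset Nat.Primes}

/-- The local inertia group of `L_q/ℚ_q` is trivial for `q ∉ S`, `L` unramified outside `S`. -/
theorem inertia_trivial_locField (hS : L.IsUnramifiedOutside S) (hq : q ∉ S)
    (σ : locField (q : ℕ) L ≃ₐ[ℚ_[(q : ℕ)]] locField (q : ℕ) L)
    (hσ : ∀ x : locField (q : ℕ) L, x ∈ locO L q → σ x - x ∈ (locO L q).nonunits) : σ = 1 := by
  apply decHom_injective (q : ℕ) L
  rw [map_one]
  have hPT : ∀ q' ∈ S, (((q' : ℕ) : ℕ) : 𝓞 L) ∉ Adapter.placeIdeal (q : ℕ) (iotaL L q) := by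
    intro q' hq' hmem
    rw [Adapter.mem_placeIdeal_iff] at hmem
    have hne : (q : ℕ) ≠ (q' : ℕ) := fun h => hq (by rw [Subtype.ext h]; exact hq')
    have hcop : (q : ℕ).Coprime (q' : ℕ) := (Nat.coprime_primes q.2 q'.2).2 hne
    have h1 : ‖((q' : ℕ) : ℚ_[(q : ℕ)])‖ = 1 := Padic.norm_natCast_eq_one_iff.2 hcop
    have h2 : iotaL L q (((((q' : ℕ) : ℕ) : 𝓞 L) : 𝓞 L) : L) = (((q' : ℕ) : ℚ_[(q : ℕ)]) :
        PadicAlgCl (q : ℕ)) := by
      simp
    rw [h2, PadicAlgCl.norm_extends, h1] at hmem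
    exact lt_irrefl _ hmem
  refine Adapter.H1U.inertia_trivial_of_isUnramifiedOutside L S hS
    (Adapter.placeIdeal (q : ℕ) (iotaL L q)) (Adapter.placeIdeal_ne_bot (q : ℕ) (iotaL L q)) hPT
    (decHom (q : ℕ) L σ) ?_
  intro z
  rw [Adapter.mem_placeIdeal_iff]
  have hz : locEmb (q : ℕ) L (z : L) ∈ locO L q := by
    rw [mem_locO_iff]
    exact Adapter.norm_le_one (q : ℕ) (iotaL L q) z
  have h := hσ _ hz
  rw [mem_nonunits_locO_iff] at h
  have h3 : iotaL L q (((decHom (q : ℕ) L σ • z - z : 𝓞 L) : 𝓞 L) : L) =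
      ((σ (locEmb (q : ℕ) L (z : L)) - locEmb (q : ℕ) L (z : L) : locField (q : ℕ) L) :
        PadicAlgCl (q : ℕ)) := by
    have h4 : (((decHom (q : ℕ) L σ • z - z : 𝓞 L) : 𝓞 L) : L) =
        decHom (q : ℕ) L σ (z : L) - (z : L) := rfl
    rw [h4, map_sub, iotaL_apply, iotaL_apply, locEmb_decHom]
    rfl
  rw [h3]
  exact h

/-- **Bridge**: `L` unramified outside `S` (PRELUDE predicate), `q ∉ S` ⟹ `ramIdx q L_q = 1`. -/
theorem ramIdx_eq_one_of_isUnramifiedOutside (hS : L.IsUnramifiedOutside S) (hq : q ∉ S) :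
    ramIdx (q : ℕ) (locField (q : ℕ) L) = 1 :=
  InertiaRam.ramIdx_eq_one_of_inertia_trivial (q : ℕ) (locField (q : ℕ) L)
    (inertia_trivial_locField L q hS hq)

/-- **Bridge**: `L` unramified outside `S` (PRELUDE predicate), `q ∉ S` ⟹ `IsUnramAt L q`. -/
theorem isUnramAt_of_isUnramifiedOutside (hS : L.IsUnramifiedOutside S) (hq : q ∉ S) :
    IsUnramAt L q :=
  isUnramAt_of_ramIdx_eq_one L q (ramIdx_eq_one_of_isUnramifiedOutside L q hS hq)

/-- **(LM-U)** for the PRELUDE predicate: if `L` is unramified outside `S` and `S ∩ T ≠ ∅` then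
`H^{n+1}(H, C(L,T)) → H^{n+1}(H, C_S(L,T))` is bijective for every `H ≤ G_L`. -/
theorem res_CtoCS_bijective_of_isUnramifiedOutside (T : Finset Nat.Primes)
    (hS : L.IsUnramifiedOutside S) (hST : ∃ q ∈ T, q ∈ S) (H : Subgroup (L ≃ₐ[ℚ] L)) (n : ℕ) :
    Function.Bijective (groupCohomology.map (A := Rep.res H.subtype (C L T))
      (B := Rep.res H.subtype (CS L S T)) (MonoidHom.id H)
      ((Rep.resFunctor (k := ℤ) H.subtype).map (CtoCS L S T)) (n + 1)).hom := by
  classical
  exact res_CtoCS_bijective L S T hST (fun q _ => by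
    by_cases h : q ∈ S
    · exact Or.inl h
    · exact Or.inr (isUnramAt_of_isUnramifiedOutside L q hS h)) H n

/-- `U_{T∖S}` is cohomologically trivial when `L` is unramified outside `S`. -/
theorem cohTriv_U_of_isUnramifiedOutside (T : Finset Nat.Primes)
    (hS : L.IsUnramifiedOutside S) : CohTriv.CohTriv (U L S T) := by
  classical
  exact cohTriv_U L S T (fun q _ => by
    by_cases h : q ∈ S
    · exact Or.inl h
    · exact Or.inr (isUnramAt_of_isUnramifiedOutside L q hS h))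

end Fermat.Agent.GC.Global.LMU
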