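/-
GATE-C / C4 adapter AD1 part 2 (helper11): the valuation dictionary in T14's `S14.SI` language
(`OneModPow`, `IsUnitAt`, `ordP`).
-/
import Fermat.Agent.GC.Global.Adapter.ValDict
import Fermat.Agent.S14.SI.Defs

open scoped Padic NumberField NNReal
open IsDedekindDomain NumberField Fermat.Agent.S14.SI

set_option linter.unusedSectionVars false

noncomputable section

namespace Fermat.Agent.GC.Global.Adapter

variable (q : ℕ) [Fact q.Prime] {K : Type*} [Field K] [NumberField K] (σ : K →+* PadicAlgCl q)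

/-- `c ^ e_v = 1/q` where `e_v = ordP q v` is the ramification index. -/
theorem placeConst_pow_ordP :
    placeConst q σ ^ ordP q (placeIdeal q σ) = (q : ℝ)⁻¹ := by
  have hq0 : (q : 𝓞 K) ≠ 0 := by exact_mod_cast (Fact.out : q.Prime).ne_zero
  have h := norm_eq_placeConst_pow_multiplicity q σ hq0
  have hcoe : ((q : 𝓞 K) : K) = (q : K) := by simp
  rw [hcoe, norm_natCast_q] at h
  exact h.symm

/-- `x ≡ 1 mod vⁿ` (in the sense of `S14.SI.OneModPow`) implies `‖σ x − 1‖ ≤ cⁿ`. -/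
theorem norm_sub_one_le_of_oneModPow {x : Kˣ} {n : ℕ}
    (h : OneModPow (placeIdeal q σ) n x) : ‖σ (x : K) - 1‖ ≤ placeConst q σ ^ n := by
  obtain ⟨a, b, -, hb, hab, hx⟩ := h
  have hb1 := norm_eq_one_of_notMem q σ hb
  have hb0 : σ (b : K) ≠ 0 := by
    intro h0
    rw [h0, norm_zero] at hb1
    exact zero_ne_one hb1
  have hkey : (σ (x : K) - 1) * σ (b : K) = σ ((a - b : 𝓞 K) : K) := by
    have : ((a - b : 𝓞 K) : K) = (x : K) * (b : K) - (b : K) := by
      rw [hx]; simp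
    rw [this, map_sub, map_mul]
    ring
  have hnorm : ‖σ (x : K) - 1‖ = ‖σ ((a - b : 𝓞 K) : K)‖ := by
    rw [← hkey, norm_mul, hb1, mul_one]
  rw [hnorm]
  exact (norm_le_placeConst_pow_iff q σ).2 hab

/-- A unit at `v` has norm one. -/
theorem norm_eq_one_of_isUnitAt {x : Kˣ} (h : IsUnitAt (placeIdeal q σ) x) :
    ‖σ (x : K)‖ = 1 := by
  obtain ⟨a, b, ha, hb, -, hx⟩ := h
  have ha1 := norm_eq_one_of_notMem q σ ha
  have hb1 := norm_eq_one_of_notMem q σ hb
  have := congrArg (fun z : K => ‖σ z‖) hx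
  simp only [map_mul, norm_mul, ha1, hb1, mul_one] at this
  exact this

/-- Conversely, for a unit `x` at `v`: `‖σ x − 1‖ ≤ cⁿ` implies `x ≡ 1 mod vⁿ`. -/
theorem oneModPow_of_norm_sub_one_le {x : Kˣ} {n : ℕ} (hu : IsUnitAt (placeIdeal q σ) x)
    (h : ‖σ (x : K) - 1‖ ≤ placeConst q σ ^ n) : OneModPow (placeIdeal q σ) n x := by
  obtain ⟨a, b, ha, hb, -, hx⟩ := hu
  refine ⟨a, b, ha, hb, ?_, hx⟩
  have hb1 := norm_eq_one_of_notMem q σ hb
  have hkey : (σ (x : K) - 1) * σ (b : K) = σ ((a - b : 𝓞 K) : K) := by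
    have : ((a - b : 𝓞 K) : K) = (x : K) * (b : K) - (b : K) := by
      rw [hx]; simp
    rw [this, map_sub, map_mul]
    ring
  have hnorm : ‖σ (x : K) - 1‖ = ‖σ ((a - b : 𝓞 K) : K)‖ := by
    rw [← hkey, norm_mul, hb1, mul_one]
  rw [hnorm] at h
  exact (norm_le_placeConst_pow_iff q σ).1 h

/-- For units at `v`: `OneModPow v n x ↔ ‖σ x − 1‖ ≤ cⁿ`. -/
theorem oneModPow_iff_norm_sub_one_le {x : Kˣ} {n : ℕ} (hu : IsUnitAt (placeIdeal q σ) x) :
    OneModPow (placeIdeal q σ) n x ↔ ‖σ (x : K) - 1‖ ≤ placeConst q σ ^ n :=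
  ⟨norm_sub_one_le_of_oneModPow q σ, oneModPow_of_norm_sub_one_le q σ hu⟩

end Fermat.Agent.GC.Global.Adapter
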