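/-
GATE-C / C4 brick (A4) FINITENESS (helper68), idele form.

For a finite Galois layer `L/ℚ` and a finite set `T` of primes, with `N` the class number of `L`
(uniform in the idele): for every `T`-idele `y ∈ J L T` there is a `T`-unit `γ ∈ tUnits L T` with
`N • y - diag γ` an integral local unit at EVERY place above `T` (all values have norm one / lie in
`intUnitsSub (locO L Q)`).  Hence `N • [y] ∈ CS L S T` comes from `J L S` for every `S ⊆ T`.

Route: weak approximation (helper4 `exists_global_approx`) gives `x₀ ∈ Lˣ` with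
`‖y_Q(g) / ι(g x₀)‖ = 1` at all places above `T`; the ideal of `x₀` away from `T` to the class
number is principal `(β)`, `β` a unit above `T`; `γ := x₀ ^ N / β`.
-/
import Fermat.Agent.GC.Kummer.NormUnit
import Fermat.Agent.GC.Global.Adapter.TUnitsDict
import Fermat.Agent.GC.Global.Adapter.ApproxMain
import Fermat.Agent.GC.Global.Adapter.PlaceCoset
import Fermat.Agent.GC.Global.Adapter.ValDictSI
import Fermat.Agent.GC.Global.Adapter.UnramLocal

set_option autoImplicit false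
set_option linter.unusedSectionVars false

open scoped Padic NumberField
open IsDedekindDomain NumberField nonZeroDivisors

namespace Fermat.Agent.GC.Global.Adapter.CF

open Fermat.Agent.S14 Fermat.Agent.S14.SI Fermat.Agent.GC.Kummer
open Fermat.Agent.GC.Global.Adapter.EH
open Fermat.Agent.GC.Global Fermat.Agent.GC.Global.Adapter Fermat.Agent.GC.Local
open Fermat.Agent.GC.Global.LMU Fermat.Agent.GC.Local.Unram

/-! ### Number field part: the class number kills ideal classes -/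

section NF

variable {K : Type*} [Field K] [NumberField K]

open Classical in
/-- `w ^ h` is principal, `h` the class number: an element of order `h` at `w` and `0` elsewhere -/
theorem exists_ord_eq_card_single (w : HeightOneSpectrum (𝓞 K)) :
    ∃ γ : Kˣ, ∀ v : HeightOneSpectrum (𝓞 K), Multiplicative.toAdd (Bridge.ord v γ) =
      if v = w then (Fintype.card (ClassGroup (𝓞 K)) : ℤ) else 0 := by
  classical
  set h := Fintype.card (ClassGroup (𝓞 K)) with hh
  have h1 : (ClassGroup.mk0 (⟨w.asIdeal, mem_nonZeroDivisors_of_ne_zero w.ne_bot⟩ :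
      (Ideal (𝓞 K))⁰)) ^ h = 1 := pow_card_eq_one
  rw [← map_pow, ClassGroup.mk0_eq_one_iff] at h1
  obtain ⟨a, ha⟩ := h1.principal
  have ha' : w.asIdeal ^ h = Ideal.span {a} := ha
  have ha0 : a ≠ 0 := by
    rintro rfl
    rw [Ideal.span_singleton_eq_bot.mpr rfl] at ha'
    exact pow_ne_zero h w.ne_bot ha'
  have haK : (a : K) ≠ 0 := by rwa [Ne, RingOfIntegers.coe_eq_zero_iff]
  refine ⟨Units.mk0 (a : K) haK, fun v => ?_⟩
  rw [← count_span_eq_ord, ← ha', FractionalIdeal.coeIdeal_pow, FractionalIdeal.count_pow]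
  by_cases hvw : v = w
  · subst hvw
    rw [if_pos rfl, FractionalIdeal.count_self]
    simp
  · rw [if_neg hvw, FractionalIdeal.count_maximal_coprime K v (Ne.symm hvw)]
    simp

/-- any finitely supported family of orders, multiplied by the class number, is realised -/
theorem exists_ord_eq_card_mul (F : Finset (HeightOneSpectrum (𝓞 K)))
    (m : HeightOneSpectrum (𝓞 K) → ℤ) (hF : ∀ v, v ∉ F → m v = 0) :
    ∃ β : Kˣ, ∀ v : HeightOneSpectrum (𝓞 K), Multiplicative.toAdd (Bridge.ord v β) =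
      (Fintype.card (ClassGroup (𝓞 K)) : ℤ) * m v := by
  classical
  induction F using Finset.induction_on generalizing m with
  | empty =>
    refine ⟨1, fun v => ?_⟩
    rw [map_one, hF v (Finset.notMem_empty v), mul_zero]
    rfl
  | insert w F hwF ih =>
    obtain ⟨y', hy'⟩ := ih (Function.update m w 0) (fun v hv => by
      by_cases hvw : v = w
      · subst hvw; simp
      · rw [Function.update_of_ne hvw]
        exact hF v (by simp [hvw, hv]))
    obtain ⟨yw, hyw⟩ := exists_ord_eq_card_single w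
    refine ⟨y' * yw ^ (m w), fun v => ?_⟩
    rw [map_mul, map_zpow, toAdd_mul, toAdd_zpow, hy' v, hyw v]
    by_cases hvw : v = w
    · subst hvw
      rw [Function.update_self, if_pos rfl]
      simp [mul_comm]
    · rw [Function.update_of_ne hvw, if_neg hvw]
      simp

/-- the order of a fixed element vanishes at almost all primes -/
theorem finite_ord_ne_zero (x : Kˣ) :
    {v : HeightOneSpectrum (𝓞 K) | Multiplicative.toAdd (Bridge.ord v x) ≠ 0}.Finite := by
  have h := FractionalIdeal.finite_factors (K := K)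
    (FractionalIdeal.spanSingleton (𝓞 K)⁰ (x : K))
  rw [Filter.eventually_cofinite] at h
  refine h.subset fun v hv => ?_
  simp only [Set.mem_ofPred_eq] at hv ⊢
  rwa [Asm.count_spanSingleton_eq_ord]

/-- **the class number kills the ideal class of any `x` away from `Sg`**: for any set `Sg` of primes
and any `x ∈ Kˣ`, `x ^ h = γ β` with `γ` a `Sg`-unit and `β` a unit at every prime of `Sg`. -/
theorem exists_unit_mul_eq_pow_card (Sg : Set (HeightOneSpectrum (𝓞 K))) (x : Kˣ) :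
    ∃ γ β : Kˣ, γ * β = x ^ Fintype.card (ClassGroup (𝓞 K)) ∧ γ ∈ Sg.unit K ∧
      ∀ v ∈ Sg, IsUnitAt v.asIdeal β := by
  classical
  set h := Fintype.card (ClassGroup (𝓞 K)) with hh
  let m : HeightOneSpectrum (𝓞 K) → ℤ := fun v =>
    if v ∈ Sg then 0 else Multiplicative.toAdd (Bridge.ord v x)
  obtain ⟨β, hβ⟩ := exists_ord_eq_card_mul (finite_ord_ne_zero x).toFinset m (fun v hv => by
    simp only [Set.Finite.mem_toFinset, Set.mem_ofPred_eq, not_not] at hv
    simp only [m]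
    split_ifs
    · rfl
    · exact hv)
  refine ⟨x ^ h / β, β, div_mul_cancel _ _, ?_, ?_⟩
  · rw [Bridge.mem_unit_iff]
    intro v hv
    rw [Bridge.isUnitAt_iff_ord]
    apply Multiplicative.toAdd.injective
    rw [map_div, map_pow, toAdd_div, toAdd_pow, hβ v]
    simp only [m, if_neg hv]
    rw [nsmul_eq_mul, sub_self]
    rfl
  · intro v hv
    rw [Bridge.isUnitAt_iff_ord]
    apply Multiplicative.toAdd.injective
    rw [hβ v]
    simp only [m, if_pos hv]
    simp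

end NF

/-! ### Weak approximation up to local units -/

variable (L : IntermediateField ℚ Qb) [FiniteDimensional ℚ L] [IsGalois ℚ L]

/-- ultrametric: `‖z - 1‖ < 1 ⟹ ‖z‖ = 1` in `ℚ̄_q` -/
theorem norm_eq_one_of_norm_sub_one_lt (q : ℕ) [Fact q.Prime] {z : PadicAlgCl q}
    (h : ‖z - 1‖ < 1) : ‖z‖ = 1 := by
  have h1 : ‖z - 1‖ ≠ ‖(1 : PadicAlgCl q)‖ := by rw [norm_one]; exact h.ne
  have h2 := IsUltrametricDist.norm_add_eq_max_of_norm_ne_norm h1
  rw [sub_add_cancel, norm_one, max_eq_right h.le] at h2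
  exact h2

/-- the norm of the value of a `q`-idele is constant on `D_q`-orbits -/
theorem norm_jval_decHom_mul (Q : Nat.Primes) (f : JqCarrier L Q)
    (d : locField (Q : ℕ) L ≃ₐ[ℚ_[(Q : ℕ)]] locField (Q : ℕ) L) (g : L ≃ₐ[ℚ] L) :
    ‖jval L Q f (decHom (Q : ℕ) L d * g)‖ = ‖jval L Q f g‖ := by
  have h1 : jfun L Q f (decHom (Q : ℕ) L d * g) = (locUnits (Q : ℕ) L).ρ d (jfun L Q f g) :=
    jfun_mem L Q f d g
  have h2 : jval L Q f (decHom (Q : ℕ) L d * g) =
      ((d ((junit L Q f g : (locField (Q : ℕ) L)ˣ) : locField (Q : ℕ) L) : locField (Q : ℕ) L) :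
        PadicAlgCl (Q : ℕ)) := by
    unfold jval junit
    rw [h1]
    rfl
  rw [h2]
  exact norm_algEquiv_apply (Q : ℕ) (locField (Q : ℕ) L) d _

/-- the norm of `ι (g x)` is constant on `D_q`-orbits -/
theorem norm_embK_decHom_mul (H : Subgroup (L ≃ₐ[ℚ] L)) (Q : Nat.Primes)
    (d : locField (Q : ℕ) L ≃ₐ[ℚ_[(Q : ℕ)]] locField (Q : ℕ) L) (g : L ≃ₐ[ℚ] L)
    (x : fixK L H) :
    ‖embK L H (Q : ℕ) (decHom (Q : ℕ) L d * g) x‖ = ‖embK L H (Q : ℕ) g x‖ := by
  rw [embK_decHom_mul]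
  exact norm_algEquiv_apply (Q : ℕ) (locField (Q : ℕ) L) d _

variable (T : Finset Nat.Primes)

/-- **weak approximation, unit form**: every `T`-idele of `L` is the diagonal image of a global
element up to local units at all places above `T`. -/
theorem exists_norm_jval_div_eq_one (y : ∀ Q : T, JqCarrier L Q.1) :
    ∃ x₀ : (fixK L (⊥ : Subgroup (L ≃ₐ[ℚ] L)))ˣ, ∀ (Q : T) (g : L ≃ₐ[ℚ] L),
      ‖jval L Q.1 (y Q) g / embK L ⊥ (Q.1 : ℕ) g (x₀ : fixK L ⊥)‖ = 1 := by
  classical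
  let H : Subgroup (L ≃ₐ[ℚ] L) := ⊥
  let I := Σ Q : T, {r : L ≃ₐ[ℚ] L // dcRep (decHom (Q.1 : ℕ) L) H r = r}
  let qI : I → ℕ := fun i => (i.1.1 : ℕ)
  have hfact : ∀ i : I, Fact (qI i).Prime := fun i => factNatPrimes i.1.1
  let σI : ∀ i : I, fixK L H →+* PadicAlgCl (qI i) := fun i => embK L H (qI i) i.2.1
  have hinjI : Function.Injective fun i : I => placeOf (qI i) (σI i) := by
    rintro ⟨Q, r, hr⟩ ⟨Q', r', hr'⟩ hpl
    have hqq : (Q.1 : ℕ) = (Q'.1 : ℕ) := prime_eq_of_placeOf_eq _ _ _ _ hpl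
    have hQQ : Q = Q' := Subtype.ext (Subtype.ext hqq)
    subst hQQ
    have hrel := dcRel_of_placeOf_eq L H (Q.1 : ℕ) r r' hpl
    have : r = r' := by
      rw [← hr, ← hr']
      exact dcRep_eq_of_dcRel _ H hrel
    subst this
    rfl
  let tI : ∀ i : I, PadicAlgCl (qI i) := fun i => jval L i.1.1 (y i.1) i.2.1
  have htI : ∀ i, tI i ∈ sigField (qI i) (σI i) := fun i =>
    jval_mem_sigField L H i.1.1 (y i.1) (fun h hh => by
      have : h = 1 := hh
      subst this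
      exact congrFun (congrArg DFunLike.coe (map_one (JqRep L i.1.1))) (y i.1)) i.2.1
  have htI0 : ∀ i, tI i ≠ 0 := fun i => jval_ne_zero L i.1.1 (y i.1) i.2.1
  obtain ⟨x₀, hx₀⟩ := exists_global_approx qI σI hinjI tI htI htI0 (fun _ => 1)
    (fun _ => one_pos)
  refine ⟨x₀, fun Q g => ?_⟩
  obtain ⟨d, h, hh, hg⟩ := dcRel_dcRep (decHom (Q.1 : ℕ) L) H g
  have h1 : h = 1 := hh
  subst h1
  rw [mul_one] at hg
  set r := dcRep (decHom (Q.1 : ℕ) L) H g with hr
  have hi := hx₀ ⟨Q, r, dcRep_dcRep _ H g⟩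
  have h2 := norm_eq_one_of_norm_sub_one_lt (Q.1 : ℕ) hi
  rw [norm_div] at h2 ⊢
  rw [hg, norm_jval_decHom_mul, norm_embK_decHom_mul]
  exact h2

/-! ### The finiteness statement -/

/-- a local unit of norm one is integral -/
theorem mem_intUnitsSub_of_norm_eq_one (Q : Nat.Primes) (u : Additive (locField (Q : ℕ) L)ˣ)
    (h : ‖(((Additive.toMul u : (locField (Q : ℕ) L)ˣ) : locField (Q : ℕ) L) :
      PadicAlgCl (Q : ℕ))‖ = 1) : u ∈ intUnitsSub (locO L Q) := by
  rw [mem_intUnitsSub, mem_unitGroup_iff_mem]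
  constructor
  · rw [mem_locO_iff]
    exact h.le
  · rw [mem_locO_iff, Units.val_inv_eq_inv_val]
    have e : (((((Additive.toMul u : (locField (Q : ℕ) L)ˣ) : locField (Q : ℕ) L))⁻¹ :
        locField (Q : ℕ) L) : PadicAlgCl (Q : ℕ)) =
        ((((Additive.toMul u : (locField (Q : ℕ) L)ˣ) : locField (Q : ℕ) L)) :
          PadicAlgCl (Q : ℕ))⁻¹ := rfl
    rw [e, norm_inv, h, inv_one]

/-- the primes of `K` above `T`, via a prime element of `T` -/
theorem placeOf_mem_primesDvd (T : Finset Nat.Primes) (Q : T) {K : Type*} [Field K]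
    [NumberField K] (σ : K →+* PadicAlgCl (Q.1 : ℕ)) :
    placeOf (Q.1 : ℕ) σ ∈ primesDvd K (Tprod T) := by
  rw [mem_primesDvd]
  have hdvd : ((Q.1 : ℕ) : ℕ) ∣ Tprod T := Finset.dvd_prod_of_mem (fun q : Nat.Primes => (q : ℕ)) Q.2
  obtain ⟨c, hc⟩ := hdvd
  rw [hc, Nat.cast_mul]
  exact Ideal.mul_mem_right _ _ (natCast_q_mem_placeIdeal (Q.1 : ℕ) σ)

/-- a `T`-unit of `K = L` (as the fixed field of the trivial group) is a `T`-unit of `L` -/
theorem map_mem_tUnits_of_mem_unit (γ : (fixK L (⊥ : Subgroup (L ≃ₐ[ℚ] L)))ˣ)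
    (hγ : γ ∈ (primesDvd (fixK L (⊥ : Subgroup (L ≃ₐ[ℚ] L))) (Tprod T)).unit
      (fixK L (⊥ : Subgroup (L ≃ₐ[ℚ] L)))) :
    Units.map ((fixK L (⊥ : Subgroup (L ≃ₐ[ℚ] L))).val : fixK L ⊥ →* L) γ ∈ tUnits L T := by
  obtain ⟨⟨n, hn⟩, ⟨n', hn'⟩⟩ := (mem_unit_primesDvd_iff (Tprod T) γ).1 hγ
  rw [mem_tUnits]
  constructor
  · refine ⟨n, ?_⟩
    have := map_isIntegral_int ((fixK L (⊥ : Subgroup (L ≃ₐ[ℚ] L))).val : fixK L ⊥ →+* L) hn
    rw [map_mul, map_pow, map_natCast] at this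
    convert this
    · exact Subsingleton.elim _ _
    · rfl
  · refine ⟨n', ?_⟩
    have := map_isIntegral_int ((fixK L (⊥ : Subgroup (L ≃ₐ[ℚ] L))).val : fixK L ⊥ →+* L) hn'
    rw [map_mul, map_pow, map_natCast] at this
    rw [← map_inv]
    convert this
    · exact Subsingleton.elim _ _
    · rfl

/-- the value at `g` of the `Q`-component of `N • y - diag γ`, in `ℚ̄_Q` -/
theorem jval_smul_sub_diag (N : ℕ) (y : J L T) (γ : Lˣ) (Q : T) (g : L ≃ₐ[ℚ] L) :
    jval L Q.1 ((N • y - (diag L T).hom (Additive.ofMul γ)) Q) g =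
      jval L Q.1 (y Q) g ^ N / padicEmbedding (Q.1 : ℕ) ((g (γ : L) : L) : Qb) := by
  have h1 : junit L Q.1 ((N • y - (diag L T).hom (Additive.ofMul γ)) Q) g =
      junit L Q.1 (y Q) g ^ N / Additive.toMul (diagqFun (Q.1 : ℕ) L γ g) := rfl
  unfold jval
  rw [h1, Units.val_div_eq_div_val, Units.val_pow_eq_pow_val, IntermediateField.coe_div,
    IntermediateField.coe_pow, coe_diagqFun, coe_locEmb]

/-- the class number of the layer `L` (computed on `L` as the fixed field of the trivial group) -/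
noncomputable def classNum : ℕ :=
  Fintype.card (ClassGroup (𝓞 (fixK L (⊥ : Subgroup (L ≃ₐ[ℚ] L)))))

theorem one_le_classNum : 1 ≤ classNum L := Fintype.card_pos

/-- **(A4) FINITENESS, idele form, norms.** With `N` the class number of `L`: for every `T`-idele
`y` of `L` there is a `T`-unit `γ` such that all values of `N • y - diag γ` (at all places above
`T`) have norm one. -/
theorem exists_tUnit_norm_eq_one (y : J L T) :
    ∃ γ : Lˣ, γ ∈ tUnits L T ∧ ∀ (Q : T) (g : L ≃ₐ[ℚ] L),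
      ‖(((JqCarrier.val L Q.1 ((classNum L • y - (diag L T).hom (Additive.ofMul γ) : J L T) Q) g :
        (locField (Q.1 : ℕ) L)ˣ) : locField (Q.1 : ℕ) L) : PadicAlgCl (Q.1 : ℕ))‖ = 1 := by
  classical
  set N := classNum L with hN
  obtain ⟨x₀, hx₀⟩ := exists_norm_jval_div_eq_one L T (show ∀ Q : T, JqCarrier L Q.1 from y)
  obtain ⟨γ, β, hγβ, hγ, hβ⟩ := exists_unit_mul_eq_pow_card
    (primesDvd (fixK L (⊥ : Subgroup (L ≃ₐ[ℚ] L))) (Tprod T)) x₀
  refine ⟨Units.map ((fixK L (⊥ : Subgroup (L ≃ₐ[ℚ] L))).val : fixK L ⊥ →* L) γ,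
    map_mem_tUnits_of_mem_unit L T γ hγ, fun Q g => ?_⟩
  have hfact : Fact (Q.1 : ℕ).Prime := factNatPrimes Q.1
  have hval := jval_smul_sub_diag L T N y
    (Units.map ((fixK L (⊥ : Subgroup (L ≃ₐ[ℚ] L))).val : fixK L ⊥ →* L) γ) Q g
  unfold jval junit jfun at hval
  unfold JqCarrier.val
  rw [hval]
  -- norms
  have hβ1 : ‖embK L ⊥ (Q.1 : ℕ) g (β : fixK L ⊥)‖ = 1 :=
    norm_eq_one_of_isUnitAt (Q.1 : ℕ) (embK L ⊥ (Q.1 : ℕ) g)
      (hβ _ (placeOf_mem_primesDvd T Q (embK L ⊥ (Q.1 : ℕ) g)))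
  have hmul : embK L ⊥ (Q.1 : ℕ) g (γ : fixK L ⊥) * embK L ⊥ (Q.1 : ℕ) g (β : fixK L ⊥) =
      embK L ⊥ (Q.1 : ℕ) g (x₀ : fixK L ⊥) ^ N := by
    rw [← map_mul, ← map_pow, ← Units.val_mul, hγβ, Units.val_pow_eq_pow_val]
    rfl
  have hx0 : embK L ⊥ (Q.1 : ℕ) g (x₀ : fixK L ⊥) ≠ 0 := by
    rw [Ne, map_eq_zero]; exact x₀.ne_zero
  have hγn : ‖embK L ⊥ (Q.1 : ℕ) g (γ : fixK L ⊥)‖ =
      ‖embK L ⊥ (Q.1 : ℕ) g (x₀ : fixK L ⊥)‖ ^ N := by
    have := congrArg norm hmul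
    rwa [norm_mul, hβ1, mul_one, norm_pow] at this
  have hy1 := hx₀ Q g
  rw [norm_div, div_eq_one_iff_eq (norm_ne_zero_iff.2 hx0)] at hy1
  have hy1' : ‖(((Additive.toMul ((y Q).1 g) : (locField (Q.1 : ℕ) L)ˣ) :
      locField (Q.1 : ℕ) L) : PadicAlgCl (Q.1 : ℕ))‖ =
      ‖embK L ⊥ (Q.1 : ℕ) g (x₀ : fixK L ⊥)‖ := hy1
  have hγe : padicEmbedding (Q.1 : ℕ) ((g ((Units.map
      ((fixK L (⊥ : Subgroup (L ≃ₐ[ℚ] L))).val : fixK L ⊥ →* L) γ : Lˣ) : L) : L) : Qb) =
      embK L ⊥ (Q.1 : ℕ) g (γ : fixK L ⊥) := rfl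
  rw [hγe, norm_div, norm_pow, hy1', hγn]
  exact div_self (pow_ne_zero _ (norm_ne_zero_iff.2 hx0))

/-- **(A4) FINITENESS, idele form, integral units.** With `N` the class number of `L`: for every
`T`-idele `y` of `L` there is a `T`-unit `γ` such that `N • y - diag γ` has integral-unit values at
every place above `T`. -/
theorem exists_tUnit_smul_sub_diag_mem_intUnits (y : J L T) :
    ∃ γ : Lˣ, γ ∈ tUnits L T ∧ ∀ (Q : T) (g : L ≃ₐ[ℚ] L),
      ((classNum L • y - (diag L T).hom (Additive.ofMul γ) : J L T) Q).1 g ∈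
        intUnitsSub (locO L Q.1) := by
  obtain ⟨γ, hγ, h⟩ := exists_tUnit_norm_eq_one L T y
  exact ⟨γ, hγ, fun Q g => mem_intUnitsSub_of_norm_eq_one L Q.1 _ (h Q g)⟩

/-- the same with helper52's `vSub L S` (`⊥` at `S`, integral units outside `S`), at the places of
`T ∖ S` -/
theorem exists_tUnit_smul_sub_diag_mem_vSub (S : Finset Nat.Primes) (y : J L T) :
    ∃ γ : Lˣ, γ ∈ tUnits L T ∧ ∀ (Q : T), Q.1 ∉ S → ∀ g : L ≃ₐ[ℚ] L,
      ((classNum L • y - (diag L T).hom (Additive.ofMul γ) : J L T) Q).1 g ∈ vSub L S Q.1 := by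
  obtain ⟨γ, hγ, h⟩ := exists_tUnit_smul_sub_diag_mem_intUnits L T y
  refine ⟨γ, hγ, fun Q hQ g => ?_⟩
  rw [vSub_of_not_mem L S hQ]
  exact h Q g

/-- existential form: `∃ N ≥ 1, ∀ y, …` -/
theorem exists_smul_sub_diag_mem_intUnits :
    ∃ N : ℕ, 1 ≤ N ∧ ∀ y : J L T, ∃ γ : Lˣ, γ ∈ tUnits L T ∧ ∀ (Q : T) (g : L ≃ₐ[ℚ] L),
      ((N • y - (diag L T).hom (Additive.ofMul γ) : J L T) Q).1 g ∈ intUnitsSub (locO L Q.1) :=
  ⟨classNum L, one_le_classNum L, fun y => exists_tUnit_smul_sub_diag_mem_intUnits L T y⟩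

end Fermat.Agent.GC.Global.Adapter.CF
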