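/-
GATE-C / C4 brick (A4) FINITENESS (helper68), class form on helper52's `CS L S T` and helper80's
`extJ`: for `S ⊆ T` and `N = classNum L`,
* every `y : J L T` satisfies `N • y = diag γ + extJ a + UtoJ u` (`γ ∈ tUnits L T`, `a : J L S`,
  `u : U L S T`);
* every class `b : CS L S T` satisfies `N • b = [extJ a]` for some `S`-idele `a`.
-/
import Fermat.Agent.GC.Global.Adapter.ClassFinite
import Fermat.Agent.GC.Global.Funct.TChange

set_option autoImplicit false
set_option linter.unusedSectionVars false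

open scoped Padic NumberField

namespace Fermat.Agent.GC.Global.Adapter.CF

open Fermat.Agent.GC.Global Fermat.Agent.GC.Global.Adapter Fermat.Agent.GC.Local
open Fermat.Agent.GC.Global.LMU Fermat.Agent.GC.Local.Unram Fermat.Agent.GC.Global.Funct

variable (L : IntermediateField ℚ Qb) [FiniteDimensional ℚ L] [IsGalois ℚ L]
  (S T : Finset Nat.Primes)

/-- a `q`-idele all of whose values lie in `vSub L S q` comes from `UqCarrier L S q` -/
theorem exists_vIncl_eq (q : Nat.Primes) (f : JqCarrier L q)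
    (hf : ∀ g : L ≃ₐ[ℚ] L, f.1 g ∈ vSub L S q) : ∃ u : UqCarrier L S q, vIncl L S q u = f := by
  refine ⟨⟨fun g => ⟨f.1 g, hf g⟩, fun d g => ?_⟩, ?_⟩
  · apply Subtype.ext
    exact f.2 d g
  · apply Subtype.ext
    funext g
    rfl

/-- a `T`-idele all of whose values lie in `vSub L S` comes from `U L S T` -/
theorem exists_UtoJ_eq (w : J L T) (hw : ∀ (Q : T) (g : L ≃ₐ[ℚ] L), (w Q).1 g ∈ vSub L S Q.1) :
    ∃ u : U L S T, (UtoJ L S T).hom u = w := by
  choose u hu using fun Q : T => exists_vIncl_eq L S Q.1 (w Q) (hw Q)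
  refine ⟨(show U L S T from u), ?_⟩
  funext Q
  rw [UtoJ_apply]
  exact hu Q

/-- **(A4) FINITENESS, decomposition form.** For `S ⊆ T` and `N` the class number of `L`: every
`T`-idele `y` satisfies `N • y = diag γ + extJ a + UtoJ u` with `γ` a `T`-unit, `a` an `S`-idele and
`u ∈ U_{T∖S}`. -/
theorem exists_smul_eq_diag_add_extJ_add_UtoJ (hST : S ⊆ T) (y : J L T) :
    ∃ γ : Lˣ, γ ∈ tUnits L T ∧ ∃ (a : J L S) (u : U L S T),
      classNum L • y = (diag L T).hom (Additive.ofMul γ) + extJ L S T a + (UtoJ L S T).hom u := by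
  obtain ⟨γ, hγ, h⟩ := exists_tUnit_smul_sub_diag_mem_intUnits L T y
  set z : J L T := classNum L • y - (diag L T).hom (Additive.ofMul γ) with hz
  set a : J L S := resJ L hST z with ha
  have hw : ∀ (Q : T) (g : L ≃ₐ[ℚ] L), ((z - extJ L S T a : J L T) Q).1 g ∈ vSub L S Q.1 := by
    intro Q g
    by_cases hQ : Q.1 ∈ S
    · have h0 : (z - extJ L S T a : J L T) Q = 0 := by
        have h1 : extJ L S T a Q = z Q := by
          rw [extJ_apply_of_mem L a Q hQ, ha, resJ_apply]
        show z Q - extJ L S T a Q = 0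
        rw [h1, sub_self]
      rw [h0]
      exact Submodule.zero_mem _
    · have h0 : (z - extJ L S T a : J L T) Q = z Q := by
        show z Q - extJ L S T a Q = z Q
        rw [extJ_apply_of_not_mem L a Q hQ, sub_zero]
      rw [h0, vSub_of_not_mem L S hQ]
      exact h Q g
  obtain ⟨u, hu⟩ := exists_UtoJ_eq L S T _ hw
  refine ⟨γ, hγ, a, u, ?_⟩
  rw [hu, hz]
  abel

/-- the class of a diagonal `T`-unit in `C L T` vanishes -/
theorem JtoC_diag_eq_zero {γ : Lˣ} (hγ : γ ∈ tUnits L T) :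
    (JtoC L T).hom ((diag L T).hom (Additive.ofMul γ)) = 0 :=
  (Submodule.Quotient.mk_eq_zero _).2 ⟨Additive.ofMul γ, hγ, rfl⟩

/-- the class of an element of `U_{T∖S}` in `CS L S T` vanishes -/
theorem CtoCS_JtoC_UtoJ_eq_zero (u : U L S T) :
    (CtoCS L S T).hom ((JtoC L T).hom ((UtoJ L S T).hom u)) = 0 :=
  (Submodule.Quotient.mk_eq_zero _).2 ⟨u, rfl⟩

/-- **(A4) FINITENESS, class form.** For `S ⊆ T`: the class number `N` of `L` maps every class of
`CS L S T = C(L,T) / U_{T∖S}` into the image of the `S`-ideles `J L S` (hence of `C L S`). -/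
theorem exists_smul_eq_class_extJ (hST : S ⊆ T) (b : CS L S T) :
    ∃ a : J L S, classNum L • b = (CtoCS L S T).hom ((JtoC L T).hom (extJ L S T a)) := by
  obtain ⟨c, rfl⟩ := CtoCS_surjective L S T b
  obtain ⟨y, rfl⟩ := JtoC_surjective L T c
  obtain ⟨γ, hγ, a, u, h⟩ := exists_smul_eq_diag_add_extJ_add_UtoJ L S T hST y
  refine ⟨a, ?_⟩
  rw [← map_nsmul, ← map_nsmul, h, map_add, map_add, map_add, map_add,
    JtoC_diag_eq_zero L T hγ, map_zero, zero_add, CtoCS_JtoC_UtoJ_eq_zero, add_zero]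

/-- existential form (shape of helper7's `Ambient.tors` / `AAbsN.htors`) -/
theorem exists_pos_smul_eq_class_extJ (hST : S ⊆ T) :
    ∃ N : ℕ, 0 < N ∧ ∀ b : CS L S T, ∃ a : J L S,
      (CtoCS L S T).hom ((JtoC L T).hom (extJ L S T a)) = N • b :=
  ⟨classNum L, one_le_classNum L, fun b => by
    obtain ⟨a, ha⟩ := exists_smul_eq_class_extJ L S T hST b
    exact ⟨a, ha.symm⟩⟩

end Fermat.Agent.GC.Global.Adapter.CF
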