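/-
GATE-C / C4 adapter (helper11): complements to helper14's `GoodT.lean`.

* `exists_prime_natCast_mem` — every nonzero prime of `𝓞 K` contains a rational prime;
* `mem_primesAbove_of_below` — converse of (hSN);
* `coe_primesAbove_eq_primesDvd_Tprod` — `primesAbove K T` in helper68's `EH.primesDvd _ (Tprod T)`
  language;
* `exists_generatesCl_field`, `exists_generatesCl_all` — (CLGEN): `∃ T ⊇ T₀` such that for EVERY
  subgroup `U ≤ Gal(L/ℚ)` the primes of `𝓞 (L^U)` above `T` generate the class group;
* `exists_goodT` — (LY-G2): `∃ T ⊇ T₀, GoodT L T p`.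
-/
import Fermat.Agent.GC.Global.Adapter.GoodT
import Fermat.Agent.GC.Global.Adapter.TUnitsDict
import Fermat.Agent.S14.SI.ClassGen

set_option autoImplicit false
set_option linter.unusedSectionVars false

open scoped NumberField nonZeroDivisors
open IsDedekindDomain NumberField

noncomputable section

namespace Fermat.Agent.GC.Global.Adapter

open Fermat.Agent.GC.Global

section General

variable (K : Type*) [Field K] [NumberField K]

/-- Every nonzero prime of `𝓞 K` contains a rational prime. -/
theorem exists_prime_natCast_mem (v : HeightOneSpectrum (𝓞 K)) :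
    ∃ q : Nat.Primes, ((q : ℕ) : 𝓞 K) ∈ v.asIdeal := by
  have hne : v.asIdeal.under ℤ ≠ ⊥ := Ideal.under_ne_bot ℤ v.ne_bot
  have hprime : (v.asIdeal.under ℤ).IsPrime := inferInstance
  obtain ⟨n, hn⟩ : ∃ n : ℤ, v.asIdeal.under ℤ = Ideal.span {n} :=
    ⟨_, (Ideal.span_singleton_generator _).symm⟩
  have hn0 : n ≠ 0 := by
    rintro rfl
    apply hne
    rw [hn]
    simp
  have hnp : Prime n := by
    rw [← Ideal.span_singleton_prime hn0, ← hn]
    exact hprime
  have hq : (n.natAbs).Prime := Int.prime_iff_natAbs_prime.1 hnp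
  refine ⟨⟨n.natAbs, hq⟩, ?_⟩
  have hmem : ((n.natAbs : ℕ) : ℤ) ∈ v.asIdeal.under ℤ := by
    rw [hn, Ideal.mem_span_singleton]
    exact Int.dvd_natAbs.2 dvd_rfl
  have := (Ideal.mem_comap).1 hmem
  simpa using this

variable {K}

/-- converse of (hSN): a prime of `N` over a prime of `K` above `T` is above `T`. -/
theorem mem_primesAbove_of_below {N : Type*} [Field N] [NumberField N] [Algebra K N]
    {T : Finset Nat.Primes} {Q : HeightOneSpectrum (𝓞 N)}
    (hQ : S14.SI.Bridge.below K Q ∈ primesAbove K T) : Q ∈ primesAbove N T := by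
  rw [mem_primesAbove] at hQ ⊢
  obtain ⟨q, hq, hqQ⟩ := hQ
  refine ⟨q, hq, ?_⟩
  rw [S14.SI.Bridge.below_asIdeal, Ideal.under_def, Ideal.mem_comap, map_natCast] at hqQ
  exact hqQ

/-- the same set in helper68's language `EH.primesDvd K (∏ q ∈ T, q)`. -/
theorem coe_primesAbove_eq_primesDvd_Tprod (T : Finset Nat.Primes) :
    (primesAbove K T : Set (HeightOneSpectrum (𝓞 K))) = EH.primesDvd K (Tprod T) := by
  classical
  ext v
  rw [Finset.mem_coe, mem_primesAbove, EH.mem_primesDvd, Tprod, Nat.cast_prod]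
  constructor
  · rintro ⟨q, hq, hqv⟩
    exact Ideal.mem_of_dvd _ (Finset.dvd_prod_of_mem _ hq) hqv
  · intro h
    obtain ⟨q, hq, hqv⟩ := (Ideal.IsPrime.prod_mem_iff (hp := v.isPrime)).1 h
    exact ⟨q, hq, hqv⟩

theorem tprod_eq_Tprod (T : Finset Nat.Primes) : tprod T = Tprod T := rfl

/-! ### class group generation -/

/-- If the primes in `S` generate the class group and all lie above `T`, then `GeneratesCl K T`. -/
theorem generatesCl_of_subset {T : Finset Nat.Primes} {S : Finset (HeightOneSpectrum (𝓞 K))}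
    (hS : Subgroup.closure (Set.range fun v : S =>
      ClassGroup.mk0 ⟨v.1.asIdeal, mem_nonZeroDivisors_of_ne_zero v.1.ne_bot⟩) = ⊤)
    (hsub : S ⊆ primesAbove K T) : GeneratesCl K T := by
  rw [GeneratesCl, eq_top_iff, ← hS]
  apply Subgroup.closure_mono
  rintro _ ⟨v, rfl⟩
  exact ⟨⟨v.1, hsub v.2⟩, rfl⟩

variable (K)

/-- For a number field `K` there is a finite set `T` of rational primes, containing any given
finite set, such that the primes above `T` generate the class group. -/
theorem exists_generatesCl_field (T₀ : Finset Nat.Primes) :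
    ∃ T : Finset Nat.Primes, T₀ ⊆ T ∧ GeneratesCl K T := by
  classical
  obtain ⟨S, -, hS⟩ := S14.SI.SU.exists_finset_generating_classGroup (K := K) ∅
  choose f hf using exists_prime_natCast_mem K
  refine ⟨T₀ ∪ S.image f, Finset.subset_union_left, generatesCl_of_subset hS ?_⟩
  intro v hv
  rw [mem_primesAbove]
  exact ⟨f v, Finset.mem_union_right _ (Finset.mem_image_of_mem f hv), hf v⟩

end General

/-! ### the model -/

variable (L : IntermediateField ℚ Qb) [FiniteDimensional ℚ L]

/-- **(CLGEN)**: one `T` for all layers `L^U`. -/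
theorem exists_generatesCl_all (T₀ : Finset Nat.Primes) :
    ∃ T : Finset Nat.Primes, T₀ ⊆ T ∧
      ∀ U : Subgroup (L ≃ₐ[ℚ] L), GeneratesCl (IntermediateField.fixedField U) T := by
  classical
  have : Fintype (Subgroup (L ≃ₐ[ℚ] L)) := Fintype.ofFinite _
  choose TU hTU0 hTU using fun U : Subgroup (L ≃ₐ[ℚ] L) =>
    exists_generatesCl_field (IntermediateField.fixedField U) T₀
  refine ⟨Finset.univ.biUnion TU ∪ T₀, Finset.subset_union_right, fun U => ?_⟩
  refine (hTU U).mono ?_
  exact (Finset.subset_biUnion_of_mem TU (Finset.mem_univ U)).trans Finset.subset_union_left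

/-- **(LY-G2)**: good sets of primes exist, above any `T₀` outside which `L` is unramified. -/
theorem exists_goodT (T₀ : Finset Nat.Primes) (hL : L.IsUnramifiedOutside T₀) {p : ℕ}
    (hp : p.Prime) : ∃ T : Finset Nat.Primes, T₀ ⊆ T ∧ GoodT L T p := by
  classical
  obtain ⟨T, hT, hgen⟩ := exists_generatesCl_all L (insert (⟨p, hp⟩ : Nat.Primes) T₀)
  refine ⟨T, (Finset.subset_insert _ _).trans hT, ?_, ?_, hgen⟩
  · exact hL.mono ((Finset.subset_insert _ _).trans hT)
  · exact ⟨hp, hT (Finset.mem_insert_self _ _)⟩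

end Fermat.Agent.GC.Global.Adapter
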