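/-
GATE-C / AD6-E (helper68), part (P3a): cohomology of a Galois-stable subgroup of `Nˣ` restricted
to a cyclic subgroup `H ≤ Gal(N/k)`, as ambient relative indices in `Additive Nˣ`.
-/
import Fermat.Agent.GC.SUnitHQ.Ambient
import Fermat.Agent.GC.Tate.CyclicCard

set_option autoImplicit false

open Fermat.Agent.GC.SUnitHQ Fermat.Agent.GC.CycBridge

namespace Fermat.Agent.GC.Global.Adapter.EH

set_option linter.unusedSectionVars false

/-- **(G1)** generic transport: the cohomology cardinalities of a representation `A` of a finite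
cyclic group, computed inside an ambient group `X` into which `A` embeds compatibly. -/
theorem card_groupCohomology_odd_ambient {k G : Type} [CommRing k] [Group G] [Fintype G]
    (A : Rep k G) (g : G)
    (hg : ∀ x, x ∈ Subgroup.zpowers g) {X : Type*} [AddCommGroup X] (ι : A.V →+ X)
    (hι : Function.Injective ι) (D Nm : X →+ X)
    (hD : ∀ x, ι (A.ρ g x - x) = D (ι x)) (hN : ∀ x, ι (A.ρ.norm x) = Nm (ι x))
    (i : ℕ) (hi : Odd i) :
    Nat.card (groupCohomology A i) = ((ι.range).map D).relIndex (ι.range ⊓ Nm.ker) := by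
  rw [card_groupCohomology_odd_of_group A g hg i hi]
  exact (relIndex_range_ker_transport ι hι (A.ρ g - 1 : A.V →ₗ[k] A.V).toAddMonoidHom
    (A.ρ.norm).toAddMonoidHom D Nm hD hN).symm

theorem card_groupCohomology_even_ambient {k G : Type} [CommRing k] [Group G] [Fintype G]
    (A : Rep k G) (g : G)
    (hg : ∀ x, x ∈ Subgroup.zpowers g) {X : Type*} [AddCommGroup X] (ι : A.V →+ X)
    (hι : Function.Injective ι) (D Nm : X →+ X)
    (hD : ∀ x, ι (A.ρ g x - x) = D (ι x)) (hN : ∀ x, ι (A.ρ.norm x) = Nm (ι x))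
    (i : ℕ) [NeZero i] (hi : Even i) :
    Nat.card (groupCohomology A i) = ((ι.range).map Nm).relIndex (ι.range ⊓ D.ker) := by
  rw [card_groupCohomology_even_of_group A g hg i hi]
  exact (relIndex_range_ker_transport ι hι (A.ρ.norm).toAddMonoidHom
    (A.ρ g - 1 : A.V →ₗ[k] A.V).toAddMonoidHom Nm D hN hD).symm

/-- **(G1')** the same with hypotheses phrased inside `X` only (no algebraic instance on `A.V`
is needed to state them) -/
theorem card_groupCohomology_ambient {k G : Type} [CommRing k] [Group G] [Fintype G]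
    (A : Rep k G) (g : G)
    (hg : ∀ x, x ∈ Subgroup.zpowers g) {X : Type*} [AddCommGroup X] (ι : A.V →+ X)
    (hι : Function.Injective ι) (D Nm : X →+ X)
    (hD : ∀ x, ι (A.ρ g x) - ι x = D (ι x)) (hN : ∀ x, ∑ h : G, ι (A.ρ h x) = Nm (ι x))
    (R : AddSubgroup X) (hR : ι.range = R) :
    Nat.card (groupCohomology A 1) = (R.map D).relIndex (R ⊓ Nm.ker) ∧
    Nat.card (groupCohomology A 2) = (R.map Nm).relIndex (R ⊓ D.ker) := by
  subst hR
  have hD' : ∀ x, ι (A.ρ g x - x) = D (ι x) := fun x => by rw [map_sub, hD]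
  have hN' : ∀ x, ι (A.ρ.norm x) = Nm (ι x) := fun x => by
    rw [Representation.norm, LinearMap.sum_apply, map_sum, hN]
  exact ⟨card_groupCohomology_odd_ambient A g hg ι hι D Nm hD' hN' 1 (by decide),
    card_groupCohomology_even_ambient A g hg ι hι D Nm hD' hN' 2 (by decide)⟩

/-- in a finite group generated by `g`, a sum over `g^i`, `i < |G|`, is a sum over the group -/
theorem sum_range_card_eq_sum_univ {G : Type*} [Group G] [Fintype G] (g : G)
    (hg : ∀ x : G, x ∈ Subgroup.zpowers g) {M : Type*} [AddCommMonoid M] (f : G → M) :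
    ∑ i ∈ Finset.range (Fintype.card G), f (g ^ i) = ∑ x, f x := by
  classical
  have hord : orderOf g = Fintype.card G := by
    rw [orderOf_eq_card_of_forall_mem_zpowers hg, Nat.card_eq_fintype_card]
  have hinj : Set.InjOn (fun i : ℕ => g ^ i) (Finset.range (Fintype.card G) : Set ℕ) := by
    intro i hi j hj hij
    rw [← hord] at hi hj
    exact pow_injOn_Iio_orderOf (by simpa using hi) (by simpa using hj) hij
  rw [← Finset.sum_image (f := f) hinj]
  congr 1
  apply Finset.eq_univ_of_card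
  rw [Finset.card_image_of_injOn hinj, Finset.card_range]

section Units

variable {k N : Type} [Field k] [Field N] [Algebra k N]

/-- `x ↦ σ x - x` on `Additive Nˣ` -/
noncomputable def ambD (σ : N ≃+* N) : Additive Nˣ →+ Additive Nˣ :=
  (show Additive Nˣ →+ Additive Nˣ from ambAct σ) - AddMonoidHom.id (Additive Nˣ)

theorem ambD_apply (σ : N ≃+* N) (x : Additive Nˣ) : ambD σ x = ambAct σ x - x := rfl

/-- `x ↦ ∑_{i<p} σ^i x` on `Additive Nˣ` -/
noncomputable def ambN (σ : N ≃ₐ[k] N) (p : ℕ) : Additive Nˣ →+ Additive Nˣ :=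
  ∑ i ∈ Finset.range p, (ambAct ((σ ^ i : N ≃ₐ[k] N) : N ≃+* N) : Additive Nˣ →+ Additive Nˣ)

theorem ambN_apply (σ : N ≃ₐ[k] N) (p : ℕ) (x : Additive Nˣ) :
    ambN σ p x = ∑ i ∈ Finset.range p, ambAct ((σ ^ i : N ≃ₐ[k] N) : N ≃+* N) x :=
  AddMonoidHom.finsetSum_apply _ _ _

/-- **(P3a)** cohomology of a Galois-stable submodule `W ≤ Additive Nˣ` restricted to a cyclic
subgroup `H = ⟨σ⟩` of `Gal(N/k)`, as relative indices inside `Additive Nˣ`. -/
theorem card_groupCohomology_res_sub (H : Subgroup (N ≃ₐ[k] N)) [Fintype H] (σ : N ≃ₐ[k] N)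
    (hσH : σ ∈ H) (hgen : ∀ h : H, h ∈ Subgroup.zpowers (⟨σ, hσH⟩ : H))
    (W : Submodule ℤ (Additive Nˣ))
    (hW : ∀ g : N ≃ₐ[k] N, W ≤ W.comap ((Rep.ofAlgebraAutOnUnits k N).ρ g))
    {p : ℕ} (hp : Fintype.card H = p) :
    Nat.card (groupCohomology
        (Rep.res H.subtype (Rep.subrepresentation (Rep.ofAlgebraAutOnUnits k N) W hW)) 1) =
      ((W.toAddSubgroup).map (ambD (σ : N ≃+* N))).relIndex
        (W.toAddSubgroup ⊓ (ambN σ p).ker) ∧
    Nat.card (groupCohomology
        (Rep.res H.subtype (Rep.subrepresentation (Rep.ofAlgebraAutOnUnits k N) W hW)) 2) =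
      ((W.toAddSubgroup).map (ambN σ p)).relIndex
        (W.toAddSubgroup ⊓ (ambD (σ : N ≃+* N)).ker) := by
  have hι : Function.Injective (W.subtype.toAddMonoidHom : ↥W →+ Additive Nˣ) :=
    Subtype.val_injective
  have hr : (W.subtype.toAddMonoidHom : ↥W →+ Additive Nˣ).range = W.toAddSubgroup := by
    ext x
    constructor
    · rintro ⟨y, rfl⟩
      exact y.2
    · intro hx
      exact ⟨⟨x, hx⟩, rfl⟩
  have hD : ∀ x : ↥W, ambAct (σ : N ≃+* N) x.1 - x.1 = ambD (σ : N ≃+* N) x.1 := fun x => rfl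
  have hN : ∀ x : ↥W, ∑ h : H, ambAct ((h : N ≃ₐ[k] N) : N ≃+* N) x.1 = ambN σ p x.1 := by
    intro x
    rw [ambN_apply, ← hp]
    have h1 := sum_range_card_eq_sum_univ (⟨σ, hσH⟩ : H) hgen
      (fun h : H => ambAct ((h : N ≃ₐ[k] N) : N ≃+* N) x.1)
    have h2 : ∀ i : ℕ, (((⟨σ, hσH⟩ : H) ^ i : H) : N ≃ₐ[k] N) = σ ^ i := fun i => rfl
    simp only [h2] at h1
    rw [h1]
  have key := card_groupCohomology_ambient
    (Rep.res H.subtype (Rep.subrepresentation (Rep.ofAlgebraAutOnUnits k N) W hW))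
    ⟨σ, hσH⟩ hgen (X := Additive Nˣ) W.subtype.toAddMonoidHom hι (ambD (σ : N ≃+* N))
    (ambN σ p) hD hN W.toAddSubgroup hr
  exact key

end Units

end Fermat.Agent.GC.Global.Adapter.EH
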