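/-
GATE-C / AD6-E (helper68): the Herbrand quotient of the `T`-units `E L T` of helper14's model,
restricted to a subgroup `H ≤ Gal(L/ℚ)` of prime order `p` whose fixed field is totally complex:
  `|H¹(H, E L T)| * p ^ a = p * |H²(H, E L T)|`,  both cardinalities nonzero,
`a = #{w prime of L dividing ∏ T, fixed by H}`.
This is the hypothesis `hE` / `hE2` of helper97's `FirstIneq.card_H2_eq_mul_card_H1`.
-/
import Fermat.Agent.GC.Global.ClassModule
import Fermat.Agent.GC.Global.Adapter.EHAbstract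
import Fermat.Agent.GC.Global.Adapter.EHRep

set_option autoImplicit false

open NumberField IsDedekindDomain Fermat.Agent.GC.SUnitHQ

namespace Fermat.Agent.GC.Global.Adapter.EH

open Fermat.Agent.GC.Global

set_option linter.unusedSectionVars false
set_option linter.style.haveILetI false

variable (L : IntermediateField ℚ Qb) [Normal ℚ L] [NumberField L] (T : Finset Nat.Primes)

theorem Tprod_ne_zero : Tprod T ≠ 0 :=
  Finset.prod_ne_zero_iff.mpr fun q _ => q.2.ne_zero

/-- helper14's `T`-units are the `S`-units for `S = {w ∣ ∏ T}` -/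
theorem tUnits_eq_unit : tUnits L T = (primesDvd L (Tprod T)).unit L := by
  ext x
  rw [mem_tUnits, mem_unit_primesDvd_iff]
  rfl

theorem tUnitsSub_toAddSubgroup :
    (tUnitsSub L T).toAddSubgroup = Subgroup.toAddSubgroup ((primesDvd L (Tprod T)).unit L) := by
  rw [← tUnits_eq_unit]
  rfl

/-- **AD6-E.** -/
theorem card_H1_E_mul {p : ℕ} (hp : p.Prime) (H : Subgroup (L ≃ₐ[ℚ] L)) (hH : Nat.card H = p)
    (hK : IsTotallyComplex (IntermediateField.fixedField H)) :
    Nat.card (groupCohomology (Rep.res H.subtype (E L T)) 1) ≠ 0 ∧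
    Nat.card (groupCohomology (Rep.res H.subtype (E L T)) 2) ≠ 0 ∧
    Nat.card (groupCohomology (Rep.res H.subtype (E L T)) 1) *
        p ^ (fixedPrimes H (Tprod T)).ncard =
      p * Nat.card (groupCohomology (Rep.res H.subtype (E L T)) 2) := by
  haveI : IsGalois ℚ L := ⟨⟩
  haveI : Finite H := Nat.finite_of_card_ne_zero (by rw [hH]; exact hp.ne_zero)
  letI : Fintype H := Fintype.ofFinite H
  haveI : Fact p.Prime := ⟨hp⟩
  haveI : IsCyclic H := isCyclic_of_prime_card hH
  obtain ⟨g, hg⟩ := IsCyclic.exists_generator (α := H)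
  have hσ : (g : L ≃ₐ[ℚ] L) ≠ 1 := by
    intro h1
    have hg1 : g = 1 := Subtype.ext h1
    have hbot : ∀ x : H, x = 1 := by
      intro x
      have := hg x
      rw [hg1, Subgroup.zpowers_one_eq_bot, Subgroup.mem_bot] at this
      exact this
    have hsub : Subsingleton H := ⟨fun a b => by rw [hbot a, hbot b]⟩
    have : Nat.card H = 1 := Nat.card_unique
    rw [hH] at this
    exact hp.one_lt.ne' this
  have hcard : Fintype.card H = p := by rw [← Nat.card_eq_fintype_card, hH]
  have hgen : ∀ h : H, h ∈ Subgroup.zpowers (⟨(g : L ≃ₐ[ℚ] L), g.2⟩ : H) := hg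
  obtain ⟨c1, c2⟩ := card_groupCohomology_res_sub (k := ℚ) (N := L) H (g : L ≃ₐ[ℚ] L) g.2 hgen
    (tUnitsSub L T) (tUnitsSub_le_comap L T) hcard
  have c1' : Nat.card (groupCohomology (Rep.res H.subtype (E L T)) 1) = _ := c1
  have c2' : Nat.card (groupCohomology (Rep.res H.subtype (E L T)) 2) = _ := c2
  rw [c1', c2', tUnitsSub_toAddSubgroup]
  exact tUnits_herbrand_abstract hp H hH hK (g : L ≃ₐ[ℚ] L) g.2 hσ (Tprod T) (Tprod_ne_zero T)
    (ambD ((g : L ≃ₐ[ℚ] L) : L ≃+* L)) (ambN (g : L ≃ₐ[ℚ] L) p) (fun _ => rfl)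
    (ambN_apply (g : L ≃ₐ[ℚ] L) p)

/-- a number field containing a primitive `n`-th root of unity, `n ≥ 3`, is totally complex -/
theorem isTotallyComplex_of_isPrimitiveRoot {K : Type*} [Field K] [NumberField K] {n : ℕ}
    (hn : 2 < n) {ζ : K} (hζ : IsPrimitiveRoot ζ n) : IsTotallyComplex K := by
  refine ⟨fun w => ?_⟩
  rw [← InfinitePlace.not_isReal_iff_isComplex]
  intro hw
  have hφ : ComplexEmbedding.IsReal w.embedding := InfinitePlace.isReal_iff.mp hw
  have h1 : IsPrimitiveRoot (hφ.embedding ζ) n := hζ.map_of_injective hφ.embedding.injective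
  have h2 : (hφ.embedding ζ) ^ 2 = 1 := by
    have h3 := h1.pow_eq_one
    have h4 : |hφ.embedding ζ| = 1 := by
      rw [← abs_pow_eq_one _ (by omega : n ≠ 0), h3, abs_one]
    rw [← sq_abs, h4, one_pow]
  have h5 := h1.dvd_of_pow_eq_one 2 h2
  have h6 := Nat.le_of_dvd (by norm_num) h5
  omega

/-- **AD6-E**, with the hypothesis `ζ_p ∈ L^H`, `p` odd, in place of total complexity. -/
theorem card_H1_E_mul_of_zeta {p : ℕ} (hp : p.Prime) (hp2 : p ≠ 2) (H : Subgroup (L ≃ₐ[ℚ] L))
    (hH : Nat.card H = p) (ζ : L) (hζ : IsPrimitiveRoot ζ p) (hζH : ∀ h ∈ H, h ζ = ζ) :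
    Nat.card (groupCohomology (Rep.res H.subtype (E L T)) 1) ≠ 0 ∧
    Nat.card (groupCohomology (Rep.res H.subtype (E L T)) 2) ≠ 0 ∧
    Nat.card (groupCohomology (Rep.res H.subtype (E L T)) 1) *
        p ^ (fixedPrimes H (Tprod T)).ncard =
      p * Nat.card (groupCohomology (Rep.res H.subtype (E L T)) 2) := by
  refine card_H1_E_mul L T hp H hH ?_
  have hmem : ζ ∈ IntermediateField.fixedField H := fun h => hζH h.1 h.2
  have hζ' : IsPrimitiveRoot (⟨ζ, hmem⟩ : IntermediateField.fixedField H) p :=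
    IsPrimitiveRoot.coe_submonoidClass_iff.mp hζ
  have h2 : 2 < p := lt_of_le_of_ne hp.two_le (Ne.symm hp2)
  exact isTotallyComplex_of_isPrimitiveRoot h2 hζ'

end Fermat.Agent.GC.Global.Adapter.EH
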