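/-
GATE-C / AD6-E pair form (helper68): the Herbrand quotient of the `V ⧸ U'`-module
`(Res_V (E L T))^{U'}` (= `T`-units of `L^{U'}`) for `U' ◁ V ≤ Gal(L/ℚ)` of prime index `p`,
`L^V` totally complex:
  `|H¹| * p ^ a = p * |H²|`, both nonzero,
`a = #{v ∣ ∏T prime of L^V with exactly one prime of L^{U'} above}`.
These are `hE`, `hE1ne`, `hE2ne` of helper97's `Layer1.layer_first_inequality_C`.
-/
import Fermat.Agent.GC.Global.ClassModule
import Fermat.Agent.GC.Global.Adapter.EHPairField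
import Fermat.Agent.GC.Global.Adapter.EHerbrand

set_option autoImplicit false

open NumberField IsDedekindDomain Module Fermat.Agent.GC.SUnitHQ

namespace Fermat.Agent.GC.Global.Adapter.EH

set_option linter.unusedSectionVars false
set_option linter.style.haveILetI false

section Abstract

variable {k N : Type} [Field k] [NumberField k] [Field N] [NumberField N] [Algebra k N]
  [IsGalois k N]

/-- the image of `U' ≤ V` in `Gal(N / N^V)` -/
noncomputable def liftU (V : Subgroup (N ≃ₐ[k] N)) (U' : Subgroup V) :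
    Subgroup (N ≃ₐ[IntermediateField.fixedField V] N) :=
  U'.map (IntermediateField.subgroupEquivAlgEquiv V : V →* (N ≃ₐ[IntermediateField.fixedField V] N))

/-- the primes of `N^V` dividing `m` with exactly one prime of `N^{U'}` above -/
def nonsplitPrimes (V : Subgroup (N ≃ₐ[k] N)) (U' : Subgroup V) (m : ℕ) :
    Set (HeightOneSpectrum (𝓞 ↥(IntermediateField.fixedField V))) :=
  {v | v ∈ primesDvd (↥(IntermediateField.fixedField V)) m ∧
    (fib (L := ↥(IntermediateField.fixedField (liftU V U'))) v).ncard = 1}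

instance liftU_normal (V : Subgroup (N ≃ₐ[k] N)) (U' : Subgroup V) [hU : U'.Normal] :
    (liftU V U').Normal :=
  hU.map _ (IntermediateField.subgroupEquivAlgEquiv V).surjective

theorem liftU_index (V : Subgroup (N ≃ₐ[k] N)) (U' : Subgroup V) :
    (liftU V U').index = U'.index :=
  Subgroup.index_map_equiv U' (IntermediateField.subgroupEquivAlgEquiv V)

open Classical in
/-- **(A'')** the pair form in terms of `(k, N, V, U')` only. -/
theorem tUnits_herbrand_pair {p : ℕ} (hp : p.Prime) (V : Subgroup (N ≃ₐ[k] N))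
    (U' : Subgroup V) [U'.Normal] (hidx : U'.index = p)
    (hK : IsTotallyComplex (IntermediateField.fixedField V))
    (σ : N ≃ₐ[k] N) (hσV : σ ∈ V) (hσ : (⟨σ, hσV⟩ : V) ∉ U') (m : ℕ) (hm : m ≠ 0)
    (D Nm : Additive Nˣ →+ Additive Nˣ)
    (hD : ∀ x, D x = ambAct (σ : N ≃+* N) x - x)
    (hN : ∀ x, Nm x = ∑ i ∈ Finset.range p, ambAct ((σ ^ i : N ≃ₐ[k] N) : N ≃+* N) x) :
    (((Subgroup.toAddSubgroup ((primesDvd N m).unit N)) ⊓ fixedPts (U'.map V.subtype)).map
        D).relIndex
      (((Subgroup.toAddSubgroup ((primesDvd N m).unit N)) ⊓ fixedPts (U'.map V.subtype)) ⊓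
        Nm.ker) ≠ 0 ∧
    (((Subgroup.toAddSubgroup ((primesDvd N m).unit N)) ⊓ fixedPts (U'.map V.subtype)).map
        Nm).relIndex
      (((Subgroup.toAddSubgroup ((primesDvd N m).unit N)) ⊓ fixedPts (U'.map V.subtype)) ⊓
        D.ker) ≠ 0 ∧
    (((Subgroup.toAddSubgroup ((primesDvd N m).unit N)) ⊓ fixedPts (U'.map V.subtype)).map
        D).relIndex
      (((Subgroup.toAddSubgroup ((primesDvd N m).unit N)) ⊓ fixedPts (U'.map V.subtype)) ⊓
        Nm.ker) * p ^ (nonsplitPrimes V U' m).ncard =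
    p * (((Subgroup.toAddSubgroup ((primesDvd N m).unit N)) ⊓
        fixedPts (U'.map V.subtype)).map Nm).relIndex
      (((Subgroup.toAddSubgroup ((primesDvd N m).unit N)) ⊓ fixedPts (U'.map V.subtype)) ⊓
        D.ker) := by
  set σ' : N ≃ₐ[IntermediateField.fixedField V] N :=
    IntermediateField.subgroupEquivAlgEquiv V ⟨σ, hσV⟩ with hσ'
  have hσ'U : σ' ∉ liftU V U' := by
    intro hmem
    apply hσ
    exact (Subgroup.mem_map_iff_mem (IntermediateField.subgroupEquivAlgEquiv V).injective).mp hmem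
  have hpow : ∀ i : ℕ, ((σ' ^ i : N ≃ₐ[IntermediateField.fixedField V] N) : N ≃+* N) =
      ((σ ^ i : N ≃ₐ[k] N) : N ≃+* N) := by
    intro i
    rw [hσ', ← map_pow]
    rfl
  have hD' : ∀ x, D x = ambAct (σ' : N ≃+* N) x - x := hD
  have hN' : ∀ x, Nm x = ∑ i ∈ Finset.range p,
      ambAct ((σ' ^ i : N ≃ₐ[IntermediateField.fixedField V] N) : N ≃+* N) x := by
    intro x
    rw [hN]
    exact Finset.sum_congr rfl fun i _ => by rw [hpow]
  have hR : ∀ x : Additive Nˣ,
      x ∈ (Subgroup.toAddSubgroup ((primesDvd N m).unit N)) ⊓ fixedPts (U'.map V.subtype) ↔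
        x.toMul ∈ (primesDvd N m).unit N ∧ ∀ u ∈ liftU V U',
          ambAct ((u : N ≃ₐ[IntermediateField.fixedField V] N) : N ≃+* N) x = x := by
    intro x
    constructor
    · rintro ⟨h1, h2⟩
      refine ⟨h1, ?_⟩
      rintro _ ⟨u', hu', rfl⟩
      exact h2 (u' : N ≃ₐ[k] N) ⟨u', hu', rfl⟩
    · rintro ⟨h1, h2⟩
      refine ⟨h1, ?_⟩
      rintro _ ⟨u', hu', rfl⟩
      exact h2 (IntermediateField.subgroupEquivAlgEquiv V u') ⟨u', hu', rfl⟩
  have h := sUnits_herbrand_pair (liftU V U') hp ((liftU_index V U').trans hidx) hK σ' hσ'U m hm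
    D Nm hD' hN' _ hR
  have hcount : ((primesDvd_finite (K := ↥(IntermediateField.fixedField V)) hm).toFinset.filter
      fun v => (fib (L := ↥(IntermediateField.fixedField (liftU V U'))) v).ncard = 1).card =
      (nonsplitPrimes V U' m).ncard := by
    rw [← Set.ncard_coe_finset]
    congr 1
    ext v
    simp [nonsplitPrimes]
  rw [hcount] at h
  exact h

end Abstract

section Model

open Fermat.Agent.GC.Global

variable (L : IntermediateField ℚ Qb) [Normal ℚ L] [NumberField L] (T : Finset Nat.Primes)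

/-- **AD6-E, pair form.** -/
theorem card_H1_E_pair {p : ℕ} (hp : p.Prime) (V : Subgroup (L ≃ₐ[ℚ] L)) (U' : Subgroup V)
    [U'.Normal] (hidx : U'.index = p)
    (hK : IsTotallyComplex (IntermediateField.fixedField V)) :
    Nat.card (groupCohomology ((Rep.res V.subtype (E L T)).quotientToInvariants U') 1) ≠ 0 ∧
    Nat.card (groupCohomology ((Rep.res V.subtype (E L T)).quotientToInvariants U') 2) ≠ 0 ∧
    Nat.card (groupCohomology ((Rep.res V.subtype (E L T)).quotientToInvariants U') 1) *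
        p ^ (nonsplitPrimes V U' (Tprod T)).ncard =
      p * Nat.card (groupCohomology ((Rep.res V.subtype (E L T)).quotientToInvariants U') 2) := by
  haveI : IsGalois ℚ L := ⟨⟩
  have hcardN : Nat.card (V ⧸ U') = p := by rw [← Subgroup.index_eq_card, hidx]
  haveI : Finite (V ⧸ U') := Nat.finite_of_card_ne_zero (by rw [hcardN]; exact hp.ne_zero)
  letI : Fintype (V ⧸ U') := Fintype.ofFinite _
  haveI : Fact p.Prime := ⟨hp⟩
  haveI : IsCyclic (V ⧸ U') := isCyclic_of_prime_card hcardN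
  obtain ⟨q₀, hq₀⟩ := IsCyclic.exists_generator (α := V ⧸ U')
  obtain ⟨g, rfl⟩ := QuotientGroup.mk_surjective q₀
  have hgU : g ∉ U' := by
    intro hg
    have h1 : (QuotientGroup.mk g : V ⧸ U') = 1 := (QuotientGroup.eq_one_iff g).mpr hg
    have hbot : ∀ x : V ⧸ U', x = 1 := by
      intro x
      have := hq₀ x
      rw [h1, Subgroup.zpowers_one_eq_bot, Subgroup.mem_bot] at this
      exact this
    have hsub : Subsingleton (V ⧸ U') := ⟨fun a b => by rw [hbot a, hbot b]⟩
    have : Nat.card (V ⧸ U') = 1 := Nat.card_unique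
    rw [hcardN] at this
    exact hp.one_lt.ne' this
  have hcard : Fintype.card (V ⧸ U') = p := by rw [← Nat.card_eq_fintype_card, hcardN]
  have hgen : ∀ q : V ⧸ U', q ∈ Subgroup.zpowers
      (QuotientGroup.mk (⟨(g : L ≃ₐ[ℚ] L), g.2⟩ : V) : V ⧸ U') := hq₀
  obtain ⟨c1, c2⟩ := card_groupCohomology_pair_sub (k := ℚ) (N := L) V U' (g : L ≃ₐ[ℚ] L) g.2
    hgen (tUnitsSub L T) (tUnitsSub_le_comap L T) hcard
  have c1' : Nat.card (groupCohomology
      ((Rep.res V.subtype (E L T)).quotientToInvariants U') 1) = _ := c1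
  have c2' : Nat.card (groupCohomology
      ((Rep.res V.subtype (E L T)).quotientToInvariants U') 2) = _ := c2
  rw [c1', c2', tUnitsSub_toAddSubgroup]
  exact tUnits_herbrand_pair hp V U' hidx hK (g : L ≃ₐ[ℚ] L) g.2 hgU (Tprod T) (Tprod_ne_zero T)
    (ambD ((g : L ≃ₐ[ℚ] L) : L ≃+* L)) (ambN (g : L ≃ₐ[ℚ] L) p) (fun _ => rfl)
    (ambN_apply (g : L ≃ₐ[ℚ] L) p)

/-- a `p`-group of automorphisms fixes the `p`-th roots of unity -/
theorem fixes_zeta_of_isPGroup {F E : Type*} [Field F] [Field E] [Algebra F E] {p : ℕ}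
    (hp : p.Prime) (V : Subgroup (E ≃ₐ[F] E)) (hV : IsPGroup p V) (ζ : E)
    (hζ : IsPrimitiveRoot ζ p) : ∀ h ∈ V, h ζ = ζ := by
  intro h hh
  haveI : Fact p.Prime := ⟨hp⟩
  haveI : NeZero p := ⟨hp.ne_zero⟩
  obtain ⟨k, hk⟩ := hV ⟨h, hh⟩
  have hk' : h ^ (p ^ k) = 1 := congrArg Subtype.val hk
  have h1 : (hζ.autToPow F h) ^ (p ^ k) = 1 := by rw [← map_pow, hk', map_one]
  have h2 : (hζ.autToPow F h) ^ (p - 1) = 1 := by
    have := pow_card_eq_one (G := (ZMod p)ˣ) (x := hζ.autToPow F h)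
    rwa [ZMod.card_units_eq_totient, Nat.totient_prime hp] at this
  have hcop : Nat.Coprime (p ^ k) (p - 1) := by
    apply Nat.Coprime.pow_left
    rw [Nat.Prime.coprime_iff_not_dvd hp]
    intro hd
    have := Nat.le_of_dvd (by have := hp.two_le; omega) hd
    have := hp.two_le
    omega
  have h3 : orderOf (hζ.autToPow F h) ∣ Nat.gcd (p ^ k) (p - 1) :=
    Nat.dvd_gcd (orderOf_dvd_of_pow_eq_one h1) (orderOf_dvd_of_pow_eq_one h2)
  rw [hcop, Nat.dvd_one, orderOf_eq_one_iff] at h3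
  have h4 := hζ.autToPow_spec F h
  rw [h3] at h4
  simpa [ZMod.val_one] using h4.symm

/-- **AD6-E, pair form**, for a `p`-subgroup `V` (`p` odd) of a layer containing `ζ_p`: total
complexity of `L^V` is automatic. -/
theorem card_H1_E_pair_of_zeta {p : ℕ} (hp : p.Prime) (hp2 : p ≠ 2) (V : Subgroup (L ≃ₐ[ℚ] L))
    (hV : IsPGroup p V) (U' : Subgroup V) [U'.Normal] (hidx : U'.index = p)
    (ζ : L) (hζ : IsPrimitiveRoot ζ p) :
    Nat.card (groupCohomology ((Rep.res V.subtype (E L T)).quotientToInvariants U') 1) ≠ 0 ∧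
    Nat.card (groupCohomology ((Rep.res V.subtype (E L T)).quotientToInvariants U') 2) ≠ 0 ∧
    Nat.card (groupCohomology ((Rep.res V.subtype (E L T)).quotientToInvariants U') 1) *
        p ^ (nonsplitPrimes V U' (Tprod T)).ncard =
      p * Nat.card (groupCohomology ((Rep.res V.subtype (E L T)).quotientToInvariants U') 2) := by
  refine card_H1_E_pair L T hp V U' hidx ?_
  have hmem : ζ ∈ IntermediateField.fixedField V := by
    rw [IntermediateField.mem_fixedField_iff]
    exact fixes_zeta_of_isPGroup hp V hV ζ hζ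
  have hζ' : IsPrimitiveRoot (⟨ζ, hmem⟩ : IntermediateField.fixedField V) p :=
    IsPrimitiveRoot.coe_submonoidClass_iff.mp hζ
  have h2 : 2 < p := lt_of_le_of_ne hp.two_le (Ne.symm hp2)
  exact isTotallyComplex_of_isPrimitiveRoot h2 hζ'

end Model

end Fermat.Agent.GC.Global.Adapter.EH
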