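/-
GATE-C / C4 adapter (helper11): the bijection
`D_q \ G_L / H  ≃  {primes of 𝓞 (L^H) above q}`, `D_q g H ↦ placeOf q (ι ∘ g|_{L^H})`,
on helper72's index type `Mackey.DC (decHom q L) H`.
-/
import Fermat.Agent.GC.Global.Adapter.PlaceCoset
import Fermat.Agent.GC.Global.Mackey

set_option autoImplicit false
set_option linter.unusedSectionVars false

open scoped Padic NumberField
open IsDedekindDomain NumberField

noncomputable section

namespace Fermat.Agent.GC.Global.Adapter

open Fermat.Agent.GC.Global Fermat.Agent.GC.Global.Mackey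

variable (L : IntermediateField ℚ Qb) [FiniteDimensional ℚ L] [IsGalois ℚ L]
  (H : Subgroup (L ≃ₐ[ℚ] L)) (q : ℕ) [Fact q.Prime]

/-- The primes of `𝓞 (L^H)` above `q`. -/
abbrev PlacesOver : Type :=
  {v : HeightOneSpectrum (𝓞 (fixK L H)) // ((q : ℕ) : 𝓞 (fixK L H)) ∈ v.asIdeal}

theorem dcRel_iff_dc_eq (g g' : L ≃ₐ[ℚ] L) :
    dcRel (decHom q L) H g g' ↔ dc (decHom q L) H g = dc (decHom q L) H g' := by
  rw [DoubleCoset.eq]
  constructor
  · rintro ⟨d, h, hh, rfl⟩
    exact ⟨decHom q L d, ⟨d, rfl⟩, h, hh, rfl⟩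
  · rintro ⟨_, ⟨d, rfl⟩, h, hh, rfl⟩
    exact ⟨d, h, hh, rfl⟩

/-- The place attached to a double coset. -/
def placeOfDC (c : DC (decHom q L) H) : PlacesOver L H q :=
  Quotient.liftOn' c
    (fun g => (⟨placeOf q (embK L H q g), natCast_q_mem_placeIdeal q _⟩ : PlacesOver L H q))
    (by
      intro g g' hgg'
      apply Subtype.ext
      apply placeOf_embK_eq_of_dcRel L H q
      rw [dcRel_iff_dc_eq]
      exact Quotient.sound' hgg')

@[simp] theorem placeOfDC_dc (g : L ≃ₐ[ℚ] L) :
    (placeOfDC L H q (dc (decHom q L) H g)).1 = placeOf q (embK L H q g) := rfl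

theorem placeOfDC_injective : Function.Injective (placeOfDC L H q) := by
  intro a b hab
  induction a using Quotient.inductionOn' with | _ g =>
  induction b using Quotient.inductionOn' with | _ g' =>
  have h1 : placeOf q (embK L H q g) = placeOf q (embK L H q g') :=
    congrArg Subtype.val hab
  exact (dcRel_iff_dc_eq L H q g g').1 (dcRel_of_placeOf_eq L H q g g' h1)

theorem placeOfDC_surjective : Function.Surjective (placeOfDC L H q) := by
  rintro ⟨v, hv⟩
  obtain ⟨g, hg⟩ := exists_placeOf_embK_eq L H q v hv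
  exact ⟨dc (decHom q L) H g, Subtype.ext hg⟩

/-- `D_q \ G_L / H ≃ {primes of L^H above q}`. -/
def placeEquivDC : DC (decHom q L) H ≃ PlacesOver L H q :=
  Equiv.ofBijective (placeOfDC L H q) ⟨placeOfDC_injective L H q, placeOfDC_surjective L H q⟩

@[simp] theorem placeEquivDC_dc (g : L ≃ₐ[ℚ] L) :
    (placeEquivDC L H q (dc (decHom q L) H g)).1 = placeOf q (embK L H q g) := rfl

/-- The places above `q` are finite in number (one for each double coset). -/
instance finite_placesOver : Finite (PlacesOver L H q) := by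
  have : Finite (DC (decHom q L) H) := Quotient.finite _
  exact Finite.of_equiv _ (placeEquivDC L H q)

/-! ### Towers: `U ≤ V`, `N = L^U ⊇ K = L^V` -/

variable {H} {U : Subgroup (L ≃ₐ[ℚ] L)}

/-- For `U ≤ V` the place of `N = L^U` cut out by `g` lies over the place of `K = L^V` cut out
by `g`: elementwise form. -/
theorem mem_placeOf_embK_iff_of_le (g : L ≃ₐ[ℚ] L) (x : 𝓞 (fixK L H))
    (y : 𝓞 (fixK L U)) (hxy : ((y : fixK L U) : L) = ((x : fixK L H) : L)) :
    x ∈ (placeOf q (embK L H q g)).asIdeal ↔ y ∈ (placeOf q (embK L U q g)).asIdeal := by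
  rw [mem_placeOf_iff, mem_placeOf_iff, embK_apply, embK_apply, hxy]


/-- `w` (a prime of `N = L^U`) lies over `v` (a prime of `K = L^V`), elementwise form (no algebra
instance between the two fixed fields is needed). -/
def LiesOverFix (v : HeightOneSpectrum (𝓞 (fixK L H))) (w : HeightOneSpectrum (𝓞 (fixK L U))) :
    Prop :=
  ∀ (x : 𝓞 (fixK L H)) (y : 𝓞 (fixK L U)), ((y : fixK L U) : L) = ((x : fixK L H) : L) →
    (x ∈ v.asIdeal ↔ y ∈ w.asIdeal)

theorem liesOverFix_placeOf (g : L ≃ₐ[ℚ] L) :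
    LiesOverFix L (placeOf q (embK L H q g)) (placeOf q (embK L U q g)) :=
  fun x y hxy => mem_placeOf_embK_iff_of_le L q g x y hxy

/-- every element of `𝓞 (L^V)` is an element of `𝓞 (L^U)` for `U ≤ V`. -/
theorem exists_int_of_le (hUV : U ≤ H) (x : 𝓞 (fixK L H)) :
    ∃ y : 𝓞 (fixK L U), ((y : fixK L U) : L) = ((x : fixK L H) : L) := by
  have hle : fixK L H ≤ fixK L U := IntermediateField.fixedField_antitone hUV
  have hxU : ((x : fixK L H) : L) ∈ fixK L U := hle (x : fixK L H).2
  have hint : IsIntegral ℤ ((x : fixK L H) : L) :=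
    (RingOfIntegers.isIntegral_coe x).map (fixK L H).val.toIntAlgHom
  have hint' : IsIntegral ℤ (⟨((x : fixK L H) : L), hxU⟩ : fixK L U) := by
    rw [← isIntegral_algebraMap_iff (B := L) (fixK L U).val.toRingHom.injective]
    exact hint
  exact ⟨⟨_, hint'⟩, rfl⟩

/-- Two primes of `K = L^V` under the same prime of `N = L^U` coincide. -/
theorem eq_of_liesOverFix (hUV : U ≤ H) {v v' : HeightOneSpectrum (𝓞 (fixK L H))}
    {w : HeightOneSpectrum (𝓞 (fixK L U))} (h : LiesOverFix L v w) (h' : LiesOverFix L v' w) :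
    v = v' := by
  ext x
  obtain ⟨y, hy⟩ := exists_int_of_le L hUV x
  rw [h x y hy, h' x y hy]

/-- **Tower compatibility**: the place of `N = L^U` attached to `g` lies over the place of
`K = L^V` attached to `s` iff `g ∈ D_q s V`. -/
theorem liesOverFix_iff_dc_eq (hUV : U ≤ H) (s g : L ≃ₐ[ℚ] L) :
    LiesOverFix L (placeOf q (embK L H q s)) (placeOf q (embK L U q g)) ↔
      dc (decHom q L) H g = dc (decHom q L) H s := by
  constructor
  · intro h
    have h2 := liesOverFix_placeOf (H := H) (U := U) L q g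
    have := eq_of_liesOverFix L hUV h h2
    exact ((dcRel_iff_dc_eq L H q s g).1 (dcRel_of_placeOf_eq L H q s g this)).symm
  · intro h
    have := placeOf_embK_eq_of_dcRel L H q ((dcRel_iff_dc_eq L H q g s).2 h)
    rw [← this]
    exact liesOverFix_placeOf L q g

/-- Group theory: there is exactly one `(D, U)`-double coset inside `D s V` iff
`V = (V ∩ s⁻¹ D s) U`, i.e. iff `ψ_s : D ∩ s V s⁻¹ → V/U` is onto. -/
theorem dc_unique_iff (s : L ≃ₐ[ℚ] L) :
    (∀ g : L ≃ₐ[ℚ] L, dc (decHom q L) H g = dc (decHom q L) H s →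
        dc (decHom q L) U g = dc (decHom q L) U s) ↔
      ∀ v ∈ H, ∃ d : locField q L ≃ₐ[ℚ_[q]] locField q L, ∃ u ∈ U, s * v = decHom q L d * s * u := by
  constructor
  · intro h v hv
    have h1 : dc (decHom q L) H (s * v) = dc (decHom q L) H s :=
      dc_mul_right (decHom q L) H s ⟨v, hv⟩
    have h2 := h (s * v) h1
    obtain ⟨d, u, hu, hsv⟩ := (dcRel_iff_dc_eq L U q s (s * v)).2 h2.symm
    exact ⟨d, u, hu, hsv⟩
  · intro h g hg
    obtain ⟨d, v, hv, rfl⟩ := (dcRel_iff_dc_eq L H q s g).2 hg.symm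
    obtain ⟨d', u, hu, hsv⟩ := h v hv
    rw [mul_assoc, hsv, ← mul_assoc, ← mul_assoc, ← map_mul]
    rw [show decHom q L (d * d') * s * u = decHom q L (d * d') * (s * u) by group,
      dc_mul_left, dc_mul_right (decHom q L) U s ⟨u, hu⟩]

end Fermat.Agent.GC.Global.Adapter
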