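/-
GATE-C / C4 COUNT-MATCH (ii), K-side (helper11): helper68's exponent
`(EH.nonsplitPrimes V U' (Tprod T)).ncard` (primes of `L^V` above `T` with exactly ONE prime of
`L^{U'}` above) in helper72/helper97's double-coset language:

  `ncard_nonsplitPrimes_eq :
     (EH.nonsplitPrimes V U' (Tprod T)).ncard
       = ∑ q : T, #{c : DC (decHom q L) V | conjSub (decHom q L) V (rep c) ⊔ U' = ⊤}`.

Route: `placeEquivDC` (PlaceDC.lean) on both levels `V` and `U = U'.map V.subtype`,
`liesOverFix_iff_dc_eq` ("lies over" = `dcMap`), helper97's `fibre_subsingleton_iff`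
(SplitCount.lean), and the identification of helper68's top field
`fixedField (liftU V U') : IntermediateField (L^V) L` with `fixK L U`.
-/
import Fermat.Agent.GC.Global.Adapter.PlaceDC
import Fermat.Agent.GC.Global.SplitCount
import Fermat.Agent.GC.Global.Adapter.EHerbrandPair
import Fermat.Agent.GC.Global.Adapter.PrimesOver

set_option autoImplicit false
set_option linter.unusedSectionVars false

open scoped Padic NumberField
open IsDedekindDomain NumberField

noncomputable section

namespace Fermat.Agent.GC.Global.Adapter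

open Fermat.Agent.GC.Global Fermat.Agent.GC.Global.Mackey Fermat.Agent.GC.Global.SplitCount
open Fermat.Agent.GC.SUnitHQ

variable (L : IntermediateField ℚ Qb) [FiniteDimensional ℚ L] [IsGalois ℚ L]
  (V : Subgroup (L ≃ₐ[ℚ] L)) (U' : Subgroup V)

theorem mem_fixedField_liftU_iff (x : L) :
    x ∈ IntermediateField.fixedField (EH.liftU V U') ↔ x ∈ fixK L (U'.map V.subtype) := by
  rw [IntermediateField.mem_fixedField_iff, IntermediateField.mem_fixedField_iff]
  constructor
  · rintro h _ ⟨u, hu, rfl⟩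
    exact h (IntermediateField.subgroupEquivAlgEquiv V u) ⟨u, hu, rfl⟩
  · rintro h _ ⟨u, hu, rfl⟩
    exact h (V.subtype u) ⟨u, hu, rfl⟩

/-- helper68's top field of the layer and `fixK L (U'.map V.subtype)` are the same subfield of `L`. -/
def topEquiv : fixK L (U'.map V.subtype) ≃+* ↥(IntermediateField.fixedField (EH.liftU V U')) where
  toFun x := ⟨x.1, (mem_fixedField_liftU_iff L V U' x.1).2 x.2⟩
  invFun y := ⟨y.1, (mem_fixedField_liftU_iff L V U' y.1).1 y.2⟩
  left_inv _ := rfl
  right_inv _ := rfl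
  map_mul' _ _ := rfl
  map_add' _ _ := rfl

@[simp] theorem coe_topEquiv (x : fixK L (U'.map V.subtype)) :
    ((topEquiv L V U' x : ↥(IntermediateField.fixedField (EH.liftU V U'))) : L) = (x : L) := rfl

/-- primes of the two incarnations of the top field. -/
def hosTop : HeightOneSpectrum (𝓞 (fixK L (U'.map V.subtype))) ≃
    HeightOneSpectrum (𝓞 ↥(IntermediateField.fixedField (EH.liftU V U'))) :=
  HeightOneSpectrum.equivOfRingEquiv (RingOfIntegers.mapRingEquiv (topEquiv L V U'))

theorem mem_hosTop_iff (w : HeightOneSpectrum (𝓞 (fixK L (U'.map V.subtype))))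
    (y : 𝓞 ↥(IntermediateField.fixedField (EH.liftU V U'))) :
    y ∈ (hosTop L V U' w).asIdeal ↔
      (RingOfIntegers.mapRingEquiv (topEquiv L V U')).symm y ∈ w.asIdeal := Iff.rfl


theorem coe_mapRingEquiv_symm_algebraMap (x : 𝓞 (fixK L V)) :
    ((((RingOfIntegers.mapRingEquiv (topEquiv L V U')).symm
      (algebraMap (𝓞 (fixK L V)) (𝓞 ↥(IntermediateField.fixedField (EH.liftU V U'))) x) :
        𝓞 (fixK L (U'.map V.subtype))) : fixK L (U'.map V.subtype)) : L) = ((x : fixK L V) : L) :=
  rfl

theorem under_hosTop_eq_iff (v : HeightOneSpectrum (𝓞 (fixK L V)))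
    (w : HeightOneSpectrum (𝓞 (fixK L (U'.map V.subtype)))) :
    (hosTop L V U' w).under (𝓞 (fixK L V)) = v ↔ LiesOverFix L v w := by
  constructor
  · intro h x y hxy
    rw [← h, HeightOneSpectrum.under_asIdeal, Ideal.under_def, Ideal.mem_comap, mem_hosTop_iff]
    have : (RingOfIntegers.mapRingEquiv (topEquiv L V U')).symm
        (algebraMap (𝓞 (fixK L V)) (𝓞 ↥(IntermediateField.fixedField (EH.liftU V U'))) x) = y := by
      apply RingOfIntegers.ext
      apply Subtype.ext
      rw [hxy]
      exact coe_mapRingEquiv_symm_algebraMap L V U' x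
    rw [this]
  · intro h
    ext x
    obtain ⟨y, hy⟩ := exists_int_of_le L (Subgroup.map_subtype_le U') x
    rw [HeightOneSpectrum.under_asIdeal, Ideal.under_def, Ideal.mem_comap, mem_hosTop_iff, h x y hy]
    have : (RingOfIntegers.mapRingEquiv (topEquiv L V U')).symm
        (algebraMap (𝓞 (fixK L V)) (𝓞 ↥(IntermediateField.fixedField (EH.liftU V U'))) x) = y := by
      apply RingOfIntegers.ext
      apply Subtype.ext
      rw [hy]
      exact coe_mapRingEquiv_symm_algebraMap L V U' x
    rw [this]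


/-! ### the fibre over a place of `K = L^V` -/

section Fibre

variable (q : ℕ) [Fact q.Prime]

/-- (A) a prime of `L^U` over a prime of `L^V` above `q` is above `q`. -/
theorem natCast_mem_of_liesOverFix {H U : Subgroup (L ≃ₐ[ℚ] L)}
    {v : HeightOneSpectrum (𝓞 (fixK L H))} {w : HeightOneSpectrum (𝓞 (fixK L U))}
    (h : LiesOverFix L v w) (hq : ((q : ℕ) : 𝓞 (fixK L H)) ∈ v.asIdeal) :
    ((q : ℕ) : 𝓞 (fixK L U)) ∈ w.asIdeal := by
  refine (h ((q : ℕ) : 𝓞 (fixK L H)) ((q : ℕ) : 𝓞 (fixK L U)) ?_).1 hq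
  simp

/-- (B) `placeEquivDC` turns "lies over" into `dcMap`. -/
theorem liesOverFix_placeEquivDC_iff (c : DC (decHom q L) V)
    (t : DC (decHom q L) (U'.map V.subtype)) :
    LiesOverFix L (placeEquivDC L V q c).1 (placeEquivDC L (U'.map V.subtype) q t).1 ↔
      dcMap (decHom q L) (Subgroup.map_subtype_le U') t = c := by
  induction c using Quotient.inductionOn' with | _ s =>
  induction t using Quotient.inductionOn' with | _ g =>
  exact liesOverFix_iff_dc_eq L q (Subgroup.map_subtype_le U') s g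

/-- The prime of helper68's top field attached to a double coset `t ∈ D_q \ G / U`. -/
def topPlace (t : DC (decHom q L) (U'.map V.subtype)) :
    HeightOneSpectrum (𝓞 ↥(IntermediateField.fixedField (EH.liftU V U'))) :=
  hosTop L V U' (placeEquivDC L (U'.map V.subtype) q t).1

theorem topPlace_injective : Function.Injective (topPlace L V U' q) := by
  intro t t' h
  have h1 := (hosTop L V U').injective h
  exact (placeEquivDC L (U'.map V.subtype) q).injective (Subtype.ext h1)

theorem topPlace_mem_fib_iff (c : DC (decHom q L) V) (t : DC (decHom q L) (U'.map V.subtype)) :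
    topPlace L V U' q t ∈ fib (L := ↥(IntermediateField.fixedField (EH.liftU V U')))
        (placeEquivDC L V q c).1 ↔
      dcMap (decHom q L) (Subgroup.map_subtype_le U') t = c := by
  rw [← liesOverFix_placeEquivDC_iff, ← under_hosTop_eq_iff]
  rfl

theorem exists_topPlace_eq_of_mem_fib (c : DC (decHom q L) V)
    (w' : HeightOneSpectrum (𝓞 ↥(IntermediateField.fixedField (EH.liftU V U'))))
    (hw' : w' ∈ fib (L := ↥(IntermediateField.fixedField (EH.liftU V U')))
      (placeEquivDC L V q c).1) :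
    ∃ t, topPlace L V U' q t = w' := by
  set w := (hosTop L V U').symm w' with hw
  have h1 : (hosTop L V U' w).under (𝓞 (fixK L V)) = (placeEquivDC L V q c).1 := by
    rw [hw, Equiv.apply_symm_apply]
    exact hw'
  have h2 := (under_hosTop_eq_iff L V U' _ w).1 h1
  have hq : ((q : ℕ) : 𝓞 (fixK L (U'.map V.subtype))) ∈ w.asIdeal :=
    natCast_mem_of_liesOverFix L q h2 (placeEquivDC L V q c).2
  refine ⟨(placeEquivDC L (U'.map V.subtype) q).symm ⟨w, hq⟩, ?_⟩
  rw [topPlace, Equiv.apply_symm_apply]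
  show hosTop L V U' w = w'
  rw [hw, Equiv.apply_symm_apply]

/-- **split ⇔ ψ_s not onto**: exactly one prime of `L^{U'}` above the place `c` of `L^V` iff
`conjSub ⊔ U' = ⊤`. -/
theorem ncard_fib_eq_one_iff [U'.Normal] (c : DC (decHom q L) V) :
    (fib (L := ↥(IntermediateField.fixedField (EH.liftU V U')))
        (placeEquivDC L V q c).1).ncard = 1 ↔
      conjSub (decHom q L) V (rep c) ⊔ U' = ⊤ := by
  rw [← fibre_subsingleton_iff, dc_rep, Set.ncard_eq_one]
  constructor
  · rintro ⟨w', hw'⟩ t ht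
    have h1 : topPlace L V U' q t ∈ ({w'} : Set _) := by
      rw [← hw', topPlace_mem_fib_iff]; exact ht
    have h2 : topPlace L V U' q (dc (decHom q L) (U'.map V.subtype) (rep c)) ∈ ({w'} : Set _) := by
      rw [← hw', topPlace_mem_fib_iff, dcMap_dc, dc_rep]
    exact topPlace_injective L V U' q (h1.trans h2.symm)
  · intro h
    refine ⟨topPlace L V U' q (dc (decHom q L) (U'.map V.subtype) (rep c)), ?_⟩
    ext w'
    rw [Set.mem_singleton_iff]
    constructor
    · intro hw'
      obtain ⟨t, rfl⟩ := exists_topPlace_eq_of_mem_fib L V U' q c w' hw'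
      rw [h t ((topPlace_mem_fib_iff L V U' q c t).1 hw')]
    · rintro rfl
      rw [topPlace_mem_fib_iff, dcMap_dc, dc_rep]

end Fibre

/-! ### the count -/

section Count

variable (T : Finset Nat.Primes) [U'.Normal]

/-- The pairs `(q, c)`, `q ∈ T`, `c ∈ D_q \ G / V` a NON-SPLIT place of `L^V` for the layer. -/
abbrev NonsplitIdx : Type :=
  Σ q : T, {c : DC (decHom ((q : Nat.Primes) : ℕ) L) V //
    conjSub (decHom ((q : Nat.Primes) : ℕ) L) V (rep c) ⊔ U' = ⊤}

/-- the prime of `L^V` attached to a non-split pair. -/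
def nonsplitPlace (x : NonsplitIdx L V U' T) : HeightOneSpectrum (𝓞 (fixK L V)) :=
  (placeEquivDC L V ((x.1 : Nat.Primes) : ℕ) x.2.1).1

theorem placeEquivDC_eq_placeOf_rep (q : ℕ) [Fact q.Prime] (c : DC (decHom q L) V) :
    (placeEquivDC L V q c).1 = placeOf q (embK L V q (rep c)) := by
  rw [← placeEquivDC_dc, dc_rep]

theorem prime_eq_of_placeEquivDC_eq (q q' : ℕ) [Fact q.Prime] [Fact q'.Prime]
    (c : DC (decHom q L) V) (c' : DC (decHom q' L) V)
    (h : (placeEquivDC L V q c).1 = (placeEquivDC L V q' c').1) : q = q' := by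
  rw [placeEquivDC_eq_placeOf_rep, placeEquivDC_eq_placeOf_rep] at h
  exact prime_eq_of_placeOf_eq _ _ _ _ h

theorem nonsplitPlace_injective : Function.Injective (nonsplitPlace L V U' T) := by
  intro x x' h
  obtain ⟨q, c⟩ := x
  obtain ⟨q', c'⟩ := x'
  have hqq' : q = q' := by
    apply Subtype.ext
    apply Nat.Primes.coe_nat_injective
    exact prime_eq_of_placeEquivDC_eq L V _ _ c.1 c'.1 h
  subst hqq'
  have hcc' : c.1 = c'.1 := (placeEquivDC L V _).injective (Subtype.ext h)
  have : c = c' := Subtype.ext hcc'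
  rw [this]

theorem range_nonsplitPlace :
    Set.range (nonsplitPlace L V U' T) = EH.nonsplitPrimes V U' (Tprod T) := by
  ext v
  constructor
  · rintro ⟨⟨q, c, hc⟩, rfl⟩
    refine ⟨?_, (ncard_fib_eq_one_iff L V U' _ c).2 hc⟩
    rw [← coe_primesAbove_eq_primesDvd_Tprod, Finset.mem_coe, mem_primesAbove]
    exact ⟨q.1, q.2, (placeEquivDC L V _ c).2⟩
  · rintro ⟨hv, hfib⟩
    rw [← coe_primesAbove_eq_primesDvd_Tprod, Finset.mem_coe, mem_primesAbove] at hv
    obtain ⟨q, hqT, hqv⟩ := hv
    set c := (placeEquivDC L V ((q : Nat.Primes) : ℕ)).symm ⟨v, hqv⟩ with hc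
    have hcv : (placeEquivDC L V ((q : Nat.Primes) : ℕ) c).1 = v := by
      rw [hc, Equiv.apply_symm_apply]
    have hns : conjSub (decHom ((q : Nat.Primes) : ℕ) L) V (rep c) ⊔ U' = ⊤ := by
      rw [← ncard_fib_eq_one_iff, hcv]
      exact hfib
    exact ⟨⟨⟨q, hqT⟩, c, hns⟩, hcv⟩

/-- **COUNT-MATCH (ii)**: helper68's exponent (number of primes of `L^V` above `T` with exactly
one prime of `L^{U'}` above) in double-coset language. -/
theorem ncard_nonsplitPrimes_eq :
    (EH.nonsplitPrimes V U' (Tprod T)).ncard =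
      ∑ q : T, Nat.card {c : DC (decHom ((q : Nat.Primes) : ℕ) L) V //
        conjSub (decHom ((q : Nat.Primes) : ℕ) L) V (rep c) ⊔ U' = ⊤} := by
  have : ∀ q : T, Finite (DC (decHom ((q : Nat.Primes) : ℕ) L) V) := fun q => Quotient.finite _
  rw [← range_nonsplitPlace, Set.ncard_range_of_injective (nonsplitPlace_injective L V U' T),
    Nat.card_sigma]

end Count

end Fermat.Agent.GC.Global.Adapter
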