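/-
GATE-C / C4 COUNT-MATCH, final identity (helper11): the E-side exponent (helper68,
`EH.nonsplitPrimes`) equals the J-side exponent (helper72, `quotNonsplitCount`), and the `hJE`
package of helper97's `Layer1.layerHypP_C_of_inputs`.
-/
import Fermat.Agent.GC.Global.Adapter.CountMatch
import Fermat.Agent.GC.Global.MackeyCount

set_option autoImplicit false
set_option linter.unusedSectionVars false

open scoped Padic NumberField
open IsDedekindDomain NumberField CategoryTheory

noncomputable section

namespace Fermat.Agent.GC.Global.Adapter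

open Fermat.Agent.GC.Global Fermat.Agent.GC.Global.Mackey

variable (L : IntermediateField ℚ Qb) [FiniteDimensional ℚ L] [IsGalois ℚ L]
  (T : Finset Nat.Primes) (V : Subgroup (L ≃ₐ[ℚ] L)) (U' : Subgroup V) [U'.Normal]

/-- **COUNT-MATCH**: `a_E = a_J`. -/
theorem ncard_nonsplitPrimes_eq_quotNonsplitCount
    [∀ q : Nat.Primes, Fintype (PlacesAbove L V q)] {p : ℕ} (hp : p.Prime) (hU : U'.index = p) :
    (EH.nonsplitPrimes V U' (Tprod T)).ncard = quotNonsplitCount L T V U' := by
  rw [ncard_nonsplitPrimes_eq, quotNonsplitCount_eq_ncard L T V U' hp hU]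
  refine Finset.sum_congr rfl fun q _ => ?_
  exact Nat.card_coe_set_eq _

/-- The `hJE` input of `Layer1.layerHypP_C_of_inputs` for one layer `(V, U')`, `V` a `p`-group,
`ζ_p ∈ L`, `p` odd. -/
theorem layer_hJE {p : ℕ} (hp : p.Prime) (hp2 : p ≠ 2) (ζ : L) (hζ : IsPrimitiveRoot ζ p)
    (hV : IsPGroup p V) (hidx : U'.index = p) :
    ∃ a : ℕ,
      Limits.IsZero (groupCohomology ((Rep.res V.subtype (J L T)).quotientToInvariants U') 1) ∧
      Nat.card (groupCohomology ((Rep.res V.subtype (J L T)).quotientToInvariants U') 2) = p ^ a ∧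
      Nat.card (groupCohomology ((Rep.res V.subtype (E L T)).quotientToInvariants U') 1) * p ^ a =
        p * Nat.card (groupCohomology ((Rep.res V.subtype (E L T)).quotientToInvariants U') 2) ∧
      Nat.card (groupCohomology ((Rep.res V.subtype (E L T)).quotientToInvariants U') 1) ≠ 0 ∧
      Nat.card (groupCohomology ((Rep.res V.subtype (E L T)).quotientToInvariants U') 2) ≠ 0 := by
  classical
  letI : ∀ q : Nat.Primes, Fintype (PlacesAbove L V q) := fun q => Fintype.ofFinite _
  obtain ⟨hJ1, hJ2⟩ := quotJ_layer L T V U' hp hidx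
  obtain ⟨hE1, hE2, hE⟩ := EH.card_H1_E_pair_of_zeta L T hp hp2 V hV U' hidx ζ hζ
  refine ⟨quotNonsplitCount L T V U', hJ1, hJ2, ?_, hE1, hE2⟩
  rw [← ncard_nonsplitPrimes_eq_quotNonsplitCount L T V U' hp hidx]
  exact hE

end Fermat.Agent.GC.Global.Adapter
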