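/-
GATE-C / C4 GLOBAL-COH, LAYER closed (helper14).

`LayerHypP p (C L T)` for a good set `T` and `ζ_p ∈ L`, `p` odd: `layerHypP_C_of_goodT`
(LayerFinal.lean: (LY-H1) helper79 + (LY-2) second inequality) with helper11's `layer_hJE`
(COUNT-MATCH: helper72 MACKEY-INV + helper68 AD6-E).  Consequences through helper97's
`DevissageP`: no `p`-torsion in `H¹(H, C(L,T))` and `|H²(H, C(L,T))(p)| ∣ |H|_p` for every
subgroup `H ≤ Gal(L/ℚ)`.
-/
import Mathlib
import Fermat.Agent.GC.Global.Adapter.LayerFinal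
import Fermat.Agent.GC.Global.Adapter.CountMatchFinal

set_option autoImplicit false
set_option linter.unusedSectionVars false

open CategoryTheory NumberField IsDedekindDomain

noncomputable section

namespace Fermat.Agent.GC.Global.Adapter

open Fermat.Agent.GC.Global.DevissageP Fermat.Agent.GC.Global.Devissage

variable (L : IntermediateField ℚ Qb) [FiniteDimensional ℚ L] [IsGalois ℚ L]
  (T : Finset Nat.Primes)

/-- **LAYER**: `LayerHypP p (C L T)` for `T` good, `ζ_p ∈ L`, `p` odd. -/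
theorem layerHypP_C {p : ℕ} (hg : GoodT L T p) (hp : p.Prime) (hp2 : p ≠ 2) (ζ : L)
    (hζ : IsPrimitiveRoot ζ p) : LayerHypP p (C L T) :=
  layerHypP_C_of_goodT L T hg hp fun V hV U' _ hidx => layer_hJE L T V U' hp hp2 ζ hζ hV hidx

/-- **`p`-primary class formation statements for `C(L,T)`**: for every subgroup `H ≤ Gal(L/ℚ)`,
`H¹(H, C(L,T))` has no `p`-torsion and `|H²(H, C(L,T))(p)|` divides the `p`-part of `|H|`. -/
theorem devissage_C {p : ℕ} (hg : GoodT L T p) (hp : p.Prime) (hp2 : p ≠ 2) (ζ : L)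
    (hζ : IsPrimitiveRoot ζ p) (H : Subgroup (L ≃ₐ[ℚ] L)) :
    (∀ (x : groupCohomology (Rep.res H.subtype (C L T)) 1) (m : ℕ), p ^ m • x = 0 → x = 0) ∧
      Finite (primaryPart p (groupCohomology (Rep.res H.subtype (C L T)) 2)) ∧
      Nat.card (primaryPart p (groupCohomology (Rep.res H.subtype (C L T)) 2)) ∣
        p ^ (Nat.card H).factorization p :=
  haveI : Fact p.Prime := ⟨hp⟩
  devissage_sub_P p (C L T) (layerHypP_C L T hg hp hp2 ζ hζ) H

end Fermat.Agent.GC.Global.Adapter
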