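/-
GATE-C / C4 GLOBAL-COH, (CL-NS) (helper14): every index-`p` layer has a non-split place in `T`.

For `T` good for `L`, `ζ_p ∈ L`, `p` odd, `V ≤ Gal(L/ℚ)` a `p`-group and `U' ⊲ V` of index `p`
(`K = L^V ⊂ N = L^{U'}` cyclic of degree `p`): at least one prime of `K` above `T` does not split
in `N`.  Proof: `H¹(V/U', E^{U'}) ↪ H¹(V, E) = 0` (helper79) and the unit Herbrand quotient
`|H¹(V/U',E^{U'})| · p^a = p · |H²(V/U',E^{U'})|` (helper68), `a` = number of non-split primes.
This is "the decomposition groups of the places in `T` generate `Gal(N/K)`" without any density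
theorem; it is the surjectivity input of the explicit reciprocity map on cyclic layers.
-/
import Mathlib
import Fermat.Agent.GC.Global.Adapter.LayerHJE

set_option autoImplicit false
set_option linter.unusedSectionVars false

open CategoryTheory NumberField IsDedekindDomain

noncomputable section

namespace Fermat.Agent.GC.Global.Adapter

open Fermat.Agent.GC.Global.Mackey

variable (L : IntermediateField ℚ Qb) [FiniteDimensional ℚ L] [IsGalois ℚ L]
  (T : Finset Nat.Primes)

/-- `H¹(V/U', E(L,T)^{U'}) = 0` for good `T` (inflation into `H¹(V, E(L,T)) = 0` is injective). -/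
theorem isZero_H1_quot_E_of_goodT {p : ℕ} (hg : GoodT L T p) (V : Subgroup (L ≃ₐ[ℚ] L))
    (U' : Subgroup V) [U'.Normal] :
    Limits.IsZero (groupCohomology ((Rep.res V.subtype (E L T)).quotientToInvariants U') 1) := by
  have h0 : Limits.IsZero (groupCohomology (Rep.res V.subtype (E L T)) 1) :=
    H1U.isZero_H1_res_E_of_goodT L T hg V
  have hm : Mono (groupCohomology.H1InfRes (Rep.res V.subtype (E L T)) U').f :=
    groupCohomology.instMonoModuleCatFH1InfRes _ _
  exact @Limits.IsZero.of_mono _ _ _ _ _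
    (groupCohomology.H1InfRes (Rep.res V.subtype (E L T)) U').f hm h0

/-- **(CL-NS), `E`-side form**: some prime of `L^V` above `T` does not split in `L^{U'}`. -/
theorem nonsplitPrimes_nonempty {p : ℕ} (hg : GoodT L T p) (hp : p.Prime) (hp2 : p ≠ 2) (ζ : L)
    (hζ : IsPrimitiveRoot ζ p) (V : Subgroup (L ≃ₐ[ℚ] L)) (hV : IsPGroup p V) (U' : Subgroup V)
    [U'.Normal] (hidx : U'.index = p) :
    (EH.nonsplitPrimes V U' (Tprod T)).Nonempty := by
  obtain ⟨_, _, h⟩ := EH.card_H1_E_pair_of_zeta L T hp hp2 V hV U' hidx ζ hζ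
  have hz := isZero_H1_quot_E_of_goodT L T hg V U'
  have hsub : Subsingleton
      (groupCohomology ((Rep.res V.subtype (E L T)).quotientToInvariants U') 1) :=
    ModuleCat.subsingleton_of_isZero hz
  have hc1 : Nat.card
      (groupCohomology ((Rep.res V.subtype (E L T)).quotientToInvariants U') 1) = 1 :=
    Nat.card_unique
  rw [hc1, one_mul] at h
  by_contra hne
  have hempty : EH.nonsplitPrimes V U' (Tprod T) = ∅ := Set.not_nonempty_iff_eq_empty.1 hne
  rw [hempty, Set.ncard_empty, pow_zero] at h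
  have hdvd : p ∣ 1 := ⟨_, h⟩
  exact hp.one_lt.ne' (Nat.dvd_one.1 hdvd)

/-- **(CL-NS), count form**: the exponent `a` of the layer (`|H²(V/U', J^{U'})| = p ^ a`) is
positive. -/
theorem one_le_quotNonsplitCount {p : ℕ} (hg : GoodT L T p) (hp : p.Prime) (hp2 : p ≠ 2) (ζ : L)
    (hζ : IsPrimitiveRoot ζ p) (V : Subgroup (L ≃ₐ[ℚ] L)) (hV : IsPGroup p V) (U' : Subgroup V)
    [U'.Normal] [∀ q : Nat.Primes, Fintype (PlacesAbove L V q)] (hidx : U'.index = p) :
    1 ≤ quotNonsplitCount L T V U' := by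
  rw [← ncard_nonsplitPrimes_eq_quotNonsplitCount L T V U' hp hidx]
  have hne := nonsplitPrimes_nonempty L T hg hp hp2 ζ hζ V hV U' hidx
  have hfin : (EH.nonsplitPrimes V U' (Tprod T)).Finite := by
    by_contra hinf
    obtain ⟨_, _, h⟩ := EH.card_H1_E_pair_of_zeta L T hp hp2 V hV U' hidx ζ hζ
    have hz := isZero_H1_quot_E_of_goodT L T hg V U'
    have hsub : Subsingleton
        (groupCohomology ((Rep.res V.subtype (E L T)).quotientToInvariants U') 1) :=
      ModuleCat.subsingleton_of_isZero hz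
    have hc1 : Nat.card
        (groupCohomology ((Rep.res V.subtype (E L T)).quotientToInvariants U') 1) = 1 :=
      Nat.card_unique
    rw [hc1, one_mul, Set.Infinite.ncard hinf, pow_zero] at h
    have hdvd : p ∣ 1 := ⟨_, h⟩
    exact hp.one_lt.ne' (Nat.dvd_one.1 hdvd)
  exact (Set.ncard_pos hfin).2 hne

/-- **(CL-NS), group form**: there are `q ∈ T` and a double coset `c` (a place of `K = L^V` above
`q`) whose decomposition group surjects onto `V ⧸ U'`: `D_{q,c} ⊔ U' = ⊤`. -/
theorem exists_conjSub_sup_eq_top {p : ℕ} (hg : GoodT L T p) (hp : p.Prime) (hp2 : p ≠ 2) (ζ : L)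
    (hζ : IsPrimitiveRoot ζ p) (V : Subgroup (L ≃ₐ[ℚ] L)) (hV : IsPGroup p V) (U' : Subgroup V)
    [U'.Normal] (hidx : U'.index = p) :
    ∃ q : T, ∃ c : DC (decHom ((q : Nat.Primes) : ℕ) L) V,
      conjSub (decHom ((q : Nat.Primes) : ℕ) L) V (rep c) ⊔ U' = ⊤ := by
  classical
  let _ : ∀ q : Nat.Primes, Fintype (PlacesAbove L V q) := fun q => Fintype.ofFinite _
  have h1 := one_le_quotNonsplitCount L T hg hp hp2 ζ hζ V hV U' hidx
  rw [quotNonsplitCount_eq_ncard L T V U' hp hidx] at h1
  by_contra hno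
  have hzero : ∀ q : T, {c : DC (decHom ((q : Nat.Primes) : ℕ) L) V |
      conjSub (decHom ((q : Nat.Primes) : ℕ) L) V (rep c) ⊔ U' = ⊤}.ncard = 0 := by
    intro q
    have : {c : DC (decHom ((q : Nat.Primes) : ℕ) L) V |
        conjSub (decHom ((q : Nat.Primes) : ℕ) L) V (rep c) ⊔ U' = ⊤} = ∅ := by
      ext c
      simp only [Set.mem_ofPred_eq, Set.mem_empty_iff_false, iff_false]
      exact fun hc => hno ⟨q, c, hc⟩
    rw [this, Set.ncard_empty]
  rw [Finset.sum_eq_zero fun q _ => hzero q] at h1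
  exact Nat.not_succ_le_zero 0 h1

end Fermat.Agent.GC.Global.Adapter
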