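/-
GATE-C / C4 GLOBAL-COH (helper14): the LAYER theorem for subgroups fixing `ζ_p`
(NOT necessarily `p`-groups).

`IsPGroup p V` was used in `LayerHJE.layerHypP_C` only to get `ζ_p ∈ L^V`.  For `K ∋ ζ_p` every
`V ≤ Gal(L/K)` fixes `ζ_p`, so every index-`p` layer `U' ⊲ V` is good:
`H¹(V/U', C(L,T)^{U'}) = 0`, `|H²(V/U', C(L,T)^{U'})| ∣ p`.  This removes all Sylow / corestriction
steps from the finite-level part of [B'].
-/
import Mathlib
import Fermat.Agent.GC.Global.Adapter.LayerHJE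
import Fermat.Agent.GC.Global.Adapter.LayerNonsplit

set_option autoImplicit false
set_option linter.unusedSectionVars false

open CategoryTheory NumberField IsDedekindDomain

noncomputable section

namespace Fermat.Agent.GC.Global.Adapter

open Fermat.Agent.GC.Global.Mackey Fermat.Agent.GC.Global.Layer2

variable (L : IntermediateField ℚ Qb) [FiniteDimensional ℚ L] [IsGalois ℚ L]
  (T : Finset Nat.Primes)

/-- The `hJE` package for a layer `U' ⊲ V` of index `p` with `ζ_p ∈ L^V` (`V` arbitrary). -/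
theorem layer_hJE_of_zeta {p : ℕ} (hp : p.Prime) (hp2 : p ≠ 2) (ζ : L) (hζ : IsPrimitiveRoot ζ p)
    (V : Subgroup (L ≃ₐ[ℚ] L)) (hVζ : ∀ h ∈ V, h ζ = ζ) (U' : Subgroup V) [U'.Normal]
    (hidx : U'.index = p) :
    ∃ a : ℕ,
      Limits.IsZero (groupCohomology ((Rep.res V.subtype (J L T)).quotientToInvariants U') 1) ∧
      Nat.card (groupCohomology ((Rep.res V.subtype (J L T)).quotientToInvariants U') 2) = p ^ a ∧
      Nat.card (groupCohomology ((Rep.res V.subtype (E L T)).quotientToInvariants U') 1) * p ^ a =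
        p * Nat.card (groupCohomology ((Rep.res V.subtype (E L T)).quotientToInvariants U') 2) ∧
      Nat.card (groupCohomology ((Rep.res V.subtype (E L T)).quotientToInvariants U') 1) ≠ 0 ∧
      Nat.card (groupCohomology ((Rep.res V.subtype (E L T)).quotientToInvariants U') 2) ≠ 0 := by
  classical
  let _ : ∀ q : Nat.Primes, Fintype (PlacesAbove L V q) := fun q => Fintype.ofFinite _
  obtain ⟨hJ1, hJ2⟩ := quotJ_layer L T V U' hp hidx
  have hmem : ζ ∈ IntermediateField.fixedField V := fun h => hVζ h.1 h.2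
  have hζ' : IsPrimitiveRoot (⟨ζ, hmem⟩ : IntermediateField.fixedField V) p :=
    IsPrimitiveRoot.coe_submonoidClass_iff.mp hζ
  have h2 : 2 < p := lt_of_le_of_ne hp.two_le (Ne.symm hp2)
  have hK : IsTotallyComplex (IntermediateField.fixedField V) :=
    EH.isTotallyComplex_of_isPrimitiveRoot h2 hζ'
  obtain ⟨hE1, hE2, hE⟩ := EH.card_H1_E_pair L T hp V U' hidx hK
  refine ⟨quotNonsplitCount L T V U', hJ1, hJ2, ?_, hE1, hE2⟩
  rw [← ncard_nonsplitPrimes_eq_quotNonsplitCount L T V U' hp hidx]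
  exact hE

/-- **LAYER for subgroups fixing `ζ_p`**: `V ≤ Gal(L/ℚ)` arbitrary with `ζ_p ∈ L^V`, `U' ⊲ V` of
index `p`, `T` good: `H¹(V/U', C^{U'}) = 0`, `H²(V/U', C^{U'})` finite of order dividing `p`. -/
theorem layer_good_of_zeta {p : ℕ} (hg : GoodT L T p) (hp : p.Prime) (hp2 : p ≠ 2) (ζ : L)
    (hζ : IsPrimitiveRoot ζ p) (V : Subgroup (L ≃ₐ[ℚ] L)) (hVζ : ∀ h ∈ V, h ζ = ζ)
    (U' : Subgroup V) [U'.Normal] (hidx : U'.index = p) :
    Limits.IsZero (groupCohomology (layerRep V U' (C L T)) 1) ∧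
      Finite (groupCohomology (layerRep V U' (C L T)) 2) ∧
      Nat.card (groupCohomology (layerRep V U' (C L T)) 2) ∣ p := by
  obtain ⟨a, hJ1, hJ2, hE, hE1ne, hE2ne⟩ := layer_hJE_of_zeta L T hp hp2 ζ hζ V hVζ U' hidx
  obtain ⟨f1, f2, hq⟩ := Layer1.layer_first_inequality_C L T hg.nonempty V U' hp hidx
    (H1U.isZero_H1_res_res_E_of_goodT L T hg V U') hJ1 hJ2 hE hE1ne hE2ne
  obtain ⟨_, hd⟩ := layer2_of_goodT L T V U' hg hp hidx
  refine ⟨?_, f2, hd⟩
  have hd' := hd
  have hq' : Nat.card (groupCohomology (layerRep V U' (C L T)) 2) =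
      p * Nat.card (groupCohomology (layerRep V U' (C L T)) 1) := hq
  rw [hq'] at hd'
  have hpos : 0 < Nat.card (groupCohomology (layerRep V U' (C L T)) 1) := by
    have : Finite (groupCohomology (layerRep V U' (C L T)) 1) := f1
    exact Nat.card_pos
  have hle : p * Nat.card (groupCohomology (layerRep V U' (C L T)) 1) ≤ p :=
    Nat.le_of_dvd hp.pos hd'
  have h1 : Nat.card (groupCohomology (layerRep V U' (C L T)) 1) = 1 := by
    have hp0 := hp.pos
    nlinarith
  have hsub : Subsingleton (groupCohomology (layerRep V U' (C L T)) 1) :=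
    (Nat.card_eq_one_iff_unique.mp h1).1
  exact ModuleCat.isZero_of_subsingleton _

/-- every index-`p` layer with `ζ_p ∈ L^V` has a non-split place above `T` (no `p`-group
hypothesis). -/
theorem one_le_quotNonsplitCount_of_zeta {p : ℕ} (hg : GoodT L T p) (hp : p.Prime) (hp2 : p ≠ 2)
    (ζ : L) (hζ : IsPrimitiveRoot ζ p) (V : Subgroup (L ≃ₐ[ℚ] L)) (hVζ : ∀ h ∈ V, h ζ = ζ)
    (U' : Subgroup V) [U'.Normal] [∀ q : Nat.Primes, Fintype (PlacesAbove L V q)]
    (hidx : U'.index = p) : 1 ≤ quotNonsplitCount L T V U' := by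
  classical
  obtain ⟨hJ1, hJ2⟩ := quotJ_layer L T V U' hp hidx
  have hmem : ζ ∈ IntermediateField.fixedField V := fun h => hVζ h.1 h.2
  have hζ' : IsPrimitiveRoot (⟨ζ, hmem⟩ : IntermediateField.fixedField V) p :=
    IsPrimitiveRoot.coe_submonoidClass_iff.mp hζ
  have h2 : 2 < p := lt_of_le_of_ne hp.two_le (Ne.symm hp2)
  have hK : IsTotallyComplex (IntermediateField.fixedField V) :=
    EH.isTotallyComplex_of_isPrimitiveRoot h2 hζ'
  obtain ⟨_, _, hE⟩ := EH.card_H1_E_pair L T hp V U' hidx hK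
  rw [ncard_nonsplitPrimes_eq_quotNonsplitCount L T V U' hp hidx] at hE
  have hz := isZero_H1_quot_E_of_goodT L T hg V U'
  have hsub : Subsingleton
      (groupCohomology ((Rep.res V.subtype (E L T)).quotientToInvariants U') 1) :=
    ModuleCat.subsingleton_of_isZero hz
  have hc1 : Nat.card
      (groupCohomology ((Rep.res V.subtype (E L T)).quotientToInvariants U') 1) = 1 :=
    Nat.card_unique
  rw [hc1, one_mul] at hE
  by_contra hlt
  have h0 : quotNonsplitCount L T V U' = 0 := by omega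
  rw [h0, pow_zero] at hE
  have hdvd : p ∣ 1 := ⟨_, hE⟩
  exact hp.one_lt.ne' (Nat.dvd_one.1 hdvd)

end Fermat.Agent.GC.Global.Adapter
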