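/-
GATE-C / C4 (CL-GOODQ) for ALL subgroups fixing `ζ_p` (helper97), per helper14's RULING 5:
helper14's `layer_good_of_zeta` + `GC/Global/GoodQuotOn.lean`.  For a good set `T`, `ζ_p ∈ L`,
`p` odd, `V ≤ Gal(L/ℚ)` ANY subgroup fixing `ζ_p` (not nec. a `p`-group), `U' ◁ V` with
`[V : U'] = p ^ n`:
* `good_quotient_layer_zeta` : `H¹(V/U', C^{U'}) = 0`, `|H²(V/U', C^{U'})| ∣ [V:U']`;
* for `V/U'` cyclic: `[C^V : N_{V/U'} C^{U'}] ∣ [V : U']` in helper55's `RelNorm` language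
  (`norm_relIndex_dvd_zeta`, `card_quotient_norm_dvd_zeta`), the counting criterion
  `exists_relNormSub_eq_of_surjective_zeta` ("a surjection of `C^V` onto a group of order
  `≥ [V:U']` killing norms has kernel exactly the norms") and the resulting equality of orders.
-/
import Mathlib
import Fermat.Agent.GC.Global.Adapter.LayerZeta
import Fermat.Agent.GC.Global.GoodQuotOn

set_option autoImplicit false
set_option linter.unusedSectionVars false

open CategoryTheory NumberField IsDedekindDomain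

noncomputable section

namespace Fermat.Agent.GC.Global.Adapter.GoodQuotZeta

open Fermat.Agent.GC.Global.Adapter Fermat.Agent.GC.Global.DevissageP
open Fermat.Agent.GC.Global.Devissage Fermat.Agent.GC.Global.GoodQuot
open Fermat.Agent.GC.Global.GoodQuotOn Fermat.Agent.GC.Global.WRec

variable (L : IntermediateField ℚ Qb) [FiniteDimensional ℚ L] [IsGalois ℚ L]
  (T : Finset Nat.Primes)

/-- The family of subgroups of `Gal(L/ℚ)` fixing `ζ`. -/
def FixesZeta (ζ : L) (V : Subgroup (L ≃ₐ[ℚ] L)) : Prop := ∀ h ∈ V, h ζ = ζ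

theorem FixesZeta.mono {ζ : L} {V W : Subgroup (L ≃ₐ[ℚ] L)} (hle : W ≤ V)
    (hV : FixesZeta L ζ V) : FixesZeta L ζ W := fun h hh => hV h (hle hh)

/-- helper14's `layer_good_of_zeta` as a `LayerHypOn`. -/
theorem layerHypOn_zeta {p : ℕ} (hg : GoodT L T p) (hp : p.Prime) (hp2 : p ≠ 2) (ζ : L)
    (hζ : IsPrimitiveRoot ζ p) : LayerHypOn (FixesZeta L ζ) p (C L T) :=
  fun V hV U' _ hidx => layer_good_of_zeta L T hg hp hp2 ζ hζ V hV U' hidx

/-- **(CL-GOODQ)**: `V` fixes `ζ_p`, `U' ◁ V` of index `p ^ n`: `(V ⧸ U', C(L,T)^{U'})` is good. -/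
theorem good_quotient_layer_zeta {p : ℕ} (hg : GoodT L T p) (hp : p.Prime) (hp2 : p ≠ 2) (ζ : L)
    (hζ : IsPrimitiveRoot ζ p) (V : Subgroup (L ≃ₐ[ℚ] L)) (hVζ : ∀ h ∈ V, h ζ = ζ)
    (U' : Subgroup V) [U'.Normal] (n : ℕ) (hidx : U'.index = p ^ n) :
    Good ((Rep.res V.subtype (C L T)).quotientToInvariants U') :=
  haveI : Fact p.Prime := ⟨hp⟩
  good_quotient_layer_on (fun hle hV => FixesZeta.mono L hle hV)
    (layerHypOn_zeta L T hg hp hp2 ζ hζ) V hVζ U' n hidx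

variable {V U' : Subgroup (L ≃ₐ[ℚ] L)} [(U'.subgroupOf V).Normal]

/-- The same for two subgroups `U' ≤ V` of `Gal(L/ℚ)` (helper55's `relNormSub ρ V U'` shape). -/
theorem good_layerQ_zeta {p : ℕ} (hg : GoodT L T p) (hp : p.Prime) (hp2 : p ≠ 2) (ζ : L)
    (hζ : IsPrimitiveRoot ζ p) (hVζ : ∀ h ∈ V, h ζ = ζ) (n : ℕ)
    (hidx : U'.relIndex V = p ^ n) : Good (layerQ (C L T) V U') :=
  good_quotient_layer_zeta L T hg hp hp2 ζ hζ V hVζ (U'.subgroupOf V) n hidx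

theorem norm_relIndex_dvd_zeta {p : ℕ} (hg : GoodT L T p) (hp : p.Prime) (hp2 : p ≠ 2) (ζ : L)
    (hζ : IsPrimitiveRoot ζ p) (hVζ : ∀ h ∈ V, h ζ = ζ) (n : ℕ)
    (hidx : U'.relIndex V = p ^ n) (hle : U' ≤ V) [IsCyclic (V ⧸ U'.subgroupOf V)] :
    (normSubmodule (C L T).ρ V U').toAddSubgroup.relIndex
      (invSubmodule (C L T).ρ V).toAddSubgroup ∣ U'.relIndex V :=
  norm_relIndex_dvd_of_good (good_layerQ_zeta L T hg hp hp2 ζ hζ hVζ n hidx) hle

theorem card_quotient_norm_dvd_zeta {p : ℕ} (hg : GoodT L T p) (hp : p.Prime) (hp2 : p ≠ 2)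
    (ζ : L) (hζ : IsPrimitiveRoot ζ p) (hVζ : ∀ h ∈ V, h ζ = ζ) (n : ℕ)
    (hidx : U'.relIndex V = p ^ n) (hle : U' ≤ V) [IsCyclic (V ⧸ U'.subgroupOf V)] :
    Nat.card (↥(invSubmodule (C L T).ρ V) ⧸
      (normSubmodule (C L T).ρ V U').submoduleOf (invSubmodule (C L T).ρ V)) ∣ U'.relIndex V :=
  card_quotient_norm_dvd_of_good (good_layerQ_zeta L T hg hp hp2 ζ hζ hVζ n hidx) hle

theorem exists_relNormSub_eq_of_surjective_zeta {p : ℕ} (hg : GoodT L T p) (hp : p.Prime)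
    (hp2 : p ≠ 2) (ζ : L) (hζ : IsPrimitiveRoot ζ p) (hVζ : ∀ h ∈ V, h ζ = ζ) (n : ℕ)
    (hidx : U'.relIndex V = p ^ n) (hle : U' ≤ V) [IsCyclic (V ⧸ U'.subgroupOf V)]
    {X : Type*} [AddCommGroup X] [Finite X] (θ : ↥(invSubmodule (C L T).ρ V) →+ X)
    (hθ : Function.Surjective θ) (hX : U'.relIndex V ≤ Nat.card X)
    (hkill : ∀ (y : ↥(invSubmodule (C L T).ρ V)) (z : (C L T).V), IsInv (C L T).ρ U' z →
      relNormSub (C L T).ρ V U' z = (y : (C L T).V) → θ y = 0)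
    (y : ↥(invSubmodule (C L T).ρ V)) (hy : θ y = 0) :
    ∃ z, IsInv (C L T).ρ U' z ∧ relNormSub (C L T).ρ V U' z = (y : (C L T).V) :=
  exists_relNormSub_eq_of_surjective_of_good (good_layerQ_zeta L T hg hp hp2 ζ hζ hVζ n hidx)
    hle θ hθ hX hkill y hy

theorem norm_relIndex_eq_of_surjective_zeta {p : ℕ} (hg : GoodT L T p) (hp : p.Prime)
    (hp2 : p ≠ 2) (ζ : L) (hζ : IsPrimitiveRoot ζ p) (hVζ : ∀ h ∈ V, h ζ = ζ) (n : ℕ)
    (hidx : U'.relIndex V = p ^ n) (hle : U' ≤ V) [IsCyclic (V ⧸ U'.subgroupOf V)]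
    {X : Type*} [AddCommGroup X] [Finite X] (θ : ↥(invSubmodule (C L T).ρ V) →+ X)
    (hθ : Function.Surjective θ) (hX : U'.relIndex V ≤ Nat.card X)
    (hkill : ∀ (y : ↥(invSubmodule (C L T).ρ V)) (z : (C L T).V), IsInv (C L T).ρ U' z →
      relNormSub (C L T).ρ V U' z = (y : (C L T).V) → θ y = 0) :
    (normSubmodule (C L T).ρ V U').toAddSubgroup.relIndex
        (invSubmodule (C L T).ρ V).toAddSubgroup = U'.relIndex V ∧
      Nat.card X = U'.relIndex V :=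
  norm_relIndex_eq_of_surjective_of_good (good_layerQ_zeta L T hg hp hp2 ζ hζ hVζ n hidx)
    hle θ hθ hX hkill

end Fermat.Agent.GC.Global.Adapter.GoodQuotZeta
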