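/-
GATE-C / C4 (helper97): the hypotheses (h1), (h2), (h3) of helper74's
`CycAbs.cyc_abs_of_noTorsion` at `A = Res_V C(L',T)`, `V ≤ Gal(L'/ℚ)` ANY subgroup fixing `ζ_p`,
UNCONDITIONALLY for `T` good and `p` odd — no identification `C(L',T)^N ≅ C(L,T)` needed:

* `h1_zeta` : `N ≤ V` a `p`-subgroup ⟹ `H¹(N, C(L',T)) = 0`;
* `h2_zeta` : `M ≤ V` any subgroup ⟹ `H¹(M, C(L',T))` has no `p`-torsion;
* `h3_zeta` : `N ◁ V` ANY normal subgroup ⟹ `H¹(V/N, C(L',T)^N)` has no `p`-torsion,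
  `H²(V/N, C(L',T)^N)(p)` is finite of order dividing `p ^ v_p([V : N])`.
-/
import Mathlib
import Fermat.Agent.GC.Global.Adapter.GoodQuotZeta
import Fermat.Agent.GC.Global.GoodQuotPrimary

set_option autoImplicit false
set_option linter.unusedSectionVars false

open CategoryTheory NumberField IsDedekindDomain

noncomputable section

namespace Fermat.Agent.GC.Global.Adapter.CycAbsInputs

open Fermat.Agent.GC.Global.Adapter Fermat.Agent.GC.Global.Devissage
open Fermat.Agent.GC.Global.GoodQuotOn Fermat.Agent.GC.Global.GoodQuotPrimary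
open Fermat.Agent.GC.Global.Adapter.GoodQuotZeta

variable (L : IntermediateField ℚ Qb) [FiniteDimensional ℚ L] [IsGalois ℚ L]
  (T : Finset Nat.Primes)

/-- (h1) of `cyc_abs_of_noTorsion`: `H¹(N, C(L,T)) = 0` for a `p`-subgroup `N` of `V`. -/
theorem h1_zeta {p : ℕ} (hg : GoodT L T p) (hp : p.Prime) (hp2 : p ≠ 2) (ζ : L)
    (hζ : IsPrimitiveRoot ζ p) (V : Subgroup (L ≃ₐ[ℚ] L)) (hVζ : ∀ h ∈ V, h ζ = ζ)
    (N : Subgroup V) (hN : IsPGroup p N) :
    Limits.IsZero (groupCohomology (Rep.res N.subtype (Rep.res V.subtype (C L T))) 1) :=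
  haveI : Fact p.Prime := ⟨hp⟩
  isZero_H1_res_res_on (fun hle hV => FixesZeta.mono L hle hV)
    (layerHypOn_zeta L T hg hp hp2 ζ hζ) V hVζ N hN

/-- (h2) of `cyc_abs_of_noTorsion`: `H¹(M, C(L,T))` has no `p`-torsion, `M ≤ V` arbitrary. -/
theorem h2_zeta {p : ℕ} (hg : GoodT L T p) (hp : p.Prime) (hp2 : p ≠ 2) (ζ : L)
    (hζ : IsPrimitiveRoot ζ p) (V : Subgroup (L ≃ₐ[ℚ] L)) (hVζ : ∀ h ∈ V, h ζ = ζ)
    (M : Subgroup V)
    (c : groupCohomology (Rep.res M.subtype (Rep.res V.subtype (C L T))) 1) (m : ℕ)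
    (hc : p ^ m • c = 0) : c = 0 :=
  haveI : Fact p.Prime := ⟨hp⟩
  noPTorsion_H1_res_res_on (fun hle hV => FixesZeta.mono L hle hV)
    (layerHypOn_zeta L T hg hp hp2 ζ hζ) V hVζ M c m hc

/-- (h3) of `cyc_abs_of_noTorsion` (and more): for ANY normal `N ◁ V`, `H¹(V/N, C^N)` has no
`p`-torsion and `H²(V/N, C^N)(p)` is finite of order dividing `p ^ v_p([V : N])`. -/
theorem h3_zeta {p : ℕ} (hg : GoodT L T p) (hp : p.Prime) (hp2 : p ≠ 2) (ζ : L)
    (hζ : IsPrimitiveRoot ζ p) (V : Subgroup (L ≃ₐ[ℚ] L)) (hVζ : ∀ h ∈ V, h ζ = ζ)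
    (N : Subgroup V) [N.Normal] :
    (∀ (x : groupCohomology ((Rep.res V.subtype (C L T)).quotientToInvariants N) 1) (m : ℕ),
        p ^ m • x = 0 → x = 0) ∧
      Finite (primaryPart p
        (groupCohomology ((Rep.res V.subtype (C L T)).quotientToInvariants N) 2)) ∧
      Nat.card (primaryPart p
          (groupCohomology ((Rep.res V.subtype (C L T)).quotientToInvariants N) 2)) ∣
        p ^ (Nat.card (V ⧸ N)).factorization p :=
  haveI : Fact p.Prime := ⟨hp⟩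
  devissage_quot_on (fun hle hV => FixesZeta.mono L hle hV)
    (layerHypOn_zeta L T hg hp hp2 ζ hζ) V hVζ N

/-- Devissage for subgroups fixing `ζ_p` (same as `devissage_C`, via `LayerZeta`). -/
theorem devissage_zeta {p : ℕ} (hg : GoodT L T p) (hp : p.Prime) (hp2 : p ≠ 2) (ζ : L)
    (hζ : IsPrimitiveRoot ζ p) (V : Subgroup (L ≃ₐ[ℚ] L)) (hVζ : ∀ h ∈ V, h ζ = ζ) :
    (∀ (x : groupCohomology (Rep.res V.subtype (C L T)) 1) (m : ℕ), p ^ m • x = 0 → x = 0) ∧
      Finite (primaryPart p (groupCohomology (Rep.res V.subtype (C L T)) 2)) ∧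
      Nat.card (primaryPart p (groupCohomology (Rep.res V.subtype (C L T)) 2)) ∣
        p ^ (Nat.card V).factorization p :=
  haveI : Fact p.Prime := ⟨hp⟩
  devissage_sub_on (fun hle hV => FixesZeta.mono L hle hV)
    (layerHypOn_zeta L T hg hp hp2 ζ hζ) V hVζ

end Fermat.Agent.GC.Global.Adapter.CycAbsInputs
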