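/-
GATE-C / C4 (A6), helper97: the `p`-primary class-formation statements at a STAGE of the tower,
for the module `C_S(L,T) = C(L,T) / U_{T∖S}` (helper52, `UnramUnits.lean`).

`L` finite Galois over `ℚ` with `ζ_p ∈ L`, `p` odd, `T` good for `L`, `L` unramified outside `S`,
`S ∩ T ≠ ∅`.  For every subgroup `H ≤ Gal(L/ℚ)`:
* `noPTorsion_H1_CS` : `H¹(H, C_S(L,T))` has no `p`-torsion;
* `cocycle_form_CS` : the same in the cocycle form `hH1` of helper7's `AAbs.exists_split_cobdry`;
* `primaryPart_H2_CS` : the `p`-primary part of `H²(H, C_S(L,T))` is finite of order dividing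
  `p ^ v_p |H|`.
From helper14's `layerHypP_C` / `devissage_C` (LAYER) and helper52's
`res_CtoCS_bijective_of_isUnramifiedOutside` (LM-U).  General versions with the hypothesis
`hL : LayerHypP p (C L T)` are `*_of_layerHyp`.
-/
import Mathlib
import Fermat.Agent.GC.Global.Adapter.LayerHJE
import Fermat.Agent.GC.Global.Adapter.UnramLocal
import Fermat.Agent.GC.Global.Limit.AAbs

set_option autoImplicit false

open CategoryTheory groupCohomology

noncomputable section

namespace Fermat.Agent.GC.Global.Adapter.LayerCS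

open Fermat.Agent.GC.Global Fermat.Agent.GC.Global.LMU Fermat.Agent.GC.Global.Adapter
open Fermat.Agent.GC.Global.DevissageP Fermat.Agent.GC.Global.Devissage

/-- An additive bijection transports "no `p`-torsion". -/
theorem noPTorsion_of_bijective {A B : Type*} [AddCommGroup A] [AddCommGroup B] (φ : A →+ B)
    (hφ : Function.Bijective φ) (p : ℕ)
    (hA : ∀ (x : A) (m : ℕ), p ^ m • x = 0 → x = 0) (y : B) (m : ℕ) (hy : p ^ m • y = 0) :
    y = 0 := by
  obtain ⟨x, rfl⟩ := hφ.2 y
  rw [← map_nsmul] at hy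
  have : p ^ m • x = 0 := hφ.1 (by rw [hy, map_zero])
  rw [hA x m this, map_zero]

/-- An additive bijection transports finiteness and cardinality of the `p`-primary part. -/
theorem primaryPart_of_bijective {A B : Type*} [AddCommGroup A] [AddCommGroup B] (φ : A →+ B)
    (hφ : Function.Bijective φ) (p N : ℕ)
    (hA : Finite (primaryPart p A) ∧ Nat.card (primaryPart p A) ∣ N) :
    Finite (primaryPart p B) ∧ Nat.card (primaryPart p B) ∣ N := by
  obtain ⟨hfin, hcard⟩ := hA
  let ψ : primaryPart p A → primaryPart p B := fun x => ⟨φ x.1, by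
    obtain ⟨m, hm⟩ := x.2
    exact ⟨m, by rw [← map_nsmul, hm, map_zero]⟩⟩
  have hψ : Function.Bijective ψ := by
    constructor
    · intro x y hxy
      exact Subtype.ext (hφ.1 (congrArg Subtype.val hxy))
    · rintro ⟨y, m, hm⟩
      obtain ⟨x, rfl⟩ := hφ.2 y
      refine ⟨⟨x, m, hφ.1 ?_⟩, rfl⟩
      rw [map_nsmul, hm, map_zero]
  have e : primaryPart p A ≃ primaryPart p B := Equiv.ofBijective ψ hψ
  exact ⟨Finite.of_equiv _ e, by rw [← Nat.card_congr e]; exact hcard⟩

variable (L : IntermediateField ℚ Qb) [FiniteDimensional ℚ L] [IsGalois ℚ L]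
  (S T : Finset Nat.Primes)

/-- The comparison map `Hⁿ⁺¹(H, C(L,T)) → Hⁿ⁺¹(H, C_S(L,T))` as an additive map. -/
def compMap (H : Subgroup (L ≃ₐ[ℚ] L)) (n : ℕ) :
    groupCohomology (Rep.res H.subtype (C L T)) (n + 1) →+
      groupCohomology (Rep.res H.subtype (CS L S T)) (n + 1) :=
  (groupCohomology.map (A := Rep.res H.subtype (C L T))
      (B := Rep.res H.subtype (CS L S T)) (MonoidHom.id H)
      ((Rep.resFunctor (k := ℤ) H.subtype).map (CtoCS L S T)) (n + 1)).hom.toAddMonoidHom

theorem compMap_bijective (hS : L.IsUnramifiedOutside S) (hST : ∃ q ∈ T, q ∈ S)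
    (H : Subgroup (L ≃ₐ[ℚ] L)) (n : ℕ) : Function.Bijective (compMap L S T H n) :=
  res_CtoCS_bijective_of_isUnramifiedOutside L T hS hST H n

section OfLayerHyp

variable {p : ℕ} [Fact p.Prime] (hL : LayerHypP p (C L T))
  (hS : L.IsUnramifiedOutside S) (hST : ∃ q ∈ T, q ∈ S) (H : Subgroup (L ≃ₐ[ℚ] L))

include hL hS hST

/-- `H¹(H, C_S(L,T))` has no `p`-torsion, from the LAYER hypothesis for `C(L,T)`. -/
theorem noPTorsion_H1_CS_of_layerHyp
    (x : groupCohomology (Rep.res H.subtype (CS L S T)) 1) (m : ℕ) (hx : p ^ m • x = 0) :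
    x = 0 :=
  noPTorsion_of_bijective (compMap L S T H 0) (compMap_bijective L S T hS hST H 0) p
    (devissage_sub_P p (C L T) hL H).1 x m hx

/-- Cocycle form (`hH1` of helper7's `AAbs.exists_split_cobdry`). -/
theorem cocycle_form_CS_of_layerHyp
    (f : H → Rep.res H.subtype (CS L S T)) (hf : f ∈ cocycles₁ (Rep.res H.subtype (CS L S T)))
    (m : ℕ) (c : Rep.res H.subtype (CS L S T))
    (hc : ∀ h, p ^ m • f h = (Rep.res H.subtype (CS L S T)).ρ h c - c) :
    ∃ b : Rep.res H.subtype (CS L S T), ∀ h, f h = (Rep.res H.subtype (CS L S T)).ρ h b - b :=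
  Fermat.Agent.GC.Global.LimA.torsionFree_cocycle_form (Rep.res H.subtype (CS L S T)) p
    (noPTorsion_H1_CS_of_layerHyp L S T hL hS hST H) f hf m c hc

/-- The `p`-primary part of `H²(H, C_S(L,T))` is finite of order dividing `p ^ v_p |H|`. -/
theorem primaryPart_H2_CS_of_layerHyp :
    Finite (primaryPart p (groupCohomology (Rep.res H.subtype (CS L S T)) 2)) ∧
      Nat.card (primaryPart p (groupCohomology (Rep.res H.subtype (CS L S T)) 2)) ∣
        p ^ (Nat.card H).factorization p :=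
  primaryPart_of_bijective (compMap L S T H 1) (compMap_bijective L S T hS hST H 1) p _
    (devissage_sub_P p (C L T) hL H).2

end OfLayerHyp

section Final

variable {p : ℕ} (hg : GoodT L T p) (hp : p.Prime) (hp2 : p ≠ 2) (ζ : L)
  (hζ : IsPrimitiveRoot ζ p) (hS : L.IsUnramifiedOutside S) (hST : ∃ q ∈ T, q ∈ S)
  (H : Subgroup (L ≃ₐ[ℚ] L))

include hg hp hp2 hζ hS hST

/-- **(A6)** `H¹(H, C_S(L,T))` has no `p`-torsion (`T` good, `ζ_p ∈ L`, `p` odd, `L` unramified
outside `S`). -/
theorem noPTorsion_H1_CS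
    (x : groupCohomology (Rep.res H.subtype (CS L S T)) 1) (m : ℕ) (hx : p ^ m • x = 0) :
    x = 0 :=
  haveI : Fact p.Prime := ⟨hp⟩
  noPTorsion_H1_CS_of_layerHyp L S T (layerHypP_C L T hg hp hp2 ζ hζ) hS hST H x m hx

/-- **(A6)**, cocycle form. -/
theorem cocycle_form_CS
    (f : H → Rep.res H.subtype (CS L S T)) (hf : f ∈ cocycles₁ (Rep.res H.subtype (CS L S T)))
    (m : ℕ) (c : Rep.res H.subtype (CS L S T))
    (hc : ∀ h, p ^ m • f h = (Rep.res H.subtype (CS L S T)).ρ h c - c) :
    ∃ b : Rep.res H.subtype (CS L S T), ∀ h, f h = (Rep.res H.subtype (CS L S T)).ρ h b - b :=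
  haveI : Fact p.Prime := ⟨hp⟩
  cocycle_form_CS_of_layerHyp L S T (layerHypP_C L T hg hp hp2 ζ hζ) hS hST H f hf m c hc

/-- **(A6)**, the `H²` half. -/
theorem primaryPart_H2_CS :
    Finite (primaryPart p (groupCohomology (Rep.res H.subtype (CS L S T)) 2)) ∧
      Nat.card (primaryPart p (groupCohomology (Rep.res H.subtype (CS L S T)) 2)) ∣
        p ^ (Nat.card H).factorization p :=
  haveI : Fact p.Prime := ⟨hp⟩
  primaryPart_H2_CS_of_layerHyp L S T (layerHypP_C L T hg hp hp2 ζ hζ) hS hST H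

end Final

end Fermat.Agent.GC.Global.Adapter.LayerCS
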