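/-
GATE-C / C4 GLOBAL-COH, leaf (LY-2) abstract part (helper14).

`0 → E → J → C → 0` a short exact sequence of `G`-modules, `U' ⊲ V ≤ G` with `V/U'` of prime order
`p`.  If `J^V → C^V` is onto (e.g. `H¹(V, E) = 0`) and a subgroup `B ⊆ N_{V/U'}(J^{U'}) + ker(J → C)`
has index dividing `p` in `J^V`, then `H²(V/U', C^{U'})` is finite of order dividing `p`.
-/
import Mathlib
import Fermat.Agent.GC.Tate.CyclicCard
import Fermat.Agent.GC.Tate.InfRes2

set_option autoImplicit false
set_option linter.unusedSectionVars false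

open CategoryTheory

noncomputable section

namespace Fermat.Agent.GC.Global.Layer2

/-- index bookkeeping: for a surjection `φ : A → K'`, a subgroup `H' ≤ K'` and `B ≤ φ⁻¹ H'`, the
index of `H'` divides the index of `B`. -/
theorem index_dvd_of_surjective {A K' : Type*} [AddGroup A] [AddGroup K'] (φ : A →+ K')
    (hφ : Function.Surjective φ) (H' : AddSubgroup K') (B : AddSubgroup A)
    (hB : B ≤ H'.comap φ) : H'.index ∣ B.index := by
  rw [← AddSubgroup.index_comap_of_surjective H' hφ]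
  exact AddSubgroup.index_dvd_of_le hB

variable {k G : Type} [CommRing k] [Group G]

/-- lifting invariants along a surjection of `G`-modules whose kernel has vanishing `H¹`. -/
theorem exists_invariant_lift {E J C : Rep k G} (f : E ⟶ J) (g : J ⟶ C)
    (hf : Function.Injective f.hom) (hg : Function.Surjective g.hom)
    (hzero : ∀ e : E, g.hom (f.hom e) = 0)
    (hex : ∀ y : J, g.hom y = 0 → ∃ e : E, f.hom e = y)
    (V : Subgroup G) (hH1 : Fermat.Agent.GC.Tate.InfRes2.H1Vanishes E V) (c : C)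
    (hc : ∀ v ∈ V, C.ρ v c = c) :
    ∃ y : J, g.hom y = c ∧ ∀ v ∈ V, J.ρ v y = y := by
  classical
  obtain ⟨y₀, hy₀⟩ := hg c
  -- the cocycle
  have hker : ∀ v : G, v ∈ V → g.hom (J.ρ v y₀ - y₀) = 0 := by
    intro v hv
    rw [map_sub, Rep.hom_comm_apply, hy₀, hc v hv, sub_self]
  let ε : G → E := fun v => if hv : v ∈ V then (hex _ (hker v hv)).choose else 0
  have hε : ∀ v (hv : v ∈ V), f.hom (ε v) = J.ρ v y₀ - y₀ := by
    intro v hv
    simp only [ε, dif_pos hv]
    exact (hex _ (hker v hv)).choose_spec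
  have hcoc : ∀ s ∈ V, ∀ t ∈ V, ε (s * t) = E.ρ s (ε t) + ε s := by
    intro s hs t ht
    apply hf
    rw [map_add, Rep.hom_comm_apply, hε _ (V.mul_mem hs ht), hε _ ht, hε _ hs, map_sub, map_mul]
    simp only [Module.End.mul_apply]
    abel
  obtain ⟨a, ha⟩ := hH1 ε hcoc
  refine ⟨y₀ - f.hom a, ?_, ?_⟩
  · rw [map_sub, hy₀]
    rw [hzero a, sub_zero]
  · intro v hv
    have h1 := hε v hv
    rw [ha v hv, map_sub, Rep.hom_comm_apply] at h1
    rw [map_sub]
    have : J.ρ v y₀ = y₀ + (J.ρ v (f.hom a) - f.hom a) := by rw [h1]; abel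
    rw [this]; abel

/-- the `V`-invariants of a `G`-module, as an additive subgroup. -/
def invSub (J : Rep k G) (V : Subgroup G) : AddSubgroup J where
  carrier := {y | ∀ v ∈ V, J.ρ v y = y}
  add_mem' := fun {a b} ha hb v hv => by rw [map_add, ha v hv, hb v hv]
  zero_mem' := fun v _ => map_zero _
  neg_mem' := fun {a} ha v hv => by rw [map_neg, ha v hv]

theorem mem_invSub {J : Rep k G} {V : Subgroup G} {y : J} :
    y ∈ invSub J V ↔ ∀ v ∈ V, J.ρ v y = y := Iff.rfl

variable (J C : Rep k G) (π : J ⟶ C) (V : Subgroup G) (U' : Subgroup V) [U'.Normal]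

/-- The `V/U'`-module `C^{U'}`. -/
abbrev layerRep (C : Rep k G) : Rep k (V ⧸ U') := (Rep.res V.subtype C).quotientToInvariants U'

theorem layerRep_mk_apply (v : V) (m : layerRep V U' C) :
    (((layerRep V U' C).ρ (QuotientGroup.mk v) m : layerRep V U' C) : C) = C.ρ (v : G) m.1 := rfl

theorem layerRep_out_apply (x : V ⧸ U') (m : layerRep V U' C) :
    (((layerRep V U' C).ρ x m : layerRep V U' C) : C) = C.ρ ((x.out : V) : G) m.1 := by
  conv_lhs => rw [← QuotientGroup.out_eq' x]
  rfl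

/-- **(LY-2), abstract form.** -/
theorem card_H2_layer_dvd [Fintype (V ⧸ U')] {p : ℕ} (hp : p.Prime)
    (hcard : Nat.card (V ⧸ U') = p)
    (hlift : ∀ c : C, (∀ v ∈ V, C.ρ v c = c) → ∃ y : J, π.hom y = c ∧ ∀ v ∈ V, J.ρ v y = y)
    (B : AddSubgroup J)
    (hB : ∀ y ∈ B, ∃ y' : J, (∀ u : U', J.ρ ((u : V) : G) y' = y') ∧
        π.hom y = ∑ x : V ⧸ U', C.ρ ((x.out : V) : G) (π.hom y'))
    (hBidx : (B.addSubgroupOf (invSub J V)).index ∣ p) :
    Finite (groupCohomology (layerRep V U' C) 2) ∧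
      Nat.card (groupCohomology (layerRep V U' C) 2) ∣ p := by
  classical
  have : Fact p.Prime := ⟨hp⟩
  have : IsCyclic (V ⧸ U') := isCyclic_of_prime_card hcard
  obtain ⟨g, hg⟩ := IsCyclic.exists_generator (α := V ⧸ U')
  set M := layerRep V U' C with hM
  have hcardH2 := Fermat.Agent.GC.CycBridge.card_groupCohomology_even_of_group M g hg 2 (by decide)
  -- the ambient groups
  set K := (LinearMap.ker (M.ρ g - 1)).toAddSubgroup with hK
  set H := (LinearMap.range M.ρ.norm).toAddSubgroup with hH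
  have hfix : ∀ m : M, m ∈ K → ∀ x : V ⧸ U', M.ρ x m = m := by
    intro m hm x
    have h1 : M.ρ g m = m := by
      have : (M.ρ g - 1) m = 0 := hm
      rwa [LinearMap.sub_apply, Module.End.one_apply, sub_eq_zero] at this
    obtain ⟨n, rfl⟩ := Subgroup.mem_zpowers_iff.1 (hg x)
    have h2 : ∀ k : ℕ, M.ρ (g ^ k) m = m := by
      intro k
      induction k with
      | zero => simp
      | succ k ih => rw [pow_succ, map_mul, Module.End.mul_apply, h1, ih]
    rcases Int.eq_nat_or_neg n with ⟨k, rfl | rfl⟩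
    · rw [zpow_natCast]; exact h2 k
    · rw [zpow_neg, zpow_natCast]
      have h3 := h2 k
      calc M.ρ (g ^ k)⁻¹ m = M.ρ (g ^ k)⁻¹ (M.ρ (g ^ k) m) := by rw [h3]
        _ = m := by rw [← Module.End.mul_apply, ← map_mul, inv_mul_cancel, map_one]; rfl
  -- the map `J^V → K`
  have hmemM : ∀ y : J, y ∈ invSub J V →
      π.hom y ∈ Representation.invariants (MonoidHom.comp (Rep.res V.subtype C).ρ U'.subtype) := by
    intro y hy u
    change C.ρ ((u : V) : G) (π.hom y) = π.hom y
    rw [← Rep.hom_comm_apply, hy _ (u : V).2]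
  have hmemK : ∀ (y : J) (hy : y ∈ invSub J V), (⟨π.hom y, hmemM y hy⟩ : M) ∈ K := by
    intro y hy
    change (M.ρ g - 1) _ = 0
    rw [LinearMap.sub_apply, Module.End.one_apply, sub_eq_zero]
    apply Subtype.ext
    rw [layerRep_out_apply]
    change C.ρ _ (π.hom y) = π.hom y
    rw [← Rep.hom_comm_apply, hy _ (g.out : V).2]
  let φ : invSub J V →+ K :=
    { toFun := fun y => ⟨⟨π.hom y.1, hmemM y.1 y.2⟩, hmemK y.1 y.2⟩
      map_zero' := by apply Subtype.ext; apply Subtype.ext; exact map_zero _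
      map_add' := fun a b => by apply Subtype.ext; apply Subtype.ext; exact map_add _ _ _ }
  have hφ : Function.Surjective φ := by
    rintro ⟨m, hm⟩
    have hinv : ∀ v ∈ V, C.ρ v m.1 = m.1 := by
      intro v hv
      have := hfix m hm (QuotientGroup.mk (⟨v, hv⟩ : V))
      exact congrArg Subtype.val this
    obtain ⟨y, hy, hyV⟩ := hlift m.1 hinv
    refine ⟨⟨y, hyV⟩, ?_⟩
    apply Subtype.ext; apply Subtype.ext
    exact hy
  have hBle : B.addSubgroupOf (invSub J V) ≤ (H.addSubgroupOf K).comap φ := by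
    intro y hy
    obtain ⟨y', hy', hsum⟩ := hB y.1 hy
    change (φ y : M) ∈ H
    have hm' : π.hom y' ∈ Representation.invariants (MonoidHom.comp (Rep.res V.subtype C).ρ U'.subtype) := by
      intro u
      change C.ρ ((u : V) : G) (π.hom y') = π.hom y'
      rw [← Rep.hom_comm_apply, hy' u]
    refine ⟨⟨π.hom y', hm'⟩, ?_⟩
    apply Subtype.ext
    change ((M.ρ.norm ⟨π.hom y', hm'⟩ : M) : C) = π.hom y.1
    rw [hsum, Representation.norm, LinearMap.sum_apply]
    rw [show ((∑ x : V ⧸ U', M.ρ x ⟨π.hom y', hm'⟩ : M) : C) =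
      ∑ x : V ⧸ U', ((M.ρ x ⟨π.hom y', hm'⟩ : M) : C) from by
        exact map_sum (Representation.invariants
          (MonoidHom.comp (Rep.res V.subtype C).ρ U'.subtype)).subtype _ _]
    refine Finset.sum_congr rfl fun x _ => ?_
    rw [layerRep_out_apply]
  have hdvd : (H.addSubgroupOf K).index ∣ p :=
    (index_dvd_of_surjective φ hφ _ _ hBle).trans hBidx
  have hrel : H.relIndex K = (H.addSubgroupOf K).index := rfl
  rw [hcardH2, hrel]
  refine ⟨?_, hdvd⟩
  apply Nat.finite_of_card_ne_zero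
  rw [hcardH2, hrel]
  intro h0
  rw [h0, zero_dvd_iff] at hdvd
  exact hp.ne_zero hdvd

end Fermat.Agent.GC.Global.Layer2
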