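/-
GATE-C / C4-COH (LY-H1) H1UNITS, final forms against `GoodT` (helper79).

* `isZero_H1_res_of_h1Vanishes`, `isZero_H1_res_res_of_h1Vanishes` : generic converses of helper1's
  `h1Vanishes_of_isZero` (cocycle-level vanishing ⟹ `IsZero H¹`), also for a double restriction
  `res U'.subtype (res V.subtype A)` (the shape of `Layer1.layerHypP_C_of_inputs`);
* `h1Vanishes_E_of_goodT`, `isZero_H1_res_E_of_goodT`, `isZero_H1_res_res_E_of_goodT` : `H¹(U, E(L,T)) = 0`
  for every subgroup `U` of `G_L`, for good `T`.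
-/
import Mathlib
import Fermat.Agent.GC.Global.Adapter.H1Units
import Fermat.Agent.GC.Global.Adapter.GoodT

set_option autoImplicit false
set_option linter.unusedSectionVars false

open NumberField IsDedekindDomain nonZeroDivisors CategoryTheory

namespace Fermat.Agent.GC.Global.Adapter.H1U

open Fermat.Agent.GC.Global Fermat.Agent.GC.Tate

section generic

variable {k G : Type} [CommRing k] [Group G] (A : Rep k G)

/-- cocycle-level vanishing ⟹ `IsZero H¹` (converse of `InfRes2.h1Vanishes_of_isZero`). -/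
theorem isZero_H1_res_of_h1Vanishes (U : Subgroup G) (hv : InfRes2.H1Vanishes A U) :
    Limits.IsZero (groupCohomology (Rep.res U.subtype A) 1) := by
  classical
  refine @ModuleCat.isZero_of_subsingleton _ _ _ ⟨fun a b => ?_⟩
  suffices h : ∀ a : groupCohomology.H1 (Rep.res U.subtype A), a = 0 by
    rw [h a, h b]
  intro a
  refine groupCohomology.H1_induction_on a fun x => ?_
  rw [groupCohomology.H1π_eq_zero_iff]
  have hx := (groupCohomology.mem_cocycles₁_iff (A := Rep.res U.subtype A) x.1).1 x.2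
  obtain ⟨y, hy⟩ := hv (fun g => if h : g ∈ U then x.1 ⟨g, h⟩ else 0) (fun s hs t ht => by
    simp only [dif_pos hs, dif_pos ht, dif_pos (U.mul_mem hs ht)]
    exact hx ⟨s, hs⟩ ⟨t, ht⟩)
  refine ⟨y, ?_⟩
  funext s
  have := hy s.1 s.2
  simp only [dif_pos s.2] at this
  exact this.symm

/-- the same for a double restriction `U' ≤ V ≤ G`. -/
theorem isZero_H1_res_res_of_h1Vanishes (V : Subgroup G) (U' : Subgroup V)
    (hv : InfRes2.H1Vanishes A (U'.map V.subtype)) :
    Limits.IsZero (groupCohomology (Rep.res U'.subtype (Rep.res V.subtype A)) 1) := by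
  classical
  refine @ModuleCat.isZero_of_subsingleton _ _ _ ⟨fun a b => ?_⟩
  suffices h : ∀ a : groupCohomology.H1 (Rep.res U'.subtype (Rep.res V.subtype A)), a = 0 by
    rw [h a, h b]
  intro a
  refine groupCohomology.H1_induction_on a fun x => ?_
  rw [groupCohomology.H1π_eq_zero_iff]
  have hx := (groupCohomology.mem_cocycles₁_iff
    (A := Rep.res U'.subtype (Rep.res V.subtype A)) x.1).1 x.2
  have hmem : ∀ {s : G}, s ∈ U'.map V.subtype ↔ ∃ hV : s ∈ V, (⟨s, hV⟩ : V) ∈ U' := by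
    intro s
    constructor
    · rintro ⟨u, hu, rfl⟩
      exact ⟨u.2, hu⟩
    · rintro ⟨hV, hu⟩
      exact ⟨⟨s, hV⟩, hu, rfl⟩
  obtain ⟨y, hy⟩ := hv
    (fun g => if h : ∃ hV : g ∈ V, (⟨g, hV⟩ : V) ∈ U' then x.1 ⟨⟨g, h.1⟩, h.2⟩ else 0)
    (fun s hs t ht => by
      have hs' := hmem.1 hs
      have ht' := hmem.1 ht
      have hst' := hmem.1 ((U'.map V.subtype).mul_mem hs ht)
      simp only [dif_pos hs', dif_pos ht', dif_pos hst']
      exact hx ⟨⟨s, hs'.1⟩, hs'.2⟩ ⟨⟨t, ht'.1⟩, ht'.2⟩)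
  refine ⟨y, ?_⟩
  funext s
  have hs' : ∃ hV : (s.1.1 : G) ∈ V, (⟨s.1.1, hV⟩ : V) ∈ U' := ⟨s.1.2, s.2⟩
  have := hy s.1.1 (hmem.2 hs')
  simp only [dif_pos hs'] at this
  exact this.symm

end generic

variable (L : IntermediateField ℚ Qb) [FiniteDimensional ℚ L] [IsGalois ℚ L]
  (T : Finset Nat.Primes)

theorem mem_primesDvd_of_mem_primesAbove {F : Type*} [Field F] [NumberField F]
    {v : HeightOneSpectrum (𝓞 F)} (hv : v ∈ primesAbove F T) : v ∈ EH.primesDvd F (Tprod T) := by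
  obtain ⟨q, hq, hqv⟩ := mem_primesAbove.1 hv
  show ((Tprod T : ℕ) : 𝓞 F) ∈ v.asIdeal
  obtain ⟨r, hr⟩ : (q : ℕ) ∣ Tprod T := Finset.dvd_prod_of_mem (fun q : Nat.Primes => (q : ℕ)) hq
  rw [hr, Nat.cast_mul]
  exact Ideal.mul_mem_right _ _ hqv

/-- **(LY-H1)** for good `T`, cocycle form. -/
theorem h1Vanishes_E_of_goodT {p : ℕ} (hg : GoodT L T p) (U : Subgroup (L ≃ₐ[ℚ] L)) :
    InfRes2.H1Vanishes (E L T) U :=
  h1Vanishes_E L T U hg.unram (primesAbove (IntermediateField.fixedField U) T)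
    (fun _ hv => mem_primesDvd_of_mem_primesAbove T hv) (hg.gen U)

/-- **(LY-H1)** for good `T`, Mathlib form. -/
theorem isZero_H1_res_E_of_goodT {p : ℕ} (hg : GoodT L T p) (U : Subgroup (L ≃ₐ[ℚ] L)) :
    Limits.IsZero (groupCohomology (Rep.res U.subtype (E L T)) 1) :=
  isZero_H1_res_of_h1Vanishes (E L T) U (h1Vanishes_E_of_goodT L T hg U)

/-- **(LY-H1)** for good `T`, in the shape `hH1` of `Layer1.layerHypP_C_of_inputs`. -/
theorem isZero_H1_res_res_E_of_goodT {p : ℕ} (hg : GoodT L T p) (V : Subgroup (L ≃ₐ[ℚ] L))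
    (U' : Subgroup V) :
    Limits.IsZero (groupCohomology (Rep.res U'.subtype (Rep.res V.subtype (E L T))) 1) :=
  isZero_H1_res_res_of_h1Vanishes (E L T) V U' (h1Vanishes_E_of_goodT L T hg _)

end Fermat.Agent.GC.Global.Adapter.H1U
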