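/-
GATE-C / C4 brick (A4) FINITENESS (helper68), final form on helper80's `extC : C L S → CS L S T`:
the class number of `L` maps `CS L S T` into the image of `C L S` (= `tors` of helper7's
`Ambient` / `htors` of `AAbsN`).
-/
import Fermat.Agent.GC.Global.Adapter.ClassFiniteCS
import Fermat.Agent.GC.Global.Funct.TChangeCS

set_option autoImplicit false
set_option linter.unusedSectionVars false

open scoped Padic NumberField

namespace Fermat.Agent.GC.Global.Adapter.CF

open Fermat.Agent.GC.Global Fermat.Agent.GC.Global.Adapter Fermat.Agent.GC.Local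
open Fermat.Agent.GC.Global.LMU Fermat.Agent.GC.Global.Funct

variable (L : IntermediateField ℚ Qb) [FiniteDimensional ℚ L] [IsGalois ℚ L]
  (S T : Finset Nat.Primes)

/-- **(A4) FINITENESS**: `classNum L • b ∈ range extC` for every `b : CS L S T`. -/
theorem exists_extC_eq_classNum_smul (hST : S ⊆ T) (b : CS L S T) :
    ∃ c : C L S, extC L S hST c = classNum L • b := by
  obtain ⟨a, ha⟩ := exists_smul_eq_class_extJ L S T hST b
  refine ⟨(JtoC L S).hom a, ?_⟩
  rw [extC_JtoC, JtoCS_apply]
  exact ha.symm

/-- the same for the morphism of `G_L`-modules `extCHom` -/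
theorem exists_extCHom_eq_classNum_smul (hST : S ⊆ T) (b : CS L S T) :
    ∃ c : C L S, (extCHom L S hST).hom c = classNum L • b :=
  exists_extC_eq_classNum_smul L S T hST b

/-- existential form, the shape of `tors` / `htors` -/
theorem exists_pos_extC_eq_smul (hST : S ⊆ T) (b : CS L S T) :
    ∃ N : ℕ, 0 < N ∧ ∃ c : C L S, (extCHom L S hST).hom c = N • b :=
  ⟨classNum L, one_le_classNum L, exists_extCHom_eq_classNum_smul L S T hST b⟩

/-- `classNum L • b` lies in the range of `extC` -/
theorem classNum_smul_mem_range_extC (hST : S ⊆ T) (b : CS L S T) :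
    classNum L • b ∈ LinearMap.range (extC L S hST) :=
  exists_extC_eq_classNum_smul L S T hST b

end Fermat.Agent.GC.Global.Adapter.CF
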