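/-
GATE-C / AD6-E (helper68), part (P2): the Herbrand quotient of the units "integral outside `m`"
of a Galois number field `N / k` for a subgroup `H ≤ Gal(N/k)` of prime order `p`, in AMBIENT
form (subgroups of `Additive Nˣ`), expressed only through `N`, `m`, `H`:
  `[𝔘 ∩ ker Nm : D 𝔘] * p ^ a = p * [𝔘 ∩ ker D : Nm 𝔘]`,
`𝔘 = {x ∈ Nˣ | x, x⁻¹ integral outside m}`, `a = #{w ∣ m prime of N fixed by H}`.
-/
import Fermat.Agent.GC.SUnitHQ.Ambient
import Fermat.Agent.GC.Global.Adapter.TUnitsDict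

set_option autoImplicit false

open NumberField IsDedekindDomain Module Fermat.Agent.GC.SUnitHQ

open scoped Pointwise

namespace Fermat.Agent.GC.Global.Adapter.EH

set_option linter.unusedSectionVars false
set_option linter.style.haveILetI false

section General

variable {K L : Type*} [Field K] [NumberField K] [Field L] [NumberField L] [Algebra K L]

theorem primesDvd_finite {m : ℕ} (hm : m ≠ 0) : (primesDvd K m).Finite := by
  have h0 : Ideal.span {((m : ℕ) : 𝓞 K)} ≠ 0 := by
    rw [Ne, Ideal.zero_eq_bot, Ideal.span_singleton_eq_bot]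
    exact_mod_cast hm
  refine (Ideal.finite_factors h0).subset fun v hv => ?_
  exact Ideal.dvd_span_singleton.mpr hv

theorem above_primesDvd (m : ℕ) : above (L := L) (primesDvd K m) = primesDvd L m := by
  ext w
  rw [mem_above, mem_primesDvd, mem_primesDvd]
  change algebraMap (𝓞 K) (𝓞 L) ((m : ℕ) : 𝓞 K) ∈ w.asIdeal ↔ _
  rw [map_natCast]

/-- the primes of `L` whose valuation is preserved by all of `Gal(L/K)` -/
def galFixed (K L : Type*) [Field K] [NumberField K] [Field L] [NumberField L] [Algebra K L] :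
    Set (HeightOneSpectrum (𝓞 L)) :=
  {w | ∀ σ : L ≃ₐ[K] L, ∀ x : L, w.valuation L (σ x) = w.valuation L x}

theorem mem_fib_under (w : HeightOneSpectrum (𝓞 L)) : w ∈ fib (L := L) (w.under (𝓞 K)) := rfl

theorem eq_of_valuation_eq {w w' : HeightOneSpectrum (𝓞 L)}
    (h : ∀ x : L, w'.valuation L x = w.valuation L x) : w' = w := by
  ext x
  rw [← HeightOneSpectrum.valuation_lt_one_iff_mem (K := L),
    ← HeightOneSpectrum.valuation_lt_one_iff_mem (K := L), h]

theorem fib_eq_singleton_of_galFixed [IsGalois K L] {w : HeightOneSpectrum (𝓞 L)}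
    (hw : w ∈ galFixed K L) : fib (L := L) (w.under (𝓞 K)) = {w} := by
  ext w'
  constructor
  · intro hw'
    have hG : IsGaloisGroup (L ≃ₐ[K] L) (𝓞 K) (𝓞 L) :=
      IsGaloisGroup.of_isFractionRing (L ≃ₐ[K] L) (𝓞 K) (𝓞 L) K L
    haveI := hG.isInvariant
    have hu : Ideal.under (𝓞 K) w.asIdeal = Ideal.under (𝓞 K) w'.asIdeal := by
      have h1 : w'.under (𝓞 K) = w.under (𝓞 K) := hw'
      exact (congrArg HeightOneSpectrum.asIdeal h1).symm
    haveI := w.isPrime
    haveI := w'.isPrime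
    obtain ⟨g, hg⟩ := Algebra.IsInvariant.exists_smul_of_under_eq (𝓞 K) (𝓞 L) (L ≃ₐ[K] L)
      w.asIdeal w'.asIdeal hu
    rw [Set.mem_singleton_iff]
    ext x
    rw [hg, Ideal.mem_pointwise_smul_iff_inv_smul_mem,
      ← HeightOneSpectrum.valuation_lt_one_iff_mem (K := L),
      ← HeightOneSpectrum.valuation_lt_one_iff_mem (K := L)]
    change w.valuation L (g⁻¹ (algebraMap (𝓞 L) L x)) < 1 ↔ _
    rw [hw g⁻¹]
  · intro hw'
    rw [Set.mem_singleton_iff] at hw'
    rw [hw']
    exact mem_fib_under w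

theorem ncard_fib_under_eq_one_iff [IsGalois K L] (w : HeightOneSpectrum (𝓞 L)) :
    (fib (L := L) (w.under (𝓞 K))).ncard = 1 ↔ w ∈ galFixed K L := by
  constructor
  · intro h σ x
    obtain ⟨w₀, hw₀⟩ := Set.ncard_eq_one.mp h
    have h1 : w = w₀ := by
      have := mem_fib_under (K := K) w
      rw [hw₀] at this
      exact this
    have h2 : comapAut (intAut σ) w = w₀ := by
      have : comapAut (intAut σ) w ∈ fib (L := L) (w.under (𝓞 K)) := under_comapAut σ w
      rw [hw₀] at this
      exact this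
    rw [valuation_galois, h2, ← h1]
  · intro h
    rw [fib_eq_singleton_of_galFixed h, Set.ncard_singleton]

open Classical in
/-- **count bridge**: the number of `v ∈ S` with a single prime above equals the number of
`Gal(L/K)`-fixed primes of `L` above `S`. -/
theorem card_filter_ncard_fib_eq_one [IsGalois K L] (S : Finset (HeightOneSpectrum (𝓞 K))) :
    (S.filter fun v => (fib (L := L) v).ncard = 1).card =
      (above (L := L) (S : Set (HeightOneSpectrum (𝓞 K))) ∩ galFixed K L).ncard := by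
  rw [← Set.ncard_coe_finset]
  symm
  apply Set.ncard_congr (fun w _ => w.under (𝓞 K))
  · intro w hw
    rw [Finset.mem_coe, Finset.mem_filter]
    exact ⟨hw.1, (ncard_fib_under_eq_one_iff w).mpr hw.2⟩
  · intro w w' hw hw' hww'
    have h1 := fib_eq_singleton_of_galFixed hw.2
    have h2 : w' ∈ fib (L := L) (w.under (𝓞 K)) := hww'.symm
    rw [h1] at h2
    exact h2.symm
  · intro v hv
    rw [Finset.mem_coe, Finset.mem_filter] at hv
    obtain ⟨w, hw⟩ := Set.ncard_eq_one.mp hv.2
    have hwv : w.under (𝓞 K) = v := by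
      have : w ∈ fib (L := L) v := by rw [hw]; exact Set.mem_singleton _
      exact this
    refine ⟨w, ⟨?_, ?_⟩, hwv⟩
    · rw [mem_above, hwv]; exact hv.1
    · rw [← ncard_fib_under_eq_one_iff, hwv]; exact hv.2

end General

section Galois

variable {k N : Type*} [Field k] [NumberField k] [Field N] [NumberField N] [Algebra k N]
  [IsGalois k N]

/-- the primes of `N` dividing `m` whose valuation is preserved by all of `H ≤ Gal(N/k)` -/
def fixedPrimes (H : Subgroup (N ≃ₐ[k] N)) (m : ℕ) : Set (HeightOneSpectrum (𝓞 N)) :=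
  {w | w ∈ primesDvd N m ∧ ∀ h ∈ H, ∀ x : N, w.valuation N (h x) = w.valuation N x}

theorem mem_fixedPrimes {H : Subgroup (N ≃ₐ[k] N)} {m : ℕ} {w : HeightOneSpectrum (𝓞 N)} :
    w ∈ fixedPrimes H m ↔
      ((m : ℕ) : 𝓞 N) ∈ w.asIdeal ∧ ∀ h ∈ H, ∀ x : N, w.valuation N (h x) = w.valuation N x :=
  Iff.rfl

theorem galFixed_fixedField (H : Subgroup (N ≃ₐ[k] N)) :
    galFixed (IntermediateField.fixedField H) N =
      {w | ∀ h ∈ H, ∀ x : N, w.valuation N (h x) = w.valuation N x} := by
  ext w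
  constructor
  · intro hw h hh x
    exact hw (IntermediateField.subgroupEquivAlgEquiv H ⟨h, hh⟩) x
  · intro hw σ x
    obtain ⟨h, rfl⟩ := (IntermediateField.subgroupEquivAlgEquiv H).surjective σ
    exact hw h.1 h.2 x

open Classical in
/-- **(P2)** -/
theorem tUnits_herbrand_abstract {p : ℕ} (hp : p.Prime) (H : Subgroup (N ≃ₐ[k] N))
    (hH : Nat.card H = p) (hK : IsTotallyComplex (IntermediateField.fixedField H))
    (σ : N ≃ₐ[k] N) (hσH : σ ∈ H) (hσ : σ ≠ 1) (m : ℕ) (hm : m ≠ 0)
    (D Nm : Additive Nˣ →+ Additive Nˣ)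
    (hD : ∀ x, D x = ambAct (σ : N ≃+* N) x - x)
    (hN : ∀ x, Nm x = ∑ i ∈ Finset.range p, ambAct ((σ ^ i : N ≃ₐ[k] N) : N ≃+* N) x) :
    ((Subgroup.toAddSubgroup ((primesDvd N m).unit N)).map D).relIndex
      (Subgroup.toAddSubgroup ((primesDvd N m).unit N) ⊓ Nm.ker) ≠ 0 ∧
    ((Subgroup.toAddSubgroup ((primesDvd N m).unit N)).map Nm).relIndex
      (Subgroup.toAddSubgroup ((primesDvd N m).unit N) ⊓ D.ker) ≠ 0 ∧
    ((Subgroup.toAddSubgroup ((primesDvd N m).unit N)).map D).relIndex
      (Subgroup.toAddSubgroup ((primesDvd N m).unit N) ⊓ Nm.ker) *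
        p ^ (fixedPrimes H m).ncard =
    p * ((Subgroup.toAddSubgroup ((primesDvd N m).unit N)).map Nm).relIndex
      (Subgroup.toAddSubgroup ((primesDvd N m).unit N) ⊓ D.ker) := by
  have hdeg : finrank (IntermediateField.fixedField H) N = p := by
    rw [IntermediateField.finrank_fixedField_eq_card, hH]
  set σ' : N ≃ₐ[IntermediateField.fixedField H] N :=
    IntermediateField.subgroupEquivAlgEquiv H ⟨σ, hσH⟩ with hσ'
  have hσ'1 : σ' ≠ 1 := by
    intro h1
    apply hσ
    have h2 : (⟨σ, hσH⟩ : H) = 1 :=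
      (IntermediateField.subgroupEquivAlgEquiv H).injective (by rw [← hσ', h1, map_one])
    exact congrArg Subtype.val h2
  have hpow : ∀ i : ℕ, ((σ' ^ i : N ≃ₐ[IntermediateField.fixedField H] N) : N ≃+* N) =
      ((σ ^ i : N ≃ₐ[k] N) : N ≃+* N) := by
    intro i
    rw [hσ', ← map_pow]
    rfl
  have hD' : ∀ x, D x = ambAct (σ' : N ≃+* N) x - x := hD
  have hN' : ∀ x, Nm x = ∑ i ∈ Finset.range p,
      ambAct ((σ' ^ i : N ≃ₐ[IntermediateField.fixedField H] N) : N ≃+* N) x := by
    intro x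
    rw [hN]
    exact Finset.sum_congr rfl fun i _ => by rw [hpow]
  have h := sUnits_herbrand_ambient hp hdeg hK σ' hσ'1
    (primesDvd_finite (K := IntermediateField.fixedField H) hm).toFinset D Nm hD' hN'
  rw [card_filter_ncard_fib_eq_one, Set.Finite.coe_toFinset, above_primesDvd,
    galFixed_fixedField] at h
  exact h

end Galois

end Fermat.Agent.GC.Global.Adapter.EH
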