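/-
GATE-C / AD6-E count bridge (helper68), brick (3) for helper11's CountMatch:
the top field `fixedField (liftU V U')` (an intermediate field over `N^V`) of `EHerbrandPair` and
`fixedField (U'.map V.subtype)` (an intermediate field over `k`) are the same subfield of `N`;
the induced bijection of primes turns `w.under (𝓞 K) = v` into the elementwise `LiesOver`
relation of helper11's `PlaceDC.LiesOverFix`.
-/
import Fermat.Agent.GC.Global.Adapter.EHerbrandPair
import Fermat.Agent.GC.Global.Adapter.PlaceDC

set_option autoImplicit false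

open NumberField IsDedekindDomain Module Fermat.Agent.GC.SUnitHQ

namespace Fermat.Agent.GC.Global.Adapter.EH

set_option linter.unusedSectionVars false

section Abstract

variable {k N : Type} [Field k] [NumberField k] [Field N] [NumberField N] [Algebra k N]
  [IsGalois k N] (V : Subgroup (N ≃ₐ[k] N)) (U' : Subgroup V)

theorem mem_fixedField_liftU_iff (x : N) :
    x ∈ IntermediateField.fixedField (liftU V U') ↔
      x ∈ IntermediateField.fixedField (U'.map V.subtype) := by
  rw [IntermediateField.mem_fixedField_iff, IntermediateField.mem_fixedField_iff]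
  constructor
  · rintro h _ ⟨u', hu', rfl⟩
    exact h (IntermediateField.subgroupEquivAlgEquiv V u') ⟨u', hu', rfl⟩
  · rintro h _ ⟨u', hu', rfl⟩
    exact h (u' : N ≃ₐ[k] N) ⟨u', hu', rfl⟩

/-- the two incarnations of `N^{U'}` are the same subfield of `N` -/
noncomputable def fixEquiv :
    ↥(IntermediateField.fixedField (liftU V U')) ≃+*
      ↥(IntermediateField.fixedField (U'.map V.subtype)) where
  toFun x := ⟨(x : N), (mem_fixedField_liftU_iff V U' _).mp x.2⟩
  invFun y := ⟨(y : N), (mem_fixedField_liftU_iff V U' _).mpr y.2⟩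
  left_inv _ := rfl
  right_inv _ := rfl
  map_mul' _ _ := rfl
  map_add' _ _ := rfl

theorem coe_fixEquiv (x : ↥(IntermediateField.fixedField (liftU V U'))) :
    ((fixEquiv V U' x : ↥(IntermediateField.fixedField (U'.map V.subtype))) : N) = (x : N) := rfl

theorem coe_fixEquiv_symm (y : ↥(IntermediateField.fixedField (U'.map V.subtype))) :
    (((fixEquiv V U').symm y : ↥(IntermediateField.fixedField (liftU V U'))) : N) = (y : N) := rfl

/-- the induced bijection on primes -/
noncomputable def primeEquiv :
    HeightOneSpectrum (𝓞 ↥(IntermediateField.fixedField (liftU V U'))) ≃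
      HeightOneSpectrum (𝓞 ↥(IntermediateField.fixedField (U'.map V.subtype))) :=
  HeightOneSpectrum.equivOfRingEquiv (RingOfIntegers.mapRingEquiv (fixEquiv V U'))

theorem mem_primeEquiv (w : HeightOneSpectrum (𝓞 ↥(IntermediateField.fixedField (liftU V U'))))
    (y : 𝓞 ↥(IntermediateField.fixedField (U'.map V.subtype))) :
    y ∈ (primeEquiv V U' w).asIdeal ↔
      (RingOfIntegers.mapRingEquiv (fixEquiv V U')).symm y ∈ w.asIdeal := Iff.rfl

/-- elementwise "lies over" (helper11's `LiesOverFix`, abstract base) -/
def LiesOverEl (v : HeightOneSpectrum (𝓞 ↥(IntermediateField.fixedField V)))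
    (w : HeightOneSpectrum (𝓞 ↥(IntermediateField.fixedField (U'.map V.subtype)))) : Prop :=
  ∀ (x : 𝓞 ↥(IntermediateField.fixedField V))
    (y : 𝓞 ↥(IntermediateField.fixedField (U'.map V.subtype))),
    ((y : ↥(IntermediateField.fixedField (U'.map V.subtype))) : N) =
      ((x : ↥(IntermediateField.fixedField V)) : N) → (x ∈ v.asIdeal ↔ y ∈ w.asIdeal)

theorem under_eq_iff_liesOverEl (v : HeightOneSpectrum (𝓞 ↥(IntermediateField.fixedField V)))
    (w : HeightOneSpectrum (𝓞 ↥(IntermediateField.fixedField (liftU V U')))) :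
    w.under (𝓞 ↥(IntermediateField.fixedField V)) = v ↔ LiesOverEl V U' v (primeEquiv V U' w) := by
  constructor
  · intro h x y hxy
    rw [← h, mem_primeEquiv]
    have hy : (RingOfIntegers.mapRingEquiv (fixEquiv V U')).symm y =
        algebraMap (𝓞 ↥(IntermediateField.fixedField V))
          (𝓞 ↥(IntermediateField.fixedField (liftU V U'))) x := by
      apply RingOfIntegers.ext
      apply Subtype.ext
      exact hxy
    rw [hy]
    rfl
  · intro h
    ext x
    have hxy : (((RingOfIntegers.mapRingEquiv (fixEquiv V U')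
        (algebraMap (𝓞 ↥(IntermediateField.fixedField V))
          (𝓞 ↥(IntermediateField.fixedField (liftU V U'))) x) :
        𝓞 ↥(IntermediateField.fixedField (U'.map V.subtype))) :
        ↥(IntermediateField.fixedField (U'.map V.subtype))) : N) =
        ((x : ↥(IntermediateField.fixedField V)) : N) := rfl
    rw [h x _ hxy, mem_primeEquiv, RingEquiv.symm_apply_apply]
    rfl

theorem ncard_fib_eq_one_iff_liesOverEl
    (v : HeightOneSpectrum (𝓞 ↥(IntermediateField.fixedField V))) :
    (fib (L := ↥(IntermediateField.fixedField (liftU V U'))) v).ncard = 1 ↔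
      ∃! w : HeightOneSpectrum (𝓞 ↥(IntermediateField.fixedField (U'.map V.subtype))),
        LiesOverEl V U' v w := by
  constructor
  · intro h
    obtain ⟨w₀, hw₀⟩ := Set.ncard_eq_one.mp h
    have hw₀mem : w₀ ∈ fib (L := ↥(IntermediateField.fixedField (liftU V U'))) v := by
      rw [hw₀]; exact Set.mem_singleton _
    refine ⟨primeEquiv V U' w₀, (under_eq_iff_liesOverEl V U' v w₀).mp hw₀mem, ?_⟩
    intro w' hw'
    have h1 : (primeEquiv V U').symm w' ∈
        fib (L := ↥(IntermediateField.fixedField (liftU V U'))) v := by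
      apply (under_eq_iff_liesOverEl V U' v _).mpr
      rw [Equiv.apply_symm_apply]
      exact hw'
    rw [hw₀, Set.mem_singleton_iff] at h1
    rw [← h1, Equiv.apply_symm_apply]
  · rintro ⟨w', hw', huniq⟩
    rw [Set.ncard_eq_one]
    refine ⟨(primeEquiv V U').symm w', ?_⟩
    ext w
    rw [Set.mem_singleton_iff]
    constructor
    · intro hw
      have := huniq _ ((under_eq_iff_liesOverEl V U' v w).mp hw)
      rw [← this, Equiv.symm_apply_apply]
    · rintro rfl
      apply (under_eq_iff_liesOverEl V U' v _).mpr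
      rw [Equiv.apply_symm_apply]
      exact hw'

end Abstract

section Model

open Fermat.Agent.GC.Global Fermat.Agent.GC.Global.Adapter

variable (L : IntermediateField ℚ Qb) [FiniteDimensional ℚ L] [IsGalois ℚ L] [NumberField L]
  (V : Subgroup (L ≃ₐ[ℚ] L)) (U' : Subgroup V)

/-- `LiesOverEl` is helper11's `LiesOverFix` -/
theorem liesOverEl_iff_liesOverFix (v : HeightOneSpectrum (𝓞 (fixK L V)))
    (w : HeightOneSpectrum (𝓞 (fixK L (U'.map V.subtype)))) :
    LiesOverEl V U' v w ↔ LiesOverFix L v w := Iff.rfl

theorem under_eq_iff_liesOverFix (v : HeightOneSpectrum (𝓞 (fixK L V)))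
    (w : HeightOneSpectrum (𝓞 ↥(IntermediateField.fixedField (liftU V U')))) :
    w.under (𝓞 (fixK L V)) = v ↔ LiesOverFix L v (primeEquiv V U' w) :=
  under_eq_iff_liesOverEl V U' v w

/-- **brick (3)**: "exactly one prime of `L^{U'}` above `v`" in helper11's language. -/
theorem ncard_fib_eq_one_iff (v : HeightOneSpectrum (𝓞 (fixK L V))) :
    (fib (L := ↥(IntermediateField.fixedField (liftU V U'))) v).ncard = 1 ↔
      ∃! w : HeightOneSpectrum (𝓞 (fixK L (U'.map V.subtype))), LiesOverFix L v w :=
  ncard_fib_eq_one_iff_liesOverEl V U' v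

theorem mem_nonsplitPrimes_iff (m : ℕ) (v : HeightOneSpectrum (𝓞 (fixK L V))) :
    v ∈ nonsplitPrimes V U' m ↔ ((m : ℕ) : 𝓞 (fixK L V)) ∈ v.asIdeal ∧
      ∃! w : HeightOneSpectrum (𝓞 (fixK L (U'.map V.subtype))), LiesOverFix L v w := by
  rw [← ncard_fib_eq_one_iff]
  rfl

end Model

end Fermat.Agent.GC.Global.Adapter.EH
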