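/-
GATE-C / AD6-E pair form (helper68), part (B): cohomology of `C.quotientToInvariants S` for a
cyclic quotient `G ⧸ S`, as ambient relative indices.
-/
import Fermat.Agent.GC.Global.Adapter.EHRep

set_option autoImplicit false

open Fermat.Agent.GC.SUnitHQ Fermat.Agent.GC.CycBridge

namespace Fermat.Agent.GC.Global.Adapter.EH

set_option linter.unusedSectionVars false

/-- **(B0)** `C : Rep k G`, `S ◁ G` with `G ⧸ S` cyclic generated by the class of `g`;
`ι₀ : C.V →+ X` injective, `D`, `Nm` ambient maps with `D = g - 1` on `C.V` and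
`Nm = ∑_{i < |G/S|} g^i` on the `S`-invariants; `R` the image of the `S`-invariants.  Then the
cohomology of the `G ⧸ S`-module `C^S` in degrees `1`, `2` is computed by relative indices in `X`.
-/
theorem card_groupCohomology_quotientToInvariants_ambient {k G : Type} [CommRing k] [Group G]
    (C : Rep k G) (S : Subgroup G) [S.Normal] [Fintype (G ⧸ S)] (g : G)
    (hg : ∀ q : G ⧸ S, q ∈ Subgroup.zpowers (QuotientGroup.mk g : G ⧸ S))
    {X : Type*} [AddCommGroup X] (ι₀ : C.V →+ X) (hι₀ : Function.Injective ι₀) (D Nm : X →+ X)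
    (hD : ∀ x : C.V, ι₀ (C.ρ g x) - ι₀ x = D (ι₀ x))
    (hN : ∀ x : C.V, x ∈ Representation.invariants (C.ρ.comp S.subtype) →
      ∑ i ∈ Finset.range (Fintype.card (G ⧸ S)), ι₀ (C.ρ (g ^ i) x) = Nm (ι₀ x))
    (R : AddSubgroup X)
    (hR : ∀ y : X, y ∈ R ↔ ∃ x : C.V, x ∈ Representation.invariants (C.ρ.comp S.subtype) ∧ ι₀ x = y) :
    Nat.card (groupCohomology (C.quotientToInvariants S) 1) =
      (R.map D).relIndex (R ⊓ Nm.ker) ∧
    Nat.card (groupCohomology (C.quotientToInvariants S) 2) =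
      (R.map Nm).relIndex (R ⊓ D.ker) := by
  set ι : (C.quotientToInvariants S).V →+ X :=
    ι₀.comp (Submodule.subtype (Representation.invariants (C.ρ.comp S.subtype))).toAddMonoidHom
    with hιdef
  have hι : Function.Injective ι := fun a b h => Subtype.ext (hι₀ h)
  have hr : ι.range = R := by
    ext y
    rw [hR]
    constructor
    · rintro ⟨x, rfl⟩
      exact ⟨x.1, x.2, rfl⟩
    · rintro ⟨x, hx, rfl⟩
      exact ⟨⟨x, hx⟩, rfl⟩
  have hD' : ∀ x : (C.quotientToInvariants S).V,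
      ι ((C.quotientToInvariants S).ρ (QuotientGroup.mk g) x) - ι x = D (ι x) :=
    fun x => hD x.1
  have hN' : ∀ x : (C.quotientToInvariants S).V,
      ∑ q : G ⧸ S, ι ((C.quotientToInvariants S).ρ q x) = Nm (ι x) := by
    intro x
    have h1 := sum_range_card_eq_sum_univ (QuotientGroup.mk g : G ⧸ S) hg
      (fun q : G ⧸ S => ι ((C.quotientToInvariants S).ρ q x))
    rw [← h1]
    exact hN x.1 x.2
  exact card_groupCohomology_ambient (C.quotientToInvariants S) (QuotientGroup.mk g) hg ι hι D Nm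
    hD' hN' R hr

section Units

variable {k N : Type} [Field k] [Field N] [Algebra k N]

/-- the subgroup of `Additive Nˣ` fixed by a subgroup of automorphisms -/
def fixedPts (U : Subgroup (N ≃ₐ[k] N)) : AddSubgroup (Additive Nˣ) where
  carrier := {x | ∀ u ∈ U, ambAct ((u : N ≃ₐ[k] N) : N ≃+* N) x = x}
  zero_mem' := fun u _ => map_zero _
  add_mem' := fun {x y} hx hy u hu => by
    have h1 : ambAct ((u : N ≃ₐ[k] N) : N ≃+* N) x = x := hx u hu
    have h2 : ambAct ((u : N ≃ₐ[k] N) : N ≃+* N) y = y := hy u hu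
    show ambAct ((u : N ≃ₐ[k] N) : N ≃+* N) (x + y) = x + y
    rw [map_add, h1, h2]
  neg_mem' := fun {x} hx u hu => by
    have h1 : ambAct ((u : N ≃ₐ[k] N) : N ≃+* N) x = x := hx u hu
    show ambAct ((u : N ≃ₐ[k] N) : N ≃+* N) (-x) = -x
    rw [map_neg, h1]

theorem mem_fixedPts {U : Subgroup (N ≃ₐ[k] N)} {x : Additive Nˣ} :
    x ∈ fixedPts U ↔ ∀ u ∈ U, ambAct ((u : N ≃ₐ[k] N) : N ≃+* N) x = x := Iff.rfl

/-- **(B)** cohomology of the `V ⧸ U'`-module `W^{U'}` (`W ≤ Additive Nˣ` Galois-stable,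
`U' ◁ V ≤ Gal(N/k)`, `V ⧸ U'` cyclic generated by the class of `σ`) as relative indices inside
`Additive Nˣ`. -/
theorem card_groupCohomology_pair_sub (V : Subgroup (N ≃ₐ[k] N)) (U' : Subgroup V) [U'.Normal]
    [Fintype (V ⧸ U')] (σ : N ≃ₐ[k] N) (hσV : σ ∈ V)
    (hgen : ∀ q : V ⧸ U', q ∈ Subgroup.zpowers (QuotientGroup.mk (⟨σ, hσV⟩ : V) : V ⧸ U'))
    (W : Submodule ℤ (Additive Nˣ))
    (hW : ∀ g : N ≃ₐ[k] N, W ≤ W.comap ((Rep.ofAlgebraAutOnUnits k N).ρ g))
    {p : ℕ} (hp : Fintype.card (V ⧸ U') = p) :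
    Nat.card (groupCohomology ((Rep.res V.subtype
        (Rep.subrepresentation (Rep.ofAlgebraAutOnUnits k N) W hW)).quotientToInvariants U') 1) =
      ((W.toAddSubgroup ⊓ fixedPts (U'.map V.subtype)).map (ambD (σ : N ≃+* N))).relIndex
        ((W.toAddSubgroup ⊓ fixedPts (U'.map V.subtype)) ⊓ (ambN σ p).ker) ∧
    Nat.card (groupCohomology ((Rep.res V.subtype
        (Rep.subrepresentation (Rep.ofAlgebraAutOnUnits k N) W hW)).quotientToInvariants U') 2) =
      ((W.toAddSubgroup ⊓ fixedPts (U'.map V.subtype)).map (ambN σ p)).relIndex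
        ((W.toAddSubgroup ⊓ fixedPts (U'.map V.subtype)) ⊓ (ambD (σ : N ≃+* N)).ker) := by
  have hι : Function.Injective (W.subtype.toAddMonoidHom : ↥W →+ Additive Nˣ) :=
    Subtype.val_injective
  have hD : ∀ x : ↥W, ambAct (σ : N ≃+* N) x.1 - x.1 = ambD (σ : N ≃+* N) x.1 := fun x => rfl
  have hN : ∀ x : ↥W, ∑ i ∈ Finset.range (Fintype.card (V ⧸ U')),
      ambAct ((σ ^ i : N ≃ₐ[k] N) : N ≃+* N) x.1 = ambN σ p x.1 := by
    intro x
    rw [ambN_apply, hp]
  refine card_groupCohomology_quotientToInvariants_ambient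
    (Rep.res V.subtype (Rep.subrepresentation (Rep.ofAlgebraAutOnUnits k N) W hW)) U'
    ⟨σ, hσV⟩ hgen (X := Additive Nˣ) W.subtype.toAddMonoidHom hι (ambD (σ : N ≃+* N))
    (ambN σ p) hD (fun x _ => hN x) _ ?_
  intro y
  constructor
  · rintro ⟨hyW, hyF⟩
    refine ⟨⟨y, hyW⟩, ?_, rfl⟩
    intro u
    apply Subtype.ext
    exact hyF _ ⟨u.1, u.2, rfl⟩
  · rintro ⟨x, hx, rfl⟩
    refine ⟨x.2, ?_⟩
    rintro _ ⟨u, hu, rfl⟩
    exact congrArg Subtype.val (hx ⟨u, hu⟩)

end Units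

end Fermat.Agent.GC.Global.Adapter.EH
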