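/-
GATE-C / AD6-E pair form (helper68), part (A): number-field side.  `L / K` Galois extension of
number fields, `U ◁ Gal(L/K)` of prime index `p`, `M := L^U`.  The Herbrand quotient of the
`m`-units of `M` (cyclic of degree `p` over `K`), transported into `Additive Lˣ`:
with `R := {m-units of L} ∩ {U-fixed}`, `D = σ - 1`, `Nm = ∑_{i<p} σ^i` (`σ ∉ U`):
  `[R ∩ ker Nm : D R] * p ^ a = p * [R ∩ ker D : Nm R]`,
`a = #{v ∣ m prime of K with exactly one prime of M above}`.
-/
import Fermat.Agent.GC.Global.Adapter.EHAbstract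
import Fermat.Agent.GC.Global.Adapter.EHPairRep

set_option autoImplicit false

open NumberField IsDedekindDomain Module Fermat.Agent.GC.SUnitHQ

namespace Fermat.Agent.GC.Global.Adapter.EH

set_option linter.unusedSectionVars false
set_option linter.style.haveILetI false

/-- relIndex transport along an injective homomorphism, subgroup version -/
theorem relIndex_map_transport {A B : Type*} [AddCommGroup A] [AddCommGroup B] (ι : A →+ B)
    (hι : Function.Injective ι) (𝔘 : AddSubgroup A) (f f' : A →+ A) (g g' : B →+ B)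
    (h : ∀ x, ι (f x) = g (ι x)) (h' : ∀ x, ι (f' x) = g' (ι x)) :
    ((𝔘.map ι).map g).relIndex ((𝔘.map ι) ⊓ g'.ker) = (𝔘.map f).relIndex (𝔘 ⊓ f'.ker) := by
  have e1 : (𝔘.map ι).map g = (𝔘.map f).map ι := by
    ext y
    constructor
    · rintro ⟨_, ⟨x, hx, rfl⟩, rfl⟩
      exact ⟨f x, ⟨x, hx, rfl⟩, h x⟩
    · rintro ⟨_, ⟨x, hx, rfl⟩, rfl⟩
      exact ⟨ι x, ⟨x, hx, rfl⟩, (h x).symm⟩
  have e2 : (𝔘.map ι) ⊓ g'.ker = (𝔘 ⊓ f'.ker).map ι := by
    ext y
    constructor
    · rintro ⟨⟨x, hx, rfl⟩, hy⟩
      refine ⟨x, ⟨hx, ?_⟩, rfl⟩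
      show f' x = 0
      apply hι
      rw [h', map_zero]
      exact hy
    · rintro ⟨x, ⟨hx, hx'⟩, rfl⟩
      refine ⟨⟨x, hx, rfl⟩, ?_⟩
      have hx'' : f' x = 0 := hx'
      show g' (ι x) = 0
      rw [← h', hx'', map_zero]
  rw [e1, e2, AddSubgroup.relIndex_map_map_of_injective _ _ hι]

section Field

variable {K L : Type} [Field K] [NumberField K] [Field L] [NumberField L] [Algebra K L]
  [IsGalois K L]

variable (U : Subgroup (L ≃ₐ[K] L))

/-- the inclusion `Additive (L^U)ˣ →+ Additive Lˣ` -/
noncomputable def incM :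
    Additive (↥(IntermediateField.fixedField U))ˣ →+ Additive Lˣ :=
  MonoidHom.toAdditive
    (Units.map ((algebraMap (↥(IntermediateField.fixedField U)) L :
      ↥(IntermediateField.fixedField U) →+* L) : ↥(IntermediateField.fixedField U) →* L))

theorem coe_incM (y : Additive (↥(IntermediateField.fixedField U))ˣ) :
    (((incM U y).toMul : Lˣ) : L) = ((y.toMul : (↥(IntermediateField.fixedField U))ˣ) :
      ↥(IntermediateField.fixedField U)) := rfl

theorem incM_injective : Function.Injective (incM U) := by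
  intro a b h
  apply Additive.toMul.injective
  apply Units.ext
  apply Subtype.ext
  have := congrArg (fun z : Additive Lˣ => ((z.toMul : Lˣ) : L)) h
  exact this

theorem mem_range_incM_iff (x : Additive Lˣ) :
    x ∈ (incM U).range ↔ ∀ u ∈ U, ambAct ((u : L ≃ₐ[K] L) : L ≃+* L) x = x := by
  constructor
  · rintro ⟨y, rfl⟩ u hu
    apply Additive.toMul.injective
    apply Units.ext
    change u (((incM U y).toMul : Lˣ) : L) = (((incM U y).toMul : Lˣ) : L)
    rw [coe_incM]
    exact (IntermediateField.mem_fixedField_iff U _).mp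
      ((y.toMul : (↥(IntermediateField.fixedField U))ˣ) : ↥(IntermediateField.fixedField U)).2 u hu
  · intro hx
    have hmem : ((x.toMul : Lˣ) : L) ∈ IntermediateField.fixedField U := by
      rw [IntermediateField.mem_fixedField_iff]
      intro u hu
      have := congrArg (fun z : Additive Lˣ => ((z.toMul : Lˣ) : L)) (hx u hu)
      exact this
    have hne : (⟨((x.toMul : Lˣ) : L), hmem⟩ : ↥(IntermediateField.fixedField U)) ≠ 0 := by
      intro h0
      have := congrArg Subtype.val h0
      exact (x.toMul : Lˣ).ne_zero this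
    refine ⟨Additive.ofMul (Units.mk0 _ hne), ?_⟩
    apply Additive.toMul.injective
    apply Units.ext
    rfl

theorem isIntegral_fixedField_iff (y : ↥(IntermediateField.fixedField U)) :
    IsIntegral ℤ (y : L) ↔ IsIntegral ℤ y :=
  isIntegral_algebraMap_iff (algebraMap (↥(IntermediateField.fixedField U)) L).injective

theorem mem_unit_incM_iff (m : ℕ) (y : (↥(IntermediateField.fixedField U))ˣ) :
    (incM U (Additive.ofMul y)).toMul ∈ (primesDvd L m).unit L ↔
      y ∈ (primesDvd (↥(IntermediateField.fixedField U)) m).unit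
        (↥(IntermediateField.fixedField U)) := by
  rw [mem_unit_primesDvd_iff, mem_unit_primesDvd_iff]
  have h1 : ∀ (n : ℕ) (z : ↥(IntermediateField.fixedField U)),
      IsIntegral ℤ (((m : ℕ) : L) ^ n * (z : L)) ↔
        IsIntegral ℤ (((m : ℕ) : ↥(IntermediateField.fixedField U)) ^ n * z) := by
    intro n z
    rw [← isIntegral_fixedField_iff]
    simp
  have h2 : (((incM U (Additive.ofMul y)).toMul : Lˣ) : L) = (y : ↥(IntermediateField.fixedField U)) :=
    rfl
  have h3 : ((((incM U (Additive.ofMul y)).toMul)⁻¹ : Lˣ) : L) =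
      ((y⁻¹ : (↥(IntermediateField.fixedField U))ˣ) : ↥(IntermediateField.fixedField U)) := by
    have h0 : (incM U (Additive.ofMul y)).toMul =
        Units.map ((algebraMap (↥(IntermediateField.fixedField U)) L :
          ↥(IntermediateField.fixedField U) →+* L) : ↥(IntermediateField.fixedField U) →* L) y :=
      rfl
    rw [h0, ← map_inv]
    rfl
  rw [h2, h3]
  simp only [h1]

variable [U.Normal]

/-- the restriction of `σ ∈ Gal(L/K)` to `M = L^U` -/
noncomputable def resM (σ : L ≃ₐ[K] L) :
    ↥(IntermediateField.fixedField U) ≃ₐ[K] ↥(IntermediateField.fixedField U) :=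
  AlgEquiv.restrictNormalHom (IntermediateField.fixedField U) σ

theorem coe_resM (σ : L ≃ₐ[K] L) (y : ↥(IntermediateField.fixedField U)) :
    ((resM U σ y : ↥(IntermediateField.fixedField U)) : L) = σ (y : L) :=
  AlgEquiv.restrictNormalHom_apply (IntermediateField.fixedField U) σ y

theorem resM_pow (σ : L ≃ₐ[K] L) (i : ℕ) : resM U σ ^ i = resM U (σ ^ i) :=
  (map_pow (AlgEquiv.restrictNormalHom (IntermediateField.fixedField U)) σ i).symm

theorem incM_ambAct (σ : L ≃ₐ[K] L) (y : Additive (↥(IntermediateField.fixedField U))ˣ) :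
    incM U (ambAct ((resM U σ : ↥(IntermediateField.fixedField U) ≃ₐ[K]
      ↥(IntermediateField.fixedField U)) : ↥(IntermediateField.fixedField U) ≃+*
        ↥(IntermediateField.fixedField U)) y) = ambAct ((σ : L ≃ₐ[K] L) : L ≃+* L) (incM U y) := by
  apply Additive.toMul.injective
  apply Units.ext
  exact coe_resM U σ _

theorem resM_ne_one {σ : L ≃ₐ[K] L} (hσ : σ ∉ U) : resM U σ ≠ 1 := by
  intro h1
  apply hσ
  rw [← IntermediateField.fixingSubgroup_fixedField U, IntermediateField.mem_fixingSubgroup_iff]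
  intro x hx
  have := coe_resM U σ ⟨x, hx⟩
  rw [h1] at this
  exact this.symm

theorem finrank_fixedField_eq_index : finrank K ↥(IntermediateField.fixedField U) = U.index := by
  rw [IntermediateField.finrank_eq_fixingSubgroup_index,
    IntermediateField.fixingSubgroup_fixedField]

open Classical in
/-- **(A)** -/
theorem sUnits_herbrand_pair {p : ℕ} (hp : p.Prime) (hidx : U.index = p)
    (hK : IsTotallyComplex K) (σ : L ≃ₐ[K] L) (hσ : σ ∉ U) (m : ℕ) (hm : m ≠ 0)
    (D Nm : Additive Lˣ →+ Additive Lˣ)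
    (hD : ∀ x, D x = ambAct ((σ : L ≃ₐ[K] L) : L ≃+* L) x - x)
    (hN : ∀ x, Nm x = ∑ i ∈ Finset.range p, ambAct ((σ ^ i : L ≃ₐ[K] L) : L ≃+* L) x)
    (R : AddSubgroup (Additive Lˣ))
    (hR : ∀ x, x ∈ R ↔ x.toMul ∈ (primesDvd L m).unit L ∧
      ∀ u ∈ U, ambAct ((u : L ≃ₐ[K] L) : L ≃+* L) x = x) :
    (R.map D).relIndex (R ⊓ Nm.ker) ≠ 0 ∧ (R.map Nm).relIndex (R ⊓ D.ker) ≠ 0 ∧
    (R.map D).relIndex (R ⊓ Nm.ker) *
      p ^ ((primesDvd_finite (K := K) hm).toFinset.filter fun v =>
        (fib (L := ↥(IntermediateField.fixedField U)) v).ncard = 1).card =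
    p * (R.map Nm).relIndex (R ⊓ D.ker) := by
  have hdeg : finrank K ↥(IntermediateField.fixedField U) = p := by
    rw [finrank_fixedField_eq_index, hidx]
  have h := sUnits_herbrand_ambient hp hdeg hK (resM U σ) (resM_ne_one U hσ)
    (primesDvd_finite (K := K) hm).toFinset
    (ambD ((resM U σ : ↥(IntermediateField.fixedField U) ≃ₐ[K]
      ↥(IntermediateField.fixedField U)) : ↥(IntermediateField.fixedField U) ≃+*
        ↥(IntermediateField.fixedField U)))
    (ambN (resM U σ) p) (fun _ => rfl) (ambN_apply (resM U σ) p)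
  rw [Set.Finite.coe_toFinset, above_primesDvd] at h
  have hint1 : ∀ x, incM U (ambD ((resM U σ : ↥(IntermediateField.fixedField U) ≃ₐ[K]
      ↥(IntermediateField.fixedField U)) : ↥(IntermediateField.fixedField U) ≃+*
        ↥(IntermediateField.fixedField U)) x) = D (incM U x) := by
    intro x
    rw [hD, ambD_apply, map_sub, incM_ambAct]
  have hint2 : ∀ x, incM U (ambN (resM U σ) p x) = Nm (incM U x) := by
    intro x
    rw [hN, ambN_apply, map_sum]
    refine Finset.sum_congr rfl fun i _ => ?_
    rw [resM_pow, incM_ambAct]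
  have hRmap : R = (Subgroup.toAddSubgroup
      ((primesDvd (↥(IntermediateField.fixedField U)) m).unit
        (↥(IntermediateField.fixedField U)))).map (incM U) := by
    ext x
    rw [hR]
    constructor
    · rintro ⟨hx1, hx2⟩
      obtain ⟨y, rfl⟩ := (mem_range_incM_iff U x).mpr hx2
      refine ⟨y, ?_, rfl⟩
      exact (mem_unit_incM_iff U m y.toMul).mp hx1
    · rintro ⟨y, hy, rfl⟩
      refine ⟨(mem_unit_incM_iff U m y.toMul).mpr hy, ?_⟩
      exact (mem_range_incM_iff U _).mp ⟨y, rfl⟩
  have k1 := relIndex_map_transport (incM U) (incM_injective U)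
    (Subgroup.toAddSubgroup ((primesDvd (↥(IntermediateField.fixedField U)) m).unit
      (↥(IntermediateField.fixedField U)))) _ _ D Nm hint1 hint2
  have k2 := relIndex_map_transport (incM U) (incM_injective U)
    (Subgroup.toAddSubgroup ((primesDvd (↥(IntermediateField.fixedField U)) m).unit
      (↥(IntermediateField.fixedField U)))) _ _ Nm D hint2 hint1
  rw [← hRmap] at k1 k2
  rw [k1, k2]
  exact h

end Field

end Fermat.Agent.GC.Global.Adapter.EH
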