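/-
GATE-C / AD6-E pair form (helper68): the shape requested by helper97 (board 1829) —
`ζ_p ∈ L` fixed by `V`, `p` odd, `U' ◁ V` of index `p`.
-/
import Fermat.Agent.GC.Global.Adapter.EHerbrandPair

set_option autoImplicit false

open NumberField IsDedekindDomain

namespace Fermat.Agent.GC.Global.Adapter.EH

open Fermat.Agent.GC.Global

variable (L : IntermediateField ℚ Qb) [Normal ℚ L] [NumberField L] (T : Finset Nat.Primes)

/-- **AD6-E'**, helper97's shape. -/
theorem card_H1_E_layer {p : ℕ} (hp : p.Prime) (hp2 : p ≠ 2) (ζ : L) (hζ : IsPrimitiveRoot ζ p)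
    (V : Subgroup (L ≃ₐ[ℚ] L)) (hζV : ∀ h ∈ V, h ζ = ζ) (U' : Subgroup V) [U'.Normal]
    (hidx : U'.index = p) :
    Nat.card (groupCohomology ((Rep.res V.subtype (E L T)).quotientToInvariants U') 1) ≠ 0 ∧
    Nat.card (groupCohomology ((Rep.res V.subtype (E L T)).quotientToInvariants U') 2) ≠ 0 ∧
    Nat.card (groupCohomology ((Rep.res V.subtype (E L T)).quotientToInvariants U') 1) *
        p ^ (nonsplitPrimes V U' (Tprod T)).ncard =
      p * Nat.card (groupCohomology ((Rep.res V.subtype (E L T)).quotientToInvariants U') 2) := by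
  refine card_H1_E_pair L T hp V U' hidx ?_
  have hmem : ζ ∈ IntermediateField.fixedField V := by
    rw [IntermediateField.mem_fixedField_iff]
    exact hζV
  have hζ' : IsPrimitiveRoot (⟨ζ, hmem⟩ : IntermediateField.fixedField V) p :=
    IsPrimitiveRoot.coe_submonoidClass_iff.mp hζ
  have h2 : 2 < p := lt_of_le_of_ne hp.two_le (Ne.symm hp2)
  exact isTotallyComplex_of_isPrimitiveRoot h2 hζ'

end Fermat.Agent.GC.Global.Adapter.EH
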