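/-
GATE-C / C4 AD6 (helper97): FIRST INEQUALITY for the class module, arithmetic core.

For a short exact sequence `0 → E → J → C → 0` of `H`-modules (`H` cyclic of prime order `p`),
Herbrand multiplicativity (helper68's (EH-Rep)), the idele computation
`|H¹(H, J)| = 1`, `|H²(H, J)| = p ^ a` (Mackey + Hilbert 90 + local norm index; `a` = number of
non-split places of `T`) and the `T`-unit Herbrand quotient `|H¹(H, E)| * p ^ a = p * |H²(H, E)|`
(helper68's (B4)) give `|H²(H, C)| = p * |H¹(H, C)|`.

Everything is stated for abstract natural numbers / an abstract short complex, so the file does not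
depend on files still in flight.
-/
import Mathlib

set_option autoImplicit false

open CategoryTheory groupCohomology

universe u

namespace Fermat.Agent.GC.Global.Adapter.FirstIneq

/-- The arithmetic of the first inequality: from the multiplicativity relation
`j2 * e1 * c1 = j1 * e2 * c2`, `j1 = 1`, `j2 = p ^ a`, `e1 * p ^ a = p * e2`, `e2 ≠ 0`:
`c2 = p * c1`. -/
theorem herbrand_arith {p a j1 j2 e1 e2 c1 c2 : ℕ}
    (hEH : j2 * e1 * c1 = j1 * e2 * c2) (hj1 : j1 = 1) (hj2 : j2 = p ^ a)
    (he : e1 * p ^ a = p * e2) (he2 : e2 ≠ 0) : c2 = p * c1 := by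
  subst hj1 hj2
  have h1 : e2 * c2 = e2 * (p * c1) := by
    calc e2 * c2 = 1 * e2 * c2 := by ring
      _ = p ^ a * e1 * c1 := hEH.symm
      _ = (e1 * p ^ a) * c1 := by ring
      _ = (p * e2) * c1 := by rw [he]
      _ = e2 * (p * c1) := by ring
  exact Nat.eq_of_mul_eq_mul_left (Nat.pos_of_ne_zero he2) h1

/-- **AD6, hypothesis form.** `S` a short complex of `H`-modules `E → J → C`;
`hEH` = Herbrand multiplicativity for `S` (helper68 (EH-Rep), needs `S` short exact and `H`
finite cyclic); `hJ1`, `hJ2` = idele cohomology; `hE` = `T`-unit Herbrand quotient.  Then the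
Herbrand quotient of the class module is `p`. -/
theorem card_H2_eq_mul_card_H1 {k H : Type u} [CommRing k] [Group H]
    (S : ShortComplex (Rep.{u} k H)) (p a : ℕ)
    (hEH : Nat.card (groupCohomology S.X₂ 2) * Nat.card (groupCohomology S.X₁ 1) *
        Nat.card (groupCohomology S.X₃ 1) =
      Nat.card (groupCohomology S.X₂ 1) * Nat.card (groupCohomology S.X₁ 2) *
        Nat.card (groupCohomology S.X₃ 2))
    (hJ1 : Nat.card (groupCohomology S.X₂ 1) = 1)
    (hJ2 : Nat.card (groupCohomology S.X₂ 2) = p ^ a)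
    (hE : Nat.card (groupCohomology S.X₁ 1) * p ^ a = p * Nat.card (groupCohomology S.X₁ 2))
    (hE2 : Nat.card (groupCohomology S.X₁ 2) ≠ 0) :
    Nat.card (groupCohomology S.X₃ 2) = p * Nat.card (groupCohomology S.X₃ 1) :=
  herbrand_arith hEH hJ1 hJ2 hE hE2

/-- With the second inequality `|H²(H, C)| ∣ p` (AD5) and `|H¹(H, C)| ≠ 0` (finite): the layer
conclusion `|H¹(H, C)| = 1` and `|H²(H, C)| = p`. -/
theorem layer_of_first_second {p c1 c2 : ℕ} (hp : p.Prime) (h1 : c2 = p * c1) (h2 : c2 ∣ p)
    (hc1 : c1 ≠ 0) : c1 = 1 ∧ c2 = p := by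
  subst h1
  have hle : p * c1 ≤ p := Nat.le_of_dvd hp.pos h2
  have hc1' : c1 ≤ 1 := by
    by_contra hlt
    push Not at hlt
    have : p * 2 ≤ p * c1 := Nat.mul_le_mul_left p hlt
    have hp2 := hp.two_le
    omega
  have : c1 = 1 := by omega
  subst this
  exact ⟨rfl, by ring⟩

end Fermat.Agent.GC.Global.Adapter.FirstIneq
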