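/-
GATE-C / C4 (CL-GOODQ) instantiated at `C(L,T)` (helper97): helper14's `layerHypP_C` +
`GC/Global/GoodQuot.lean`.  For a good set `T`, `ζ_p ∈ L`, `p` odd, `V ≤ Gal(L/ℚ)` a `p`-subgroup:
* `good_quotient_layer_C` : `U' ◁ V` of ANY index ⟹ `H¹(V/U', C^{U'}) = 0`, `|H²(V/U', C^{U'})| ∣ [V:U']`;
* `norm_relIndex_dvd_C`, `card_quotient_norm_dvd_C`, `exists_relNormSub_eq_of_surjective_C` :
  for `V/U'` cyclic, `[C^V : N_{V/U'} C^{U'}] ∣ [V : U']` in helper55's `RelNorm` language, and the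
  counting criterion "a surjection of `C^V` onto a group of order `[V:U']` killing norms has kernel
  exactly the norms".
-/
import Mathlib
import Fermat.Agent.GC.Global.Adapter.LayerHJE
import Fermat.Agent.GC.Global.GoodQuot

set_option autoImplicit false
set_option linter.unusedSectionVars false

open CategoryTheory NumberField IsDedekindDomain

noncomputable section

namespace Fermat.Agent.GC.Global.Adapter.GoodQuotC

open Fermat.Agent.GC.Global.Adapter Fermat.Agent.GC.Global.DevissageP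
open Fermat.Agent.GC.Global.Devissage Fermat.Agent.GC.Global.GoodQuot
open Fermat.Agent.GC.Global.WRec

variable (L : IntermediateField ℚ Qb) [FiniteDimensional ℚ L] [IsGalois ℚ L]
  (T : Finset Nat.Primes)

theorem good_quotient_layer_C {p : ℕ} (hg : GoodT L T p) (hp : p.Prime) (hp2 : p ≠ 2) (ζ : L)
    (hζ : IsPrimitiveRoot ζ p) (V : Subgroup (L ≃ₐ[ℚ] L)) (hV : IsPGroup p V)
    (U' : Subgroup V) [U'.Normal] :
    Good ((Rep.res V.subtype (C L T)).quotientToInvariants U') :=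
  haveI : Fact p.Prime := ⟨hp⟩
  good_quotient_layer p (layerHypP_C L T hg hp hp2 ζ hζ) V hV U'

theorem norm_relIndex_dvd_C {p : ℕ} (hg : GoodT L T p) (hp : p.Prime) (hp2 : p ≠ 2) (ζ : L)
    (hζ : IsPrimitiveRoot ζ p) {V U' : Subgroup (L ≃ₐ[ℚ] L)} [(U'.subgroupOf V).Normal]
    (hV : IsPGroup p V) (hle : U' ≤ V) [IsCyclic (V ⧸ U'.subgroupOf V)] :
    (normSubmodule (C L T).ρ V U').toAddSubgroup.relIndex
      (invSubmodule (C L T).ρ V).toAddSubgroup ∣ U'.relIndex V :=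
  haveI : Fact p.Prime := ⟨hp⟩
  norm_relIndex_dvd p (layerHypP_C L T hg hp hp2 ζ hζ) hV hle

theorem card_quotient_norm_dvd_C {p : ℕ} (hg : GoodT L T p) (hp : p.Prime) (hp2 : p ≠ 2) (ζ : L)
    (hζ : IsPrimitiveRoot ζ p) {V U' : Subgroup (L ≃ₐ[ℚ] L)} [(U'.subgroupOf V).Normal]
    (hV : IsPGroup p V) (hle : U' ≤ V) [IsCyclic (V ⧸ U'.subgroupOf V)] :
    Nat.card (↥(invSubmodule (C L T).ρ V) ⧸
      (normSubmodule (C L T).ρ V U').submoduleOf (invSubmodule (C L T).ρ V)) ∣ U'.relIndex V :=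
  haveI : Fact p.Prime := ⟨hp⟩
  card_quotient_norm_dvd p (layerHypP_C L T hg hp hp2 ζ hζ) hV hle

theorem exists_relNormSub_eq_of_surjective_C {p : ℕ} (hg : GoodT L T p) (hp : p.Prime)
    (hp2 : p ≠ 2) (ζ : L) (hζ : IsPrimitiveRoot ζ p) {V U' : Subgroup (L ≃ₐ[ℚ] L)}
    [(U'.subgroupOf V).Normal] (hV : IsPGroup p V) (hle : U' ≤ V)
    [IsCyclic (V ⧸ U'.subgroupOf V)]
    {X : Type*} [AddCommGroup X] [Finite X] (θ : ↥(invSubmodule (C L T).ρ V) →+ X)
    (hθ : Function.Surjective θ) (hX : U'.relIndex V ≤ Nat.card X)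
    (hkill : ∀ (y : ↥(invSubmodule (C L T).ρ V)) (z : (C L T).V), IsInv (C L T).ρ U' z →
      relNormSub (C L T).ρ V U' z = (y : (C L T).V) → θ y = 0)
    (y : ↥(invSubmodule (C L T).ρ V)) (hy : θ y = 0) :
    ∃ z, IsInv (C L T).ρ U' z ∧ relNormSub (C L T).ρ V U' z = (y : (C L T).V) :=
  haveI : Fact p.Prime := ⟨hp⟩
  exists_relNormSub_eq_of_surjective p (layerHypP_C L T hg hp hp2 ζ hζ) hV hle θ hθ hX hkill y hy

end Fermat.Agent.GC.Global.Adapter.GoodQuotC
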