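/-
GATE-C / C4 adapter AD4 (helper60): **(h4)** — an element of `Kˣ` which is a local `p`-th power
(T14 precision `prec p v`) at all places above `T` becomes a `p`-th power in the `H`-invariant
`T`-ideles `J(L,T)^H` of helper14's coinduced model.

* `norm_sub_one_pow_lt_of_oneModPow` : `u ≡ 1 mod v^(prec p v)` ⇒ `‖σ u − 1‖^(p−1) < ‖σ p‖^p`
  (helper11's dictionary), i.e. `σ u` is in the domain of `nearRoot p` (HenselLocal.lean);
* `finiteDimensional_locField` : `L_q = ℚ_q(ι L)` is finite over `ℚ_q` for `L/ℚ` finite;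
* `henselFun` : `g ↦ ι (g (φ y_v)) · nearRoot p (ι (g (φ (x / y_v ^ p))))`, `v = placeOf (ι ∘ g ∘ φ)`;
  it is right-`H`-invariant (`henselFun_mul_of_fixed`), decomposition-equivariant
  (`henselFun_decHom_mul`, by uniqueness of the root near `1` and isometry of automorphisms) and
  `henselFun ^ p = ι ∘ g ∘ φ x` (`henselFun_pow`);
* `exists_pth_root_q`, `exists_pth_root_of_isLocalPow`, `exists_pth_root_invariants` : (h4).
-/
import Mathlib
import Fermat.Agent.GC.Global.ClassModule
import Fermat.Agent.GC.Global.Adapter.ValDictSI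
import Fermat.Agent.GC.Global.Adapter.Dense
import Fermat.Agent.GC.Global.Adapter.HenselLocal

set_option autoImplicit false
set_option linter.unusedSectionVars false

open scoped Padic NumberField
open IsDedekindDomain NumberField Fermat.Agent.S14.SI

noncomputable section

namespace Fermat.Agent.GC.Global.Adapter

open Fermat.Agent.GC.Global Fermat.Agent.GC.Local

section Num

variable (q : ℕ) [Fact q.Prime] {K : Type*} [Field K] [NumberField K] (σ : K →+* PadicAlgCl q)

/-- `‖σ p‖ = c ^ ord_v(p)` for any natural number `p ≠ 0`. -/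
theorem norm_map_natCast_eq {p : ℕ} (hp : p ≠ 0) :
    ‖σ (p : K)‖ = placeConst q σ ^ ordP p (placeIdeal q σ) := by
  have hp0 : (p : 𝓞 K) ≠ 0 := by exact_mod_cast hp
  have h := norm_eq_placeConst_pow_multiplicity q σ hp0
  have hcoe : ((p : 𝓞 K) : K) = (p : K) := by simp
  rw [hcoe] at h
  exact h

/-- The numerical heart of (h4): `u ≡ 1 mod v ^ (prec p v)` puts `σ u` in the domain of the
`p`-th root near `1`. -/
theorem norm_sub_one_pow_lt_of_oneModPow {p : ℕ} (hp : p.Prime) {u : Kˣ}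
    (hu : OneModPow (placeIdeal q σ) (prec p (placeIdeal q σ)) u) :
    ‖σ (u : K) - 1‖ ^ (p - 1) < ‖σ (p : K)‖ ^ p := by
  have hc0 := placeConst_pos q σ
  have hc1 := placeConst_lt_one q σ
  have h1 := norm_sub_one_le_of_oneModPow q σ hu
  rw [norm_map_natCast_eq q σ hp.ne_zero, ← pow_mul]
  have hp1 : 0 < p - 1 := by have := hp.two_le; omega
  have hlt : ordP p (placeIdeal q σ) * p < prec p (placeIdeal q σ) * (p - 1) := by
    unfold prec
    have := Nat.lt_mul_div_succ (p * ordP p (placeIdeal q σ)) hp1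
    calc ordP p (placeIdeal q σ) * p = p * ordP p (placeIdeal q σ) := mul_comm _ _
      _ < (p - 1) * (p * ordP p (placeIdeal q σ) / (p - 1) + 1) := this
      _ = _ := mul_comm _ _
  calc ‖σ (u : K) - 1‖ ^ (p - 1)
      ≤ (placeConst q σ ^ prec p (placeIdeal q σ)) ^ (p - 1) :=
        pow_le_pow_left₀ (norm_nonneg _) h1 _
    _ = placeConst q σ ^ (prec p (placeIdeal q σ) * (p - 1)) := (pow_mul _ _ _).symm
    _ < placeConst q σ ^ (ordP p (placeIdeal q σ) * p) :=
        pow_lt_pow_right_of_lt_one₀ hc0 hc1 hlt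

end Num

section LocField

variable (q : ℕ) [Fact q.Prime] (L : IntermediateField ℚ Qb)

theorem locField_eq_sigField :
    locField q L = sigField q ((padicEmbedding q).toRingHom.comp (algebraMap L Qb)) := by
  unfold locField sigField
  congr 1
  ext z
  constructor
  · rintro ⟨x, hx, rfl⟩
    exact ⟨⟨x, hx⟩, rfl⟩
  · rintro ⟨x, rfl⟩
    exact ⟨x, x.2, rfl⟩

instance finiteDimensional_locField [FiniteDimensional ℚ L] :
    FiniteDimensional ℚ_[q] (locField q L) := by
  rw [locField_eq_sigField]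
  exact finiteDimensional_sigField q _

end LocField


section PerQ

variable (q : ℕ) [Fact q.Prime] (L : IntermediateField ℚ Qb)
  {K : Type*} [Field K] [NumberField K] (φ : K →+* L)

/-- the embedding `K → L_q` attached to `g ∈ G_L`: `k ↦ ι (g (φ k))` -/
def sigOf (g : L ≃ₐ[ℚ] L) : K →+* locField q L :=
  ((locEmb q L : L →+* locField q L)).comp (((g : L ≃ₐ[ℚ] L) : L →+* L).comp φ)

@[simp] theorem sigOf_apply (g : L ≃ₐ[ℚ] L) (k : K) :
    sigOf q L φ g k = locEmb q L (g (φ k)) := rfl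

/-- the same embedding with values in `PadicAlgCl q` -/
def sigOfCl (g : L ≃ₐ[ℚ] L) : K →+* PadicAlgCl q :=
  (algebraMap (locField q L) (PadicAlgCl q)).comp (sigOf q L φ g)

@[simp] theorem sigOfCl_apply (g : L ≃ₐ[ℚ] L) (k : K) :
    sigOfCl q L φ g k = ((sigOf q L φ g k : locField q L) : PadicAlgCl q) := rfl

theorem norm_sigOfCl (g : L ≃ₐ[ℚ] L) (k : K) : ‖sigOfCl q L φ g k‖ = ‖sigOf q L φ g k‖ := rfl

theorem sigOf_mul_of_fixed (g h : L ≃ₐ[ℚ] L) (hh : ∀ k : K, h (φ k) = φ k) :
    sigOf q L φ (g * h) = sigOf q L φ g := by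
  ext k
  simp only [sigOf_apply, AlgEquiv.mul_apply, hh]

variable [Normal ℚ L]

theorem sigOf_decHom_mul (d : locField q L ≃ₐ[ℚ_[q]] locField q L) (g : L ≃ₐ[ℚ] L) :
    sigOf q L φ (decHom q L d * g)
      = ((d : locField q L ≃ₐ[ℚ_[q]] locField q L) : locField q L →+* locField q L).comp
          (sigOf q L φ g) := by
  ext k
  simp only [sigOf_apply, AlgEquiv.mul_apply, RingHom.comp_apply]
  rw [locEmb_decHom]
  rfl

variable [FiniteDimensional ℚ L]

theorem placeOf_sigOfCl_decHom_mul (d : locField q L ≃ₐ[ℚ_[q]] locField q L) (g : L ≃ₐ[ℚ] L) :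
    placeOf q (sigOfCl q L φ (decHom q L d * g)) = placeOf q (sigOfCl q L φ g) := by
  ext x
  simp only [mem_placeOf_iff, norm_sigOfCl, sigOf_decHom_mul, RingHom.comp_apply]
  have := norm_algEquiv_apply q (locField q L) d (sigOf q L φ g (x : K))
  rw [← this]
  rfl

end PerQ


section Main

variable (q : ℕ) [Fact q.Prime] (L : IntermediateField ℚ Qb) [Normal ℚ L] [FiniteDimensional ℚ L]
  {K : Type*} [Field K] [NumberField K] (φ : K →+* L)

/-- the candidate `p`-th root of `ι (g (φ x))`: `ι (g (φ y_v)) · (root near 1 of ι (g (φ (x / y_v ^ p))))`,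
`v` the place of `K` cut out by `ι ∘ g ∘ φ`. -/
def henselFun (p : ℕ) (x : Kˣ) (y : HeightOneSpectrum (𝓞 K) → Kˣ) (g : L ≃ₐ[ℚ] L) :
    locField q L :=
  sigOf q L φ g ((y (placeOf q (sigOfCl q L φ g)) : Kˣ) : K) *
    nearRoot p (sigOf q L φ g ((x / y (placeOf q (sigOfCl q L φ g)) ^ p : Kˣ) : K))

variable {p : ℕ} (hp : p.Prime) (x : Kˣ) (y : HeightOneSpectrum (𝓞 K) → Kˣ)
  (hy : ∀ v : HeightOneSpectrum (𝓞 K), (q : 𝓞 K) ∈ v.asIdeal →
      OneModPow v.asIdeal (prec p v.asIdeal) (x / y v ^ p))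

include hp hy in
theorem norm_sigOf_sub_one_pow_lt (g : L ≃ₐ[ℚ] L) :
    ‖sigOf q L φ g ((x / y (placeOf q (sigOfCl q L φ g)) ^ p : Kˣ) : K) - 1‖ ^ (p - 1)
      < ‖(p : locField q L)‖ ^ p := by
  have hu := hy (placeOf q (sigOfCl q L φ g)) (natCast_q_mem_placeIdeal q (sigOfCl q L φ g))
  have h := norm_sub_one_pow_lt_of_oneModPow q (sigOfCl q L φ g) hp hu
  have h1 : sigOfCl q L φ g (p : K) = ((p : locField q L) : PadicAlgCl q) := by
    rw [map_natCast]; simp
  rw [h1] at h
  exact h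

include hp hy in
theorem henselFun_pow (g : L ≃ₐ[ℚ] L) :
    henselFun q L φ p x y g ^ p = sigOf q L φ g (x : K) := by
  unfold henselFun
  rw [mul_pow, nearRoot_pow q (locField q L) hp _ (norm_sigOf_sub_one_pow_lt q L φ hp x y hy g),
    ← map_pow, ← map_mul]
  congr 1
  rw [← Units.val_pow_eq_pow_val, ← Units.val_mul, mul_div_cancel]

include hp hy in
theorem henselFun_ne_zero (g : L ≃ₐ[ℚ] L) : henselFun q L φ p x y g ≠ 0 := by
  intro h
  have h2 := henselFun_pow q L φ hp x y hy g
  rw [h, zero_pow hp.ne_zero] at h2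
  have : sigOf q L φ g (x : K) ≠ 0 := by
    rw [Ne, map_eq_zero]; exact x.ne_zero
  exact this h2.symm

theorem henselFun_mul_of_fixed (g h : L ≃ₐ[ℚ] L) (hh : ∀ k : K, h (φ k) = φ k) :
    henselFun q L φ p x y (g * h) = henselFun q L φ p x y g := by
  unfold henselFun sigOfCl
  rw [sigOf_mul_of_fixed q L φ g h hh]

include hp hy in
theorem henselFun_decHom_mul (d : locField q L ≃ₐ[ℚ_[q]] locField q L) (g : L ≃ₐ[ℚ] L) :
    henselFun q L φ p x y (decHom q L d * g) = d (henselFun q L φ p x y g) := by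
  unfold henselFun
  rw [placeOf_sigOfCl_decHom_mul, sigOf_decHom_mul, map_mul]
  simp only [RingHom.comp_apply]
  congr 1
  exact (map_nearRoot q (locField q L) hp
    ((d : locField q L ≃ₐ[ℚ_[q]] locField q L) : locField q L →+* locField q L)
    (fun z => norm_algEquiv_apply q (locField q L) d z) _
    (norm_sigOf_sub_one_pow_lt q L φ hp x y hy g)).symm


include hp in
/-- **(h4), `q`-component.** If `x ∈ Kˣ` is a local `p`-th power (precision `prec p v`) at every
place `v ∣ q` of `K`, then `diag x` is `p` times an `H`-invariant element of `J_q(L)`; here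
`φ : K → L` is any embedding whose image is fixed by `H` (in use: `K = L^H`). -/
theorem exists_pth_root_q (H : Subgroup (L ≃ₐ[ℚ] L)) (hH : ∀ h ∈ H, ∀ k : K, h (φ k) = φ k)
    (hx : ∀ v : HeightOneSpectrum (𝓞 K), (q : 𝓞 K) ∈ v.asIdeal →
      IsLocalPow p v.asIdeal (prec p v.asIdeal) x) :
    ∃ f : Representation.coindV (decHom q L) (locUnits q L).ρ,
      (∀ h ∈ H, ∀ g, f.1 (g * h) = f.1 g) ∧
      ∀ g, p • f.1 g = diagqFun q L (Units.map (φ : K →* L) x) g := by
  choose! y hy using hx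
  have hy' : ∀ v : HeightOneSpectrum (𝓞 K), (q : 𝓞 K) ∈ v.asIdeal →
      OneModPow v.asIdeal (prec p v.asIdeal) (x / y v ^ p) := hy
  let F : (L ≃ₐ[ℚ] L) → Additive (locField q L)ˣ := fun g =>
    Additive.ofMul (Units.mk0 (henselFun q L φ p x y g) (henselFun_ne_zero q L φ hp x y hy' g))
  have hF : F ∈ Representation.coindV (decHom q L) (locUnits q L).ρ := by
    intro d g
    apply Additive.toMul.injective
    ext
    have h1 : (((F (decHom q L d * g)).toMul : (locField q L)ˣ) : locField q L)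
        = henselFun q L φ p x y (decHom q L d * g) := rfl
    have h2 : ((Additive.toMul (α := (locField q L)ˣ) ((locUnits q L).ρ d (F g)) :
        (locField q L)ˣ) : locField q L) = d (henselFun q L φ p x y g) := rfl
    rw [h1, h2, henselFun_decHom_mul q L φ hp x y hy' d g]
  refine ⟨⟨F, hF⟩, ?_, ?_⟩
  · intro h hh g
    show F (g * h) = F g
    apply (Additive.toMul (α := (locField q L)ˣ)).injective
    apply Units.ext
    exact henselFun_mul_of_fixed q L φ (p := p) x y g h (hH h hh)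
  · intro g
    show p • F g = diagqFun q L (Units.map (φ : K →* L) x) g
    apply (Additive.toMul (α := (locField q L)ˣ)).injective
    apply Units.ext
    have h1 : ((Additive.toMul (p • F g) : (locField q L)ˣ) : locField q L)
        = henselFun q L φ p x y g ^ p := rfl
    rw [h1, henselFun_pow q L φ hp x y hy' g]
    rfl

end Main


section Assemble

variable (L : IntermediateField ℚ Qb) [Normal ℚ L] [FiniteDimensional ℚ L]
  (T : Finset Nat.Primes) {K : Type*} [Field K] [NumberField K] (φ : K →+* L)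

/-- **(h4).** Let `φ : K → L` be an embedding of a number field whose image is fixed by
`H ≤ G_L` (in use: `K = L^H`).  If `x ∈ Kˣ` is a local `p`-th power (T14 precision `prec p v`)
at every place `v` of `K` above a prime of `T`, then `diag x = p • z` for an `H`-invariant
`T`-idele `z` of `L`. -/
theorem exists_pth_root_of_isLocalPow {p : ℕ} (hp : p.Prime)
    (H : Subgroup (L ≃ₐ[ℚ] L)) (hH : ∀ h ∈ H, ∀ k : K, h (φ k) = φ k) (x : Kˣ)
    (hx : ∀ q ∈ T, ∀ v : HeightOneSpectrum (𝓞 K), (((q : Nat.Primes) : ℕ) : 𝓞 K) ∈ v.asIdeal →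
      IsLocalPow p v.asIdeal (prec p v.asIdeal) x) :
    ∃ z : J L T, (∀ h ∈ H, (J L T).ρ h z = z) ∧
      (diag L T).hom (Additive.ofMul (Units.map (φ : K →* L) x)) = p • z := by
  have key : ∀ q : T, ∃ f : JqCarrier L q,
      (∀ h ∈ H, ∀ g, f.1 (g * h) = f.1 g) ∧
      ∀ g, p • f.1 g = diagqFun ((q : Nat.Primes) : ℕ) L (Units.map (φ : K →* L) x) g :=
    fun q => exists_pth_root_q ((q : Nat.Primes) : ℕ) L φ hp x H hH (hx q.1 q.2)
  choose z hz1 hz2 using key
  refine ⟨fun q => z q, ?_, ?_⟩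
  · intro h hh
    funext q
    apply Subtype.ext
    funext g
    exact hz1 q h hh g
  · funext q
    apply Subtype.ext
    funext g
    exact (hz2 q g).symm

/-- (h4) with the root in the invariants submodule of `Res_H (J L T)`. -/
theorem exists_pth_root_invariants {p : ℕ} (hp : p.Prime)
    (H : Subgroup (L ≃ₐ[ℚ] L)) (hH : ∀ h ∈ H, ∀ k : K, h (φ k) = φ k) (x : Kˣ)
    (hx : ∀ q ∈ T, ∀ v : HeightOneSpectrum (𝓞 K), (((q : Nat.Primes) : ℕ) : 𝓞 K) ∈ v.asIdeal →
      IsLocalPow p v.asIdeal (prec p v.asIdeal) x) :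
    ∃ z : (Rep.res H.subtype (J L T)).ρ.invariants,
      (diag L T).hom (Additive.ofMul (Units.map (φ : K →* L) x)) = p • (z : J L T) := by
  obtain ⟨z, hz1, hz2⟩ := exists_pth_root_of_isLocalPow L T φ hp H hH x hx
  exact ⟨⟨z, fun h => hz1 h.1 h.2⟩, hz2⟩


end Assemble

end Fermat.Agent.GC.Global.Adapter
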