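/-
GATE-C / C4 adapter AD4 (helper60): (h4) in the exact shape of helper51's engine
(`GC.Kummer.second_inequality_of_model`, hypothesis `h4`), with `x ∈ GC.Kummer.locPow p S`.
-/
import Fermat.Agent.GC.Global.Adapter.Hensel
import Fermat.Agent.GC.Kummer.Count

set_option autoImplicit false
set_option linter.unusedSectionVars false

open scoped Padic NumberField
open IsDedekindDomain NumberField Fermat.Agent.S14.SI

noncomputable section

namespace Fermat.Agent.GC.Global.Adapter

open Fermat.Agent.GC.Global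

variable (L : IntermediateField ℚ Qb) [Normal ℚ L] [FiniteDimensional ℚ L]
  (T : Finset Nat.Primes) {K : Type*} [Field K] [NumberField K] (φ : K →+* L)

/-- **(h4), engine form.** `S` contains all places of `K` above `T`; then every `x ∈ 𝒦_S =
GC.Kummer.locPow p S` satisfies `diag x = p • z` with `z ∈ J(L,T)^H`. -/
theorem exists_pth_root_of_mem_locPow {p : ℕ} (hp : p.Prime)
    (H : Subgroup (L ≃ₐ[ℚ] L)) (hH : ∀ h ∈ H, ∀ k : K, h (φ k) = φ k)
    (S : Finset (HeightOneSpectrum (𝓞 K)))
    (hS : ∀ q ∈ T, ∀ v : HeightOneSpectrum (𝓞 K),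
      (((q : Nat.Primes) : ℕ) : 𝓞 K) ∈ v.asIdeal → v ∈ S)
    (x : Kˣ) (hx : x ∈ Fermat.Agent.GC.Kummer.locPow p S) :
    ∃ z : (Rep.res H.subtype (J L T)).ρ.invariants,
      (diag L T).hom (Additive.ofMul (Units.map (φ : K →* L) x)) = p • (z : J L T) :=
  exists_pth_root_invariants L T φ hp H hH x fun q hq v hv =>
    (Fermat.Agent.GC.Kummer.mem_locPow.1 hx) v (hS q hq v hv)

end Fermat.Agent.GC.Global.Adapter
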