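/-
GATE-C / C4 adapter AD4 (helper60): (h4) stated with helper14's `JInv L H T` (InvJ.lean).
-/
import Fermat.Agent.GC.Global.Adapter.Hensel
import Fermat.Agent.GC.Global.Adapter.InvJ

set_option autoImplicit false
set_option linter.unusedSectionVars false

open scoped Padic NumberField
open IsDedekindDomain NumberField Fermat.Agent.S14.SI

noncomputable section

namespace Fermat.Agent.GC.Global.Adapter

open Fermat.Agent.GC.Global

variable (L : IntermediateField ℚ Qb) [FiniteDimensional ℚ L] [IsGalois ℚ L]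
  (T : Finset Nat.Primes) {K : Type*} [Field K] [NumberField K] (φ : K →+* L)

/-- **(h4)** in `JInv` form: `diag (φ x) = p • z` with `z ∈ JInv L H T`. -/
theorem exists_pth_root_mem_JInv {p : ℕ} (hp : p.Prime)
    (H : Subgroup (L ≃ₐ[ℚ] L)) (hH : ∀ h ∈ H, ∀ k : K, h (φ k) = φ k) (x : Kˣ)
    (hx : ∀ q ∈ T, ∀ v : HeightOneSpectrum (𝓞 K), (((q : Nat.Primes) : ℕ) : 𝓞 K) ∈ v.asIdeal →
      IsLocalPow p v.asIdeal (prec p v.asIdeal) x) :
    ∃ z ∈ JInv L H T,
      (diag L T).hom (Additive.ofMul (Units.map (φ : K →* L) x)) = p • z := by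
  obtain ⟨z, hz1, hz2⟩ := exists_pth_root_of_isLocalPow L T φ hp H hH x hx
  exact ⟨z, (mem_JInv_iff_rho L H T).2 hz1, hz2⟩

/-- (h4) for `K = L^H` itself (`φ` = the inclusion of the fixed field). -/
theorem exists_pth_root_fixedField {p : ℕ} (hp : p.Prime) (H : Subgroup (L ≃ₐ[ℚ] L))
    [NumberField ↥(IntermediateField.fixedField H)]
    (x : (↥(IntermediateField.fixedField H))ˣ)
    (hx : ∀ q ∈ T, ∀ v : HeightOneSpectrum (𝓞 ↥(IntermediateField.fixedField H)),
      (((q : Nat.Primes) : ℕ) : 𝓞 ↥(IntermediateField.fixedField H)) ∈ v.asIdeal →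
      IsLocalPow p v.asIdeal (prec p v.asIdeal) x) :
    ∃ z ∈ JInv L H T,
      (diag L T).hom (Additive.ofMul
        (Units.map ((algebraMap ↥(IntermediateField.fixedField H) ↥L : _ →+* _) : _ →* _) x))
        = p • z :=
  exists_pth_root_mem_JInv L T (algebraMap ↥(IntermediateField.fixedField H) ↥L) hp H
    (fun h hh k => k.2 ⟨h, hh⟩) x hx

end Fermat.Agent.GC.Global.Adapter
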