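/-
GATE-C / C4 adapter AD4' (helper60): (h4) for the RAY engine (helper77's
`GC.RaySI.index_dvd_of_model`): integers `a ≡ 1 mod m`, for a modulus `m` deep enough at the
places above `T`, become `p`-th powers in the `H`-invariant `T`-ideles.
-/
import Fermat.Agent.GC.Global.Adapter.HenselInv

set_option autoImplicit false
set_option linter.unusedSectionVars false

open scoped Padic NumberField
open IsDedekindDomain NumberField Fermat.Agent.S14.SI

noncomputable section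

namespace Fermat.Agent.GC.Global.Adapter

open Fermat.Agent.GC.Global

section Local

variable {K : Type*} [Field K] [NumberField K]

/-- an integer `a ≡ 1 mod v ^ n` (`n ≥ 1`) is `≡ 1 mod v ^ n` in the sense of `OneModPow` -/
theorem oneModPow_of_sub_one_mem (v : HeightOneSpectrum (𝓞 K)) {n : ℕ} (hn : n ≠ 0) (a : 𝓞 K)
    (ha : a - 1 ∈ v.asIdeal ^ n) (x : Kˣ) (hxa : (x : K) = algebraMap (𝓞 K) K a) :
    OneModPow v.asIdeal n x := by
  have h1 : (1 : 𝓞 K) ∉ v.asIdeal := fun h =>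
    v.isPrime.ne_top ((Ideal.eq_top_iff_one _).2 h)
  have hav : a ∉ v.asIdeal := by
    intro h
    apply h1
    have h2 : a - 1 ∈ v.asIdeal := Ideal.pow_le_self hn ha
    have : (1 : 𝓞 K) = a - (a - 1) := by ring
    rw [this]
    exact Ideal.sub_mem _ h h2
  exact ⟨a, 1, hav, h1, ha, by rw [hxa]; simp⟩

/-- … hence a local `p`-th power at precision `n`. -/
theorem isLocalPow_of_sub_one_mem (p : ℕ) (v : HeightOneSpectrum (𝓞 K)) {n : ℕ} (hn : n ≠ 0)
    (a : 𝓞 K) (ha : a - 1 ∈ v.asIdeal ^ n) (x : Kˣ) (hxa : (x : K) = algebraMap (𝓞 K) K a) :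
    IsLocalPow p v.asIdeal n x :=
  ⟨1, by simpa using oneModPow_of_sub_one_mem v hn a ha x hxa⟩

theorem prec_ne_zero (p : ℕ) (v : Ideal (𝓞 K)) : prec p v ≠ 0 := Nat.succ_ne_zero _

/-- The modulus `∏_{v ∈ S} v ^ prec p v`. -/
def henselModulus (p : ℕ) (S : Finset (HeightOneSpectrum (𝓞 K))) : Ideal (𝓞 K) :=
  ∏ v ∈ S, v.asIdeal ^ prec p v.asIdeal

theorem henselModulus_ne_bot (p : ℕ) (S : Finset (HeightOneSpectrum (𝓞 K))) :
    henselModulus p S ≠ ⊥ := by
  unfold henselModulus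
  rw [← Ideal.zero_eq_bot, Finset.prod_ne_zero_iff]
  intro v _
  exact pow_ne_zero _ (by rw [Ideal.zero_eq_bot]; exact v.ne_bot)

theorem henselModulus_le (p : ℕ) (S : Finset (HeightOneSpectrum (𝓞 K)))
    {v : HeightOneSpectrum (𝓞 K)} (hv : v ∈ S) :
    henselModulus p S ≤ v.asIdeal ^ prec p v.asIdeal :=
  Ideal.le_of_dvd (Finset.dvd_prod_of_mem (fun v : HeightOneSpectrum (𝓞 K) =>
    v.asIdeal ^ prec p v.asIdeal) hv)

/-- every prime containing the modulus is in `S` -/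
theorem mem_of_henselModulus_le (p : ℕ) (S : Finset (HeightOneSpectrum (𝓞 K)))
    {v : HeightOneSpectrum (𝓞 K)} (hv : henselModulus p S ≤ v.asIdeal) : v ∈ S := by
  unfold henselModulus at hv
  obtain ⟨w, hw, hwv⟩ := (Ideal.IsPrime.prod_le v.isPrime).1 hv
  have h1 : w.asIdeal ≤ v.asIdeal := Ideal.IsPrime.le_of_pow_le hwv
  have h2 : w.asIdeal = v.asIdeal :=
    (w.isMaximal.eq_of_le v.isPrime.ne_top h1)
  have : w = v := HeightOneSpectrum.ext h2
  exact this ▸ hw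

end Local

variable (L : IntermediateField ℚ Qb) [FiniteDimensional ℚ L] [IsGalois ℚ L]
  (T : Finset Nat.Primes) {K : Type*} [Field K] [NumberField K] (φ : K →+* L)

/-- **(h4) for the ray engine.** If `m ⊆ v ^ prec p v` for all places `v` of `K` above `T`, every
integer `a ≡ 1 mod m` satisfies `diag a = p • z` with `z ∈ JInv L H T`. -/
theorem exists_pth_root_of_sub_one_mem {p : ℕ} (hp : p.Prime)
    (H : Subgroup (L ≃ₐ[ℚ] L)) (hH : ∀ h ∈ H, ∀ k : K, h (φ k) = φ k)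
    (m : Ideal (𝓞 K))
    (hm : ∀ q ∈ T, ∀ v : HeightOneSpectrum (𝓞 K), (((q : Nat.Primes) : ℕ) : 𝓞 K) ∈ v.asIdeal →
      m ≤ v.asIdeal ^ prec p v.asIdeal)
    (a : 𝓞 K) (ham : a - 1 ∈ m) (x : Kˣ) (hxa : (x : K) = algebraMap (𝓞 K) K a) :
    ∃ z ∈ JInv L H T,
      (diag L T).hom (Additive.ofMul (Units.map (φ : K →* L) x)) = p • z :=
  exists_pth_root_mem_JInv L T φ hp H hH x fun q hq v hv =>
    isLocalPow_of_sub_one_mem p v (prec_ne_zero p v.asIdeal) a (hm q hq v hv ham) x hxa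

/-- The same with the explicit modulus `henselModulus p S`, `S ⊇` the places above `T`. -/
theorem exists_pth_root_of_sub_one_mem_henselModulus {p : ℕ} (hp : p.Prime)
    (H : Subgroup (L ≃ₐ[ℚ] L)) (hH : ∀ h ∈ H, ∀ k : K, h (φ k) = φ k)
    (S : Finset (HeightOneSpectrum (𝓞 K)))
    (hS : ∀ q ∈ T, ∀ v : HeightOneSpectrum (𝓞 K),
      (((q : Nat.Primes) : ℕ) : 𝓞 K) ∈ v.asIdeal → v ∈ S)
    (a : 𝓞 K) (ham : a - 1 ∈ henselModulus p S) (x : Kˣ)
    (hxa : (x : K) = algebraMap (𝓞 K) K a) :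
    ∃ z ∈ JInv L H T,
      (diag L T).hom (Additive.ofMul (Units.map (φ : K →* L) x)) = p • z :=
  exists_pth_root_of_sub_one_mem L T φ hp H hH (henselModulus p S)
    (fun q hq v hv => henselModulus_le p S (hS q hq v hv)) a ham x hxa

end Fermat.Agent.GC.Global.Adapter
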