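/-
GATE-C / C4 (LY-1), helper97: FIRST INEQUALITY for a quotient layer, assembly in hypothesis form.

Abstract part (`layer_first_inequality`): `X : 0 → E → J → C → 0` short exact in `Rep k G`,
`V ≤ G`, `U' ◁ V` of prime index `p`, `Q := V ⧸ U'`.  Inputs:
* `hE1` : `H¹(U', E) = 0`                                            [(LY-H1), helper79]
* `hJ1`, `hJ2` : `H¹(Q, J^{U'}) = 0`, `|H²(Q, J^{U'})| = p ^ a`      [MACKEY-INV, helper72]
* `hE`  : `|H¹(Q, E^{U'})| * p ^ a = p * |H²(Q, E^{U'})|`, both `≠ 0`  [AD6-E, helper68]
Output: `H¹(Q, C^{U'})`, `H²(Q, C^{U'})` finite and `|H²(Q, C^{U'})| = p * |H¹(Q, C^{U'})|`.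

Model part: the same for `classShortComplex L T`, and `layerHypP_C_of_inputs`: with the second
inequality `|H²(Q, C^{U'})| ∣ p` [(LY-2), helper14] this gives `LayerHypP p (C L T)`, hence (by
`DevissageP`) the `p`-primary class-formation statements for `C L T`.
-/
import Mathlib
import Fermat.Agent.GC.Tate.HerbrandRep
import Fermat.Agent.GC.Global.InvExact
import Fermat.Agent.GC.Global.DevissageP
import Fermat.Agent.GC.Global.ClassModule
import Fermat.Agent.GC.Global.Adapter.FirstIneq

set_option autoImplicit false

open CategoryTheory groupCohomology Rep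
open Fermat.Agent.GC.Global.InvExact Fermat.Agent.GC.Global.DevissageP

universe u

namespace Fermat.Agent.GC.Global.Adapter.Layer1

section Abstract

variable {k G : Type u} [CommRing k] [Group G]

/-- A group of prime order has a generator. -/
theorem exists_generator_of_card_prime {Q : Type u} [Group Q] {p : ℕ} (hp : p.Prime)
    (hQ : Nat.card Q = p) : ∃ g : Q, ∀ x : Q, x ∈ Subgroup.zpowers g := by
  have : Fact p.Prime := ⟨hp⟩
  have := isCyclic_of_prime_card hQ
  exact IsCyclic.exists_generator

/-- **(LY-1), abstract form.** -/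
theorem layer_first_inequality {X : ShortComplex (Rep.{u} k G)} (hX : X.ShortExact)
    (V : Subgroup G) (U' : Subgroup V) [U'.Normal] {p a : ℕ} (hp : p.Prime) (hidx : U'.index = p)
    (hE1 : Limits.IsZero (groupCohomology (res U'.subtype (res V.subtype X.X₁)) 1))
    (hJ1 : Limits.IsZero (groupCohomology ((res V.subtype X.X₂).quotientToInvariants U') 1))
    (hJ2 : Nat.card (groupCohomology ((res V.subtype X.X₂).quotientToInvariants U') 2) = p ^ a)
    (hE : Nat.card (groupCohomology ((res V.subtype X.X₁).quotientToInvariants U') 1) * p ^ a =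
      p * Nat.card (groupCohomology ((res V.subtype X.X₁).quotientToInvariants U') 2))
    (hE1ne : Nat.card (groupCohomology ((res V.subtype X.X₁).quotientToInvariants U') 1) ≠ 0)
    (hE2ne : Nat.card (groupCohomology ((res V.subtype X.X₁).quotientToInvariants U') 2) ≠ 0) :
    Finite (groupCohomology ((res V.subtype X.X₃).quotientToInvariants U') 1) ∧
      Finite (groupCohomology ((res V.subtype X.X₃).quotientToInvariants U') 2) ∧
      Nat.card (groupCohomology ((res V.subtype X.X₃).quotientToInvariants U') 2) =
        p * Nat.card (groupCohomology ((res V.subtype X.X₃).quotientToInvariants U') 1) := by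
  classical
  have hQcard : Nat.card (V ⧸ U') = p := by rw [← hidx]; rfl
  have : Finite (V ⧸ U') := Nat.finite_of_card_ne_zero (by rw [hQcard]; exact hp.ne_zero)
  have : Fintype (V ⧸ U') := Fintype.ofFinite _
  obtain ⟨g, hg⟩ := exists_generator_of_card_prime hp hQcard
  -- the layer sequence of `V ⧸ U'`-modules
  have hY := shortExact_layer hX V U' hE1
  set Y := (X.map (resFunctor V.subtype)).map (quotientToInvariantsFunctor k U') with hYdef
  have hJ1c : Nat.card (groupCohomology Y.X₂ 1) = 1 := by
    have : Subsingleton (groupCohomology Y.X₂ 1) := ModuleCat.subsingleton_of_isZero hJ1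
    exact Nat.card_unique
  have hEH := Fermat.Agent.GC.HerbExact.card_H2_mul_card_H1_of_shortExact g hg hY
  have hne := Fermat.Agent.GC.HerbExact.card_ne_zero_of_shortExact g hg hY hE1ne hE2ne
    (by rw [hJ1c]; exact one_ne_zero)
    (by
      show Nat.card (groupCohomology ((res V.subtype X.X₂).quotientToInvariants U') 2) ≠ 0
      rw [hJ2]; exact pow_ne_zero _ hp.ne_zero)
  refine ⟨Nat.finite_of_card_ne_zero hne.1, Nat.finite_of_card_ne_zero hne.2, ?_⟩
  exact FirstIneq.card_H2_eq_mul_card_H1 Y p a hEH hJ1c hJ2 hE hE2ne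

end Abstract

section Model

open Fermat.Agent.GC.Global

variable (L : IntermediateField ℚ Qb) [Normal ℚ L] (T : Finset Nat.Primes)

/-- **(LY-1) for the `T`-idele class module `C L T`**, hypothesis form. -/
theorem layer_first_inequality_C (hT : T.Nonempty) (V : Subgroup (L ≃ₐ[ℚ] L)) (U' : Subgroup V)
    [U'.Normal] {p a : ℕ} (hp : p.Prime) (hidx : U'.index = p)
    (hE1 : Limits.IsZero (groupCohomology (res U'.subtype (res V.subtype (E L T))) 1))
    (hJ1 : Limits.IsZero (groupCohomology ((res V.subtype (J L T)).quotientToInvariants U') 1))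
    (hJ2 : Nat.card (groupCohomology ((res V.subtype (J L T)).quotientToInvariants U') 2) = p ^ a)
    (hE : Nat.card (groupCohomology ((res V.subtype (E L T)).quotientToInvariants U') 1) * p ^ a =
      p * Nat.card (groupCohomology ((res V.subtype (E L T)).quotientToInvariants U') 2))
    (hE1ne : Nat.card (groupCohomology ((res V.subtype (E L T)).quotientToInvariants U') 1) ≠ 0)
    (hE2ne : Nat.card (groupCohomology ((res V.subtype (E L T)).quotientToInvariants U') 2) ≠ 0) :
    Finite (groupCohomology ((res V.subtype (C L T)).quotientToInvariants U') 1) ∧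
      Finite (groupCohomology ((res V.subtype (C L T)).quotientToInvariants U') 2) ∧
      Nat.card (groupCohomology ((res V.subtype (C L T)).quotientToInvariants U') 2) =
        p * Nat.card (groupCohomology ((res V.subtype (C L T)).quotientToInvariants U') 1) :=
  layer_first_inequality (X := classShortComplex L T) (classShortComplex_shortExact L T hT)
    V U' hp hidx hE1 hJ1 hJ2 hE hE1ne hE2ne

/-- **LAYER for `C L T` from its five inputs**: (LY-H1) `H¹(U', E) = 0`, MACKEY-INV for `J^{U'}`,
AD6-E for `E^{U'}` (same exponent `a`), and the second inequality (LY-2). -/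
theorem layerHypP_C_of_inputs (hT : T.Nonempty) {p : ℕ} (hp : p.Prime)
    (hH1 : ∀ (V : Subgroup (L ≃ₐ[ℚ] L)), IsPGroup p V → ∀ (U' : Subgroup V) [U'.Normal],
      U'.index = p →
      Limits.IsZero (groupCohomology (res U'.subtype (res V.subtype (E L T))) 1))
    (hJE : ∀ (V : Subgroup (L ≃ₐ[ℚ] L)), IsPGroup p V → ∀ (U' : Subgroup V) [U'.Normal],
      U'.index = p → ∃ a : ℕ,
      Limits.IsZero (groupCohomology ((res V.subtype (J L T)).quotientToInvariants U') 1) ∧
      Nat.card (groupCohomology ((res V.subtype (J L T)).quotientToInvariants U') 2) = p ^ a ∧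
      Nat.card (groupCohomology ((res V.subtype (E L T)).quotientToInvariants U') 1) * p ^ a =
        p * Nat.card (groupCohomology ((res V.subtype (E L T)).quotientToInvariants U') 2) ∧
      Nat.card (groupCohomology ((res V.subtype (E L T)).quotientToInvariants U') 1) ≠ 0 ∧
      Nat.card (groupCohomology ((res V.subtype (E L T)).quotientToInvariants U') 2) ≠ 0)
    (h2 : ∀ (V : Subgroup (L ≃ₐ[ℚ] L)), IsPGroup p V → ∀ (U' : Subgroup V) [U'.Normal],
      U'.index = p →
      Nat.card (groupCohomology ((res V.subtype (C L T)).quotientToInvariants U') 2) ∣ p) :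
    LayerHypP p (C L T) := by
  refine layerHypP_of_layers hp fun V hV U' _ hidx => ?_
  obtain ⟨a, hJ1, hJ2, hE, hE1ne, hE2ne⟩ := hJE V hV U' hidx
  obtain ⟨f1, f2, hq⟩ := layer_first_inequality_C L T hT V U' hp hidx (hH1 V hV U' hidx)
    hJ1 hJ2 hE hE1ne hE2ne
  exact ⟨f1, f2, hq, h2 V hV U' hidx⟩

end Model

end Fermat.Agent.GC.Global.Adapter.Layer1
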