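/-
GATE-C / C4 GLOBAL-COH, leaf (LY-2) in the model (helper14).

`L/ℚ` finite Galois, `G = Gal(L/ℚ)`, `U' ⊲ V ≤ G` with `|V/U'| = p`.  Relative norm
`N_{V/U'} : J(L,T)^{U'} → J(L,T)^V`, the relative forms of (h1), (h2) of the Kummer engine, and

* `layer2_of_index` : if `H¹(V, E(L,T)) = 0` and a subgroup
  `B ⊆ N_{V/U'} J(L,T)^{U'} + diag E(L,T)` has index dividing `p` in `J(L,T)^V`, then
  `H²(V/U', C(L,T)^{U'})` is finite of order dividing `p`  (second inequality for the layer).
-/
import Mathlib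
import Fermat.Agent.GC.Global.Adapter.InvJ
import Fermat.Agent.GC.Global.Adapter.Layer2Abs

set_option autoImplicit false
set_option linter.unusedSectionVars false

open CategoryTheory

noncomputable section

namespace Fermat.Agent.GC.Global.Adapter

open Fermat.Agent.GC.Global.Layer2

variable (L : IntermediateField ℚ Qb) [FiniteDimensional ℚ L] [IsGalois ℚ L]
  (T : Finset Nat.Primes) (V : Subgroup (L ≃ₐ[ℚ] L)) (U' : Subgroup V) [U'.Normal]

/-- `U'` as a subgroup of `G_L`. -/
abbrev subTop : Subgroup (L ≃ₐ[ℚ] L) := U'.map V.subtype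

theorem mem_subTop_of (u : U') : ((u : V) : L ≃ₐ[ℚ] L) ∈ subTop L V U' :=
  ⟨(u : V), u.2, rfl⟩

theorem subTop_le : subTop L V U' ≤ V := by
  rintro _ ⟨v, _, rfl⟩
  exact v.2

/-- The relative norm `N_{V/U'} = ∑_{x ∈ V/U'} x̃` (on `U'`-invariants it does not depend on the
chosen representatives `x̃ = x.out`). -/
def relNorm [Fintype (V ⧸ U')] (y : J L T) : J L T :=
  ∑ x : V ⧸ U', (J L T).ρ ((x.out : V) : L ≃ₐ[ℚ] L) y

theorem relNorm_add [Fintype (V ⧸ U')] (y y' : J L T) :
    relNorm L T V U' (y + y') = relNorm L T V U' y + relNorm L T V U' y' := by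
  simp only [relNorm, map_add, Finset.sum_add_distrib]

/-- (h1), relative form: on `V`-invariants the relative norm is multiplication by `|V/U'|`. -/
theorem relNorm_of_mem [Fintype (V ⧸ U')] {y : J L T} (hy : y ∈ JInv L V T) :
    relNorm L T V U' y = Fintype.card (V ⧸ U') • y := by
  rw [mem_JInv_iff_rho] at hy
  simp only [relNorm]
  rw [Finset.sum_congr rfl (fun (x : V ⧸ U') _ => hy ((x.out : V) : L ≃ₐ[ℚ] L) (x.out : V).2)]
  simp

/-- (h2), relative form: `diag` commutes with the relative norm. -/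
theorem diag_relNorm [Fintype (V ⧸ U')] (z : Additive Lˣ) :
    (diag L T).hom (∑ x : V ⧸ U', (globUnits L).ρ ((x.out : V) : L ≃ₐ[ℚ] L) z)
      = relNorm L T V U' ((diag L T).hom z) := by
  simp only [relNorm, map_sum]
  refine Finset.sum_congr rfl fun x _ => ?_
  exact congrArg (fun f => f z) ((diag L T).hom.isIntertwining' ((x.out : V) : L ≃ₐ[ℚ] L))

theorem invSub_eq_JInv : invSub (J L T) V = (JInv L V T).toAddSubgroup := by
  ext y
  exact (mem_JInv_iff_rho L V T).symm

/-- **(LY-2), model form.** -/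
theorem layer2_of_index [Fintype (V ⧸ U')] (hT : T.Nonempty) {p : ℕ} (hp : p.Prime)
    (hcard : Nat.card (V ⧸ U') = p)
    (hH1 : Fermat.Agent.GC.Tate.InfRes2.H1Vanishes (E L T) V)
    (B : AddSubgroup (J L T))
    (hB : ∀ y ∈ B, ∃ y' ∈ JInv L (subTop L V U') T, ∃ e : E L T,
      y = relNorm L T V U' y' + (EtoJ L T).hom e)
    (hBidx : (B.addSubgroupOf (JInv L V T).toAddSubgroup).index ∣ p) :
    Finite (groupCohomology (layerRep V U' (C L T)) 2) ∧
      Nat.card (groupCohomology (layerRep V U' (C L T)) 2) ∣ p := by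
  refine card_H2_layer_dvd (J L T) (C L T) (JtoC L T) V U' hp hcard ?_ B ?_ ?_
  · intro c hc
    refine exists_invariant_lift (EtoJ L T) (JtoC L T) (EtoJ_injective L T hT)
      (JtoC_surjective L T) ?_ ?_ V hH1 c hc
    · intro e
      have := EtoJ_comp_JtoC L T
      exact congrArg (fun f => f.hom e) this
    · intro y hy
      have h1 : y ∈ LinearMap.ker (JtoC L T).hom.toLinearMap := hy
      rw [← range_EtoJ_eq_ker_JtoC] at h1
      exact h1
  · intro y hy
    obtain ⟨y', hy', e, rfl⟩ := hB y hy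
    refine ⟨y', ?_, ?_⟩
    · intro u
      exact (mem_JInv_iff_rho L _ T).1 hy' _ (mem_subTop_of L V U' u)
    · rw [map_add]
      have h0 : (JtoC L T).hom ((EtoJ L T).hom e) = 0 :=
        congrArg (fun f => f.hom e) (EtoJ_comp_JtoC L T)
      rw [h0, add_zero, relNorm, map_sum]
      refine Finset.sum_congr rfl fun x _ => ?_
      exact (Rep.hom_comm_apply (JtoC L T) _ _)
  · rwa [invSub_eq_JInv]

end Fermat.Agent.GC.Global.Adapter
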