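/-
GATE-C / C4 GLOBAL-COH, leaf (LY-2) instantiation (helper14).

The second inequality for a layer `U' ⊲ V ≤ Gal(L/ℚ)`, `[V : U'] = p`, of the `T`-idele class
module `C(L,T)`, from helper77's analytic engine `second_inequality_of_model_an` with
`K = L^V`, `N = L^{U'}`, `A = J(L,T)^V`, `d = diag`, `𝒩 = N_{V/U'} J(L,T)^{U'}` and

* (h1) `relNorm_of_mem` (Layer2.lean), (h2) the norm formula `hnorm` [(LY-N), RelNormField],
* (h3) helper4 `exists_diag_add_smul_JInv`, (h4) helper60 `exists_pth_root_of_mem_locPow`,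
* units: helper68 `TUnitsDict`.
-/
import Mathlib
import Fermat.Agent.GC.Global.Adapter.Layer2
import Fermat.Agent.GC.Global.Adapter.GoodT
import Fermat.Agent.GC.Global.Adapter.ApproxMain
import Fermat.Agent.GC.Global.Adapter.HenselEngine
import Fermat.Agent.GC.Global.Adapter.TUnitsDict
import Fermat.Agent.GC.RaySI.RayKummerShape

set_option autoImplicit false
set_option linter.unusedSectionVars false

open CategoryTheory NumberField IsDedekindDomain

noncomputable section

namespace Fermat.Agent.GC.Global.Adapter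

open Fermat.Agent.GC.Global.Layer2

section generic

variable {k G : Type} [CommRing k] [Group G] (C : Rep k G) (V : Subgroup G) (U' : Subgroup V)
  [U'.Normal] [Fintype (V ⧸ U')]

theorem coe_norm_layerRep (m : layerRep V U' C) :
    (((layerRep V U' C).ρ.norm m : layerRep V U' C) : C) =
      ∑ x : V ⧸ U', C.ρ ((x.out : V) : G) m.1 := by
  rw [Representation.norm, LinearMap.sum_apply]
  rw [show ((∑ x : V ⧸ U', (layerRep V U' C).ρ x m : layerRep V U' C) : C) =
    ∑ x : V ⧸ U', (((layerRep V U' C).ρ x m : layerRep V U' C) : C) from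
      map_sum (Representation.invariants
        (MonoidHom.comp (Rep.res V.subtype C).ρ U'.subtype)).subtype _ _]
  refine Finset.sum_congr rfl fun x _ => ?_
  rw [layerRep_out_apply]

/-- the sum over coset representatives of a `U'`-invariant element is `V`-invariant. -/
theorem rho_sum_out (y : C) (hy : ∀ u : U', C.ρ ((u : V) : G) y = y) (v : V) :
    C.ρ (v : G) (∑ x : V ⧸ U', C.ρ ((x.out : V) : G) y) =
      ∑ x : V ⧸ U', C.ρ ((x.out : V) : G) y := by
  have hm : y ∈ Representation.invariants (MonoidHom.comp (Rep.res V.subtype C).ρ U'.subtype) :=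
    fun u => hy u
  have h1 := coe_norm_layerRep C V U' ⟨y, hm⟩
  have h2 : (layerRep V U' C).ρ (QuotientGroup.mk v) ((layerRep V U' C).ρ.norm ⟨y, hm⟩) =
      (layerRep V U' C).ρ.norm ⟨y, hm⟩ :=
    LinearMap.ext_iff.1 (Representation.self_comp_norm (layerRep V U' C).ρ
      (QuotientGroup.mk v : V ⧸ U')) _
  have h3 := congrArg Subtype.val h2
  rw [layerRep_mk_apply] at h3
  change C.ρ (v : G) (((layerRep V U' C).ρ.norm ⟨y, hm⟩ : layerRep V U' C) : C) = _ at h3
  rw [h1] at h3
  exact h3

end generic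

variable (L : IntermediateField ℚ Qb) [FiniteDimensional ℚ L] [IsGalois ℚ L]
  (T : Finset Nat.Primes) (V : Subgroup (L ≃ₐ[ℚ] L)) (U' : Subgroup V) [U'.Normal]

/-- The algebra structure of `N = L^{U'}` over `K = L^V`. -/
abbrev relAlgebra : Algebra (fixK L V) (fixK L (subTop L V U')) :=
  (IntermediateField.inclusion
    (IntermediateField.fixedField_antitone (subTop_le L V U'))).toRingHom.toAlgebra

/-- `x ∈ K = L^V` as a unit of `L`. -/
def unitToL (H : Subgroup (L ≃ₐ[ℚ] L)) : (fixK L H)ˣ →* Lˣ :=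
  Units.map ((fixK L H).val : fixK L H →* L)

theorem unitToL_fixed (H : Subgroup (L ≃ₐ[ℚ] L)) (x : (fixK L H)ˣ) (h : L ≃ₐ[ℚ] L) (hh : h ∈ H) :
    h ((unitToL L H x : Lˣ) : L) = ((unitToL L H x : Lˣ) : L) :=
  (x : fixK L H).2 ⟨h, hh⟩

/-- The diagonal map `Kˣ → J(L,T)^V`. -/
def diagInv (H : Subgroup (L ≃ₐ[ℚ] L)) : (fixK L H)ˣ →* Multiplicative (JInv L H T) where
  toFun x := Multiplicative.ofAdd
    ⟨(diag L T).hom (Additive.ofMul (unitToL L H x)),
      diag_mem_JInv L H T _ (fun h hh => unitToL_fixed L H x h hh)⟩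
  map_one' := by
    apply Multiplicative.toAdd.injective
    apply Subtype.ext
    change (diag L T).hom (Additive.ofMul (unitToL L H 1)) = 0
    rw [map_one]
    exact map_zero _
  map_mul' x y := by
    apply Multiplicative.toAdd.injective
    apply Subtype.ext
    change (diag L T).hom (Additive.ofMul (unitToL L H (x * y))) =
      (diag L T).hom (Additive.ofMul (unitToL L H x)) +
        (diag L T).hom (Additive.ofMul (unitToL L H y))
    rw [map_mul]
    exact map_add (diag L T).hom (Additive.ofMul (unitToL L H x)) (Additive.ofMul (unitToL L H y))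

theorem coe_diagInv (H : Subgroup (L ≃ₐ[ℚ] L)) (x : (fixK L H)ˣ) :
    ((Multiplicative.toAdd (diagInv L T H x) : JInv L H T) : J L T) =
      (diag L T).hom (Additive.ofMul (unitToL L H x)) := rfl

theorem relNorm_neg [Fintype (V ⧸ U')] (y : J L T) :
    relNorm L T V U' (-y) = - relNorm L T V U' y := by
  simp only [relNorm, map_neg, Finset.sum_neg_distrib]

theorem relNorm_zero [Fintype (V ⧸ U')] : relNorm L T V U' 0 = 0 := by
  simp only [relNorm, map_zero, Finset.sum_const_zero]

/-- The relative norm of a `U'`-invariant idele is `V`-invariant. -/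
theorem relNorm_mem_JInv [Fintype (V ⧸ U')] {y : J L T} (hy : y ∈ JInv L (subTop L V U') T) :
    relNorm L T V U' y ∈ JInv L V T := by
  rw [mem_JInv_iff_rho] at hy ⊢
  intro v hv
  exact rho_sum_out (J L T) V U' y (fun u => hy _ (mem_subTop_of L V U' u)) ⟨v, hv⟩

/-- The norm group `N_{V/U'} J(L,T)^{U'} ⊆ J(L,T)^V`. -/
def normAddSub [Fintype (V ⧸ U')] : AddSubgroup (JInv L V T) where
  carrier := {y | ∃ y' ∈ JInv L (subTop L V U') T, (y : J L T) = relNorm L T V U' y'}
  zero_mem' := ⟨0, Submodule.zero_mem _, (relNorm_zero L T V U').symm⟩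
  add_mem' := by
    rintro a b ⟨a', ha', ha⟩ ⟨b', hb', hb⟩
    refine ⟨a' + b', Submodule.add_mem _ ha' hb', ?_⟩
    rw [relNorm_add, ← ha, ← hb]
    rfl
  neg_mem' := by
    rintro a ⟨a', ha', ha⟩
    refine ⟨-a', Submodule.neg_mem _ ha', ?_⟩
    rw [relNorm_neg, ← ha]
    rfl

theorem index_addSubgroupOf_map_subtype {M : Type*} [AddCommGroup M] (S : Submodule ℤ M)
    (WA : AddSubgroup S) :
    ((WA.map S.subtype.toAddMonoidHom).addSubgroupOf S.toAddSubgroup).index = WA.index := by
  change (AddSubgroup.comap S.subtype.toAddMonoidHom (WA.map S.subtype.toAddMonoidHom)).index = _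
  rw [AddSubgroup.comap_map_eq_self_of_injective]
  exact Subtype.val_injective

theorem JInv_mono {H H' : Subgroup (L ≃ₐ[ℚ] L)} (h : H ≤ H') : JInv L H' T ≤ JInv L H T := by
  intro y hy
  rw [mem_JInv_iff_rho] at hy ⊢
  exact fun g hg => hy g (h hg)

/-- the coordinate in `L` of an element of `globUnits L`. -/
def toL (x : globUnits L) : L := ((Additive.toMul (α := Lˣ) x : Lˣ) : L)

theorem toL_zero : toL L 0 = 1 := rfl

set_option linter.unusedVariables false in
theorem toL_add (x y : globUnits L) : toL L (x + y) = toL L x * toL L y := rfl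

theorem toL_rho (g : L ≃ₐ[ℚ] L) (x : globUnits L) : toL L ((globUnits L).ρ g x) = g (toL L x) := rfl

theorem toL_injective : Function.Injective (toL L) := fun x y h =>
  Additive.toMul.injective (Units.ext h)

theorem toL_ofMul (u : Lˣ) : toL L (Additive.ofMul u) = (u : L) := rfl

/-- the coordinates in `L` of a sum of Galois translates in `Additive Lˣ`. -/
theorem toL_sum_rho {ι : Type*} (s : Finset ι) (g : ι → L ≃ₐ[ℚ] L) (x : globUnits L) :
    toL L (∑ i ∈ s, (globUnits L).ρ (g i) x) = ∏ i ∈ s, g i (toL L x) := by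
  classical
  induction s using Finset.induction_on with
  | empty => rw [Finset.sum_empty, Finset.prod_empty, toL_zero]
  | insert a s ha ih =>
    rw [Finset.sum_insert ha, Finset.prod_insert ha, toL_add, ih, toL_rho]

/-- `primesAbove F T` is helper68's `primesDvd F (Tprod T)`. -/
theorem coe_primesAbove_eq_primesDvd_layer2 (F : Type*) [Field F] [NumberField F] :
    (primesAbove F T : Set (HeightOneSpectrum (𝓞 F))) = EH.primesDvd F (Tprod T) := by
  ext v
  rw [Finset.mem_coe, mem_primesAbove, EH.mem_primesDvd]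
  have hcast : (((Tprod T : ℕ) : ℕ) : 𝓞 F) = ∏ q ∈ T, (((q : ℕ) : ℕ) : 𝓞 F) := by
    rw [Tprod, Nat.cast_prod]
  rw [hcast, Ideal.IsPrime.prod_mem_iff]

/-- a `T`-unit of a subfield is a `T`-unit of `L`. -/
theorem map_mem_tUnits_of_mem_unit {K : Type*} [Field K] [NumberField K] (φK : K →+* L)
    (u : Kˣ) (hu : u ∈ (primesAbove K T : Set (HeightOneSpectrum (𝓞 K))).unit K) :
    Units.map (φK : K →* L) u ∈ tUnits L T := by
  rw [coe_primesAbove_eq_primesDvd_layer2, EH.mem_unit_primesDvd_iff] at hu
  obtain ⟨⟨n, hn⟩, ⟨n', hn'⟩⟩ := hu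
  refine ⟨⟨n, ?_⟩, ⟨n', ?_⟩⟩
  · have := hn.map φK.toIntAlgHom
    simpa using this
  · have := hn'.map φK.toIntAlgHom
    simpa using this

section abstractFields

variable {K N : Type*} [Field K] [NumberField K] [Field N] [NumberField N] [Algebra K N]
  (φK : K →+* L) (φN : N →+* L)

/-- The diagonal map `Kˣ → J(L,T)^V` for an abstract copy `φK : K → L` of the fixed field. -/
def diagInvOf (H : Subgroup (L ≃ₐ[ℚ] L)) (hK : ∀ h ∈ H, ∀ k : K, h (φK k) = φK k) :
    Kˣ →* Multiplicative (JInv L H T) where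
  toFun x := Multiplicative.ofAdd
    ⟨(diag L T).hom (Additive.ofMul (Units.map (φK : K →* L) x)),
      diag_mem_JInv L H T _ (fun h hh => hK h hh x)⟩
  map_one' := by
    apply Multiplicative.toAdd.injective
    apply Subtype.ext
    change (diag L T).hom (Additive.ofMul (Units.map (φK : K →* L) 1)) = 0
    rw [map_one]
    exact map_zero _
  map_mul' x y := by
    apply Multiplicative.toAdd.injective
    apply Subtype.ext
    change (diag L T).hom (Additive.ofMul (Units.map (φK : K →* L) (x * y))) =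
      (diag L T).hom (Additive.ofMul (Units.map (φK : K →* L) x)) +
        (diag L T).hom (Additive.ofMul (Units.map (φK : K →* L) y))
    rw [map_mul]
    exact map_add (diag L T).hom (Additive.ofMul (Units.map (φK : K →* L) x))
      (Additive.ofMul (Units.map (φK : K →* L) y))

/-- **(LY-2), instantiated (abstract fields)**: `φK : K ≃ L^V`, `φN : N → L^{U'}`; the second
inequality for the layer `U' ⊲ V` from the analytic engine. -/
theorem layer2_inst [Fintype (V ⧸ U')] {p : ℕ} (hp : p.Prime) (hcard : Nat.card (V ⧸ U') = p)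
    (hTne : T.Nonempty)
    (hH1 : Fermat.Agent.GC.Tate.InfRes2.H1Vanishes (E L T) V)
    (hK : ∀ h ∈ V, ∀ k : K, h (φK k) = φK k)
    (hKsurj : ∀ x : L, (∀ h ∈ V, h x = x) → ∃ k : K, φK k = x)
    (hN : ∀ h ∈ subTop L V U', ∀ z : N, h (φN z) = φN z)
    (hgenN : GeneratesCl N T)
    (hdeg : Module.finrank K N = p)
    (hnorm : ∀ z : N, φK (Algebra.norm K z) = ∏ x : V ⧸ U', ((x.out : V) : L ≃ₐ[ℚ] L) (φN z)) :
    Finite (groupCohomology (layerRep V U' (C L T)) 2) ∧
      Nat.card (groupCohomology (layerRep V U' (C L T)) 2) ∣ p := by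
  classical
  have hcardF : Fintype.card (V ⧸ U') = p := by rw [← hcard, Nat.card_eq_fintype_card]
  -- the engine
  have hidx := Fermat.Agent.GC.RaySI.second_inequality_of_model_an
    (K := K) (N := N) hp hdeg
    (primesAbove K T) (primesAbove N T)
    (fun Q hQ => below_mem_primesAbove hQ) hgenN
    (diagInvOf L T φK V hK) (AddSubgroup.toSubgroup (normAddSub L T V U'))
    ?h1 ?h2 ?h3 ?h4
  case h1 =>
    intro y
    change Multiplicative.toAdd (y ^ p) ∈ normAddSub L T V U'
    refine ⟨((Multiplicative.toAdd y : JInv L V T) : J L T),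
      JInv_mono L T (subTop_le L V U') (Multiplicative.toAdd y).2, ?_⟩
    rw [relNorm_of_mem L T V U' (Multiplicative.toAdd y).2, hcardF]
    rfl
  case h2 =>
    intro z
    change Multiplicative.toAdd _ ∈ normAddSub L T V U'
    refine ⟨(diag L T).hom (Additive.ofMul (Units.map (φN : N →* L) z)),
      diag_mem_JInv L _ T _ (fun h hh => hN h hh z), ?_⟩
    have h := diag_relNorm L T V U' (Additive.ofMul (Units.map (φN : N →* L) z))
    refine Eq.trans ?_ h
    change (diag L T).hom (Additive.ofMul (Units.map (φK : K →* L)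
      (Units.map (Algebra.norm K : N →* K) z))) = _
    congr 1
    apply toL_injective L
    refine Eq.trans ?_ (toL_sum_rho L Finset.univ
      (fun x : V ⧸ U' => ((x.out : V) : L ≃ₐ[ℚ] L))
      (Additive.ofMul (Units.map (φN : N →* L) z))).symm
    exact hnorm (z : N)
  case h3 =>
    intro y
    obtain ⟨x₀, z, hz, hyz⟩ := exists_diag_add_smul_JInv L V T hp
      ((Multiplicative.toAdd y : JInv L V T) : J L T) (Multiplicative.toAdd y).2
    obtain ⟨k, hk⟩ := hKsurj ((x₀ : fixK L V) : L) (fun h hh => (x₀ : fixK L V).2 ⟨h, hh⟩)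
    have hk0 : k ≠ 0 := by
      rintro rfl
      rw [map_zero] at hk
      exact x₀.ne_zero (Subtype.ext hk.symm)
    refine ⟨Units.mk0 k hk0, Multiplicative.ofAdd ⟨z, hz⟩, ?_⟩
    apply Multiplicative.toAdd.injective
    apply Subtype.ext
    refine hyz.trans ?_
    change _ = (diag L T).hom (Additive.ofMul (Units.map (φK : K →* L) (Units.mk0 k hk0))) + p • z
    congr 2
    apply Units.ext
    exact hk.symm
  case h4 =>
    intro x hx
    obtain ⟨z, hz⟩ := exists_pth_root_of_mem_locPow L T φK hp V hK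
      (primesAbove K T) (fun q hq v hv => mem_primesAbove.2 ⟨q, hq, hv⟩) x hx
    refine ⟨Multiplicative.ofAdd ⟨(z : J L T),
      (mem_JInv_iff_rho L V T).2 fun h hh => z.2 ⟨h, hh⟩⟩, ?_⟩
    apply Multiplicative.toAdd.injective
    apply Subtype.ext
    exact hz
  -- conclusion
  set W := AddSubgroup.toSubgroup (normAddSub L T V U') ⊔
    ((primesAbove K T : Set (HeightOneSpectrum (𝓞 K))).unit K).map
      (diagInvOf L T φK V hK) with hW
  let WA : AddSubgroup (JInv L V T) := AddSubgroup.toSubgroup.symm W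
  have hWA : WA.index ∣ p := hidx
  refine layer2_of_index L T V U' hTne hp hcard hH1
    (WA.map (JInv L V T).subtype.toAddMonoidHom) ?_ ?_
  · rintro _ ⟨y, hy, rfl⟩
    have hyW : Multiplicative.ofAdd y ∈ W := hy
    rw [hW, Subgroup.mem_sup] at hyW
    obtain ⟨a, ha, b, hb, hab⟩ := hyW
    obtain ⟨y', hy', hay'⟩ := ha
    obtain ⟨u, hu, rfl⟩ := hb
    have hmem : Additive.ofMul (Units.map (φK : K →* L) u) ∈ tUnitsSub L T :=
      map_mem_tUnits_of_mem_unit L T φK u hu
    refine ⟨y', hy', ⟨_, hmem⟩, ?_⟩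
    have h1 : ((y : JInv L V T) : J L T) =
        ((Multiplicative.toAdd a : JInv L V T) : J L T) +
          ((Multiplicative.toAdd (diagInvOf L T φK V hK u) : JInv L V T) : J L T) := by
      have h2 := congrArg (fun t => ((Multiplicative.toAdd t : JInv L V T) : J L T)) hab
      exact h2.symm
    change ((y : JInv L V T) : J L T) = _
    rw [h1, hay']
    rfl
  · rw [index_addSubgroupOf_map_subtype]
    exact hWA

end abstractFields

end Fermat.Agent.GC.Global.Adapter
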