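/-
GATE-C / C4 (LY-N) RELNORM-FIELD (helper41, for helper14's Layer2Inst).

`F ⊆ E` finite Galois, `V ≤ Gal(E/F)`, `U' ⊴ V`.  With `K := E^V`, `N := E^{U'}` (both
`IntermediateField F E`) and the algebra structure `relAlg : Algebra K N` coming from the inclusion
`K ≤ N`:

* `finrank_relAlg`   : `[N : K] = (V : U')`;
* `finiteDimensional_relAlg`;
* `relNorm_field`    : `N_{N/K}(z) = ∏_{x ∈ V/U'} x.out(z)` in `E`.

Mathlib only.  Method: `Algebra.norm_eq_prod_embeddings` into an algebraic closure of `E`; the
`K`-embeddings of `N` are the restrictions of the coset representatives (injective by the Galois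
correspondence, bijective by counting).  Normality of `U'` is not needed.
-/
import Mathlib

set_option autoImplicit false

open Module IntermediateField

namespace Fermat.Agent.GC.Global.Adapter

variable {F E : Type*} [Field F] [Field E] [Algebra F E]
variable (V : Subgroup (E ≃ₐ[F] E)) (U' : Subgroup V)

/-- `E^V ≤ E^{U'}` -/
theorem fixedField_le_fixedField_map :
    IntermediateField.fixedField V ≤ IntermediateField.fixedField (U'.map V.subtype) := by
  intro x hx
  rintro ⟨σ, u, hu, rfl⟩
  exact hx ⟨(u : E ≃ₐ[F] E), u.2⟩

/-- the algebra structure of `N = E^{U'}` over `K = E^V` -/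
@[reducible] noncomputable def relAlg :
    Algebra (IntermediateField.fixedField V) (IntermediateField.fixedField (U'.map V.subtype)) :=
  (IntermediateField.inclusion (fixedField_le_fixedField_map V U')).toRingHom.toAlgebra

section

attribute [local instance] relAlg

theorem relAlg_algebraMap_coe (x : IntermediateField.fixedField V) :
    ((algebraMap (IntermediateField.fixedField V)
      (IntermediateField.fixedField (U'.map V.subtype)) x :
        IntermediateField.fixedField (U'.map V.subtype)) : E) = (x : E) := rfl

instance relAlg_isScalarTower :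
    IsScalarTower (IntermediateField.fixedField V)
      (IntermediateField.fixedField (U'.map V.subtype)) E :=
  IsScalarTower.of_algebraMap_eq fun _ => rfl

/-- an element of `V` as a `K`-algebra endomorphism of `E` -/
noncomputable def toAlgHomFixed (v : V) : E →ₐ[IntermediateField.fixedField V] E :=
  { ((v : E ≃ₐ[F] E) : E →+* E) with
    commutes' := fun x => x.2 ⟨(v : E ≃ₐ[F] E), v.2⟩ }

@[simp] theorem toAlgHomFixed_apply (v : V) (y : E) :
    toAlgHomFixed V v y = (v : E ≃ₐ[F] E) y := rfl

/-- the `K`-embedding of `N` into an algebraic closure of `E` attached to an element of `V` -/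
noncomputable def embOf (v : V) :
    IntermediateField.fixedField (U'.map V.subtype) →ₐ[IntermediateField.fixedField V]
      AlgebraicClosure E :=
  ((IsScalarTower.toAlgHom (IntermediateField.fixedField V) E (AlgebraicClosure E)).comp
    (toAlgHomFixed V v)).comp
      (IsScalarTower.toAlgHom (IntermediateField.fixedField V)
        (IntermediateField.fixedField (U'.map V.subtype)) E)

theorem embOf_apply (v : V) (z : IntermediateField.fixedField (U'.map V.subtype)) :
    embOf V U' v z = algebraMap E (AlgebraicClosure E) ((v : E ≃ₐ[F] E) (z : E)) := rfl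

variable [FiniteDimensional F E] [IsGalois F E]

/-- (c) `N` is finite over `K` -/
instance finiteDimensional_relAlg :
    FiniteDimensional (IntermediateField.fixedField V)
      (IntermediateField.fixedField (U'.map V.subtype)) :=
  FiniteDimensional.left (IntermediateField.fixedField V)
    (IntermediateField.fixedField (U'.map V.subtype)) E

instance isSeparable_relAlg :
    Algebra.IsSeparable (IntermediateField.fixedField V)
      (IntermediateField.fixedField (U'.map V.subtype)) :=
  Algebra.isSeparable_tower_bot_of_isSeparable (IntermediateField.fixedField V)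
    (IntermediateField.fixedField (U'.map V.subtype)) E

/-- (b) `[N : K] = (V : U')` -/
theorem finrank_relAlg :
    Module.finrank (IntermediateField.fixedField V)
      (IntermediateField.fixedField (U'.map V.subtype)) = U'.index := by
  have h1 := Module.finrank_mul_finrank (IntermediateField.fixedField V)
    (IntermediateField.fixedField (U'.map V.subtype)) E
  rw [IntermediateField.finrank_fixedField_eq_card, IntermediateField.finrank_fixedField_eq_card]
    at h1
  have h2 : Nat.card (U'.map V.subtype) = Nat.card U' :=
    Nat.card_congr (U'.equivMapOfInjective V.subtype V.subtype_injective).symm.toEquiv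
  rw [h2] at h1
  have h3 := U'.index_mul_card
  have hpos : 0 < Nat.card U' := Nat.card_pos
  exact Nat.eq_of_mul_eq_mul_right hpos (h1.trans h3.symm)

theorem embOf_injective_out [Finite (V ⧸ U')] :
    Function.Injective fun x : V ⧸ U' => embOf V U' x.out := by
  intro x y hxy
  have h1 : ∀ z : IntermediateField.fixedField (U'.map V.subtype),
      ((x.out : V) : E ≃ₐ[F] E) (z : E) = ((y.out : V) : E ≃ₐ[F] E) (z : E) := by
    intro z
    have := DFunLike.congr_fun hxy z
    simp only [embOf_apply] at this
    exact (algebraMap E (AlgebraicClosure E)).injective this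
  -- `x.out⁻¹ * y.out` fixes `N`, hence lies in `U'`
  have h2 : ((x.out : V) : E ≃ₐ[F] E)⁻¹ * ((y.out : V) : E ≃ₐ[F] E) ∈
      (IntermediateField.fixedField (U'.map V.subtype)).fixingSubgroup := by
    rw [IntermediateField.mem_fixingSubgroup_iff]
    intro z hz
    have := h1 ⟨z, hz⟩
    simp only at this
    rw [AlgEquiv.mul_apply, ← this]
    exact ((x.out : V) : E ≃ₐ[F] E).symm_apply_apply z
  rw [IntermediateField.fixingSubgroup_fixedField] at h2
  obtain ⟨u, hu, hu'⟩ := h2
  have h3 : (x.out)⁻¹ * y.out = u := by
    apply Subtype.ext
    exact hu'.symm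
  have h4 : (x.out)⁻¹ * y.out ∈ U' := h3 ▸ hu
  have h5 : (QuotientGroup.mk x.out : V ⧸ U') = QuotientGroup.mk y.out :=
    QuotientGroup.eq.2 h4
  rwa [QuotientGroup.out_eq', QuotientGroup.out_eq'] at h5

/-- (a) the relative norm as a product over coset representatives -/
theorem relNorm_field [Fintype (V ⧸ U')]
    (z : IntermediateField.fixedField (U'.map V.subtype)) :
    ((Algebra.norm (IntermediateField.fixedField V) z : IntermediateField.fixedField V) : E)
      = ∏ x : V ⧸ U', ((x.out : V) : E ≃ₐ[F] E) (z : E) := by
  classical
  have hinj := embOf_injective_out V U'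
  have hcard : Fintype.card (V ⧸ U') =
      Fintype.card (IntermediateField.fixedField (U'.map V.subtype)
        →ₐ[IntermediateField.fixedField V] AlgebraicClosure E) := by
    rw [AlgHom.card, finrank_relAlg, Subgroup.index, Nat.card_eq_fintype_card]
  have hbij : Function.Bijective fun x : V ⧸ U' => embOf V U' x.out :=
    (Fintype.bijective_iff_injective_and_card _).2 ⟨hinj, hcard⟩
  have h1 := Algebra.norm_eq_prod_embeddings (IntermediateField.fixedField V)
    (AlgebraicClosure E) z
  rw [← Fintype.prod_bijective _ hbij _ _ (fun x => rfl)] at h1
  simp only [embOf_apply] at h1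
  rw [← map_prod, IsScalarTower.algebraMap_apply (IntermediateField.fixedField V) E
    (AlgebraicClosure E)] at h1
  exact (algebraMap E (AlgebraicClosure E)).injective h1

end

end Fermat.Agent.GC.Global.Adapter
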