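/-
GATE-C / C4 GLOBAL-COH, (LY-2) final form (helper14).

The second inequality `|H²(V/U', C(L,T)^{U'})| ∣ p` for every layer `U' ⊲ V ≤ Gal(L/ℚ)` of prime
index `p`, for a good set `T` (`GoodT L T p`): `layer2_inst` at `K = L^V`, `N = L^{U'}` with
helper41's `relAlg`, `finrank_relAlg`, `relNorm_field` and helper79's `h1Vanishes_E_of_goodT`.
-/
import Mathlib
import Fermat.Agent.GC.Global.Adapter.Layer2Inst
import Fermat.Agent.GC.Global.Adapter.RelNormField
import Fermat.Agent.GC.Global.Adapter.H1UnitsGood
import Fermat.Agent.GC.Global.Adapter.Layer1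

set_option autoImplicit false
set_option linter.unusedSectionVars false

open CategoryTheory NumberField IsDedekindDomain

noncomputable section

namespace Fermat.Agent.GC.Global.Adapter

open Fermat.Agent.GC.Global.Layer2

variable (L : IntermediateField ℚ Qb) [FiniteDimensional ℚ L] [IsGalois ℚ L]
  (T : Finset Nat.Primes) (V : Subgroup (L ≃ₐ[ℚ] L)) (U' : Subgroup V) [U'.Normal]

/-- **(LY-2), final form**: the second inequality for the layer `U' ⊲ V`, `[V : U'] = p`, of
`C(L,T)`, `T` good. -/
theorem layer2_of_goodT {p : ℕ} (hg : GoodT L T p) (hp : p.Prime) (hidx : U'.index = p) :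
    Finite (groupCohomology (layerRep V U' (C L T)) 2) ∧
      Nat.card (groupCohomology (layerRep V U' (C L T)) 2) ∣ p := by
  classical
  let _ : Fintype (V ⧸ U') := Fintype.ofFinite _
  exact @layer2_inst L _ _ T V U' _
    (fixK L V) (fixK L (subTop L V U')) _ (numberField_sublayer L _) _ (numberField_sublayer L _)
    (relAlg V U') (fixK L V).val.toRingHom (fixK L (subTop L V U')).val.toRingHom _
    p hp hidx hg.nonempty
    (H1U.h1Vanishes_E_of_goodT L T hg V)
    (fun h hh k => k.2 ⟨h, hh⟩) (fun x hx => ⟨⟨x, fun h => hx h.1 h.2⟩, rfl⟩)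
    (fun h hh z => z.2 ⟨h, hh⟩) (hg.gen _) ((finrank_relAlg V U').trans hidx)
    (fun z => relNorm_field V U' z)

/-- **LAYER for `C(L,T)`, `T` good, from the Herbrand-quotient input alone**: (LY-H1) and (LY-2)
are now theorems; what remains is `hJE` = MACKEY-INV (helper72 `quotJ_layer`) + AD6-E (helper68
`card_H1_E_pair_of_zeta`) with the SAME exponent `a` (COUNT-MATCH). -/
theorem layerHypP_C_of_goodT {p : ℕ} (hg : GoodT L T p) (hp : p.Prime)
    (hJE : ∀ (V : Subgroup (L ≃ₐ[ℚ] L)), IsPGroup p V → ∀ (U' : Subgroup V) [U'.Normal],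
      U'.index = p → ∃ a : ℕ,
      Limits.IsZero (groupCohomology ((Rep.res V.subtype (J L T)).quotientToInvariants U') 1) ∧
      Nat.card (groupCohomology ((Rep.res V.subtype (J L T)).quotientToInvariants U') 2) = p ^ a ∧
      Nat.card (groupCohomology ((Rep.res V.subtype (E L T)).quotientToInvariants U') 1) * p ^ a =
        p * Nat.card (groupCohomology ((Rep.res V.subtype (E L T)).quotientToInvariants U') 2) ∧
      Nat.card (groupCohomology ((Rep.res V.subtype (E L T)).quotientToInvariants U') 1) ≠ 0 ∧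
      Nat.card (groupCohomology ((Rep.res V.subtype (E L T)).quotientToInvariants U') 2) ≠ 0) :
    Fermat.Agent.GC.Global.DevissageP.LayerHypP p (C L T) :=
  Layer1.layerHypP_C_of_inputs L T hg.nonempty hp
    (fun V _ U' _ _ => H1U.isZero_H1_res_res_E_of_goodT L T hg V U')
    hJE
    (fun V _ U' _ hidx => (layer2_of_goodT L T V U' hg hp hidx).2)

end Fermat.Agent.GC.Global.Adapter
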