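/-
GATE-C / C4 LAYER, input (LY-H1) in the shape consumed by `Layer1.layerHypP_C_of_inputs`
(helper97): for good `T` and every pair `U' ≤ V ≤ Gal(L/ℚ)`,
`H¹(U', Res_{U'} Res_V E(L,T)) = 0`.  From helper79's `H1U.isZero_H1_res_E` (for the subgroup
`U'.map V.subtype ≤ Gal(L/ℚ)`), helper14's `GoodT`, and the transport iso `resResIso`.
-/
import Mathlib
import Fermat.Agent.GC.Global.Adapter.H1Units
import Fermat.Agent.GC.Global.Adapter.GoodT
import Fermat.Agent.GC.Global.DevissageSub

set_option autoImplicit false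

open CategoryTheory groupCohomology Rep NumberField IsDedekindDomain

namespace Fermat.Agent.GC.Global.Adapter.LayerH1

open Fermat.Agent.GC.Global Fermat.Agent.GC.Global.Adapter

variable (L : IntermediateField ℚ Qb) [FiniteDimensional ℚ L] [IsGalois ℚ L]
  (T : Finset Nat.Primes)

/-- helper14's `primesAbove` are primes dividing `Tprod T` (helper68's `primesDvd`). -/
theorem mem_primesDvd_of_mem_primesAbove {F : Type*} [Field F] [NumberField F]
    {v : HeightOneSpectrum (𝓞 F)} (hv : v ∈ primesAbove F T) : v ∈ EH.primesDvd F (Tprod T) := by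
  obtain ⟨q, hq, hqv⟩ := mem_primesAbove.1 hv
  rw [EH.mem_primesDvd]
  obtain ⟨m, hm⟩ : (q : ℕ) ∣ Tprod T := Finset.dvd_prod_of_mem _ hq
  rw [hm]
  push_cast
  exact v.asIdeal.mul_mem_right _ hqv

/-- **(LY-H1) for a subgroup** `U ≤ Gal(L/ℚ)`, from `GoodT`. -/
theorem isZero_H1_res_E_of_goodT {p : ℕ} (hG : GoodT L T p) (U : Subgroup (L ≃ₐ[ℚ] L)) :
    Limits.IsZero (groupCohomology (Rep.res U.subtype (E L T)) 1) :=
  H1U.isZero_H1_res_E L T U hG.unram (primesAbove (IntermediateField.fixedField U) T)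
    (fun _ hv => mem_primesDvd_of_mem_primesAbove T hv) (hG.gen U)

/-- **(LY-H1) in the layer shape**: `H¹(U', Res_{U'} Res_V E(L,T)) = 0` for `U' ≤ V ≤ Gal(L/ℚ)`. -/
theorem isZero_H1_res_res_E_of_goodT {p : ℕ} (hG : GoodT L T p) (V : Subgroup (L ≃ₐ[ℚ] L))
    (U' : Subgroup V) :
    Limits.IsZero (groupCohomology (Rep.res U'.subtype (Rep.res V.subtype (E L T))) 1) :=
  (isZero_H1_res_E_of_goodT L T hG (U'.map V.subtype)).of_iso
    (Fermat.Agent.GC.Global.DevissageSub.resResIso (E L T) V U' 1)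

end Fermat.Agent.GC.Global.Adapter.LayerH1
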