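/-
GATE-C / C4 LAYER, the Herbrand-quotient input `hJE` of `Layer1.layerHypP_C_of_inputs` /
helper14's `layerHypP_C_of_goodT`, DISCHARGED (helper97):

* `J`-side: helper72 `Mackey.quotJ_layer` (exponent `quotNonsplitCount L T V U'`);
* `E`-side: helper68 `EH.card_H1_E_pair_of_zeta` (exponent `(nonsplitPrimes V U' (Tprod T)).ncard`);
* the two exponents agree: helper72 `quotNonsplitCount_eq` + helper11 `ncard_nonsplitPrimes_eq`
  (both equal `∑_{q ∈ T} #{c ∈ D_q \ G / V | W_c ⊔ U' = ⊤}`, helper97 `SplitCount`).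
-/
import Mathlib
import Fermat.Agent.GC.Global.MackeyInvJ
import Fermat.Agent.GC.Global.MackeyCount
import Fermat.Agent.GC.Global.Adapter.CountMatch
import Fermat.Agent.GC.Global.Adapter.EHerbrandPair

set_option autoImplicit false

open CategoryTheory

namespace Fermat.Agent.GC.Global.Adapter.LayerJE

open Fermat.Agent.GC.Global Fermat.Agent.GC.Global.Mackey Fermat.Agent.GC.Global.Adapter

variable (L : IntermediateField ℚ Qb) [FiniteDimensional ℚ L] [IsGalois ℚ L]
  (T : Finset Nat.Primes) (V : Subgroup (L ≃ₐ[ℚ] L)) (U' : Subgroup V) [U'.Normal]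

/-- The two exponents agree. -/
theorem quotNonsplitCount_eq_ncard_nonsplitPrimes
    [∀ q : Nat.Primes, Fintype (PlacesAbove L V q)] {p : ℕ} (hp : p.Prime)
    (hidx : U'.index = p) :
    quotNonsplitCount L T V U' = (EH.nonsplitPrimes V U' (Tprod T)).ncard := by
  classical
  rw [quotNonsplitCount_eq L T V U' hp hidx, ncard_nonsplitPrimes_eq L V U' T]
  refine Finset.sum_congr rfl fun q _ => ?_
  rw [Nat.card_eq_fintype_card, Fintype.card_subtype]

/-- **`hJE`**: for `ζ_p ∈ L`, `p` odd, every `p`-subgroup `V` and `U' ◁ V` of index `p`. -/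
theorem hJE_of_zeta {p : ℕ} (hp : p.Prime) (hp2 : p ≠ 2) (ζ : L) (hζ : IsPrimitiveRoot ζ p)
    (hV : IsPGroup p V) (hidx : U'.index = p) :
    ∃ a : ℕ,
      Limits.IsZero (groupCohomology ((Rep.res V.subtype (J L T)).quotientToInvariants U') 1) ∧
      Nat.card (groupCohomology ((Rep.res V.subtype (J L T)).quotientToInvariants U') 2) = p ^ a ∧
      Nat.card (groupCohomology ((Rep.res V.subtype (E L T)).quotientToInvariants U') 1) * p ^ a =
        p * Nat.card (groupCohomology ((Rep.res V.subtype (E L T)).quotientToInvariants U') 2) ∧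
      Nat.card (groupCohomology ((Rep.res V.subtype (E L T)).quotientToInvariants U') 1) ≠ 0 ∧
      Nat.card (groupCohomology ((Rep.res V.subtype (E L T)).quotientToInvariants U') 2) ≠ 0 := by
  classical
  have : NumberField L := ⟨⟩
  have hfinG : Finite (L ≃ₐ[ℚ] L) := inferInstance
  let inst : ∀ q : Nat.Primes, Fintype (PlacesAbove L V q) := fun q => Fintype.ofFinite _
  obtain ⟨hJ1, hJ2⟩ := quotJ_layer L T V U' hp hidx
  obtain ⟨hE1, hE2, hE⟩ := EH.card_H1_E_pair_of_zeta L T hp hp2 V hV U' hidx ζ hζ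
  refine ⟨quotNonsplitCount L T V U', hJ1, hJ2, ?_, hE1, hE2⟩
  rw [quotNonsplitCount_eq_ncard_nonsplitPrimes L T V U' hp hidx]
  exact hE

end Fermat.Agent.GC.Global.Adapter.LayerJE
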