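/-
GATE-C / C4 leaf (LY-U) UNRAM-BRIDGE, helper12.

* `exists_mul_forall_sub_mem` (pure commutative algebra, Mathlib only): a finite group `U` acting on
  `B` with invariants `A`, `Q` a prime of `B`, `v` an automorphism normalising `U` and acting
  trivially on `A` modulo `Q`: then `u * v` lies in the inertia group of `Q` for some `u ∈ U`
  ("inertia groups surject onto the inertia groups of the quotient").
* `unram_top` : for `L ⊆ ℚ̄` finite Galois over `ℚ` with `L.IsUnramifiedOutside T` (prelude predicate),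
  all inertia groups of `Gal(L/ℚ)` at primes of `𝓞 L` not above `T` are trivial.
* `eq_one_of_forall_sub_mem`, `hunr` : for ANY number field `N` with an embedding `N → L`
  (`[Algebra N L]`) and any subfield `K` (`[Algebra K N]`): the inertia groups of `Aut(N/K)` at primes
  of `𝓞 N` not above `T` are trivial.  This is the hypothesis `hunr` of the Kummer engine
  (`GC/Kummer/Engine.lean`) verbatim (`hunr_engine`).
-/
import Fermat.Agent.S14.Reduction
import Fermat.Prelude.Def_GroupCohomology_ContinuousUnramified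

set_option autoImplicit false

open NumberField

open scoped Pointwise

namespace Fermat.Agent.GC.Global.Adapter.UnramBridge

/-! ### The abstract lemma -/

section Abstract

variable {A B G : Type*} [CommRing A] [CommRing B] [Algebra A B] [Group G] [MulSemiringAction G B]
  (U : Subgroup G) [Finite U] [SMulCommClass U A B] [Algebra.IsInvariant A B U]

omit [Finite ↥U] [Algebra.IsInvariant A B ↥U] in
/-- Elements of `U` fix the image of `A`. -/
lemma smul_algebraMap_of_mem {u : G} (hu : u ∈ U) (a : A) : u • algebraMap A B a = algebraMap A B a := by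
  have := smul_algebraMap (⟨u, hu⟩ : U) (A := B) a
  exact this

omit [Finite ↥U] in
/-- If `v` normalises `U` then `v • a` is again `U`-invariant, hence in the image of `A`. -/
lemma exists_algebraMap_eq_smul {v : G} (hvU : ∀ u ∈ U, v⁻¹ * u * v ∈ U) (a : A) :
    ∃ a' : A, algebraMap A B a' = v • algebraMap A B a := by
  refine Algebra.IsInvariant.isInvariant (A := A) (G := U) _ fun u => ?_
  have h1 : (u : G) • v • algebraMap A B a = v • ((v⁻¹ * (u : G) * v) • algebraMap A B a) := by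
    simp only [← mul_smul]
    congr 1
    group
  show (u : G) • v • algebraMap A B a = v • algebraMap A B a
  rw [h1, smul_algebraMap_of_mem U (hvU u u.2)]

/-- **Inertia groups surject onto the inertia groups of a quotient.**  `U` a finite group acting on
`B` with invariants `A`, `Q` a prime of `B`, `v` normalising `U` and acting trivially on `A` modulo
`Q`: then `u * v` acts trivially on `B` modulo `Q` for some `u ∈ U`. -/
theorem exists_mul_forall_sub_mem (Q : Ideal B) [Q.IsPrime] (v : G)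
    (hvU : ∀ u ∈ U, v⁻¹ * u * v ∈ U) (hvU' : ∀ u ∈ U, v * u * v⁻¹ ∈ U)
    (hv : ∀ a : A, v • algebraMap A B a - algebraMap A B a ∈ Q) :
    ∃ u ∈ U, ∀ b : B, (u * v) • b - b ∈ Q := by
  -- Step 1: `v • Q` and `Q` have the same contraction to `A`
  have hunder : (v • Q).under A = Q.under A := by
    ext a
    rw [Ideal.under_def, Ideal.under_def, Ideal.mem_comap, Ideal.mem_comap,
      Ideal.mem_pointwise_smul_iff_inv_smul_mem]
    obtain ⟨a', ha'⟩ := exists_algebraMap_eq_smul (A := A) (B := B) U (v := v⁻¹)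
      (by simpa using hvU') a
    have h := hv a'
    rw [ha', smul_inv_smul] at h
    constructor
    · intro h1
      have := Q.add_mem h h1
      simpa using this
    · intro h1
      have := Q.sub_mem h1 h
      simpa using this
  -- Step 2: move `v • Q` back to `Q` by an element of `U`
  have : (v • Q).IsPrime := Ideal.IsPrime.smul v
  obtain ⟨u, hu⟩ := Algebra.IsInvariant.exists_smul_of_under_eq A B U (v • Q) Q hunder
  have hσQ : ((u : G) * v) • Q = Q := by
    rw [mul_smul]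
    exact hu.symm
  -- Step 3: `σ₁ = u * v` induces an automorphism of `B ⧸ Q` over `A ⧸ Q.under A`
  set σ₁ : G := (u : G) * v with hσ₁
  have hσ₁A : ∀ a : A, σ₁ • algebraMap A B a - algebraMap A B a ∈ Q := by
    intro a
    obtain ⟨a', ha'⟩ := exists_algebraMap_eq_smul (A := A) (B := B) U (v := v) hvU a
    rw [hσ₁, mul_smul, ← ha', smul_algebraMap_of_mem U u.2, ha']
    exact hv a
  have hQ : Q = Q.map ((MulSemiringAction.toRingEquiv G B σ₁ : B ≃+* B) : B →+* B) := by
    conv_lhs => rw [← hσQ]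
    rfl
  let φ : (B ⧸ Q) ≃ₐ[A ⧸ Q.under A] (B ⧸ Q) :=
    { Ideal.quotientEquiv Q Q (MulSemiringAction.toRingEquiv G B σ₁) hQ with
      commutes' := by
        intro r
        obtain ⟨a, rfl⟩ := Ideal.Quotient.mk_surjective r
        show Ideal.Quotient.mk Q (σ₁ • algebraMap A B a) = Ideal.Quotient.mk Q (algebraMap A B a)
        rw [Ideal.Quotient.eq]
        exact hσ₁A a }
  obtain ⟨h, hh⟩ := Ideal.Quotient.stabilizerHom_surjective U (Q.under A) Q φ
  -- Step 4: correct `σ₁` by `h⁻¹`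
  refine ⟨((h.1 : U) : G)⁻¹ * (u : G), U.mul_mem (U.inv_mem h.1.2) u.2, fun b => ?_⟩
  have h1 : Ideal.Quotient.mk Q (((h.1 : U) : G) • b) = Ideal.Quotient.mk Q (σ₁ • b) :=
    DFunLike.congr_fun hh (Ideal.Quotient.mk Q b)
  rw [Ideal.Quotient.eq] at h1
  have hstab : ((h.1 : U) : G) • Q = Q := h.2
  have h2 : ((h.1 : U) : G)⁻¹ • (((h.1 : U) : G) • b - σ₁ • b) ∈ Q := by
    rw [← Ideal.mem_pointwise_smul_iff_inv_smul_mem, hstab]
    exact h1
  rw [smul_sub, inv_smul_smul] at h2
  have h3 : (((h.1 : U) : G)⁻¹ * (u : G) * v) • b = ((h.1 : U) : G)⁻¹ • σ₁ • b := by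
    rw [hσ₁, mul_assoc, mul_smul]
  rw [h3]
  have := Q.neg_mem h2
  simpa using this

end Abstract

/-! ### `L / ℚ` -/

section Top

open Fermat.Agent.S14 Fermat.Agent.S14.Reduction

variable (L : IntermediateField ℚ (AlgebraicClosure ℚ)) [FiniteDimensional ℚ L] [IsGalois ℚ L]
  (T : Finset Nat.Primes)

/-- **L/ℚ form.**  If `L` is unramified outside `T` (prelude predicate) then the inertia group in
`Gal(L/ℚ)` of every nonzero prime of `𝓞 L` not containing a prime of `T` is trivial. -/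
theorem unram_top (hT : L.IsUnramifiedOutside T) (Q : Ideal (𝓞 L)) (hQ : Q.IsPrime) (hQ0 : Q ≠ ⊥)
    (hQT : ∀ q ∈ T, ((q : ℕ) : 𝓞 L) ∉ Q) (σ : L ≃ₐ[ℚ] L) (hσ : ∀ z : 𝓞 L, σ • z - z ∈ Q) :
    σ = 1 := by
  have hloc := Reduction.localInput L
  obtain ⟨A, hAQ⟩ := hloc.exists_val Q hQ hQ0
  have := hQ
  obtain ⟨ℓ, hℓ, hℓQ⟩ := exists_prime_mem Q hQ0
  have hℓT : (⟨ℓ, hℓ⟩ : Nat.Primes) ∉ T := fun h => hQT _ h hℓQ
  have hA : A.LiesOverPrime ℓ := liesOverPrime_of_mem hAQ hℓQ
  have hle := hT.2 ⟨ℓ, hℓ⟩ hℓT A hA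
  obtain ⟨g, hg, hgσ⟩ := hloc.lift_inertia A Q hQ hQ0 hAQ σ hσ
  have hgL := hle hg
  rw [IntermediateField.mem_fixingSubgroup_iff] at hgL
  refine AlgEquiv.ext fun x => ?_
  have h1 := hgσ x
  rw [hgL (x : AlgebraicClosure ℚ) x.2] at h1
  exact (Subtype.ext h1).symm

end Top

/-! ### Subfields of `L` -/

section Tower

variable (L : IntermediateField ℚ (AlgebraicClosure ℚ)) [FiniteDimensional ℚ L] [IsGalois ℚ L]
  (T : Finset Nat.Primes)
  (N : Type*) [Field N] [NumberField N] [Algebra N L]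

/-- The subgroup of `Gal(L/ℚ)` fixing the image of `N`. -/
def fixN : Subgroup (L ≃ₐ[ℚ] L) where
  carrier := {σ | ∀ x : N, σ (algebraMap N L x) = algebraMap N L x}
  mul_mem' {a b} ha hb x := by
    show a (b (algebraMap N L x)) = algebraMap N L x
    rw [hb x, ha x]
  one_mem' x := rfl
  inv_mem' {a} ha x := by
    have := ha x
    exact (a.symm_apply_eq.2 this.symm)

omit [FiniteDimensional ℚ ↥L] [IsGalois ℚ ↥L] [NumberField N] in
variable {L N} in
lemma mem_fixN {σ : L ≃ₐ[ℚ] L} : σ ∈ fixN L N ↔ ∀ x : N, σ (algebraMap N L x) = algebraMap N L x :=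
  Iff.rfl

instance smulCommClass_fixN : SMulCommClass (fixN L N) (𝓞 N) (𝓞 L) where
  smul_comm u a b := by
    apply RingOfIntegers.ext
    show (u : L ≃ₐ[ℚ] L) (algebraMap N L (a : N) * (b : L)) =
      algebraMap N L (a : N) * (u : L ≃ₐ[ℚ] L) (b : L)
    rw [map_mul, u.2 (a : N)]

instance isInvariant_fixN : Algebra.IsInvariant (𝓞 N) (𝓞 L) (fixN L N) where
  isInvariant b hb := by
    -- the image of `N` as an intermediate field
    let F : IntermediateField ℚ L := (IsScalarTower.toAlgHom ℚ N L).fieldRange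
    have hU : ∀ σ : L ≃ₐ[ℚ] L, σ ∈ F.fixingSubgroup → σ ∈ fixN L N := by
      intro σ hσ x
      rw [IntermediateField.mem_fixingSubgroup_iff] at hσ
      exact hσ _ ⟨x, rfl⟩
    have hbF : (b : L) ∈ IntermediateField.fixedField F.fixingSubgroup := by
      rintro ⟨σ, hσ⟩
      have := hb ⟨σ, hU σ hσ⟩
      exact congrArg (fun z : 𝓞 L => (z : L)) this
    rw [IsGalois.fixedField_fixingSubgroup] at hbF
    obtain ⟨x, hx⟩ := hbF
    have hx' : algebraMap N L x = (b : L) := hx
    have hint : IsIntegral ℤ x := by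
      have hb' : IsIntegral ℤ (b : L) := b.2
      rw [← hx'] at hb'
      exact (isIntegral_algebraMap_iff (algebraMap N L).injective).1 hb'
    refine ⟨⟨x, hint⟩, RingOfIntegers.ext ?_⟩
    exact hx'

/-- **ℚ-form.**  `L ⊆ ℚ̄` finite Galois over `ℚ`, unramified outside `T`; `N` any number field with
an embedding into `L`.  A `ℚ`-automorphism of `N` acting trivially modulo a nonzero prime `P` of
`𝓞 N` which contains no prime of `T` is trivial. -/
theorem eq_one_of_forall_sub_mem (hT : L.IsUnramifiedOutside T) (P : Ideal (𝓞 N)) (hP : P.IsPrime)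
    (hP0 : P ≠ ⊥) (hPT : ∀ q ∈ T, ((q : ℕ) : 𝓞 N) ∉ P) (τ : N ≃ₐ[ℚ] N)
    (hτ : ∀ z : 𝓞 N, τ • z - z ∈ P) : τ = 1 := by
  have := hP
  have hinj : Function.Injective (algebraMap (𝓞 N) (𝓞 L)) :=
    RingOfIntegers.algebraMap.injective N L
  have : Algebra.IsIntegral (𝓞 N) (𝓞 L) :=
    Algebra.IsInvariant.isIntegral (𝓞 N) (𝓞 L) (fixN L N)
  obtain ⟨Q, -, hQprime, hQP⟩ := Ideal.exists_ideal_over_prime_of_isIntegral P
    (⊥ : Ideal (𝓞 L)) (by rw [Ideal.comap_bot_of_injective _ hinj]; exact bot_le)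
  have hQ0 : Q ≠ ⊥ := by
    rintro rfl
    rw [Ideal.comap_bot_of_injective _ hinj] at hQP
    exact hP0 hQP.symm
  have hQT : ∀ q ∈ T, ((q : ℕ) : 𝓞 L) ∉ Q := fun q hq h =>
    hPT q hq (by rw [← hQP, Ideal.mem_comap, map_natCast]; exact h)
  -- lift `τ` to `L`
  let v : L ≃ₐ[ℚ] L := τ.liftNormal L
  have hvN : ∀ x : N, v (algebraMap N L x) = algebraMap N L (τ x) :=
    fun x => AlgEquiv.liftNormal_commutes τ L x
  have hvsymm : ∀ x : N, v.symm (algebraMap N L x) = algebraMap N L (τ.symm x) := by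
    intro x
    rw [AlgEquiv.symm_apply_eq, hvN, AlgEquiv.apply_symm_apply]
  have hvU : ∀ u ∈ fixN L N, v⁻¹ * u * v ∈ fixN L N := by
    intro u hu x
    show v.symm (u (v (algebraMap N L x))) = _
    rw [hvN, hu, hvsymm, AlgEquiv.symm_apply_apply]
  have hvU' : ∀ u ∈ fixN L N, v * u * v⁻¹ ∈ fixN L N := by
    intro u hu x
    show v (u (v.symm (algebraMap N L x))) = _
    rw [hvsymm, hu, hvN, AlgEquiv.apply_symm_apply]
  have hv : ∀ a : 𝓞 N, v • algebraMap (𝓞 N) (𝓞 L) a - algebraMap (𝓞 N) (𝓞 L) a ∈ Q := by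
    intro a
    have h1 : v • algebraMap (𝓞 N) (𝓞 L) a - algebraMap (𝓞 N) (𝓞 L) a =
        algebraMap (𝓞 N) (𝓞 L) (τ • a - a) := by
      apply RingOfIntegers.ext
      show v (algebraMap N L (a : N)) - algebraMap N L (a : N) =
        algebraMap N L (τ (a : N) - (a : N))
      rw [hvN, map_sub]
    rw [h1, ← Ideal.mem_comap, hQP]
    exact hτ a
  obtain ⟨u, hu, huv⟩ :=
    exists_mul_forall_sub_mem (A := 𝓞 N) (fixN L N) Q v hvU hvU' hv
  have h1 := unram_top L T hT Q hQprime hQ0 hQT (u * v) huv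
  have hvmem : v ∈ fixN L N := by
    have : v = u⁻¹ := eq_inv_of_mul_eq_one_right h1
    rw [this]
    exact (fixN L N).inv_mem hu
  refine AlgEquiv.ext fun x => ?_
  apply (algebraMap N L).injective
  rw [← hvN, hvmem x]
  rfl

variable (K : Type*) [Field K] [NumberField K] [Algebra K N]

/-- **(LY-U), helper14's form.**  `K ⊆ N ⊆ L`, `L/ℚ` finite Galois unramified outside `T`: the
inertia groups of `Aut(N/K)` at the primes of `𝓞 N` not above `T` are trivial. -/
theorem hunr (hT : L.IsUnramifiedOutside T) :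
    ∀ P : Ideal (𝓞 N), P.IsPrime → P ≠ ⊥ → (∀ q ∈ T, ((q : ℕ) : 𝓞 N) ∉ P) →
      ∀ τ : N ≃ₐ[K] N, (∀ z : 𝓞 N, τ • z - z ∈ P) → τ = 1 := by
  intro P hP hP0 hPT τ hτ
  have h := eq_one_of_forall_sub_mem L T N hT P hP hP0 hPT (τ.restrictScalars ℚ) (fun z => hτ z)
  refine AlgEquiv.ext fun x => ?_
  exact DFunLike.congr_fun h x

open IsDedekindDomain in
/-- **(LY-U), the engine's `hunr` verbatim** (`GC/Kummer/Engine.lean`): `S` any finite set of primes of
`K` containing all primes above `T`. -/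
theorem hunr_engine (hT : L.IsUnramifiedOutside T) (S : Finset (HeightOneSpectrum (𝓞 K)))
    (hS : ∀ q ∈ T, ∀ v : HeightOneSpectrum (𝓞 K), ((q : ℕ) : 𝓞 K) ∈ v.asIdeal → v ∈ S) :
    ∀ P : Ideal (𝓞 N), P.IsPrime → P ≠ ⊥ → (∀ v ∈ S, P.under (𝓞 K) ≠ v.asIdeal) →
      ∀ τ : N ≃ₐ[K] N, (∀ z : 𝓞 N, τ • z - z ∈ P) → τ = 1 := by
  intro P hP hP0 hPS
  refine hunr L T N K hT P hP hP0 fun q hq hqP => ?_
  have := hP
  have hqK : ((q : ℕ) : 𝓞 K) ∈ P.under (𝓞 K) := by
    rw [Ideal.under_def, Ideal.mem_comap, map_natCast]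
    exact hqP
  have hne : P.under (𝓞 K) ≠ ⊥ := by
    intro h
    rw [h, Ideal.mem_bot] at hqK
    exact q.2.ne_zero (by exact_mod_cast hqK)
  let v : HeightOneSpectrum (𝓞 K) := ⟨P.under (𝓞 K), inferInstance, hne⟩
  exact hPS v (hS q hq v hqK) rfl

end Tower

end Fermat.Agent.GC.Global.Adapter.UnramBridge
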