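/-
GATE-C / C4 (LY-U) helper brick (helper85, for helper12's UnramBridge): the ABSTRACT TOWER LEMMA.
Number fields `K ⊆ N ⊆ L`, `L/K` and `N/K` Galois, `P` a prime of `𝓞 N`.  If for every prime `Q` of
`𝓞 L` above `P` the inertia group of `Q` in `Gal(L/K)` is trivial, then the inertia group of `P` in
`Gal(N/K)` is trivial.  (Inertia groups surject under restriction: lift `τ`, move the prime back by
`Gal(L/N)`, correct by the decomposition group of `Q` over `N` using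
`Ideal.Quotient.stabilizerHom_surjective`.)  Mathlib only.
-/
import Mathlib

set_option autoImplicit false
set_option linter.style.haveILetI false

open NumberField
open scoped Pointwise

namespace Fermat.Agent.GC.Global.Adapter.UnramTower

variable {K N L : Type*} [Field K] [Field N] [Field L] [NumberField K] [NumberField N]
  [NumberField L] [Algebra K N] [Algebra N L] [Algebra K L] [IsScalarTower K N L]

omit [NumberField K] [NumberField N] [NumberField L] in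
/-- The action of `s|_N` on `𝓞 N` is the restriction of the action of `s` on `𝓞 L`. -/
lemma algebraMap_restrictNormal_smul [Normal K N] (s : L ≃ₐ[K] L) (x : 𝓞 N) :
    algebraMap (𝓞 N) (𝓞 L) (s.restrictNormal N • x) = s • algebraMap (𝓞 N) (𝓞 L) x := by
  apply RingOfIntegers.coe_injective
  show algebraMap N L ((s.restrictNormal N) (x : N)) = s (algebraMap N L (x : N))
  exact AlgEquiv.restrictNormal_commutes s N (x : N)

omit [NumberField K] [NumberField N] [NumberField L] in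
/-- An `N`-automorphism of `L`, seen as a `K`-automorphism, acts on `𝓞 L` in the same way. -/
lemma restrictScalars_smul (ρ : L ≃ₐ[N] L) (z : 𝓞 L) :
    (ρ.restrictScalars K) • z = ρ • z := rfl

omit [NumberField K] [NumberField N] [NumberField L] in
/-- An `N`-automorphism of `L`, seen as a `K`-automorphism, restricts to the identity of `N`. -/
lemma restrictNormal_restrictScalars [Normal K N] (ρ : L ≃ₐ[N] L) :
    (ρ.restrictScalars K).restrictNormal N = 1 := by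
  ext x
  apply (algebraMap N L).injective
  rw [AlgEquiv.restrictNormal_commutes]
  simp

omit [NumberField K] [NumberField N] [NumberField L] in
/-- the same for the pointwise action on ideals -/
lemma restrictScalars_smul_ideal (ρ : L ≃ₐ[N] L) (Q : Ideal (𝓞 L)) :
    (ρ.restrictScalars K) • Q = ρ • Q := by
  ext z
  rw [Ideal.mem_pointwise_smul_iff_inv_smul_mem, Ideal.mem_pointwise_smul_iff_inv_smul_mem]
  rfl

/-- **Tower lemma**: trivial inertia at all primes of `L` above `P` (in `Gal(L/K)`) implies trivial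
inertia at `P` (in `Gal(N/K)`). -/
theorem inertia_trivial_of_tower [IsGalois K L] [IsGalois K N] (P : Ideal (𝓞 N)) [P.IsPrime]
    (hL : ∀ Q : Ideal (𝓞 L), Q.IsPrime → Q.under (𝓞 N) = P →
      ∀ σ : L ≃ₐ[K] L, (∀ z : 𝓞 L, σ • z - z ∈ Q) → σ = 1)
    (τ : N ≃ₐ[K] N) (hτ : ∀ z : 𝓞 N, τ • z - z ∈ P) : τ = 1 := by
  classical
  haveI : IsGalois N L := IsGalois.tower_top_of_isGalois K N L
  -- a prime above `P`
  obtain ⟨Q, -, hQp, hQu⟩ := Ideal.exists_ideal_over_prime_of_isIntegral P (⊥ : Ideal (𝓞 L)) (by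
    rw [Ideal.comap_bot_of_injective _ (FaithfulSMul.algebraMap_injective (𝓞 N) (𝓞 L))]
    exact bot_le)
  haveI := hQp
  have hQu' : Q.under (𝓞 N) = P := hQu
  -- lift `τ`
  obtain ⟨σ₀, hσ₀⟩ := AlgEquiv.restrictNormalHom_surjective (F := K) (K₁ := N) L τ
  have hσ₀inv : (σ₀⁻¹).restrictNormal N = τ⁻¹ := by
    have := map_inv (AlgEquiv.restrictNormalHom (F := K) (K₁ := L) N) σ₀
    rw [hσ₀] at this
    exact this
  -- `P` is `τ`-stable
  have hPτ : ∀ x : 𝓞 N, τ • x ∈ P ↔ x ∈ P := fun x => by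
    constructor
    · intro h
      have := P.sub_mem h (hτ x)
      simpa using this
    · intro h
      have := P.add_mem (hτ x) h
      simpa using this
  have hQ₁u : (σ₀ • Q).under (𝓞 N) = Q.under (𝓞 N) := by
    rw [hQu']
    ext x
    rw [Ideal.under_def, Ideal.mem_comap, Ideal.mem_pointwise_smul_iff_inv_smul_mem,
      ← algebraMap_restrictNormal_smul, hσ₀inv, ← Ideal.mem_comap, ← Ideal.under_def, hQu',
      ← hPτ (τ⁻¹ • x), smul_inv_smul]
  -- move `σ₀ • Q` back to `Q` by an element of `Gal(L/N)`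
  haveI : (σ₀ • Q).IsPrime := hQp.smul σ₀
  obtain ⟨ρ, hρ⟩ := Algebra.IsInvariant.exists_smul_of_under_eq (𝓞 N) (𝓞 L) (L ≃ₐ[N] L)
    (σ₀ • Q) Q hQ₁u
  set σ₁ : L ≃ₐ[K] L := (ρ.restrictScalars K) * σ₀ with hσ₁
  have hσ₁Q : σ₁ • Q = Q := by
    rw [hσ₁, mul_smul, restrictScalars_smul_ideal, ← hρ]
  have hσ₁N : σ₁.restrictNormal N = τ := by
    have := map_mul (AlgEquiv.restrictNormalHom (F := K) (K₁ := L) N) (ρ.restrictScalars K) σ₀
    rw [hσ₀] at this
    change σ₁.restrictNormal N = (ρ.restrictScalars K).restrictNormal N * τ at this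
    rw [this, restrictNormal_restrictScalars, one_mul]
  -- the automorphism of `𝓞 L ⧸ Q` induced by `σ₁` is `𝓞 N ⧸ P`-linear
  haveI : Q.LiesOver P := ⟨hQu'.symm⟩
  let g₁ : MulAction.stabilizer (L ≃ₐ[K] L) Q := ⟨σ₁, hσ₁Q⟩
  let e₁ := Ideal.Quotient.stabilizerHom Q (Q.under (𝓞 K)) (L ≃ₐ[K] L) g₁
  have he₁ : ∀ b : 𝓞 L, e₁ (Ideal.Quotient.mk Q b) = Ideal.Quotient.mk Q (σ₁ • b) := fun b => rfl
  let f : (𝓞 L ⧸ Q) ≃ₐ[𝓞 N ⧸ P] (𝓞 L ⧸ Q) := AlgEquiv.ofRingEquiv (f := e₁.toRingEquiv) (by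
    intro x
    obtain ⟨x, rfl⟩ := Ideal.Quotient.mk_surjective x
    rw [Ideal.Quotient.algebraMap_mk_of_liesOver]
    change e₁ (Ideal.Quotient.mk Q (algebraMap (𝓞 N) (𝓞 L) x)) = _
    rw [he₁, Ideal.Quotient.eq, ← algebraMap_restrictNormal_smul, hσ₁N, ← map_sub,
      ← Ideal.mem_comap, ← Ideal.under_def, hQu']
    exact hτ x)
  obtain ⟨ρ', hρ'⟩ := Ideal.Quotient.stabilizerHom_surjective (L ≃ₐ[N] L) P Q f
  have hρ'b : ∀ b : 𝓞 L, σ₁ • b - (ρ' : L ≃ₐ[N] L) • b ∈ Q := by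
    intro b
    have h1 := congrArg (fun e => e (Ideal.Quotient.mk Q b)) hρ'
    change Ideal.Quotient.mk Q ((ρ' : L ≃ₐ[N] L) • b) = Ideal.Quotient.mk Q (σ₁ • b) at h1
    rw [← Ideal.Quotient.eq, h1]
  -- correct `σ₁` by `ρ'⁻¹`
  set σ : L ≃ₐ[K] L := (((ρ' : L ≃ₐ[N] L)⁻¹).restrictScalars K) * σ₁ with hσ
  have hρ'Q : ((ρ' : L ≃ₐ[N] L)⁻¹) • Q = Q := by
    have h1 : (ρ' : L ≃ₐ[N] L) • Q = Q := ρ'.2
    rw [inv_smul_eq_iff, h1]
  have hσz : ∀ z : 𝓞 L, σ • z - z ∈ Q := by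
    intro z
    have h1 : σ • z - z = ((ρ' : L ≃ₐ[N] L)⁻¹) • (σ₁ • z - (ρ' : L ≃ₐ[N] L) • z) := by
      rw [hσ, mul_smul, restrictScalars_smul, smul_sub, inv_smul_smul]
    rw [h1]
    have h2 := Ideal.smul_mem_pointwise_smul ((ρ' : L ≃ₐ[N] L)⁻¹) _ Q (hρ'b z)
    rwa [hρ'Q] at h2
  have hσ1 : σ = 1 := hL Q hQp hQu' σ hσz
  have hσN : σ.restrictNormal N = τ := by
    have := map_mul (AlgEquiv.restrictNormalHom (F := K) (K₁ := L) N)
      (((ρ' : L ≃ₐ[N] L)⁻¹).restrictScalars K) σ₁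
    change σ.restrictNormal N =
      (((ρ' : L ≃ₐ[N] L)⁻¹).restrictScalars K).restrictNormal N * σ₁.restrictNormal N at this
    rw [this, restrictNormal_restrictScalars, one_mul, hσ₁N]
  rw [← hσN, hσ1]
  exact map_one (AlgEquiv.restrictNormalHom (F := K) (K₁ := L) N)

/-- The same in `Ideal.inertia` form. -/
theorem inertia_eq_bot_of_tower [IsGalois K L] [IsGalois K N] (P : Ideal (𝓞 N)) [P.IsPrime]
    (hL : ∀ Q : Ideal (𝓞 L), Q.IsPrime → Q.under (𝓞 N) = P → Q.inertia (L ≃ₐ[K] L) = ⊥) :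
    P.inertia (N ≃ₐ[K] N) = ⊥ := by
  rw [eq_bot_iff]
  intro τ hτ
  rw [Subgroup.mem_bot]
  refine inertia_trivial_of_tower (L := L) P (fun Q hQ hQP σ hσ => ?_) τ
    (fun z => AddSubgroup.mem_inertia.mp hτ z)
  have : σ ∈ Q.inertia (L ≃ₐ[K] L) := AddSubgroup.mem_inertia.mpr hσ
  rw [hL Q hQ hQP, Subgroup.mem_bot] at this
  exact this

end Fermat.Agent.GC.Global.Adapter.UnramTower
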