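/-
GATE-C / C4 leaf UNRAM-VANISH (helper52): the `q`-components of global unit classes vanish at the
unramified primes outside `S`.

* `Oq L q := coind_{D_q} (O_{L_q}^×)`, `OqToJq : Oq L q ⟶ Jq q L`, `isZero_res_Oq`;
* `factorOq` : a morphism `f : A ⟶ Jq q L` whose values are `q`-adic units factors through `Oq`;
* `res_map_eq_zero_of_unit_values` : such an `f` induces `0` on `H^{n+1}(H, ·)` for every `H ≤ G_L`
  (when `L` is unramified at `q`);
* `norm_le_one_of_isTIntegral`, `diagq_tUnits_mem` : `S`-units are `q`-adic units for `q ∉ S`;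
* `EStoJq L S q : E L S ⟶ Jq q L`, `res_EStoJq_eq_zero`;
* `EStoJ L S T : E L S ⟶ J L T`, `res_EStoJ_proj_eq_zero` : the `q`-component (`q ∈ T ∖ S`) of the
  image of `H^{n+1}(H, E(L,S))` in `H^{n+1}(H, J(L,T))` vanishes.
-/
import Mathlib
import Fermat.Agent.GC.Global.Adapter.UnramLocal

set_option autoImplicit false
set_option linter.unusedSectionVars false

open scoped Padic NumberField
open CategoryTheory Limits

noncomputable section

namespace Fermat.Agent.GC.Global.LMU

open Fermat.Agent.GC.Global Fermat.Agent.GC.Local Fermat.Agent.GC.Local.Unram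
open Fermat.Agent.GC.Global.CohTriv

section Generic

open Fermat.Agent.GC.Global.Mackey

variable {k G D : Type} [CommRing k] [Group G] [Group D] (φ : D →* G)
  (hφ : Function.Injective φ) (B : Rep.{0} k D)
  (W : Submodule k B.V) (hW : ∀ d, W ≤ W.comap (B.ρ d))

/-- `coind_φ W ⟶ coind_φ B` for a subrepresentation `W ≤ B`. -/
def coindSubIncl : Rep.coind φ (Rep.subrepresentation B W hW) ⟶ Rep.coind φ B :=
  Rep.coindMap φ (Rep.subtype B W hW)

variable {A : Rep.{0} k G} (f : A ⟶ Rep.coind φ B)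
  (hf : ∀ (a : A) (g : G), (f.hom a).1 g ∈ W)

/-- The underlying function of the factorisation through `coind_φ W`. -/
def factorFun (a : A) : G → (Rep.subrepresentation B W hW).V :=
  fun g => (⟨(f.hom a).1 g, hf a g⟩ : W)

theorem factorFun_mem (a : A) :
    factorFun φ B W hW f hf a ∈
      Representation.coindV φ (Rep.subrepresentation B W hW).ρ := by
  intro d g
  apply Subtype.ext
  exact (f.hom a).2 d g

/-- A morphism into `coind_φ B` with values in `W` factors through `coind_φ W`. -/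
def factorCoind : A ⟶ Rep.coind φ (Rep.subrepresentation B W hW) :=
  Rep.ofHom
    { toLinearMap :=
        { toFun := fun a => ⟨factorFun φ B W hW f hf a, factorFun_mem φ B W hW f hf a⟩
          map_add' := fun a b => by
            apply Subtype.ext
            funext g
            apply Subtype.ext
            show (f.hom (a + b)).1 g = (f.hom a).1 g + (f.hom b).1 g
            rw [map_add]
            rfl
          map_smul' := fun c a => by
            apply Subtype.ext
            funext g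
            apply Subtype.ext
            show (f.hom (c • a)).1 g = c • (f.hom a).1 g
            rw [map_smul]
            rfl }
      isIntertwining' := fun g => by
        ext a g'
        show (f.hom (A.ρ g a)).1 g' = (f.hom a).1 (g' * g)
        have h2 : f.hom (A.ρ g a) = (Rep.coind φ B).ρ g (f.hom a) :=
          congrArg (fun ψ => ψ a) (f.hom.isIntertwining' g)
        rw [h2]
        rfl }

theorem factorCoind_comp : factorCoind φ B W hW f hf ≫ coindSubIncl φ B W hW = f := by
  ext a g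
  rfl

include hφ in
/-- If `W` is cohomologically trivial, a morphism into `coind_φ B` with values in `W` induces `0`
on `H^{n+1}(H, ·)` for every subgroup `H`. -/
theorem res_map_eq_zero_of_values_mem
    (hc : CohTriv (Rep.subrepresentation B W hW)) {A : Rep.{0} k G} (f : A ⟶ Rep.coind φ B)
    (hf : ∀ (a : A) (g : G), (f.hom a).1 g ∈ W) (H : Subgroup G) [Finite (DC φ H)] (n : ℕ) :
    groupCohomology.map (A := Rep.res H.subtype A) (B := Rep.res H.subtype (Rep.coind φ B))
      (MonoidHom.id H) ((Rep.resFunctor (k := k) H.subtype).map f) (n + 1) = 0 := by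
  have h1 : (Rep.resFunctor (k := k) H.subtype).map f =
      (Rep.resFunctor (k := k) H.subtype).map (factorCoind φ B W hW f hf) ≫
        (Rep.resFunctor (k := k) H.subtype).map (coindSubIncl φ B W hW) := by
    rw [← Functor.map_comp, factorCoind_comp]
  rw [h1]
  have h2 := groupCohomology.map_id_comp
    ((Rep.resFunctor (k := k) H.subtype).map (factorCoind φ B W hW f hf))
    ((Rep.resFunctor (k := k) H.subtype).map (coindSubIncl φ B W hW)) (n + 1)
  rw [h2]
  have hz : groupCohomology.map (A := Rep.res H.subtype A)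
      (B := Rep.res H.subtype (Rep.coind φ (Rep.subrepresentation B W hW)))
      (MonoidHom.id H)
      ((Rep.resFunctor (k := k) H.subtype).map (factorCoind φ B W hW f hf)) (n + 1) = 0 :=
    (isZero_res_coind φ hφ H _ hc n).eq_of_tgt _ _
  rw [hz, zero_comp]

end Generic

variable (L : IntermediateField ℚ Qb) [FiniteDimensional ℚ L] [IsGalois ℚ L] (q : Nat.Primes)

/-- `O_{L_q}^×` as a `Gal(L_q/ℚ_q)`-module. -/
abbrev locIntUnits : Rep ℤ (locField (q : ℕ) L ≃ₐ[ℚ_[(q : ℕ)]] locField (q : ℕ) L) :=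
  intUnitsRep (locO L q) (locO_galStable L q)

/-- The inclusion `O_{L_q}^× ⟶ L_qˣ`. -/
def locIntUnitsIncl : locIntUnits L q ⟶ locUnits (q : ℕ) L :=
  Rep.subtype (locUnits (q : ℕ) L) (intUnitsSub (locO L q))
    (intUnitsSub_le_comap (locO L q) (locO_galStable L q))

/-- `coind_{D_q} (O_{L_q}^×)`: the integral `q`-ideles of `L`. -/
def Oq : Rep ℤ (L ≃ₐ[ℚ] L) := Rep.coind (decHom (q : ℕ) L) (locIntUnits L q)

/-- The inclusion of the integral `q`-ideles into the `q`-ideles. -/
def OqToJq : Oq L q ⟶ Jq (q : ℕ) L := Rep.coindMap (decHom (q : ℕ) L) (locIntUnitsIncl L q)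

theorem cohTriv_locIntUnits (hun : IsUnramAt L q) : CohTriv (locIntUnits L q) :=
  fun D' n => isZero_groupCohomology_res_intUnitsRep (locO L q) (locO_galStable L q) hun D' n

/-- `H^{n+1}(H, coind_{D_q} O_{L_q}^×) = 0` for every `H ≤ G_L`, `L` unramified at `q`. -/
theorem isZero_res_Oq (hun : IsUnramAt L q) (H : Subgroup (L ≃ₐ[ℚ] L)) (n : ℕ) :
    IsZero (groupCohomology (Rep.res H.subtype (Oq L q)) (n + 1)) :=
  isZero_res_coind (decHom (q : ℕ) L) (decHom_injective _ L) H (locIntUnits L q)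
    (cohTriv_locIntUnits L q hun) n

/-- The value at `g` of an element of `Jq`, as an element of `Additive L_qˣ`. -/
def JqVal (y : Jq (q : ℕ) L) (g : L ≃ₐ[ℚ] L) : Additive (locField (q : ℕ) L)ˣ := y.1 g

/-- **Vanishing**: a morphism `f : A ⟶ Jq q L` all of whose values are `q`-adic units induces the
zero map on `H^{n+1}(H, ·)` for every subgroup `H ≤ G_L`, if `L` is unramified at `q`. -/
theorem res_map_eq_zero_of_unit_values (hun : IsUnramAt L q)
    {A : Rep.{0} ℤ (L ≃ₐ[ℚ] L)} (f : A ⟶ Jq (q : ℕ) L)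
    (hf : ∀ (a : A) (g : L ≃ₐ[ℚ] L), JqVal L q (f.hom a) g ∈ intUnitsSub (locO L q))
    (H : Subgroup (L ≃ₐ[ℚ] L)) (n : ℕ) :
    groupCohomology.map (A := Rep.res H.subtype A) (B := Rep.res H.subtype (Jq (q : ℕ) L))
      (MonoidHom.id H) ((Rep.resFunctor (k := ℤ) H.subtype).map f) (n + 1) = 0 :=
  res_map_eq_zero_of_values_mem (decHom (q : ℕ) L) (decHom_injective _ L) (locUnits (q : ℕ) L)
    (intUnitsSub (locO L q)) (intUnitsSub_le_comap (locO L q) (locO_galStable L q))
    (cohTriv_locIntUnits L q hun) f hf H n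

/-! ### `S`-units are `q`-adic units for `q ∉ S` -/

variable (S T : Finset Nat.Primes)

/-- `‖ι (∏ S)‖ = 1` for `q ∉ S`. -/
theorem norm_iotaL_Tprod (hq : q ∉ S) : ‖iotaL L q ((Tprod S : ℕ) : L)‖ = 1 := by
  have hcop : (q : ℕ).Coprime (Tprod S) := by
    unfold Tprod
    refine Nat.Coprime.prod_right fun q' hq' => ?_
    have hne : (q : ℕ) ≠ (q' : ℕ) := fun h => hq (by rw [Subtype.ext h]; exact hq')
    exact (Nat.coprime_primes q.2 q'.2).2 hne
  have h1 : ‖((Tprod S : ℕ) : ℚ_[(q : ℕ)])‖ = 1 := Padic.norm_natCast_eq_one_iff.2 hcop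
  have h2 : iotaL L q ((Tprod S : ℕ) : L) = (((Tprod S : ℕ) : ℚ_[(q : ℕ)]) : PadicAlgCl (q : ℕ)) := by
    simp
  rw [h2, PadicAlgCl.norm_extends, h1]

/-- An `S`-integral element of `L` has `q`-adic norm `≤ 1` for `q ∉ S`. -/
theorem norm_le_one_of_isTIntegral (hq : q ∉ S) {y : L} (hy : IsTIntegral L S y) :
    ‖iotaL L q y‖ ≤ 1 := by
  obtain ⟨n, hn⟩ := hy
  have h1 : ‖iotaL L q (((Tprod S : ℕ) : L) ^ n * y)‖ ≤ 1 :=
    Adapter.norm_le_one_of_isIntegral (q : ℕ) (map_isIntegral_int (iotaL L q) hn)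
  rwa [map_mul, map_pow, norm_mul, norm_pow, norm_iotaL_Tprod L q S hq, one_pow, one_mul] at h1

/-- The value at `g` of the diagonal image of an `S`-unit is a `q`-adic unit (`q ∉ S`). -/
theorem diagqFun_tUnits_mem (hq : q ∉ S) {x : Lˣ} (hx : x ∈ tUnits L S) (g : L ≃ₐ[ℚ] L) :
    diagqFun (q : ℕ) L x g ∈ intUnitsSub (locO L q) := by
  have hgx := map_mem_tUnits L S hx g
  rw [mem_intUnitsSub, mem_unitGroup_iff_mem]
  constructor
  · rw [mem_locO_iff]
    exact norm_le_one_of_isTIntegral L q S hq hgx.1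
  · rw [mem_locO_iff]
    have h := norm_le_one_of_isTIntegral L q S hq hgx.2
    have e : ((((Additive.toMul (diagqFun (q : ℕ) L x g))⁻¹ : (locField (q : ℕ) L)ˣ) :
        locField (q : ℕ) L) : PadicAlgCl (q : ℕ)) =
        iotaL L q (((Units.map (g : L →* L) x)⁻¹ : Lˣ) : L) := by
      rw [Units.val_inv_eq_inv_val, Units.val_inv_eq_inv_val, map_inv₀]
      rfl
    rw [e]
    exact h

/-- The diagonal embedding of the `S`-units into the `q`-ideles. -/
def EStoJq : E L S ⟶ Jq (q : ℕ) L :=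
  Rep.subtype (globUnits L) (tUnitsSub L S) (tUnitsSub_le_comap L S) ≫ diagq (q : ℕ) L

theorem EStoJq_unit_values (hq : q ∉ S) (a : E L S) (g : L ≃ₐ[ℚ] L) :
    JqVal L q ((EStoJq L q S).hom a) g ∈ intUnitsSub (locO L q) :=
  diagqFun_tUnits_mem L q S hq a.2 g

/-- **UNRAM-VANISH**, `q`-ideles form: for `q ∉ S` with `L` unramified at `q`, the map
`H^{n+1}(H, E(L,S)) → H^{n+1}(H, Jq)` is zero, for every `H ≤ G_L`. -/
theorem res_EStoJq_eq_zero (hun : IsUnramAt L q) (hq : q ∉ S) (H : Subgroup (L ≃ₐ[ℚ] L))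
    (n : ℕ) :
    groupCohomology.map (A := Rep.res H.subtype (E L S))
      (B := Rep.res H.subtype (Jq (q : ℕ) L))
      (MonoidHom.id H) ((Rep.resFunctor (k := ℤ) H.subtype).map (EStoJq L q S)) (n + 1) = 0 :=
  res_map_eq_zero_of_unit_values L q hun (EStoJq L q S) (EStoJq_unit_values L q S hq) H n

/-- The same for any morphism `A ⟶ E(L,S)` (e.g. the inclusion of `μ_p(L)`). -/
theorem res_comp_EStoJq_eq_zero (hun : IsUnramAt L q) (hq : q ∉ S)
    {A : Rep.{0} ℤ (L ≃ₐ[ℚ] L)} (j : A ⟶ E L S) (H : Subgroup (L ≃ₐ[ℚ] L)) (n : ℕ) :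
    groupCohomology.map (A := Rep.res H.subtype A)
      (B := Rep.res H.subtype (Jq (q : ℕ) L))
      (MonoidHom.id H) ((Rep.resFunctor (k := ℤ) H.subtype).map (j ≫ EStoJq L q S)) (n + 1) = 0 :=
  res_map_eq_zero_of_unit_values L q hun (j ≫ EStoJq L q S)
    (fun a g => EStoJq_unit_values L q S hq (j.hom a) g) H n

/-- The diagonal embedding of the `S`-units into the `T`-ideles. -/
def EStoJ : E L S ⟶ J L T :=
  Rep.subtype (globUnits L) (tUnitsSub L S) (tUnitsSub_le_comap L S) ≫ diag L T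

/-- **UNRAM-VANISH**, `T`-ideles form: the `q`-component (`q ∈ T ∖ S`, `L` unramified at `q`) of
the image of `H^{n+1}(H, E(L,S))` in `H^{n+1}(H, J(L,T))` vanishes. -/
theorem res_EStoJ_proj_eq_zero (qT : T) (hun : IsUnramAt L qT) (hq : (qT : Nat.Primes) ∉ S)
    (H : Subgroup (L ≃ₐ[ℚ] L)) (n : ℕ) :
    groupCohomology.map (A := Rep.res H.subtype (E L S))
      (B := Rep.res H.subtype (Rep.of (JqRep L qT)))
      (MonoidHom.id H)
      ((Rep.resFunctor (k := ℤ) H.subtype).map (EStoJ L S T ≫ Jproj L T qT)) (n + 1) = 0 :=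
  res_EStoJq_eq_zero L qT S hun hq H n

/-- The same with the PRELUDE predicate: `L` unramified outside `S`. -/
theorem res_EStoJ_proj_eq_zero_of_isUnramifiedOutside (hS : L.IsUnramifiedOutside S) (qT : T)
    (hq : (qT : Nat.Primes) ∉ S) (H : Subgroup (L ≃ₐ[ℚ] L)) (n : ℕ) :
    groupCohomology.map (A := Rep.res H.subtype (E L S))
      (B := Rep.res H.subtype (Rep.of (JqRep L qT)))
      (MonoidHom.id H)
      ((Rep.resFunctor (k := ℤ) H.subtype).map (EStoJ L S T ≫ Jproj L T qT)) (n + 1) = 0 :=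
  res_EStoJ_proj_eq_zero L S T qT (isUnramAt_of_isUnramifiedOutside L qT hS hq) hq H n

end Fermat.Agent.GC.Global.LMU
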