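/-
GATE-C / C4 LAYER helper lemma (helper97): a `p`-subgroup of a group of field automorphisms fixes
every primitive `p`-th root of unity (its image under the cyclotomic character is a `p`-group inside
`(ZMod p)ˣ`, of order `p - 1`).  So `ζ_p ∈ L^V` is AUTOMATIC for the `p`-subgroups `V` of
`LayerHypP`.
-/
import Mathlib

set_option autoImplicit false

namespace Fermat.Agent.GC.Global.Adapter.ZetaFixed

/-- An element of `(ZMod p)ˣ` of `p`-power order is trivial. -/
theorem units_eq_one_of_pow_prime_pow {p : ℕ} [Fact p.Prime] (a : (ZMod p)ˣ) (k : ℕ)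
    (h : a ^ p ^ k = 1) : a = 1 := by
  have hp : p.Prime := Fact.out
  have h1 : orderOf a ∣ p ^ k := orderOf_dvd_of_pow_eq_one h
  have h2 : orderOf a ∣ p - 1 := orderOf_dvd_of_pow_eq_one (ZMod.units_pow_card_sub_one_eq_one p a)
  have hcop : Nat.Coprime (p ^ k) (p - 1) := by
    apply Nat.Coprime.pow_left
    rw [Nat.coprime_self_sub_right hp.one_le]
    exact Nat.coprime_one_right p
  have h3 : orderOf a ∣ 1 := by
    have := Nat.dvd_gcd h1 h2
    rwa [hcop] at this
  exact orderOf_eq_one_iff.1 (Nat.dvd_one.1 h3)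

variable {F L : Type*} [Field F] [Field L] [Algebra F L]

/-- **A `p`-group of automorphisms fixes `ζ_p`.** -/
theorem apply_eq_self_of_isPGroup {p : ℕ} [Fact p.Prime] {ζ : L} (hζ : IsPrimitiveRoot ζ p)
    (V : Subgroup (L ≃ₐ[F] L)) (hV : IsPGroup p V) (h : L ≃ₐ[F] L) (hh : h ∈ V) : h ζ = ζ := by
  have hp : p.Prime := Fact.out
  have : NeZero p := ⟨hp.ne_zero⟩
  obtain ⟨k, hk⟩ := hV ⟨h, hh⟩
  have hk' : h ^ p ^ k = 1 := by
    have := congrArg Subtype.val hk
    simpa using this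
  have hχ : (hζ.autToPow F h) ^ p ^ k = 1 := by
    rw [← map_pow, hk', map_one]
  have h1 : hζ.autToPow F h = 1 := units_eq_one_of_pow_prime_pow _ k hχ
  have hspec := hζ.autToPow_spec F h
  rw [h1, Units.val_one, ZMod.val_one, pow_one] at hspec
  exact hspec.symm

/-- The same for a subgroup given with its elements: `∀ h ∈ V, h ζ = ζ`. -/
theorem forall_apply_eq_self_of_isPGroup {p : ℕ} [Fact p.Prime] {ζ : L}
    (hζ : IsPrimitiveRoot ζ p) (V : Subgroup (L ≃ₐ[F] L)) (hV : IsPGroup p V) :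
    ∀ h ∈ V, h ζ = ζ :=
  fun h hh => apply_eq_self_of_isPGroup hζ V hV h hh

/-- `ζ_p` lies in the fixed field of a `p`-subgroup. -/
theorem mem_fixedField_of_isPGroup {p : ℕ} [Fact p.Prime] {ζ : L} (hζ : IsPrimitiveRoot ζ p)
    (V : Subgroup (L ≃ₐ[F] L)) (hV : IsPGroup p V) : ζ ∈ IntermediateField.fixedField V :=
  (IntermediateField.mem_fixedField_iff V ζ).2 fun h hh => apply_eq_self_of_isPGroup hζ V hV h hh

end Fermat.Agent.GC.Global.Adapter.ZetaFixed
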